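/-
S19, Čech route, leaf [BASE] (field map v2.1 of [INST], helper29): **the base level `K₀ = K0 A`.**

Everything `CoordFamily.levelCoordSystem` wants from the base level:

* `O₁ A = baseRing A (K0 A) = A ∩ K₀` (unramified: `ℓ` is a uniformiser), `Ap/Am/A0 A N` the three
  charts `Rfin/Rinf/Rmid (Lvl (K0 A)) N (O₁)`, `ip₁/im₁ A N = inclFin/inclInf`;
* `dvr_K0`, `levelPack_K0`, `irreducible_ell` : `O₁` is a discrete valuation ring with `LevelPack`;
* `ι₁ A = BaseQuotLevel.ιK A (K0 A) : O₁ →+* ℚ̄` with `isUnr_ι₁ : IsUnr A (ι₁ A c)` and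
  `ιK_inclK_K0` (`hι` of `levelCoordSystem` for `j := inclK (K0_le …)`);
* `Frame A N` : a number `g`, basis lifts `ε : Fin g → A0` of `H¹ = A0 ⧸ (A₊ + A₋)` over `O₁` (with the
  basis `b`, `hb`) and `hH : HypAll ip₁ im₁ ε`;
* `nonempty_frame_of` : a `Frame` exists as soon as the base level has `FibreConst` (Q1 at `K₀`),
  `ℓ` is not a unit of `Rmid`, and `H⁰ = O₁` (the three facts (F1)–(F3) of `Cech/LevelFibreConst`).
-/
import Mathlib
import Fermat.Agent.S19.Coord.Defs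
import Fermat.Agent.S19.Cech.HypAllOfBasis
import Fermat.Agent.S19.Cech.LevelBasis
import Fermat.Agent.S19.Cech.BaseQuotLevel
import Fermat.Agent.P3G.GammaBase

set_option autoImplicit false
set_option linter.unusedSectionVars false
set_option linter.style.haveILetI false

open ModularCurve AlgebraicCurve

noncomputable section

namespace Fermat.Agent.S19.Geo.BaseLevel

open Fermat.Agent.S19.Abs Fermat.Agent.S19.Coord Fermat.Agent.S19.Cech
open Fermat.Agent.N4.FormalFunctions Fermat.Agent.S19.Cech.TorsionFree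
open Fermat.Agent.N4.Chart Fermat.Agent.N4.Setting Fermat.Agent.N4.BaseDescent
open Fermat.Agent.N4F.C hiding Qb
open Fermat.Agent.N4F.C.Levels Fermat.Agent.N4F.C.LevelCharts
  Fermat.Agent.N4F.C.ChartFactsProof Fermat.Agent.P3G.Gamma Fermat.Agent.P3G.GammaBase
  Fermat.Agent.S19.Cech.LevelBasis Fermat.Agent.S19.Cech.BaseQuotLevel

variable (A : ValuationSubring Qb) (N : ℕ) [NeZero N]

/-! ### The rings of the base level -/

/-- The base ring `O₁ = A ∩ K₀`. -/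
abbrev O₁ : Type := ↥(baseRing A (K0 A))

/-- The finite chart of the base level. -/
abbrev Ap : Type := ↥(Rfin (Lvl (K0 A)) N (baseRing A (K0 A)))

/-- The chart at infinity of the base level. -/
abbrev Am : Type := ↥(Rinf (Lvl (K0 A)) N (baseRing A (K0 A)))

/-- The overlap chart of the base level. -/
abbrev A0 : Type := ↥(Rmid (Lvl (K0 A)) N (baseRing A (K0 A)))

/-- `A₊ → A₀`. -/
abbrev ip₁ : Ap A N →ₐ[O₁ A] A0 A N := inclFin (Lvl (K0 A)) N (baseRing A (K0 A))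

/-- `A₋ → A₀`. -/
abbrev im₁ : Am A N →ₐ[O₁ A] A0 A N := inclInf (Lvl (K0 A)) N (baseRing A (K0 A))

/-- `H¹` of the base level. -/
abbrev H1 : Type := A0 A N ⧸ chartSum (ip₁ A N) (im₁ A N)

/-- The inclusion `O₁ → ℚ̄`. -/
def ι₁ : O₁ A →+* Qb := ιK A (K0 A)

@[simp] theorem ι₁_apply (c : O₁ A) : ι₁ A c = algebraMap (Lvl (K0 A)) Qb (c : Lvl (K0 A)) := rfl

theorem ι₁_injective : Function.Injective (ι₁ A) := ιK_injective A (K0 A)

theorem ι₁_mem (c : O₁ A) : ι₁ A c ∈ A := ιK_mem A (K0 A) c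

/-- `hι` of `CoordFamily.levelCoordSystem` for `j := inclK (K0_le_bigLevel …)` (or any `K0 A ≤ L`). -/
theorem ιK_inclK_K0 {L : IntermediateField ℚ Qb} (hL : K0 A ≤ L) (c : O₁ A) :
    ιK A L (inclK (A := A) hL c) = ι₁ A c := rfl

variable {A N} {ℓ : ℕ}

/-- **The base level is unramified**: the elements of `O₁` are fixed by the inertia group. -/
theorem isUnr_ι₁ (hℓ : ℓ.Prime) (hA : A.LiesOverPrime ℓ) (c : O₁ A) : IsUnr A (ι₁ A c) :=
  ⟨ι₁_mem A c, fun _ hσ => apply_eq_of_mem_K0 hℓ hA hσ (c : Lvl (K0 A)).2⟩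

/-! ### `O₁` is a discrete valuation ring with uniformiser `ℓ`, and a good level -/

theorem dvr_K0 (hℓ : ℓ.Prime) (hA : A.LiesOverPrime ℓ) :
    IsDiscreteValuationRing (O₁ A) := (K0_spec hℓ hA).1

theorem isAlgClosed_residueField_K0 (hℓ : ℓ.Prime) (hA : A.LiesOverPrime ℓ) :
    haveI := dvr_K0 hℓ hA
    IsAlgClosed (IsLocalRing.ResidueField (O₁ A)) := (K0_spec hℓ hA).2.2.1

/-- `ℓ` is a uniformiser of `O₁`. -/
theorem irreducible_ell (hℓ : ℓ.Prime) (hA : A.LiesOverPrime ℓ) :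
    Irreducible ((ℓ : ℕ) : O₁ A) := irreducible_natCast_baseRing_K0 hℓ hA

theorem levelPack_K0 (hℓ : ℓ.Prime) (hA : A.LiesOverPrime ℓ) (hℓN : ¬ ℓ ∣ N) :
    haveI := dvr_K0 hℓ hA
    LevelPack A N (K0 A) := by
  haveI := dvr_K0 hℓ hA
  haveI := isAlgClosed_residueField_K0 hℓ hA
  exact levelPack hℓ hA hℓN (K0 A) (goodBase_K0 hℓ hA hℓN) (K0_spec hℓ hA).2.2.2
    (goodRoots_subset_bigLevel A ⊥)

/-- `H¹` of the base level is a finitely generated `O₁`-module. -/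
theorem finite_H1 (hℓ : ℓ.Prime) (hA : A.LiesOverPrime ℓ) (hℓN : ¬ ℓ ∣ N) :
    Module.Finite (O₁ A) (H1 A N) := by
  haveI := dvr_K0 hℓ hA
  exact finite_h1_level A N (K0 A) (levelPack_K0 hℓ hA hℓN)

/-- `htf` at the base level. -/
theorem mul_eq_zero_K0 (hℓ : ℓ.Prime) (hA : A.LiesOverPrime ℓ) (z : A0 A N)
    (hz : algebraMap (O₁ A) (A0 A N) ((ℓ : ℕ) : O₁ A) * z = 0) : z = 0 := by
  haveI := dvr_K0 hℓ hA
  exact mul_eq_zero_level A N (K0 A) (irreducible_ell hℓ hA) z hz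

/-! ### The frame of the base level -/

variable (A N)

/-- **The base-level data of `CoordFamily.levelCoordSystem`**: lifts `ε i ∈ A₀` of a basis of
`H¹ = A₀ ⧸ (A₊ + A₋)` over `O₁`, with `HypAll`. -/
structure Frame where
  /-- the number of coordinates (the genus) -/
  g : ℕ
  /-- the basis lifts -/
  ε : Fin g → A0 A N
  /-- the basis of `H¹` -/
  b : Module.Basis (Fin g) (O₁ A) (H1 A N)
  hb : ∀ i, b i = Submodule.Quotient.mk (ε i)
  /-- the input of the universal polynomials -/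
  hH : HypAll (ip₁ A N) (im₁ A N) ε

variable {A N}

/-- A `Frame` from the three facts (F1) `FibreConst`, (F2) `ℓ` is not a unit of `A₀`, (F3) `H⁰ = O₁`
at the base level. -/
theorem nonempty_frame_of (hℓ : ℓ.Prime) (hA : A.LiesOverPrime ℓ) (hℓN : ¬ ℓ ∣ N)
    (hfib : FibreConst ((ℓ : ℕ) : O₁ A) (ip₁ A N) (im₁ A N))
    (hnu : ¬ IsUnit (algebraMap (O₁ A) (A0 A N) ((ℓ : ℕ) : O₁ A)))
    (h0 : ∀ (x : Ap A N) (y : Am A N), ip₁ A N x = im₁ A N y →
      ∃ a : O₁ A, x = algebraMap (O₁ A) (Ap A N) a ∧ y = algebraMap (O₁ A) (Am A N) a) :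
    Nonempty (Frame A N) := by
  haveI := dvr_K0 hℓ hA
  haveI := finite_H1 (N := N) hℓ hA hℓN
  obtain ⟨g, ε, b, hb⟩ := exists_basis_lift (irreducible_ell hℓ hA) hfib (mul_eq_zero_K0 hℓ hA)
  exact ⟨⟨g, ε, b, hb, hypAll_of_basis_dvr (irreducible_ell hℓ hA) ε b hb h0
    (mul_eq_zero_K0 hℓ hA) hnu⟩⟩

end Fermat.Agent.S19.Geo.BaseLevel
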