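/-
S19, Čech route, leaf [BASE] part 2 (helper29): **THE frame of the base level `K₀ = K0 A`.**

`frame hℓ hA hℓN : BaseLevel.Frame A N` — a number `g`, lifts `ε i ∈ A₀ = Rmid(K₀)` of a basis `b` of
`H¹ = A₀ ⧸ (A₊ + A₋)` over `O₁ = A ∩ K₀`, and `HypAll ip₁ im₁ ε` — with NO hypothesis left
(`BaseLevel.nonempty_frame_of` fed with (F1)–(F3) of `Cech/LevelFibreConst`), and its transport to
every good level `L ⊇ K₀` (`frame_basis_level`, `frame_hypAll_level`: the images of the `ε i` are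
basis lifts of `H¹(L)` and satisfy `HypAll` at `L`).
-/
import Mathlib
import Fermat.Agent.S19.Geo.BaseLevel
import Fermat.Agent.S19.Cech.LevelFibreConst

set_option autoImplicit false
set_option linter.unusedSectionVars false
set_option linter.style.haveILetI false

open ModularCurve AlgebraicCurve

noncomputable section

namespace Fermat.Agent.S19.Geo.BaseLevel

open Fermat.Agent.S19.Abs Fermat.Agent.S19.Coord Fermat.Agent.S19.Cech
open Fermat.Agent.N4.FormalFunctions Fermat.Agent.S19.Cech.TorsionFree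
open Fermat.Agent.N4.Chart Fermat.Agent.N4.Setting Fermat.Agent.N4.BaseDescent
open Fermat.Agent.N4F.C hiding Qb
open Fermat.Agent.N4F.C.Levels Fermat.Agent.N4F.C.LevelCharts
  Fermat.Agent.N4F.C.ChartFactsProof Fermat.Agent.P3G.Gamma Fermat.Agent.P3G.GammaBase
  Fermat.Agent.S19.Cech.LevelBasis Fermat.Agent.S19.Cech.BaseQuotLevel
  Fermat.Agent.S19.Cech.LevelFibreConst

variable {A : ValuationSubring Qb} {N : ℕ} [NeZero N] {ℓ : ℕ}

/-- (F1) at the base level. -/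
theorem fibreConst_K0 (hℓ : ℓ.Prime) (hA : A.LiesOverPrime ℓ) (hℓN : ¬ ℓ ∣ N) :
    FibreConst ((ℓ : ℕ) : O₁ A) (ip₁ A N) (im₁ A N) := by
  haveI := dvr_K0 hℓ hA
  exact fibreConst_level A N (K0 A) (levelPack_K0 hℓ hA hℓN) (irreducible_ell hℓ hA)

/-- (F2) at the base level. -/
theorem not_isUnit_ell_K0 (hℓ : ℓ.Prime) (hA : A.LiesOverPrime ℓ) (hℓN : ¬ ℓ ∣ N) :
    ¬ IsUnit (algebraMap (O₁ A) (A0 A N) ((ℓ : ℕ) : O₁ A)) := by
  haveI := dvr_K0 hℓ hA
  exact not_isUnit_algebraMap_level A N (K0 A) (levelPack_K0 hℓ hA hℓN) (irreducible_ell hℓ hA)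

/-- (F3) at the base level. -/
theorem h0_K0 (hℓ : ℓ.Prime) (hA : A.LiesOverPrime ℓ) (hℓN : ¬ ℓ ∣ N) (x : Ap A N) (y : Am A N)
    (hxy : ip₁ A N x = im₁ A N y) :
    ∃ a : O₁ A, x = algebraMap (O₁ A) (Ap A N) a ∧ y = algebraMap (O₁ A) (Am A N) a := by
  haveI := dvr_K0 hℓ hA
  exact h0_level A N (K0 A) (levelPack_K0 hℓ hA hℓN) x y hxy

theorem nonempty_frame (hℓ : ℓ.Prime) (hA : A.LiesOverPrime ℓ) (hℓN : ¬ ℓ ∣ N) :
    Nonempty (Frame A N) :=
  nonempty_frame_of hℓ hA hℓN (fibreConst_K0 hℓ hA hℓN) (not_isUnit_ell_K0 hℓ hA hℓN)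
    (h0_K0 hℓ hA hℓN)

/-- **THE frame of the base level.** -/
def frame (hℓ : ℓ.Prime) (hA : A.LiesOverPrime ℓ) (hℓN : ¬ ℓ ∣ N) : Frame A N :=
  (nonempty_frame hℓ hA hℓN).some

/-! ### Transport of a frame to a good level `L ⊇ K₀` -/

section Level

variable (F : Frame A N) {L : IntermediateField ℚ Qb} (hL : K0 A ≤ L)
  [IsDiscreteValuationRing ↥(baseRing A L)] (P : LevelPack A N L)

/-- The frame at the level `L`: the images of the `ε i` in `Rmid(L)`. -/
def Frame.εL (F : Frame A N) {L : IntermediateField ℚ Qb} (hL : K0 A ≤ L) :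
    Fin F.g → ↥(Rmid (Lvl L) N (baseRing A L)) :=
  fun i => midIncl A N hL (F.ε i)

include P in
/-- The images of the base frame are basis lifts of `H¹(L)`. -/
theorem Frame.exists_basis_level (hℓ : ℓ.Prime) (hA : A.LiesOverPrime ℓ) (hℓN : ¬ ℓ ∣ N) :
    ∃ b₂ : Module.Basis (Fin F.g) ↥(baseRing A L) (↥(Rmid (Lvl L) N (baseRing A L)) ⧸
        chartSum (inclFin (Lvl L) N (baseRing A L)) (inclInf (Lvl L) N (baseRing A L))),
      ∀ i, b₂ i = Submodule.Quotient.mk (F.εL hL i) := by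
  haveI := dvr_K0 hℓ hA
  exact exists_basis_level' A N hL (levelPack_K0 hℓ hA hℓN) P F.ε F.b F.hb

include P in
/-- **`HypAll` at every good level `L ⊇ K₀`, for the images of the base frame.** -/
theorem Frame.hypAll_level (hℓ : ℓ.Prime) (hA : A.LiesOverPrime ℓ) (hℓN : ¬ ℓ ∣ N) :
    HypAll (inclFin (Lvl L) N (baseRing A L)) (inclInf (Lvl L) N (baseRing A L)) (F.εL hL) := by
  haveI := dvr_K0 hℓ hA
  exact hypAll_level_of_base A N hL (levelPack_K0 hℓ hA hℓN) P F.ε F.b F.hb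

end Level

end Fermat.Agent.S19.Geo.BaseLevel
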