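/-
S19 / GEO, leaf [SIT] (helper27; field map v2.1 of helper22): **the bundled situation
`CoordFamily.Sit` of ONE level and ONE precision `m + 1`, from abstract level data.**

Level data (all ARGUMENTS): a local ring `O` (think `A ∩ L`) with a uniformiser `ϖ`, `ℓ ~ ϖ^e`,
a level-ring structure `ι : O → ℚ̄`; a domain `F` over `O` (the function field at the level) with
`O`-subalgebras `Bp, Bm ≤ B0` (the two charts and their overlap), a Gauss ring `Rg` and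
`C : Cocycle.Charts (algebraMap O F ϖ) Bp Bm B0 Rg`; a system of lines `Λ` with `LineSys C Λ`;
a frame `ε₀ : Fin g → B0`; the base level `j : O₁ → O`.  Then, for every precision `m + 1`, with

  `S := O ⧸ (ℓ^(m+1))` (`RedTuple.Quo`),  `C_? := S ⊗[O] B_?`,  `𝔪 := (red ϖ)`,
  `ip, im := mapS S (inclusion)`,  `ε := epsS S ε₀`,  `π := red`,
  `K := kImage (qRed I B0) (kappa Λ k)`,  `k + 1 = e * (m + 1)`,

and any `H : Hyp 𝔪 ip im ε` (ARGUMENT, from [LHYP]), `sit` is the situation; `BaseQuot` is helper9's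
`BaseQuotLevel.baseQuot_span_singleton`, `KImg` is `(hΛ.kSys k).kImg (SepWireTensor.transport ..)`.
The `O₁`-algebra structure of `S` is **`((red O ℓ (m+1)).comp j).toAlgebra`** (so that `hj` is `rfl`).
-/
import Mathlib
import Fermat.Agent.S19.Cech.CoordFamily
import Fermat.Agent.S19.Cech.SepWireTensor
import Fermat.Agent.S19.Cech.BaseQuotLevel

set_option autoImplicit false
set_option linter.unusedSectionVars false

open TensorProduct

namespace Fermat.Agent.S19.Geo.LevelSit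

open Fermat.Agent.S19.Abs Fermat.Agent.S19.Coord Fermat.Agent.S19.Cech
  Fermat.Agent.S19.Cech.Cocycle Fermat.Agent.S19.Cech.CoordOfLines
  Fermat.Agent.S19.Cech.CoordFamily Fermat.Agent.S19.Cech.RedTuple
  Fermat.Agent.S19.Cech.BaseQuotLevel Fermat.Agent.S19.Cech.SepWireTensor

/-! ### the ideal `(ℓ^(m+1)) = (ϖ^(e(m+1)))` -/

section Ideal

variable {O : Type*} [CommRing O] {ϖ : O} {ℓ e : ℕ}

/-- the exponent `k` with `k + 1 = e * (m + 1)` -/
def kOf (e m : ℕ) : ℕ := e * (m + 1) - 1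

theorem kOf_succ {e : ℕ} (he : 0 < e) (m : ℕ) : kOf e m + 1 = e * (m + 1) := by
  unfold kOf
  have : 0 < e * (m + 1) := Nat.mul_pos he (Nat.succ_pos m)
  omega

theorem kOf_le_kOf_succ (e m : ℕ) : kOf e m ≤ kOf e (m + 1) := by
  unfold kOf
  have : e * (m + 1) ≤ e * (m + 1 + 1) := Nat.mul_le_mul_left e (Nat.le_succ _)
  omega

/-- `(ℓ^(m+1)) = (ϖ^(k+1))` when `ℓ` and `ϖ^e` are associated -/
theorem span_pow_eq (he : 0 < e) (hℓe : Associated ((ℓ : O)) (ϖ ^ e)) (m : ℕ) :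
    Ideal.span {((ℓ : O)) ^ (m + 1)} = Ideal.span {ϖ ^ (kOf e m + 1)} := by
  rw [kOf_succ he, pow_mul]
  have h := hℓe.pow_pow (n := m + 1)
  obtain ⟨u, hu⟩ := h
  apply le_antisymm
  · rw [Ideal.span_singleton_le_span_singleton]
    exact ⟨(↑u⁻¹ : O), by rw [← hu, mul_assoc, Units.mul_inv, mul_one]⟩
  · rw [Ideal.span_singleton_le_span_singleton]
    exact ⟨(u : O), hu.symm⟩

end Ideal

/-! ### the situation -/

section Sit

variable {ℓ : ℕ} {A : ValuationSubring Qb} {Jb : Type} [AddCommGroup Jb]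
variable {O : Type} [CommRing O] [IsLocalRing O] {F : Type} [CommRing F] [IsDomain F] [Algebra O F]
  {Bp Bm B0 : Subalgebra O F} {Rg : Subring F} (hp : Bp ≤ B0) (hm : Bm ≤ B0) {ϖ : O}
  (C : Charts (algebraMap O F ϖ) Bp.toSubring Bm.toSubring B0.toSubring Rg)
  {ι : O →+* Qb} (hι : IsLevelRing A ℓ ι)
  (hloc : ∀ x : O, x ∈ IsLocalRing.maximalIdeal O ↔ ι x ∈ A.nonunits)
  (hA : A.LiesOverPrime ℓ) (hϖ : IsLocalRing.maximalIdeal O = Ideal.span {ϖ})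
  {e : ℕ} (he : 0 < e) (hℓe : Associated ((ℓ : O)) (ϖ ^ e))
  {Λ : Jb → Line (algebraMap O F ϖ) Bp.toSubring Bm.toSubring B0.toSubring Rg → Prop}
  (hΛ : LineSys C Λ) {g : ℕ} (ε₀ : Fin g → ↥B0) {O₁ : Type} [CommRing O₁] (j : O₁ →+* O) (m : ℕ)

/-- the maximal ideal of `S = O ⧸ (ℓ^(m+1))` -/
abbrev mS (O : Type) [CommRing O] (ϖ : O) (ℓ m : ℕ) : Ideal (Quo O ℓ (m + 1)) :=
  Ideal.span {red O ℓ (m + 1) ϖ}

include he hℓe in
/-- the transport `B_? → S ⊗[O] B_?` at precision `m + 1` -/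
theorem transport_level :
    Transport C (mS O ϖ ℓ m) (mapS (Quo O ℓ (m + 1)) (Subalgebra.inclusion hp))
      (mapS (Quo O ℓ (m + 1)) (Subalgebra.inclusion hm)) (kOf e m)
      (qRed (Ideal.span {((ℓ : O)) ^ (m + 1)}) Bp) (qRed (Ideal.span {((ℓ : O)) ^ (m + 1)}) Bm)
      (qRed (Ideal.span {((ℓ : O)) ^ (m + 1)}) B0) :=
  SepWireTensor.transport hp hm C (span_pow_eq he hℓe m) rfl

include he hℓe in
/-- the `Lift` property at precision `m + 1` -/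
theorem lift_level :
    SepWire.Lift C (mS O ϖ ℓ m) (kOf e m)
      (qRed (Ideal.span {((ℓ : O)) ^ (m + 1)}) Bp) (qRed (Ideal.span {((ℓ : O)) ^ (m + 1)}) Bm)
      (qRed (Ideal.span {((ℓ : O)) ^ (m + 1)}) B0) :=
  SepWireTensor.lift C (span_pow_eq he hℓe m) rfl

/-- the cocycle predicate of the level at precision `m + 1` -/
def KLevel (Λ : Jb → Line (algebraMap O F ϖ) Bp.toSubring Bm.toSubring B0.toSubring Rg → Prop)
    (ℓ e m : ℕ) : Jb → (Quo O ℓ (m + 1)) ⊗[O] ↥B0 → Prop :=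
  kImage (qRed (Ideal.span {((ℓ : O)) ^ (m + 1)}) B0) (kappa Λ (kOf e m))

include he hℓe hΛ in
theorem kImg_level :
    KImg (mS O ϖ ℓ m) (mapS (Quo O ℓ (m + 1)) (Subalgebra.inclusion hp))
      (mapS (Quo O ℓ (m + 1)) (Subalgebra.inclusion hm)) (KLevel Λ ℓ e m) :=
  (hΛ.kSys (kOf e m)).kImg (transport_level hp hm C he hℓe m)

include hι hloc hA hϖ in
theorem baseQuot_level' :
    BaseQuot ℓ (m + 1) A ι (red O ℓ (m + 1)) (mS O ϖ ℓ m) :=
  baseQuot_span_singleton hι hloc hA (Nat.succ_pos m) hϖ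

/-- **The situation of the level at precision `m + 1`.** -/
noncomputable def sit
    (H : Hyp (mS O ϖ ℓ m) (mapS (Quo O ℓ (m + 1)) (Subalgebra.inclusion hp))
      (mapS (Quo O ℓ (m + 1)) (Subalgebra.inclusion hm)) (epsS (Quo O ℓ (m + 1)) ε₀)) :
    Sit ℓ A Jb g (m + 1) O₁ :=
  letI : Algebra O₁ (Quo O ℓ (m + 1)) := ((red O ℓ (m + 1)).comp j).toAlgebra
  { S := Quo O ℓ (m + 1)
    Cp := (Quo O ℓ (m + 1)) ⊗[O] ↥Bp
    Cm := (Quo O ℓ (m + 1)) ⊗[O] ↥Bm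
    C0 := (Quo O ℓ (m + 1)) ⊗[O] ↥B0
    𝔪 := mS O ϖ ℓ m
    ip := mapS (Quo O ℓ (m + 1)) (Subalgebra.inclusion hp)
    im := mapS (Quo O ℓ (m + 1)) (Subalgebra.inclusion hm)
    ε := epsS (Quo O ℓ (m + 1)) ε₀
    H := H
    O := O
    ι := ι
    π := red O ℓ (m + 1)
    hB := baseQuot_level' hι hloc hA hϖ m
    K := KLevel Λ ℓ e m
    hK := kImg_level hp hm C he hℓe hΛ m
    j := j
    hj := fun _ => rfl }

variable (H : Hyp (mS O ϖ ℓ m) (mapS (Quo O ℓ (m + 1)) (Subalgebra.inclusion hp))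
      (mapS (Quo O ℓ (m + 1)) (Subalgebra.inclusion hm)) (epsS (Quo O ℓ (m + 1)) ε₀))

/-! ### projections (all by `rfl`) -/

@[simp] theorem sit_S : (sit (Jb := Jb) hp hm C hι hloc hA hϖ he hℓe hΛ ε₀ j m H).S
    = Quo O ℓ (m + 1) := rfl

@[simp] theorem sit_O : (sit (Jb := Jb) hp hm C hι hloc hA hϖ he hℓe hΛ ε₀ j m H).O = O := rfl

@[simp] theorem sit_ι : (sit (Jb := Jb) hp hm C hι hloc hA hϖ he hℓe hΛ ε₀ j m H).ι = ι := rfl

@[simp] theorem sit_π : (sit (Jb := Jb) hp hm C hι hloc hA hϖ he hℓe hΛ ε₀ j m H).π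
    = red O ℓ (m + 1) := rfl

@[simp] theorem sit_j : (sit (Jb := Jb) hp hm C hι hloc hA hϖ he hℓe hΛ ε₀ j m H).j = j := rfl

@[simp] theorem sit_𝔪 : (sit (Jb := Jb) hp hm C hι hloc hA hϖ he hℓe hΛ ε₀ j m H).𝔪
    = mS O ϖ ℓ m := rfl

@[simp] theorem sit_ε : (sit (Jb := Jb) hp hm C hι hloc hA hϖ he hℓe hΛ ε₀ j m H).ε
    = epsS (Quo O ℓ (m + 1)) ε₀ := rfl

@[simp] theorem sit_K : (sit (Jb := Jb) hp hm C hι hloc hA hϖ he hℓe hΛ ε₀ j m H).K
    = KLevel Λ ℓ e m := rfl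

theorem sit_H : (sit (Jb := Jb) hp hm C hι hloc hA hϖ he hℓe hΛ ε₀ j m H).H = H := rfl

/-- the hypothesis `hι` of `CoordFamily.levelReps` -/
theorem sit_ι_j (c : O₁) :
    (sit (Jb := Jb) hp hm C hι hloc hA hϖ he hℓe hΛ ε₀ j m H).ι
      ((sit (Jb := Jb) hp hm C hι hloc hA hϖ he hℓe hΛ ε₀ j m H).j c) = ι (j c) := rfl

/-- the `O₁`-algebra structure of `S` -/
theorem sit_algebraMap (c : O₁) :
    algebraMap O₁ (sit (Jb := Jb) hp hm C hι hloc hA hϖ he hℓe hΛ ε₀ j m H).S c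
      = red O ℓ (m + 1) (j c) := rfl

/-- unfolding the cocycle predicate -/
theorem sit_K_iff {z : Jb} {v : (Quo O ℓ (m + 1)) ⊗[O] ↥B0} :
    KLevel Λ ℓ e m z v ↔ ∃ u, kappa Λ (kOf e m) z u ∧ ∃ hu : u ∈ B0.toSubring,
      v = qRed (Ideal.span {((ℓ : O)) ^ (m + 1)}) B0 ⟨u, hu⟩ := Iff.rfl

include hΛ in
/-- cocycles exist at every precision for a class with a line -/
theorem exists_K {z : Jb}
    {L : Line (algebraMap O F ϖ) Bp.toSubring Bm.toSubring B0.toSubring Rg} (hL : Λ z L) :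
    ∃ v, KLevel Λ ℓ e m z v := by
  obtain ⟨u, hu⟩ := hΛ.exists_kappa hL (kOf e m)
  exact ⟨_, u, hu, ((hΛ.kSys (kOf e m)).mem hu), rfl⟩

end Sit

end Fermat.Agent.S19.Geo.LevelSit
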