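/-
S19 / Čech-units route, [INST] support for [SIT] (helper27) and [LHYP] (helper19) — dispatch v2.1 of
helper22: **the canonical ring data of a level and the ring-level maps between situations.**

For a level `L` (an intermediate field of `ℚ̄/ℚ`) and a precision `n`:

* `OL A L = ↥(baseRing A L)` (`= A ∩ L`), `ιK A L : OL A L → ℚ̄`, `SL A ℓ L n = OL A L ⧸ (ℓⁿ)`,
  `π = red`, `𝔪 = mL A ℓ L n` (image of the non-units; `= span {red ϖ}` for a uniformiser);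
* base level `K₀ = K0 A`: `jL A h0 : OL A K₀ → OL A L`, the algebra structure `algO1` of
  `SL A ℓ L n` over `OL A K₀`, `ι₁ = ιK A K₀` with values in `R^nr` (`isUnr_ι₁`);
* the three kinds of maps `(θ, φ)` between situations with all the commutations asked for by
  `ChangeBase.morph_chg` (`hφ`, `hmem`) and by `CoordFamily.Sit.IsHom / IsTwist` (`hθ`, `hσ`):
  level inclusion `L ≤ L'` (`θ = baseMapIncl`, `φ = quoMap θ`), lowering the precision
  (`θ = id`, `φ = quoRed`), and `σ ∈ D_A` on a Galois-stable level (`θ = baseAut`, `φ = quoMap θ`).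
-/
import Fermat.Agent.S19.Cech.BaseQuotLevel
import Fermat.Agent.S19.Cech.LevelBasis
import Fermat.Agent.S19.Cech.CoordFamily
import Fermat.Agent.P3G.GammaAut

set_option autoImplicit false

namespace Fermat.Agent.S19.Geo.LevelSitMaps

open Fermat.Agent.S19.Abs Fermat.Agent.S19.Coord Fermat.Agent.S19.Cech
  Fermat.Agent.S19.Cech.CoordOfLines Fermat.Agent.S19.Cech.RedTuple
  Fermat.Agent.S19.Cech.BaseQuotLevel Fermat.Agent.S19.Cech.LevelBasis
  Fermat.Agent.N4F.C.Levels Fermat.Agent.P3G.Gamma Fermat.Agent.P3G.GammaAut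

variable (A : ValuationSubring Qb) (ℓ : ℕ)

/-! ### the rings of a level -/

/-- `O_L = A ∩ L` -/
abbrev OL (L : IntermediateField ℚ Qb) : Type := ↥(baseRing A L)

/-- `S_{L,n} = O_L ⧸ (ℓⁿ)` -/
abbrev SL (L : IntermediateField ℚ Qb) (n : ℕ) : Type := Quo (OL A L) ℓ n

/-- the structure map `O_L → S_{L,n}` is the reduction -/
theorem algebraMap_SL (L : IntermediateField ℚ Qb) (n : ℕ) :
    algebraMap (OL A L) (SL A ℓ L n) = red (OL A L) ℓ n := rfl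

/-- the ideal `𝔪_{L,n}` of `S_{L,n}`: the image of the non-units -/
noncomputable def mL (L : IntermediateField ℚ Qb) (n : ℕ) : Ideal (SL A ℓ L n) :=
  quoIdeal (isLevelRing A L ℓ) n

theorem mL_eq_map_maximalIdeal (L : IntermediateField ℚ Qb) [IsLocalRing (OL A L)] (n : ℕ) :
    mL A ℓ L n = (IsLocalRing.maximalIdeal (OL A L)).map (red (OL A L) ℓ n) :=
  quoIdeal_eq_map_maximalIdeal (isLevelRing A L ℓ) (mem_maximalIdeal_iff A L) n

theorem mL_eq_span_singleton (L : IntermediateField ℚ Qb) [IsLocalRing (OL A L)] (n : ℕ)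
    {ϖ : OL A L} (hϖ : IsLocalRing.maximalIdeal (OL A L) = Ideal.span {ϖ}) :
    mL A ℓ L n = Ideal.span {red (OL A L) ℓ n ϖ} :=
  quoIdeal_eq_span_singleton (isLevelRing A L ℓ) (mem_maximalIdeal_iff A L) n hϖ

/-- for a discrete valuation ring and an irreducible `ϖ` -/
theorem mL_eq_span_singleton_of_irreducible (L : IntermediateField ℚ Qb)
    [IsDiscreteValuationRing (OL A L)] (n : ℕ) {ϖ : OL A L}
    (hϖ : Irreducible ϖ) : mL A ℓ L n = Ideal.span {red (OL A L) ℓ n ϖ} :=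
  mL_eq_span_singleton A ℓ L n hϖ.maximalIdeal_eq

variable {A ℓ}

/-- **the `BaseQuot` of the situation `(L, n)`** -/
theorem baseQuot_mL (hA : A.LiesOverPrime ℓ) (L : IntermediateField ℚ Qb) {n : ℕ} (hn : 0 < n) :
    BaseQuot ℓ n A (ιK A L) (red (OL A L) ℓ n) (mL A ℓ L n) :=
  baseQuot (isLevelRing A L ℓ) hA hn

theorem red_mem_mL_iff (hA : A.LiesOverPrime ℓ) (L : IntermediateField ℚ Qb) {n : ℕ}
    (hn : 0 < n) {x : OL A L} : red (OL A L) ℓ n x ∈ mL A ℓ L n ↔ ιK A L x ∈ A.nonunits :=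
  red_mem_quoIdeal_iff (isLevelRing A L ℓ) hA hn

/-- `𝔪_{L,n}` is nilpotent as soon as a power of the uniformiser is divisible by `ℓ` -/
theorem mL_pow_eq_bot (L : IntermediateField ℚ Qb) [IsLocalRing (OL A L)] (n : ℕ) {ϖ : OL A L}
    {e : ℕ} (hϖ : IsLocalRing.maximalIdeal (OL A L) = Ideal.span {ϖ})
    (he : ∃ y : OL A L, ϖ ^ e = (ℓ : OL A L) * y) : mL A ℓ L n ^ (e * n) = ⊥ := by
  refine quoIdeal_pow_eq_bot (isLevelRing A L ℓ) n (ϖ := ϖ) ?_ he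
  rw [nonunitIdeal_eq_maximalIdeal (isLevelRing A L ℓ) (mem_maximalIdeal_iff A L), hϖ]

theorem mL_isNilpotent (L : IntermediateField ℚ Qb) [IsLocalRing (OL A L)] (n : ℕ) {ϖ : OL A L}
    {e : ℕ} (hϖ : IsLocalRing.maximalIdeal (OL A L) = Ideal.span {ϖ})
    (he : ∃ y : OL A L, ϖ ^ e = (ℓ : OL A L) * y) : IsNilpotent (mL A ℓ L n) :=
  ⟨e * n, mL_pow_eq_bot L n hϖ he⟩

/-! ### the base level -/

variable (A)

/-- the structure map `O_{K₀} → O_L` -/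
noncomputable abbrev jL {L : IntermediateField ℚ Qb} (h0 : K0 A ≤ L) : OL A (K0 A) →+* OL A L :=
  baseMapIncl A h0

variable (ℓ)

/-- the algebra structure of `S_{L,n}` over the base level `O₁ = O_{K₀}` -/
@[reducible] noncomputable def algO1 {L : IntermediateField ℚ Qb} (h0 : K0 A ≤ L) (n : ℕ) :
    Algebra (OL A (K0 A)) (SL A ℓ L n) :=
  ((red (OL A L) ℓ n).comp (jL A h0)).toAlgebra

/-- field `hj` of `CoordFamily.Sit` -/
theorem red_jL {L : IntermediateField ℚ Qb} (h0 : K0 A ≤ L) (n : ℕ) (c : OL A (K0 A)) :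
    letI := algO1 A ℓ h0 n
    red (OL A L) ℓ n (jL A h0 c) = algebraMap (OL A (K0 A)) (SL A ℓ L n) c := rfl

/-- the tower `O₁ → O_L → S_{L,n}` -/
theorem isScalarTower_algO1 {L : IntermediateField ℚ Qb} (h0 : K0 A ≤ L) (n : ℕ) :
    letI := algO1 A ℓ h0 n
    letI : Algebra (OL A (K0 A)) (OL A L) := (jL A h0).toAlgebra
    IsScalarTower (OL A (K0 A)) (OL A L) (SL A ℓ L n) := by
  letI := algO1 A ℓ h0 n
  letI : Algebra (OL A (K0 A)) (OL A L) := (jL A h0).toAlgebra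
  exact IsScalarTower.of_algebraMap_eq fun _ => rfl

/-- hypothesis `hι` of `CoordFamily.levelReps` -/
theorem ιK_jL {L : IntermediateField ℚ Qb} (h0 : K0 A ≤ L) (c : OL A (K0 A)) :
    ιK A L (jL A h0 c) = ιK A (K0 A) c := rfl

variable {A} {ℓ}

/-- hypothesis `hι₁` of `CoordFamily.levelReps`: the base level is unramified -/
theorem isUnr_ι₁ (hℓ : ℓ.Prime) (hA : A.LiesOverPrime ℓ) (c : OL A (K0 A)) :
    IsUnr A (ιK A (K0 A) c) :=
  ⟨ιK_mem A (K0 A) c, fun _ hσ => apply_eq_of_mem_K0 hℓ hA hσ (Lvl.algebraMap_mem (K0 A) _)⟩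

/-! ### level inclusion `L ≤ L'` -/

section Incl

variable (A) (ℓ)
variable {L L' : IntermediateField ℚ Qb} (hLL' : L ≤ L')

/-- `φ : S_{L,n} → S_{L',n}` -/
noncomputable abbrev φIncl (n : ℕ) : SL A ℓ L n →+* SL A ℓ L' n :=
  quoMap (baseMapIncl A hLL') ℓ n

/-- `hσ` of `IsHom` (with `σ = id`) -/
theorem ιK_baseMapIncl (x : OL A L) : ιK A L' (baseMapIncl A hLL' x) = ιK A L x := rfl

theorem ιK_baseMapIncl_id (x : OL A L) :
    ιK A L' (baseMapIncl A hLL' x) = RingHom.id Qb (ιK A L x) := rfl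

/-- `hθ` of `IsHom` -/
theorem φIncl_red (n : ℕ) (x : OL A L) :
    φIncl A ℓ hLL' n (red (OL A L) ℓ n x) = red (OL A L') ℓ n (baseMapIncl A hLL' x) :=
  quoMap_red _ _ _

/-- `hφ` of `ChangeBase.morph_chg` -/
theorem φIncl_algebraMap (n : ℕ) (o : OL A L) :
    φIncl A ℓ hLL' n (algebraMap (OL A L) (SL A ℓ L n) o)
      = algebraMap (OL A L') (SL A ℓ L' n) (baseMapIncl A hLL' o) :=
  quoMap_red _ _ _

/-- `hmem` of `ChangeBase.morph_chg` -/
theorem φIncl_mem (n : ℕ) {s : SL A ℓ L n} (hs : s ∈ mL A ℓ L n) :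
    φIncl A ℓ hLL' n s ∈ mL A ℓ L' n :=
  quoMap_mem_quoIdeal (isLevelRing A L ℓ) (isLevelRing A L' ℓ) _ (ιK_baseMapIncl A hLL') n hs

/-- **`S_{L,n} → S_{L',n}` is injective** (⚠(2), ⚠(4) of the crib) -/
theorem φIncl_injective (n : ℕ) : Function.Injective (φIncl A ℓ hLL' n) :=
  quoMap_injective (isLevelRing A L ℓ) (isLevelRing A L' ℓ) _ (ιK_baseMapIncl A hLL') n

/-- compatibility with the base level -/
theorem baseMapIncl_jL (h0 : K0 A ≤ L) (c : OL A (K0 A)) :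
    baseMapIncl A hLL' (jL A h0 c) = jL A (h0.trans hLL') c := rfl

theorem φIncl_algebraMap_O1 (h0 : K0 A ≤ L) (n : ℕ) (c : OL A (K0 A)) :
    letI := algO1 A ℓ h0 n
    letI := algO1 A ℓ (h0.trans hLL') n
    φIncl A ℓ hLL' n (algebraMap (OL A (K0 A)) (SL A ℓ L n) c)
      = algebraMap (OL A (K0 A)) (SL A ℓ L' n) c :=
  quoMap_red _ _ _

end Incl

/-! ### lowering the precision `n + 1 → n` -/

section Prec

variable (A) (ℓ) (L : IntermediateField ℚ Qb)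

/-- `φ : S_{L,n+1} → S_{L,n}` -/
noncomputable abbrev φPrec (n : ℕ) : SL A ℓ L (n + 1) →+* SL A ℓ L n := quoRed (OL A L) ℓ n

/-- `hθ` of `IsHom` (with `θ = id`) -/
theorem φPrec_red (n : ℕ) (x : OL A L) :
    φPrec A ℓ L n (red (OL A L) ℓ (n + 1) x) = red (OL A L) ℓ n (RingHom.id (OL A L) x) :=
  quoRed_red n x

/-- `hφ` of `ChangeBase.morph_chg` (with `θ = id`) -/
theorem φPrec_algebraMap (n : ℕ) (o : OL A L) :
    φPrec A ℓ L n (algebraMap (OL A L) (SL A ℓ L (n + 1)) o)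
      = algebraMap (OL A L) (SL A ℓ L n) (RingHom.id (OL A L) o) :=
  quoRed_red n o

/-- `hσ` of `IsHom` (with `θ = id`, `σ = id`) -/
theorem ιK_id (x : OL A L) : ιK A L (RingHom.id (OL A L) x) = RingHom.id Qb (ιK A L x) := rfl

/-- `hmem` of `ChangeBase.morph_chg` -/
theorem φPrec_mem (n : ℕ) {s : SL A ℓ L (n + 1)} (hs : s ∈ mL A ℓ L (n + 1)) :
    φPrec A ℓ L n s ∈ mL A ℓ L n :=
  quoRed_mem_quoIdeal (isLevelRing A L ℓ) n hs

theorem φPrec_surjective (n : ℕ) : Function.Surjective (φPrec A ℓ L n) := by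
  intro c
  obtain ⟨x, rfl⟩ := Ideal.Quotient.mk_surjective c
  exact ⟨red (OL A L) ℓ (n + 1) x, quoRed_red n x⟩

theorem φPrec_algebraMap_O1 (h0 : K0 A ≤ L) (n : ℕ) (c : OL A (K0 A)) :
    letI := algO1 A ℓ h0 (n + 1)
    letI := algO1 A ℓ h0 n
    φPrec A ℓ L n (algebraMap (OL A (K0 A)) (SL A ℓ L (n + 1)) c)
      = algebraMap (OL A (K0 A)) (SL A ℓ L n) c :=
  quoRed_red n _

end Prec

/-! ### the decomposition group on a Galois-stable level -/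

section Gal

variable (ℓ)
variable (L : IntermediateField ℚ Qb) (hL : ∀ (τ : GQ) (x : Qb), x ∈ L → τ x ∈ L)
variable {σ : GQ} (hσ : σ ∈ A.decompositionSubgroup ℚ)

/-- `θ = σ|_{O_L}` -/
noncomputable abbrev θGal : OL A L →+* OL A L :=
  ((baseAut L hL hσ : OL A L ≃+* OL A L) : OL A L →+* OL A L)

/-- `φ : S_{L,n} → S_{L,n}` induced by `σ` -/
noncomputable abbrev φGal (n : ℕ) : SL A ℓ L n →+* SL A ℓ L n := quoMap (θGal L hL hσ) ℓ n

/-- `hσ` of `IsHom` / `IsTwist` -/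
theorem ιK_θGal (x : OL A L) :
    ιK A L (θGal L hL hσ x) = ((σ : GQ) : Qb →+* Qb) (ιK A L x) := rfl

/-- `hθ` of `IsHom` / `IsTwist` -/
theorem φGal_red (n : ℕ) (x : OL A L) :
    φGal ℓ L hL hσ n (red (OL A L) ℓ n x) = red (OL A L) ℓ n (θGal L hL hσ x) :=
  quoMap_red _ _ _

/-- `hφ` of `ChangeBase.morph_chg` -/
theorem φGal_algebraMap (n : ℕ) (o : OL A L) :
    φGal ℓ L hL hσ n (algebraMap (OL A L) (SL A ℓ L n) o)
      = algebraMap (OL A L) (SL A ℓ L n) (θGal L hL hσ o) :=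
  quoMap_red _ _ _

/-- `hmem` of `ChangeBase.morph_chg` -/
theorem φGal_mem (n : ℕ) {s : SL A ℓ L n} (hs : s ∈ mL A ℓ L n) :
    φGal ℓ L hL hσ n s ∈ mL A ℓ L n := by
  have h1 := quoMap_mem_quoIdeal (isLevelRing A L ℓ) ((isLevelRing A L ℓ).twist
    (inv_mem hσ)) (θGal L hL hσ) (ι' := ((σ⁻¹ : GQ) : Qb →+* Qb).comp (ιK A L)) (fun x => by
      rw [RingHom.comp_apply, ιK_θGal]
      change (σ⁻¹ * σ) (ιK A L x) = ιK A L x
      rw [inv_mul_cancel]; rfl) n hs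
  rw [quoIdeal_twist _ (inv_mem hσ)] at h1
  exact h1

include hσ in
/-- `hσA` of `IsTwist.map` -/
theorem apply_mem_A {x : Qb} (hx : x ∈ A) : ((σ : GQ) : Qb →+* Qb) x ∈ A :=
  apply_mem_of_mem_decomp hσ hx

/-- compatibility with the base level: `σ|_{O_L} ∘ j = j ∘ σ|_{O_{K₀}}` -/
theorem θGal_jL (h0 : K0 A ≤ L) (hK0 : ∀ (τ : GQ) (x : Qb), x ∈ K0 A → τ x ∈ K0 A)
    (c : OL A (K0 A)) : θGal L hL hσ (jL A h0 c) = jL A h0 (θGal (K0 A) hK0 hσ c) := rfl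

/-- the inertia group is the identity on the base level -/
theorem θGal_K0_of_mem_inertia {ℓ} (hℓ : ℓ.Prime) (hA : A.LiesOverPrime ℓ)
    (hK0 : ∀ (τ : GQ) (x : Qb), x ∈ K0 A → τ x ∈ K0 A) (hσI : σ ∈ A.inertiaSubgroupIn ℚ)
    (c : OL A (K0 A)) : θGal (K0 A) hK0 hσ c = c :=
  ιK_injective A (K0 A) (apply_eq_of_mem_K0 hℓ hA hσI (Lvl.algebraMap_mem (K0 A) _))

/-- for `σ ∈ I_A` the map `φGal` is `O₁`-linear -/
theorem φGal_algebraMap_O1 {ℓ} (hℓ : ℓ.Prime) (hA : A.LiesOverPrime ℓ) (h0 : K0 A ≤ L)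
    (hK0 : ∀ (τ : GQ) (x : Qb), x ∈ K0 A → τ x ∈ K0 A) (hσI : σ ∈ A.inertiaSubgroupIn ℚ)
    (n : ℕ) (c : OL A (K0 A)) :
    letI := algO1 A ℓ h0 n
    φGal ℓ L hL hσ n (algebraMap (OL A (K0 A)) (SL A ℓ L n) c)
      = algebraMap (OL A (K0 A)) (SL A ℓ L n) c := by
  let _ := algO1 A ℓ h0 n
  change φGal ℓ L hL hσ n (red (OL A L) ℓ n (jL A h0 c)) = red (OL A L) ℓ n (jL A h0 c)
  rw [φGal_red, θGal_jL L hL hσ h0 hK0, θGal_K0_of_mem_inertia hσ hℓ hA hK0 hσI]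

/-- in general `φGal` is semilinear over `σ|_{O_{K₀}}` -/
theorem φGal_algebraMap_O1_semilinear (h0 : K0 A ≤ L)
    (hK0 : ∀ (τ : GQ) (x : Qb), x ∈ K0 A → τ x ∈ K0 A) (n : ℕ) (c : OL A (K0 A)) :
    letI := algO1 A ℓ h0 n
    φGal ℓ L hL hσ n (algebraMap (OL A (K0 A)) (SL A ℓ L n) c)
      = algebraMap (OL A (K0 A)) (SL A ℓ L n) (θGal (K0 A) hK0 hσ c) := by
  let _ := algO1 A ℓ h0 n
  change φGal ℓ L hL hσ n (red (OL A L) ℓ n (jL A h0 c))
    = red (OL A L) ℓ n (jL A h0 (θGal (K0 A) hK0 hσ c))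
  rw [φGal_red, θGal_jL L hL hσ h0 hK0]

end Gal

end Fermat.Agent.S19.Geo.LevelSitMaps
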