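/-
S19 / GEO, [INST] layer (helper27; request #2327 of helper8, endorsed #2329 by helper22):
**the shared CONSTANTS of the situation `(K, n)` of a level `K` and a precision `n`.**

Every [INST] file (LevelMorph, LevelSitMaps, [KHOM], [LINES], SepInst, [LHYP], Instance) states its
output ABOUT THESE CONSTANTS.  Nothing here is new mathematics: every constant is a (reducible)
abbreviation of an expression in the canonical ingredients already on main,

* `LevelSitMaps.{OL, SL, mL, jL, algO1}` (helper9), `RedTuple.{Quo, red}`, `BaseQuotLevel.ιK`,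
* `N4.Setting.{FF, Rfin, Rinf, Rmid, inclFin, inclInf}`, `gaussSubalgebra`, `N4F.C.Levels.{Lvl, baseRing}`,
* `LevelBasis.{baseMapIncl, finIncl, infIncl, midIncl}` (helper26), `BaseLevel.{O₁, Ap, Am, A0}` (helper29),
* `SepWireTensor.qRed`, `mapS`, `epsS`, `LevelSit.{kOf, KLevel}`,

so a statement written with the raw expression and one written with the constant are the same
statement (`rfl` / `Iff.rfl`).  `A N ℓ K` are explicit everywhere (`N` only where it matters).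

For a level `K` (no hypothesis needed for the carriers):

  `OL A K = A ∩ K`,  `FK N K = FF (Lvl K) N`,  `BpK, BmK, B0K A N K = Rfin, Rinf, Rmid`,
  `WK A N K` the Gauss ring (as a `Subring`, as in `GaussN4.charts_of_star`),
  `SK A ℓ K n = O_K ⧸ (ℓⁿ)`,  `CpK, CmK, C0K A N ℓ K n = S ⊗[O_K] B_?`,
  `ipK, imK = mapS S inclFin / inclInf`,  `mK A ℓ K n = mL` (ϖ-free),  `πK = red`,  `ιK A K`,
  `IK A ℓ K n = (ℓⁿ)`,  `qpK, qmK, q0K = qRed (IK ..) B_?`,
  `jK A h0 = baseMapIncl A h0 : O₁ A → O_K`,  the ONE instance `algK A ℓ h0 n = algO1 A ℓ h0 n`,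
  `ε0K A N h0 ε₁ = midIncl ∘ ε₁ : Fin g → B0K`,  `εK A N ℓ h0 ε₁ n = epsS S (ε0K ..)`.

For a level with `[IsDiscreteValuationRing (OL A K)]`: THE uniformiser `ϖK A K`, THE absolute
ramification index `eK A ℓ K` (`ℓ ~ ϖ^e`), the exponent `kK A ℓ K m = kOf e m`
(`k + 1 = e (m + 1)`), the type `LineK A N K` of lines and the cocycle predicate
`KK A N ℓ K Λ m = LevelSit.KLevel Λ ℓ e m` of a system of lines `Λ`; with the basic facts
`irreducible_ϖK`, `maximalIdeal_eq_span_ϖK`, `ϖK_ne_zero`, `not_isUnit_ϖK`, `natCast_ne_zero`,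
`associated_eK`, `eK_pos`, `kK_succ`, `mK_eq_span_ϖK`, `IK_succ_eq_span_ϖK_pow`.
-/
import Mathlib
import Fermat.Agent.S19.Geo.LevelSit
import Fermat.Agent.S19.Geo.LevelSitMaps
import Fermat.Agent.S19.Geo.BaseLevel
import Fermat.Agent.S19.Cech.GaussN4
import Fermat.Agent.S19.Cech.DvrExt
import Fermat.Agent.N4F.C.LevelTheta

set_option autoImplicit false
set_option linter.unusedSectionVars false

open TensorProduct

noncomputable section

namespace Fermat.Agent.S19.Geo.LevelSitDefs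

open Fermat.Agent.S19.Abs Fermat.Agent.S19.Coord Fermat.Agent.S19.Cech
  Fermat.Agent.S19.Cech.Cocycle Fermat.Agent.S19.Cech.CoordOfLines
  Fermat.Agent.S19.Cech.CoordFamily Fermat.Agent.S19.Cech.RedTuple
  Fermat.Agent.S19.Cech.BaseQuotLevel Fermat.Agent.S19.Cech.SepWireTensor
  Fermat.Agent.S19.Cech.LevelBasis Fermat.Agent.S19.Geo.LevelSit
  Fermat.Agent.S19.Geo.LevelSitMaps Fermat.Agent.S19.Geo.BaseLevel
  Fermat.Agent.N4.Setting Fermat.Agent.N4.Chart Fermat.Agent.N4.FibreEmbedding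
  Fermat.Agent.N4F.C.Levels Fermat.Agent.P3G.Gamma

variable (A : ValuationSubring Qb) (N : ℕ) (ℓ : ℕ) (K : IntermediateField ℚ Qb)

/-! ### the function field and the charts of a level -/

/-- the function field of the level -/
abbrev FK : Type := FF (Lvl K) N

/-- the finite chart `B₊` of the level -/
abbrev BpK : Subalgebra (OL A K) (FK N K) := Rfin (Lvl K) N (baseRing A K)

/-- the chart at infinity `B₋` of the level -/
abbrev BmK : Subalgebra (OL A K) (FK N K) := Rinf (Lvl K) N (baseRing A K)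

/-- the overlap chart `B₀` of the level -/
abbrev B0K : Subalgebra (OL A K) (FK N K) := Rmid (Lvl K) N (baseRing A K)

theorem BpK_le_B0K : BpK A N K ≤ B0K A N K := chartAlg_mono (sFin_subset (Lvl K) N)

theorem BmK_le_B0K : BmK A N K ≤ B0K A N K := chartAlg_mono (sInf_subset (Lvl K) N)

/-- `inclFin` is the inclusion of subalgebras -/
theorem inclFin_eq_inclusion :
    inclFin (Lvl K) N (baseRing A K) = Subalgebra.inclusion (BpK_le_B0K A N K) := rfl

theorem inclInf_eq_inclusion :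
    inclInf (Lvl K) N (baseRing A K) = Subalgebra.inclusion (BmK_le_B0K A N K) := rfl

/-! ### the rings of the situation `(K, n)` -/

/-- `S_{K,n} = O_K ⧸ (ℓⁿ)` (`= LevelSitMaps.SL`) -/
abbrev SK (n : ℕ) : Type := SL A ℓ K n

/-- `C₊ = S ⊗[O_K] B₊` -/
abbrev CpK (n : ℕ) : Type := SK A ℓ K n ⊗[OL A K] ↥(BpK A N K)

/-- `C₋ = S ⊗[O_K] B₋` -/
abbrev CmK (n : ℕ) : Type := SK A ℓ K n ⊗[OL A K] ↥(BmK A N K)

/-- `C₀ = S ⊗[O_K] B₀` -/
abbrev C0K (n : ℕ) : Type := SK A ℓ K n ⊗[OL A K] ↥(B0K A N K)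

/-- `C₊ → C₀` -/
abbrev ipK (n : ℕ) : CpK A N ℓ K n →ₐ[SK A ℓ K n] C0K A N ℓ K n :=
  mapS (SK A ℓ K n) (inclFin (Lvl K) N (baseRing A K))

/-- `C₋ → C₀` -/
abbrev imK (n : ℕ) : CmK A N ℓ K n →ₐ[SK A ℓ K n] C0K A N ℓ K n :=
  mapS (SK A ℓ K n) (inclInf (Lvl K) N (baseRing A K))

/-- the ideal `𝔪_{K,n}` of `S_{K,n}` (`= LevelSitMaps.mL`: the image of the non-units) -/
abbrev mK (n : ℕ) : Ideal (SK A ℓ K n) := mL A ℓ K n

/-- the reduction `π : O_K → S_{K,n}` -/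
abbrev πK (n : ℕ) : OL A K →+* SK A ℓ K n := red (OL A K) ℓ n

/-- the ideal `(ℓⁿ)` of `O_K` -/
abbrev IK (n : ℕ) : Ideal (OL A K) := Ideal.span {((ℓ : ℕ) : OL A K) ^ n}

theorem SK_eq (n : ℕ) : SK A ℓ K n = (OL A K ⧸ IK A ℓ K n) := rfl

theorem πK_eq (n : ℕ) : πK A ℓ K n = Ideal.Quotient.mk (IK A ℓ K n) := rfl

theorem algebraMap_SK (n : ℕ) : algebraMap (OL A K) (SK A ℓ K n) = πK A ℓ K n := rfl

/-- the reduction `B₊ → C₊` -/
abbrev qpK (n : ℕ) : ↥(BpK A N K).toSubring →+* CpK A N ℓ K n :=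
  qRed (IK A ℓ K n) (BpK A N K)

/-- the reduction `B₋ → C₋` -/
abbrev qmK (n : ℕ) : ↥(BmK A N K).toSubring →+* CmK A N ℓ K n :=
  qRed (IK A ℓ K n) (BmK A N K)

/-- the reduction `B₀ → C₀` -/
abbrev q0K (n : ℕ) : ↥(B0K A N K).toSubring →+* C0K A N ℓ K n :=
  qRed (IK A ℓ K n) (B0K A N K)

/-! ### the base level -/

variable {K}

/-- the structure map `j : O₁ → O_K` (`= LevelSitMaps.jL = LevelBasis.baseMapIncl`) -/
abbrev jK (h0 : K0 A ≤ K) : O₁ A →+* OL A K := jL A h0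

/-- **the ONE `O₁`-algebra structure of `S_{K,n}`** (`= LevelSitMaps.algO1`); use it as
`letI := algK A ℓ h0 n` -/
@[reducible] def algK (h0 : K0 A ≤ K) (n : ℕ) : Algebra (O₁ A) (SK A ℓ K n) :=
  algO1 A ℓ h0 n

theorem algK_eq (h0 : K0 A ≤ K) (n : ℕ) :
    algK A ℓ h0 n = ((πK A ℓ K n).comp (jK A h0)).toAlgebra := rfl

/-- field `hj` of `CoordFamily.Sit` -/
theorem πK_jK (h0 : K0 A ≤ K) (n : ℕ) (c : O₁ A) :
    letI := algK A ℓ h0 n
    πK A ℓ K n (jK A h0 c) = algebraMap (O₁ A) (SK A ℓ K n) c := rfl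

/-- hypothesis `hι` of `CoordFamily.levelReps` -/
theorem ιK_jK (h0 : K0 A ≤ K) (c : O₁ A) : ιK A K (jK A h0 c) = ι₁ A c := rfl

/-- the frame of the level: the image of the frame `ε₁` of the base level -/
abbrev ε0K (h0 : K0 A ≤ K) {g : ℕ} (ε₁ : Fin g → A0 A N) : Fin g → ↥(B0K A N K) :=
  fun i => midIncl A N h0 (ε₁ i)

/-- the frame of the situation `(K, n)` -/
abbrev εK (h0 : K0 A ≤ K) {g : ℕ} (ε₁ : Fin g → A0 A N) (n : ℕ) :
    Fin g → C0K A N ℓ K n :=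
  epsS (SK A ℓ K n) (ε0K A N h0 ε₁)

theorem εK_apply (h0 : K0 A ≤ K) {g : ℕ} (ε₁ : Fin g → A0 A N) (n : ℕ) (i : Fin g) :
    εK A N ℓ h0 ε₁ n i = (1 : SK A ℓ K n) ⊗ₜ[OL A K] midIncl A N h0 (ε₁ i) := rfl

/-! ### the uniformiser, the ramification index, the lines -/

variable (K)
variable [IsDiscreteValuationRing (OL A K)]

/-- **THE uniformiser of the level** -/
def ϖK : OL A K :=
  Classical.choose (IsDiscreteValuationRing.exists_irreducible (OL A K))

theorem irreducible_ϖK : Irreducible (ϖK A K) :=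
  Classical.choose_spec (IsDiscreteValuationRing.exists_irreducible (OL A K))

theorem maximalIdeal_eq_span_ϖK :
    IsLocalRing.maximalIdeal (OL A K) = Ideal.span {ϖK A K} :=
  (irreducible_ϖK A K).maximalIdeal_eq

theorem ϖK_ne_zero : ϖK A K ≠ 0 := (irreducible_ϖK A K).ne_zero

theorem not_isUnit_ϖK : ¬ IsUnit (ϖK A K) := (irreducible_ϖK A K).not_isUnit

omit [IsDiscreteValuationRing (OL A K)] in
theorem ιK_natCast (n : ℕ) : ιK A K ((n : ℕ) : OL A K) = (n : Qb) := map_natCast _ _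

omit [IsDiscreteValuationRing (OL A K)] in
theorem natCast_ne_zero {ℓ : ℕ} (hℓ : ℓ ≠ 0) : ((ℓ : ℕ) : OL A K) ≠ 0 := by
  intro h
  have : (ℓ : Qb) = 0 := by rw [← ιK_natCast A K ℓ, h, map_zero]
  exact hℓ (Nat.cast_eq_zero.1 this)

theorem exists_eK :
    ∃ e : ℕ, ((ℓ : ℕ) : OL A K) ≠ 0 → Associated (((ℓ : ℕ) : OL A K)) (ϖK A K ^ e) := by
  by_cases h : ((ℓ : ℕ) : OL A K) = 0
  · exact ⟨0, fun h' => absurd h h'⟩
  · obtain ⟨e, he⟩ := IsDiscreteValuationRing.associated_pow_irreducible h (irreducible_ϖK A K)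
    exact ⟨e, fun _ => he⟩

/-- **THE absolute ramification index of the level**: `ℓ ~ ϖ_K ^ e` -/
def eK : ℕ := Classical.choose (exists_eK A ℓ K)

theorem associated_eK (hℓ : ℓ ≠ 0) :
    Associated (((ℓ : ℕ) : OL A K)) (ϖK A K ^ eK A ℓ K) :=
  Classical.choose_spec (exists_eK A ℓ K) (natCast_ne_zero A K hℓ)

theorem eK_pos (hℓ : ℓ ≠ 0) (hA : A.LiesOverPrime ℓ) : 0 < eK A ℓ K := by
  rcases Nat.eq_zero_or_pos (eK A ℓ K) with h | h
  · exfalso
    have has := associated_eK A ℓ K hℓ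
    rw [h, pow_zero] at has
    have hu : IsUnit (((ℓ : ℕ) : OL A K)) := (has.isUnit_iff).2 isUnit_one
    have hnu : ¬ IsUnit (((ℓ : ℕ) : OL A K)) := by
      rw [DvrExt.not_isUnit_iff_mem_nonunits]
      have : DvrExt.iota A K (((ℓ : ℕ) : OL A K)) = (ℓ : Qb) := map_natCast _ _
      rw [this]
      exact hA
    exact hnu hu
  · exact h

/-- the exponent `k` with `k + 1 = e (m + 1)`: precision `m + 1` in `ℓ` is precision `k + 1` in `ϖ` -/
abbrev kK (m : ℕ) : ℕ := kOf (eK A ℓ K) m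

theorem kK_succ (hℓ : ℓ ≠ 0) (hA : A.LiesOverPrime ℓ) (m : ℕ) :
    kK A ℓ K m + 1 = eK A ℓ K * (m + 1) := kOf_succ (eK_pos A ℓ K hℓ hA) m

/-- `(ℓ^(m+1)) = (ϖ^(k+1))` -/
theorem IK_succ_eq_span_ϖK_pow (hℓ : ℓ ≠ 0) (hA : A.LiesOverPrime ℓ) (m : ℕ) :
    IK A ℓ K (m + 1) = Ideal.span {ϖK A K ^ (kK A ℓ K m + 1)} :=
  span_pow_eq (eK_pos A ℓ K hℓ hA) (associated_eK A ℓ K hℓ) m

/-- `𝔪_{K,n} = (red ϖ_K)` -/
theorem mK_eq_span_ϖK (n : ℕ) : mK A ℓ K n = Ideal.span {πK A ℓ K n (ϖK A K)} :=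
  mL_eq_span_singleton_of_irreducible A ℓ K n (irreducible_ϖK A K)

/-- `𝔪_{K,m+1} = LevelSit.mS` (the ideal of `LevelSit.sit`) -/
theorem mK_eq_mS (m : ℕ) : mK A ℓ K (m + 1) = mS (OL A K) (ϖK A K) ℓ m :=
  mK_eq_span_ϖK A ℓ K (m + 1)

/-- the Gauss ring of the level (as a `Subring`, as in `GaussN4.charts_of_star`) -/
abbrev WK : Subring (FK N K) := (gaussSubalgebra (Lvl K) N (baseRing A K)).toSubring

/-- the uniformiser in the function field -/
abbrev ϖF : FK N K := algebraMap (OL A K) (FK N K) (ϖK A K)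

/-- the type of the lines of the level -/
abbrev LineK : Type :=
  Line (ϖF A N K) (BpK A N K).toSubring (BmK A N K).toSubring (B0K A N K).toSubring (WK A N K)

/-- the type of the chart data of the level (the value of `GaussN4.charts_of_star`) -/
abbrev ChartsK : Prop :=
  Charts (ϖF A N K) (BpK A N K).toSubring (BmK A N K).toSubring (B0K A N K).toSubring (WK A N K)

/-- **the cocycle predicate of the situation `(K, m + 1)`** for a system of lines `Λ` -/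
abbrev KK {Jb : Type} (Λ : Jb → LineK A N K → Prop) (m : ℕ) : Jb → C0K A N ℓ K (m + 1) → Prop :=
  KLevel Λ ℓ (eK A ℓ K) m

theorem KK_iff {Jb : Type} (Λ : Jb → LineK A N K → Prop) (m : ℕ) {z : Jb}
    {v : C0K A N ℓ K (m + 1)} :
    KK A N ℓ K Λ m z v ↔ ∃ u, kappa Λ (kK A ℓ K m) z u ∧ ∃ hu : u ∈ (B0K A N K).toSubring,
      v = q0K A N ℓ K (m + 1) ⟨u, hu⟩ := Iff.rfl

end Fermat.Agent.S19.Geo.LevelSitDefs

end
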