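/-
S19 / GEO, leaf [KHOM] (helper6; field map v2.1 of helper22, board #2312): **functoriality of the
cocycle predicates `kappa` / `kImage` of `CoordOfLines.lean` along a ring homomorphism of the ambient
rings** — the "cocycle part" `∀ z v, X.K z v → Y.K (act z) (ψ0 v)` of `Sit.IsHom` / `Sit.IsTwist`.
Abstract: only `Cocycle`, `CoordOfLines`, `TransportAut`.

Setting: two chart situations `(F, ϖ, Bp, Bm, B0, Rg)` and `(F', ϖ', Bp', Bm', B0', Rg')`, a ring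
homomorphism `τ : F →+* F'` with `τ ϖ = c ϖ'ᵉ` (`e ≥ 1`, `c ∈ B0'`), `τ B0 ⊆ B0'`, `τ Rg ⊆ Rg'`
(`ChartHom`), and two systems of lines `Λ`, `Λ'` such that every line `L` of a class `z` is mapped
into SOME line `L'` of the class `act z` (`LinesHom`: `τ L.L_? ⊆ L'.L_?`).  Then

* `kappa_map`  : `kappa Λ k z u → kappa Λ' k' (act z) (τ u)` whenever `k' + 1 ≤ e (k + 1)`;
* `kImage_map` : `kImage q0 (kappa Λ k) z v → kImage q0' (kappa Λ' k') (act z) (ψ0 v)` for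
  `ψ0 ∘ q0 = q0' ∘ τ`.

The three instances of the geometric layer:
* level inclusion `L ≤ L'` (`τ` the inclusion of function fields, `act = id`, `ϖ_L = c ϖ_{L'}ʳ`,
  `e_{L'} = r e_L`): `kappa_map` with `kOf_mul_le`;
* lowering the precision (`τ = id`, `e = 1`): `kappa_mono_le` / `kappa_kOf_succ`;
* Galois (`τ` an automorphism, `Equivariant`, `e = 1`): `kappa_map_equivariant`.
-/
import Fermat.Agent.S19.Cech.CoordOfLines
import Fermat.Agent.S19.Cech.TransportAut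

set_option autoImplicit false
set_option linter.unusedSectionVars false

namespace Fermat.Agent.S19.Geo.LevelLinesHom

open Fermat.Agent.S19.Cech Fermat.Agent.S19.Cech.Cocycle Fermat.Agent.S19.Cech.CoordOfLines
  Fermat.Agent.S19.Cech.TransportAut

/-! ### monotonicity in the precision -/

section Mono

variable {F : Type*} [CommRing F] [IsDomain F] {ϖ : F} {Bp Bm B0 Rg : Subring F}
variable {Jb : Type*} [AddCommGroup Jb]

/-- a cocycle modulo `ϖ^k` is a cocycle modulo `ϖ^k'` for `k' ≤ k` -/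
theorem isCocycle_mono_le (C : Charts ϖ Bp Bm B0 Rg) (L : Line ϖ Bp Bm B0 Rg) {k k' : ℕ}
    (h : k' ≤ k) {fp fm u : F} (hc : L.IsCocycle k fp fm u) : L.IsCocycle k' fp fm u := by
  induction h with
  | refl => exact hc
  | step _ ih => exact ih (Line.IsCocycle.mono C L hc)

/-- the cocycles of precision `ϖ^(k+1)` are cocycles of precision `ϖ^(k'+1)` for `k' ≤ k` -/
theorem kappa_mono_le {Λ : Jb → Line ϖ Bp Bm B0 Rg → Prop} (C : Charts ϖ Bp Bm B0 Rg) {k k' : ℕ}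
    (h : k' ≤ k) {z : Jb} {u : F} (hu : kappa Λ k z u) : kappa Λ k' z u := by
  obtain ⟨L, hL, fp, hfp, fm, hfm, h1p, h1m, hc⟩ := hu
  exact ⟨L, hL, fp, hfp, fm, hfm, h1p, h1m, isCocycle_mono_le C L (Nat.succ_le_succ h) hc⟩

end Mono

/-! ### along a ring homomorphism -/

section Hom

variable {F F' : Type*} [CommRing F] [IsDomain F] [CommRing F'] [IsDomain F']
variable {ϖ : F} {ϖ' c : F'} {e : ℕ} {Bp Bm B0 Rg : Subring F} {Bp' Bm' B0' Rg' : Subring F'}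
variable {Jb Jb' : Type*} [AddCommGroup Jb] [AddCommGroup Jb']

/-- The ring-level hypotheses on `τ : F →+* F'`: `τ ϖ = c ϖ'ᵉ` with `e ≥ 1`, `c ∈ B0'`, and `τ` maps
the overlap ring and the Gauss ring into the overlap ring and the Gauss ring. -/
structure ChartHom (τ : F →+* F') (ϖ : F) (ϖ' c : F') (e : ℕ) (B0 Rg : Subring F)
    (B0' Rg' : Subring F') : Prop where
  pos : 1 ≤ e
  map_ϖ : τ ϖ = c * ϖ' ^ e
  c_mem : c ∈ B0'
  map_0 : ∀ b ∈ B0, τ b ∈ B0'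
  map_R : ∀ r ∈ Rg, τ r ∈ Rg'

/-- Every line of a class `z` is mapped by `τ` into some line of the class `act z`. -/
def LinesHom (τ : F →+* F') (Λ : Jb → Line ϖ Bp Bm B0 Rg → Prop)
    (Λ' : Jb' → Line ϖ' Bp' Bm' B0' Rg' → Prop) (act : Jb → Jb') : Prop :=
  ∀ z L, Λ z L → ∃ L', Λ' (act z) L' ∧ (∀ x ∈ L.Lp, τ x ∈ L'.Lp) ∧ (∀ x ∈ L.Lm, τ x ∈ L'.Lm) ∧
    ∀ x ∈ L.L0, τ x ∈ L'.L0

variable {τ : F →+* F'} {Λ : Jb → Line ϖ Bp Bm B0 Rg → Prop}
  {Λ' : Jb' → Line ϖ' Bp' Bm' B0' Rg' → Prop} {act : Jb → Jb'}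

/-- `IsOne` along a `ChartHom`. -/
theorem ChartHom.isOne (hτ : ChartHom τ ϖ ϖ' c e B0 Rg B0' Rg')
    (C' : Charts ϖ' Bp' Bm' B0' Rg') {f : F} (h : IsOne ϖ Rg f) : IsOne ϖ' Rg' (τ f) :=
  IsOne.map τ hτ.pos hτ.map_ϖ (C'.le_R hτ.c_mem) C'.mem_R hτ.map_R h

/-- **[KHOM], cocycle form.**  Cocycles of precision `ϖ^(k+1)` of the class `z` are mapped by `τ` to
cocycles of precision `ϖ'^(k'+1)` of the class `act z`, as soon as `k' + 1 ≤ e (k + 1)`. -/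
theorem kappa_map (C' : Charts ϖ' Bp' Bm' B0' Rg') (hτ : ChartHom τ ϖ ϖ' c e B0 Rg B0' Rg')
    (hΛ : LinesHom τ Λ Λ' act) {k k' : ℕ} (hk : k' + 1 ≤ e * (k + 1)) {z : Jb} {u : F}
    (h : kappa Λ k z u) : kappa Λ' k' (act z) (τ u) := by
  obtain ⟨L, hL, fp, hfp, fm, hfm, h1p, h1m, hc⟩ := h
  obtain ⟨L', hL', hp, hm, h0⟩ := hΛ z L hL
  refine ⟨L', hL', τ fp, hp fp hfp, τ fm, hm fm hfm, hτ.isOne C' h1p, hτ.isOne C' h1m, ?_⟩
  exact isCocycle_mono_le C' L' hk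
    (isCocycle_map τ hτ.map_ϖ L L' hτ.c_mem hτ.map_0 h0 hc)

variable {C0 C0' : Type*} [CommRing C0] [CommRing C0']

/-- **[KHOM], image form** (the shape of `Sit.IsHom` / `Sit.IsTwist`): if `ψ0 ∘ q0 = q0' ∘ τ` on
`B0`, the images of the cocycles of `z` are mapped by `ψ0` to images of cocycles of `act z`. -/
theorem kImage_map (C' : Charts ϖ' Bp' Bm' B0' Rg') (hτ : ChartHom τ ϖ ϖ' c e B0 Rg B0' Rg')
    (hΛ : LinesHom τ Λ Λ' act) {k k' : ℕ} (hk : k' + 1 ≤ e * (k + 1))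
    {q0 : B0 →+* C0} {q0' : B0' →+* C0'} {ψ0 : C0 →+* C0'}
    (hq : ∀ (b : F) (hb : b ∈ B0), ψ0 (q0 ⟨b, hb⟩) = q0' ⟨τ b, hτ.map_0 b hb⟩)
    {z : Jb} {v : C0} (h : kImage q0 (kappa Λ k) z v) :
    kImage q0' (kappa Λ' k') (act z) (ψ0 v) := by
  obtain ⟨u, hu, huB, rfl⟩ := h
  exact ⟨τ u, kappa_map C' hτ hΛ hk hu, hτ.map_0 u huB, hq u huB⟩

/-- the same with the compatibility stated for an arbitrary map `τ0 : B0 → B0'` inducing `τ` -/
theorem kImage_map' (C' : Charts ϖ' Bp' Bm' B0' Rg') (hτ : ChartHom τ ϖ ϖ' c e B0 Rg B0' Rg')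
    (hΛ : LinesHom τ Λ Λ' act) {k k' : ℕ} (hk : k' + 1 ≤ e * (k + 1))
    {q0 : B0 →+* C0} {q0' : B0' →+* C0'} {ψ0 : C0 →+* C0'} (τ0 : B0 → B0')
    (hτ0 : ∀ b : B0, ((τ0 b : B0') : F') = τ (b : F)) (hq : ∀ b : B0, ψ0 (q0 b) = q0' (τ0 b))
    {z : Jb} {v : C0} (h : kImage q0 (kappa Λ k) z v) :
    kImage q0' (kappa Λ' k') (act z) (ψ0 v) := by
  refine kImage_map C' hτ hΛ hk (fun b hb => ?_) h
  rw [hq ⟨b, hb⟩]
  congr 1
  exact Subtype.ext (hτ0 ⟨b, hb⟩)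

end Hom

/-! ### the identity: lowering the precision -/

section Prec

variable {F : Type*} [CommRing F] [IsDomain F] {ϖ : F} {Bp Bm B0 Rg : Subring F}
variable {Jb : Type*} [AddCommGroup Jb] {C0 : Type*} [CommRing C0]

/-- the identity is a `ChartHom` (`c = 1`, `e = 1`) -/
theorem chartHom_id : ChartHom (RingHom.id F) ϖ ϖ 1 1 B0 Rg B0 Rg where
  pos := le_rfl
  map_ϖ := by simp
  c_mem := B0.one_mem
  map_0 := fun _ hb => hb
  map_R := fun _ hr => hr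

/-- lowering the precision on the images: same `q0`-target is NOT assumed, only `ψ0 ∘ q0 = q0'`. -/
theorem kImage_mono {Λ : Jb → Line ϖ Bp Bm B0 Rg → Prop} (C : Charts ϖ Bp Bm B0 Rg) {k k' : ℕ}
    (h : k' ≤ k) {C0' : Type*} [CommRing C0'] {q0 : B0 →+* C0} {q0' : B0 →+* C0'}
    {ψ0 : C0 →+* C0'} (hq : ∀ b : B0, ψ0 (q0 b) = q0' b) {z : Jb} {v : C0}
    (hv : kImage q0 (kappa Λ k) z v) : kImage q0' (kappa Λ k') z (ψ0 v) := by
  obtain ⟨u, hu, huB, rfl⟩ := hv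
  exact ⟨u, kappa_mono_le C h hu, huB, hq _⟩

end Prec

/-! ### along an isomorphism (`TransportAut.Equivariant`) -/

section Iso

variable {F F' : Type*} [CommRing F] [IsDomain F] [CommRing F'] [IsDomain F']
variable {ϖ : F} {ϖ' c d : F'} {Bp Bm B0 Rg : Subring F} {Bp' Bm' B0' Rg' : Subring F'}
variable {Jb Jb' : Type*} [AddCommGroup Jb] [AddCommGroup Jb']

/-- an `Equivariant` isomorphism is a `ChartHom` with `e = 1` -/
theorem chartHom_of_equivariant {φ : F ≃+* F'}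
    (T : Equivariant φ ϖ ϖ' c d Bp Bm B0 Rg Bp' Bm' B0' Rg')
    (C' : Charts ϖ' Bp' Bm' B0' Rg') :
    ChartHom (φ : F →+* F') ϖ ϖ' c 1 B0 Rg B0' Rg' where
  pos := le_rfl
  map_ϖ := by rw [pow_one]; exact T.map_ϖ
  c_mem := C'.p_le T.c_mem_p
  map_0 := fun b hb => (T.mem_0 b).2 hb
  map_R := fun r hr => (T.mem_R r).2 hr

/-- **[KHOM] for a Galois automorphism**: precision is preserved. -/
theorem kappa_map_equivariant {φ : F ≃+* F'}
    (T : Equivariant φ ϖ ϖ' c d Bp Bm B0 Rg Bp' Bm' B0' Rg') (C' : Charts ϖ' Bp' Bm' B0' Rg')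
    {Λ : Jb → Line ϖ Bp Bm B0 Rg → Prop} {Λ' : Jb' → Line ϖ' Bp' Bm' B0' Rg' → Prop}
    {act : Jb → Jb'} (hΛ : LinesHom (φ : F →+* F') Λ Λ' act) {k k' : ℕ} (hk : k' ≤ k) {z : Jb}
    {u : F} (h : kappa Λ k z u) : kappa Λ' k' (act z) (φ u) :=
  kappa_map C' (chartHom_of_equivariant T C') hΛ (by omega) h

/-- the image of a system of lines under an `Equivariant` isomorphism: if `Λ' (act z)` contains
the image line `T.mapLine C L` of every line `L` of `z`, then `LinesHom` holds. -/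
theorem linesHom_of_mapLine {φ : F ≃+* F'}
    (T : Equivariant φ ϖ ϖ' c d Bp Bm B0 Rg Bp' Bm' B0' Rg') (C : Charts ϖ Bp Bm B0 Rg)
    {Λ : Jb → Line ϖ Bp Bm B0 Rg → Prop} {Λ' : Jb' → Line ϖ' Bp' Bm' B0' Rg' → Prop}
    {act : Jb → Jb'} (h : ∀ z L, Λ z L → Λ' (act z) (T.mapLine C L)) :
    LinesHom (φ : F →+* F') Λ Λ' act := fun z L hL =>
  ⟨T.mapLine C L, h z L hL, fun _ hx => (T.mem_mapLine_Lp C L).2 hx,
    fun _ hx => (T.mem_mapLine_Lm C L).2 hx, fun _ hx => (T.mem_mapLine_L0 C L).2 hx⟩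

end Iso

/-! ### arithmetic of the exponents `k + 1 = e (m + 1)` -/

section Exponent

/-- level inclusion: `e' = r e` (`ϖ_L = c ϖ_{L'}ʳ`, `ℓ ~ ϖ_Lᵉ ~ ϖ_{L'}^{e'}`), same `m`:
`(e'(m+1) - 1) + 1 ≤ r ((e(m+1) - 1) + 1)`. -/
theorem kOf_mul_le {e r : ℕ} (he : 0 < e) (hr : 0 < r) (m : ℕ) :
    (r * e * (m + 1) - 1) + 1 ≤ r * ((e * (m + 1) - 1) + 1) := by
  have h1 : 0 < e * (m + 1) := Nat.mul_pos he (Nat.succ_pos m)
  have h2 : e * (m + 1) - 1 + 1 = e * (m + 1) := by omega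
  have h3 : 0 < r * (e * (m + 1)) := Nat.mul_pos hr h1
  rw [h2, mul_assoc]
  omega

/-- lowering the precision: `e(m+1) - 1 ≤ e(m+2) - 1`. -/
theorem kOf_le_succ (e m : ℕ) : e * (m + 1) - 1 ≤ e * (m + 1 + 1) - 1 := by
  have : e * (m + 1) ≤ e * (m + 1 + 1) := Nat.mul_le_mul_left e (Nat.le_succ _)
  omega

end Exponent

end Fermat.Agent.S19.Geo.LevelLinesHom
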