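/-
S19 / GEO, [INST] support: **the ideal `mS O ϖ ℓ m = (red ϖ)` of `LevelSit.sit` is the ideal
`quoIdeal` of the reduction layer**, hence the transition maps `quoMap`, `quoRed` (and the Galois
twisted ones) map `mS` into `mS` — the hypothesis `hmem` of `ChangeBase.morph_chg` in the shape of
the situations `LevelSit.sit`.
-/
import Fermat.Agent.S19.Geo.LevelSit
import Fermat.Agent.S19.Geo.LevelSitMaps

set_option autoImplicit false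

namespace Fermat.Agent.S19.Geo.LevelSitIdeal

open Fermat.Agent.S19.Abs Fermat.Agent.S19.Coord Fermat.Agent.S19.Cech
  Fermat.Agent.S19.Cech.RedTuple Fermat.Agent.S19.Cech.BaseQuotLevel
  Fermat.Agent.S19.Geo.LevelSit Fermat.Agent.S19.Geo.LevelSitMaps
  Fermat.Agent.S19.Cech.LevelBasis Fermat.Agent.N4F.C.Levels Fermat.Agent.P3G.Gamma

/-! ### abstract level rings -/

section Abstract

variable {A : ValuationSubring Qb} {ℓ : ℕ}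
variable {O : Type} [CommRing O] [IsLocalRing O] {ι : O →+* Qb} {ϖ : O}
variable {O' : Type} [CommRing O'] [IsLocalRing O'] {ι' : O' →+* Qb} {ϖ' : O'}

theorem mS_eq_quoIdeal (hι : IsLevelRing A ℓ ι)
    (hloc : ∀ x : O, x ∈ IsLocalRing.maximalIdeal O ↔ ι x ∈ A.nonunits)
    (hϖ : IsLocalRing.maximalIdeal O = Ideal.span {ϖ}) (m : ℕ) :
    mS O ϖ ℓ m = quoIdeal hι (m + 1) :=
  (quoIdeal_eq_span_singleton hι hloc (m + 1) hϖ).symm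

/-- `hmem` for a transition `θ` with `ι' ∘ θ = ι` (level inclusion) -/
theorem quoMap_mem_mS (hι : IsLevelRing A ℓ ι)
    (hloc : ∀ x : O, x ∈ IsLocalRing.maximalIdeal O ↔ ι x ∈ A.nonunits)
    (hϖ : IsLocalRing.maximalIdeal O = Ideal.span {ϖ}) (hι' : IsLevelRing A ℓ ι')
    (hloc' : ∀ x : O', x ∈ IsLocalRing.maximalIdeal O' ↔ ι' x ∈ A.nonunits)
    (hϖ' : IsLocalRing.maximalIdeal O' = Ideal.span {ϖ'}) (θ : O →+* O')
    (hθ : ∀ x, ι' (θ x) = ι x) (m : ℕ) {s : Quo O ℓ (m + 1)} (hs : s ∈ mS O ϖ ℓ m) :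
    quoMap θ ℓ (m + 1) s ∈ mS O' ϖ' ℓ m := by
  rw [mS_eq_quoIdeal hι hloc hϖ] at hs
  rw [mS_eq_quoIdeal hι' hloc' hϖ']
  exact quoMap_mem_quoIdeal hι hι' θ hθ (m + 1) hs

/-- `hmem` for a `σ`-semilinear transition, `σ ∈ D_A` -/
theorem quoMap_mem_mS_of_mem_decomposition (hι : IsLevelRing A ℓ ι)
    (hloc : ∀ x : O, x ∈ IsLocalRing.maximalIdeal O ↔ ι x ∈ A.nonunits)
    (hϖ : IsLocalRing.maximalIdeal O = Ideal.span {ϖ}) (hι' : IsLevelRing A ℓ ι')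
    (hloc' : ∀ x : O', x ∈ IsLocalRing.maximalIdeal O' ↔ ι' x ∈ A.nonunits)
    (hϖ' : IsLocalRing.maximalIdeal O' = Ideal.span {ϖ'}) (θ : O →+* O') {σ : GQ}
    (hσ : σ ∈ A.decompositionSubgroup ℚ) (hθ : ∀ x, ι' (θ x) = σ (ι x)) (m : ℕ)
    {s : Quo O ℓ (m + 1)} (hs : s ∈ mS O ϖ ℓ m) : quoMap θ ℓ (m + 1) s ∈ mS O' ϖ' ℓ m := by
  rw [mS_eq_quoIdeal hι hloc hϖ] at hs
  rw [mS_eq_quoIdeal hι' hloc' hϖ']
  have h1 := quoMap_mem_quoIdeal hι (hι'.twist (inv_mem hσ)) θ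
    (ι' := ((σ⁻¹ : GQ) : Qb →+* Qb).comp ι') (fun x => by
      rw [RingHom.comp_apply, hθ]
      change (σ⁻¹ * σ) (ι x) = ι x
      rw [inv_mul_cancel]; rfl) (m + 1) hs
  rw [quoIdeal_twist _ (inv_mem hσ)] at h1
  exact h1

/-- `hmem` for lowering the precision -/
theorem quoRed_mem_mS (hι : IsLevelRing A ℓ ι)
    (hloc : ∀ x : O, x ∈ IsLocalRing.maximalIdeal O ↔ ι x ∈ A.nonunits)
    (hϖ : IsLocalRing.maximalIdeal O = Ideal.span {ϖ}) (m : ℕ) {s : Quo O ℓ (m + 1 + 1)}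
    (hs : s ∈ mS O ϖ ℓ (m + 1)) : quoRed O ℓ (m + 1) s ∈ mS O ϖ ℓ m := by
  rw [mS_eq_quoIdeal hι hloc hϖ] at hs
  rw [mS_eq_quoIdeal hι hloc hϖ]
  exact quoRed_mem_quoIdeal hι (m + 1) hs

omit [IsLocalRing O] in
/-- `mS` is nilpotent -/
theorem mS_pow_eq_bot {e : ℕ} (he : ∃ y : O, ϖ ^ e = (ℓ : O) * y) (m : ℕ) :
    mS O ϖ ℓ m ^ (e * (m + 1)) = ⊥ := by
  unfold mS
  rw [Ideal.span_singleton_pow, ← map_pow, eq_bot_iff, Ideal.span_le]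
  rintro _ rfl
  rw [SetLike.mem_coe, Ideal.mem_bot, Ideal.Quotient.eq_zero_iff_mem, Ideal.mem_span_singleton]
  obtain ⟨y, hy⟩ := he
  exact ⟨y ^ (m + 1), by rw [pow_mul, hy, mul_pow]⟩

omit [IsLocalRing O] in
theorem mS_pow_eq_bot_of_associated {e : ℕ} (hℓe : Associated ((ℓ : O)) (ϖ ^ e)) (m : ℕ) :
    mS O ϖ ℓ m ^ (e * (m + 1)) = ⊥ := by
  obtain ⟨u, hu⟩ := hℓe
  exact mS_pow_eq_bot ⟨(u : O), hu.symm⟩ m

omit [IsLocalRing O] in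
theorem mS_isNilpotent {e : ℕ} (hℓe : Associated ((ℓ : O)) (ϖ ^ e)) (m : ℕ) :
    IsNilpotent (mS O ϖ ℓ m) :=
  ⟨_, mS_pow_eq_bot_of_associated hℓe m⟩

end Abstract

/-! ### the concrete levels -/

section Concrete

variable (A : ValuationSubring Qb) (ℓ : ℕ)

/-- `mS` of the level `L` is `mL` -/
theorem mS_eq_mL (L : IntermediateField ℚ Qb) [IsLocalRing (OL A L)] {ϖ : OL A L}
    (hϖ : IsLocalRing.maximalIdeal (OL A L) = Ideal.span {ϖ}) (m : ℕ) :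
    mS (OL A L) ϖ ℓ m = mL A ℓ L (m + 1) :=
  (mL_eq_span_singleton A ℓ L (m + 1) hϖ).symm

/-- `hmem` for the level inclusion `L ≤ L'` -/
theorem φIncl_mem_mS {L L' : IntermediateField ℚ Qb} (hLL' : L ≤ L') [IsLocalRing (OL A L)]
    [IsLocalRing (OL A L')] {ϖ : OL A L} {ϖ' : OL A L'}
    (hϖ : IsLocalRing.maximalIdeal (OL A L) = Ideal.span {ϖ})
    (hϖ' : IsLocalRing.maximalIdeal (OL A L') = Ideal.span {ϖ'}) (m : ℕ)
    {s : SL A ℓ L (m + 1)} (hs : s ∈ mS (OL A L) ϖ ℓ m) :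
    φIncl A ℓ hLL' (m + 1) s ∈ mS (OL A L') ϖ' ℓ m := by
  rw [mS_eq_mL A ℓ L hϖ] at hs
  rw [mS_eq_mL A ℓ L' hϖ']
  exact φIncl_mem A ℓ hLL' (m + 1) hs

/-- `hmem` for lowering the precision -/
theorem φPrec_mem_mS (L : IntermediateField ℚ Qb) [IsLocalRing (OL A L)] {ϖ : OL A L}
    (hϖ : IsLocalRing.maximalIdeal (OL A L) = Ideal.span {ϖ}) (m : ℕ)
    {s : SL A ℓ L (m + 1 + 1)} (hs : s ∈ mS (OL A L) ϖ ℓ (m + 1)) :
    φPrec A ℓ L (m + 1) s ∈ mS (OL A L) ϖ ℓ m := by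
  rw [mS_eq_mL A ℓ L hϖ] at hs
  rw [mS_eq_mL A ℓ L hϖ]
  exact φPrec_mem A ℓ L (m + 1) hs

variable {A}

/-- `hmem` for `σ ∈ D_A` on a Galois-stable level -/
theorem φGal_mem_mS (L : IntermediateField ℚ Qb) (hL : ∀ (τ : GQ) (x : Qb), x ∈ L → τ x ∈ L)
    {σ : GQ} (hσ : σ ∈ A.decompositionSubgroup ℚ) [IsLocalRing (OL A L)] {ϖ : OL A L}
    (hϖ : IsLocalRing.maximalIdeal (OL A L) = Ideal.span {ϖ}) (m : ℕ)
    {s : SL A ℓ L (m + 1)} (hs : s ∈ mS (OL A L) ϖ ℓ m) :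
    φGal ℓ L hL hσ (m + 1) s ∈ mS (OL A L) ϖ ℓ m := by
  rw [mS_eq_mL A ℓ L hϖ] at hs
  rw [mS_eq_mL A ℓ L hϖ]
  exact φGal_mem ℓ L hL hσ (m + 1) hs

end Concrete

end Fermat.Agent.S19.Geo.LevelSitIdeal
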