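/-
S19 / GEO, leaf [INST]: **the generic glue for `CoordFamily.Sit.IsTwist`** between two situations
built by `LevelSit.sit` (helper3; twin of helper27's `LevelSitHom.isHom_of_chg`).

Two level data `(O, F, B_?, ϖ, e, Λ, ε₀, j)` and `(O', F', B_?', ϖ', e', Λ', ε₀', j')` at the SAME
precision `m + 1`, base-level charts `ip₁ : Ap → A0`, `im₁ : Am → A0`, `ε₁` over `O₁`.  Given

* base maps `β_? : A_? →+* ↥B_?'` over `j' : O₁ → O'`, commuting with `ip₁, im₁` and the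
  inclusions, with `β0 (ε₁ i) = ε₀' i`;
* the level map `θ : O →+* O'`, `τ : F →+* F'` over `θ` with `τ (B_?) ⊆ B_?'`, and
  `φ : O ⧸ (ℓ^(m+1)) →+* O' ⧸ (ℓ^(m+1))` over `θ` with `φ (𝔪) ⊆ 𝔪'`;
* the twisted frame: `τ (ε₀ i) = β0 (εt i)` for a base-level family `εt : Fin g → A0`;
* `ι' ∘ θ = σ ∘ ι`;
* the cocycle part `hκ : kappa Λ (kOf e m) z u → kappa Λ' (kOf e' m) (act z) (τ u)`,

the situation `sit …` is `IsTwist`-related to `sit' …` (`isTwist_of_chg`).  Both `Morph`s are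
`ChangeBase.morph_chg`, all maps are `chgMap`s.
-/
import Mathlib
import Fermat.Agent.S19.Geo.LevelSit
import Fermat.Agent.S19.Cech.ChangeBase

set_option autoImplicit false
set_option linter.unusedSectionVars false

open TensorProduct

namespace Fermat.Agent.S19.Geo.LevelSitTwist

open Fermat.Agent.S19.Abs Fermat.Agent.S19.Coord Fermat.Agent.S19.Cech
  Fermat.Agent.S19.Cech.Cocycle Fermat.Agent.S19.Cech.CoordOfLines
  Fermat.Agent.S19.Cech.CoordFamily Fermat.Agent.S19.Cech.RedTuple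
  Fermat.Agent.S19.Cech.BaseQuotLevel Fermat.Agent.S19.Cech.SepWireTensor
  Fermat.Agent.S19.Geo.LevelSit

/-! ### restriction of a ring hom to subalgebra carriers -/

section Res

variable {O O' : Type*} [CommRing O] [CommRing O'] {F F' : Type*} [CommRing F] [CommRing F']
  [Algebra O F] [Algebra O' F']

/-- the restriction `↥B →+* ↥B'` of `τ : F →+* F'` with `τ (B) ⊆ B'` -/
def resHom (τ : F →+* F') {B : Subalgebra O F} {B' : Subalgebra O' F'}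
    (h : ∀ x ∈ B, τ x ∈ B') : ↥B →+* ↥B' where
  toFun x := ⟨τ x.1, h x.1 x.2⟩
  map_one' := Subtype.ext (map_one τ)
  map_mul' _ _ := Subtype.ext (map_mul τ _ _)
  map_zero' := Subtype.ext (map_zero τ)
  map_add' _ _ := Subtype.ext (map_add τ _ _)

@[simp] theorem resHom_coe (τ : F →+* F') {B : Subalgebra O F} {B' : Subalgebra O' F'}
    (h : ∀ x ∈ B, τ x ∈ B') (x : ↥B) : ((resHom τ h x : ↥B') : F') = τ (x : F) := rfl

theorem resHom_algebraMap (τ : F →+* F') {B : Subalgebra O F} {B' : Subalgebra O' F'}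
    (h : ∀ x ∈ B, τ x ∈ B') (θ : O →+* O')
    (hτθ : ∀ o, τ (algebraMap O F o) = algebraMap O' F' (θ o)) (o : O) :
    resHom τ h (algebraMap O ↥B o) = algebraMap O' ↥B' (θ o) :=
  Subtype.ext (hτθ o)

theorem resHom_inclusion (τ : F →+* F') {B C : Subalgebra O F} {B' C' : Subalgebra O' F'}
    (hB : ∀ x ∈ B, τ x ∈ B') (hC : ∀ x ∈ C, τ x ∈ C') (hBC : B ≤ C) (hBC' : B' ≤ C') (x : ↥B) :
    resHom τ hC (Subalgebra.inclusion hBC x) = Subalgebra.inclusion hBC' (resHom τ hB x) :=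
  Subtype.ext rfl

end Res

/-! ### the twist glue -/

section Twist

variable {ℓ : ℕ} {A : ValuationSubring Qb} {Jb : Type} [AddCommGroup Jb]
-- the source level
variable {O : Type} [CommRing O] [IsLocalRing O] {F : Type} [CommRing F] [IsDomain F] [Algebra O F]
  {Bp Bm B0 : Subalgebra O F} {Rg : Subring F} (hp : Bp ≤ B0) (hm : Bm ≤ B0) {ϖ : O}
  (C : Charts (algebraMap O F ϖ) Bp.toSubring Bm.toSubring B0.toSubring Rg)
  {ι : O →+* Qb} (hι : IsLevelRing A ℓ ι)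
  (hloc : ∀ x : O, x ∈ IsLocalRing.maximalIdeal O ↔ ι x ∈ A.nonunits)
  (hA : A.LiesOverPrime ℓ) (hϖ : IsLocalRing.maximalIdeal O = Ideal.span {ϖ})
  {e : ℕ} (he : 0 < e) (hℓe : Associated ((ℓ : O)) (ϖ ^ e))
  {Λ : Jb → Line (algebraMap O F ϖ) Bp.toSubring Bm.toSubring B0.toSubring Rg → Prop}
  (hΛ : LineSys C Λ) {g : ℕ} (ε₀ : Fin g → ↥B0) {O₁ : Type} [CommRing O₁] (j : O₁ →+* O) (m : ℕ)
-- the target level
variable {O' : Type} [CommRing O'] [IsLocalRing O'] {F' : Type} [CommRing F'] [IsDomain F']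
  [Algebra O' F']
  {Bp' Bm' B0' : Subalgebra O' F'} {Rg' : Subring F'} (hp' : Bp' ≤ B0') (hm' : Bm' ≤ B0') {ϖ' : O'}
  (C' : Charts (algebraMap O' F' ϖ') Bp'.toSubring Bm'.toSubring B0'.toSubring Rg')
  {ι' : O' →+* Qb} (hι' : IsLevelRing A ℓ ι')
  (hloc' : ∀ x : O', x ∈ IsLocalRing.maximalIdeal O' ↔ ι' x ∈ A.nonunits)
  (hϖ' : IsLocalRing.maximalIdeal O' = Ideal.span {ϖ'})
  {e' : ℕ} (he' : 0 < e') (hℓe' : Associated ((ℓ : O')) (ϖ' ^ e'))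
  {Λ' : Jb → Line (algebraMap O' F' ϖ') Bp'.toSubring Bm'.toSubring B0'.toSubring Rg' → Prop}
  (hΛ' : LineSys C' Λ') (ε₀' : Fin g → ↥B0') (j' : O₁ →+* O')
-- the base level
variable {Ap Am A0 : Type} [CommRing Ap] [CommRing Am] [CommRing A0]
  [Algebra O₁ Ap] [Algebra O₁ Am] [Algebra O₁ A0]
  {ip₁ : Ap →ₐ[O₁] A0} {im₁ : Am →ₐ[O₁] A0} {ε₁ : Fin g → A0}

/-- the cocycle part of a morphism of situations, from the cocycle part at the level of function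
fields -/
theorem kLevel_of_kappa {θ : O →+* O'} {τ : F →+* F'} (h0 : ∀ x ∈ B0, τ x ∈ B0')
    (hτθ : ∀ o, τ (algebraMap O F o) = algebraMap O' F' (θ o))
    {m' : ℕ} (φ : Quo O ℓ (m + 1) →+* Quo O' ℓ (m' + 1))
    (hφ : ∀ o, φ (algebraMap O (Quo O ℓ (m + 1)) o) = algebraMap O' (Quo O' ℓ (m' + 1)) (θ o))
    {act : Jb → Jb}
    (hκ : ∀ z u, kappa Λ (kOf e m) z u → kappa Λ' (kOf e' m') (act z) (τ u))
    {z : Jb} {v : (Quo O ℓ (m + 1)) ⊗[O] ↥B0} (hv : KLevel Λ ℓ e m z v) :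
    KLevel Λ' ℓ e' m' (act z)
      (chgMap θ φ hφ (resHom τ h0) (resHom_algebraMap τ h0 θ hτθ) v) := by
  obtain ⟨u, hu, huB, rfl⟩ := hv
  refine ⟨τ u, hκ z u hu, h0 u huB, ?_⟩
  rw [qRed_apply, qRed_apply, chgMap_tmul, map_one]
  rfl

/-- **The generic `IsTwist` between two situations `LevelSit.sit`.** -/
theorem isTwist_of_chg
    (H : Hyp (mS O ϖ ℓ m) (mapS (Quo O ℓ (m + 1)) (Subalgebra.inclusion hp))
      (mapS (Quo O ℓ (m + 1)) (Subalgebra.inclusion hm)) (epsS (Quo O ℓ (m + 1)) ε₀))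
    (H' : Hyp (mS O' ϖ' ℓ m) (mapS (Quo O' ℓ (m + 1)) (Subalgebra.inclusion hp'))
      (mapS (Quo O' ℓ (m + 1)) (Subalgebra.inclusion hm')) (epsS (Quo O' ℓ (m + 1)) ε₀'))
    -- (a) the base level maps into the target level
    (βp : Ap →+* ↥Bp') (hβp : ∀ c, βp (algebraMap O₁ Ap c) = algebraMap O' ↥Bp' (j' c))
    (βm : Am →+* ↥Bm') (hβm : ∀ c, βm (algebraMap O₁ Am c) = algebraMap O' ↥Bm' (j' c))
    (β0 : A0 →+* ↥B0') (hβ0 : ∀ c, β0 (algebraMap O₁ A0 c) = algebraMap O' ↥B0' (j' c))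
    (hβip : ∀ x, β0 (ip₁ x) = Subalgebra.inclusion hp' (βp x))
    (hβim : ∀ y, β0 (im₁ y) = Subalgebra.inclusion hm' (βm y))
    (hβε : ∀ i, β0 (ε₁ i) = ε₀' i)
    -- (b) the level map
    (θ : O →+* O') (τ : F →+* F')
    (hτθ : ∀ o, τ (algebraMap O F o) = algebraMap O' F' (θ o))
    (hτp : ∀ x ∈ Bp, τ x ∈ Bp') (hτm : ∀ x ∈ Bm, τ x ∈ Bm') (hτ0 : ∀ x ∈ B0, τ x ∈ B0')
    (φ : Quo O ℓ (m + 1) →+* Quo O' ℓ (m + 1))
    (hφ : ∀ o, φ (red O ℓ (m + 1) o) = red O' ℓ (m + 1) (θ o))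
    (hφm : ∀ s ∈ mS O ϖ ℓ m, φ s ∈ mS O' ϖ' ℓ m)
    -- the twisted frame
    (εt : Fin g → A0) (hτε : ∀ i, τ (ε₀ i : F) = ((β0 (εt i) : ↥B0') : F'))
    -- (c) the embeddings into `ℚ̄`
    (σ : Qb →+* Qb) (hσ : ∀ x, ι' (θ x) = σ (ι x))
    -- (d) the cocycle part
    (act : Jb → Jb)
    (hκ : ∀ z u, kappa Λ (kOf e m) z u → kappa Λ' (kOf e' m) (act z) (τ u)) :
    (sit (Jb := Jb) hp hm C hι hloc hA hϖ he hℓe hΛ ε₀ j m H).IsTwist
      (sit (Jb := Jb) hp' hm' C' hι' hloc' hA hϖ' he' hℓe' hΛ' ε₀' j' m H') ip₁ im₁ ε₁ σ act εt := by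
  let _ : Algebra O₁ (Quo O' ℓ (m + 1)) := ((red O' ℓ (m + 1)).comp j').toAlgebra
  have hφid : ∀ c : O₁, RingHom.id (Quo O' ℓ (m + 1)) (algebraMap O₁ (Quo O' ℓ (m + 1)) c)
      = algebraMap O' (Quo O' ℓ (m + 1)) (j' c) := fun _ => rfl
  have hφ' : ∀ o, φ (algebraMap O (Quo O ℓ (m + 1)) o)
      = algebraMap O' (Quo O' ℓ (m + 1)) (θ o) := hφ
  -- the based morphism of the target
  have M' := morph_chg (S := Quo O' ℓ (m + 1)) (S' := Quo O' ℓ (m + 1)) j'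
    (RingHom.id (Quo O' ℓ (m + 1))) hφid βp hβp βm hβm β0 hβ0
    (ip := ip₁) (im := im₁) (ε := ε₁) (ip' := Subalgebra.inclusion hp')
    (im' := Subalgebra.inclusion hm') (ε' := ε₀') hβip hβim hβε
    (𝔪 := mS O' ϖ' ℓ m) (𝔪' := mS O' ϖ' ℓ m) (fun s hs => hs)
  -- the semilinear morphism
  have Mσ := morph_chg (S := Quo O ℓ (m + 1)) (S' := Quo O' ℓ (m + 1)) θ φ hφ'
    (resHom τ hτp) (resHom_algebraMap τ hτp θ hτθ)
    (resHom τ hτm) (resHom_algebraMap τ hτm θ hτθ)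
    (resHom τ hτ0) (resHom_algebraMap τ hτ0 θ hτθ)
    (ip := Subalgebra.inclusion hp) (im := Subalgebra.inclusion hm) (ε := ε₀)
    (ip' := Subalgebra.inclusion hp') (im' := Subalgebra.inclusion hm')
    (ε' := fun i => β0 (εt i))
    (fun x => resHom_inclusion τ hτp hτ0 hp hp' x) (fun y => resHom_inclusion τ hτm hτ0 hm hm' y)
    (fun i => Subtype.ext (hτε i)) (𝔪 := mS O ϖ ℓ m) (𝔪' := mS O' ϖ' ℓ m) hφm
  refine ⟨chgMap j' (RingHom.id (Quo O' ℓ (m + 1))) hφid βp hβp,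
    chgMap j' (RingHom.id (Quo O' ℓ (m + 1))) hφid βm hβm,
    chgMap j' (RingHom.id (Quo O' ℓ (m + 1))) hφid β0 hβ0,
    epsS (Quo O' ℓ (m + 1)) (fun i => β0 (εt i)), φ,
    chgMap θ φ hφ' (resHom τ hτp) (resHom_algebraMap τ hτp θ hτθ),
    chgMap θ φ hφ' (resHom τ hτm) (resHom_algebraMap τ hτm θ hτθ),
    chgMap θ φ hφ' (resHom τ hτ0) (resHom_algebraMap τ hτ0 θ hτθ), θ, M', ?_, Mσ, hφ, hσ, ?_⟩
  · intro i
    change epsS (Quo O' ℓ (m + 1)) (fun i => β0 (εt i)) i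
      = chgMap j' (RingHom.id (Quo O' ℓ (m + 1))) hφid β0 hβ0
        ((1 : Quo O' ℓ (m + 1)) ⊗ₜ[O₁] εt i)
    rw [chgMap_tmul, map_one]
    rfl
  · intro z v hv
    exact kLevel_of_kappa (Λ := Λ) (Λ' := Λ') m hτ0 hτθ φ hφ' hκ hv

end Twist

end Fermat.Agent.S19.Geo.LevelSitTwist
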