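/-
S19 / GEO, leaf [INST]: **`IsHom` / `IsBased` between situations `LevelSit.sit`** (helper9; twin of
helper3's `LevelSitTwist.isTwist_of_chg`, same binder conventions).

* `isHom_of_chg`   : the generic glue — a level map `(θ, τ, φ)` with `τ (B_?) ⊆ B_?'`, matching
  frames `τ (ε₀ i) = ε₀' i`, `ι' ∘ θ = σ ∘ ι`, `φ (𝔪) ⊆ 𝔪'` and the cocycle part `hκ` give
  `(sit …).IsHom (sit' …) σ act` (possibly different precisions `m`, `m'`);
* `isBased_of_chg` : base maps `β_? : A_? →+* ↥B_?` over `j : O₁ → O` commuting with the charts and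
  matching the frames give `(sit …).IsBased ip₁ im₁ ε₁`;
* **`isHom_prec`**   : lowering the precision at a fixed level, `(sit … (m+1)).IsHom (sit … m) id id`
  — NO hypothesis left (field `hmono` of `CoordFamily.levelReps` / `GeoFamily`).
-/
import Mathlib
import Fermat.Agent.S19.Geo.LevelSitTwist
import Fermat.Agent.S19.Geo.LevelSitIdeal
import Fermat.Agent.S19.Geo.LevelLinesHom

set_option autoImplicit false
set_option linter.unusedSectionVars false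

open TensorProduct

namespace Fermat.Agent.S19.Geo.LevelSitPack

open Fermat.Agent.S19.Abs Fermat.Agent.S19.Coord Fermat.Agent.S19.Cech
  Fermat.Agent.S19.Cech.Cocycle Fermat.Agent.S19.Cech.CoordOfLines
  Fermat.Agent.S19.Cech.CoordFamily Fermat.Agent.S19.Cech.RedTuple
  Fermat.Agent.S19.Cech.BaseQuotLevel Fermat.Agent.S19.Cech.SepWireTensor
  Fermat.Agent.S19.Geo.LevelSit Fermat.Agent.S19.Geo.LevelSitTwist
  Fermat.Agent.S19.Geo.LevelSitIdeal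

variable {ℓ : ℕ} {A : ValuationSubring Qb} {Jb : Type} [AddCommGroup Jb]
-- the source level
variable {O : Type} [CommRing O] [IsLocalRing O] {F : Type} [CommRing F] [IsDomain F] [Algebra O F]
  {Bp Bm B0 : Subalgebra O F} {Rg : Subring F} (hp : Bp ≤ B0) (hm : Bm ≤ B0) {ϖ : O}
  (C : Charts (algebraMap O F ϖ) Bp.toSubring Bm.toSubring B0.toSubring Rg)
  {ι : O →+* Qb} (hι : IsLevelRing A ℓ ι)
  (hloc : ∀ x : O, x ∈ IsLocalRing.maximalIdeal O ↔ ι x ∈ A.nonunits)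
  (hA : A.LiesOverPrime ℓ) (hϖ : IsLocalRing.maximalIdeal O = Ideal.span {ϖ})
  {e : ℕ} (he : 0 < e) (hℓe : Associated ((ℓ : O)) (ϖ ^ e))
  {Λ : Jb → Line (algebraMap O F ϖ) Bp.toSubring Bm.toSubring B0.toSubring Rg → Prop}
  (hΛ : LineSys C Λ) {g : ℕ} (ε₀ : Fin g → ↥B0) {O₁ : Type} [CommRing O₁] (j : O₁ →+* O) (m : ℕ)
-- the target level
variable {O' : Type} [CommRing O'] [IsLocalRing O'] {F' : Type} [CommRing F'] [IsDomain F']
  [Algebra O' F']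
  {Bp' Bm' B0' : Subalgebra O' F'} {Rg' : Subring F'} (hp' : Bp' ≤ B0') (hm' : Bm' ≤ B0') {ϖ' : O'}
  (C' : Charts (algebraMap O' F' ϖ') Bp'.toSubring Bm'.toSubring B0'.toSubring Rg')
  {ι' : O' →+* Qb} (hι' : IsLevelRing A ℓ ι')
  (hloc' : ∀ x : O', x ∈ IsLocalRing.maximalIdeal O' ↔ ι' x ∈ A.nonunits)
  (hϖ' : IsLocalRing.maximalIdeal O' = Ideal.span {ϖ'})
  {e' : ℕ} (he' : 0 < e') (hℓe' : Associated ((ℓ : O')) (ϖ' ^ e'))
  {Λ' : Jb → Line (algebraMap O' F' ϖ') Bp'.toSubring Bm'.toSubring B0'.toSubring Rg' → Prop}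
  (hΛ' : LineSys C' Λ') (ε₀' : Fin g → ↥B0') (j' : O₁ →+* O') (m' : ℕ)

/-- **The generic `IsHom` between two situations `LevelSit.sit`.** -/
theorem isHom_of_chg
    (H : Hyp (mS O ϖ ℓ m) (mapS (Quo O ℓ (m + 1)) (Subalgebra.inclusion hp))
      (mapS (Quo O ℓ (m + 1)) (Subalgebra.inclusion hm)) (epsS (Quo O ℓ (m + 1)) ε₀))
    (H' : Hyp (mS O' ϖ' ℓ m') (mapS (Quo O' ℓ (m' + 1)) (Subalgebra.inclusion hp'))
      (mapS (Quo O' ℓ (m' + 1)) (Subalgebra.inclusion hm')) (epsS (Quo O' ℓ (m' + 1)) ε₀'))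
    -- the level map
    (θ : O →+* O') (τ : F →+* F')
    (hτθ : ∀ o, τ (algebraMap O F o) = algebraMap O' F' (θ o))
    (hτp : ∀ x ∈ Bp, τ x ∈ Bp') (hτm : ∀ x ∈ Bm, τ x ∈ Bm') (hτ0 : ∀ x ∈ B0, τ x ∈ B0')
    (φ : Quo O ℓ (m + 1) →+* Quo O' ℓ (m' + 1))
    (hφ : ∀ o, φ (red O ℓ (m + 1) o) = red O' ℓ (m' + 1) (θ o))
    (hφm : ∀ s ∈ mS O ϖ ℓ m, φ s ∈ mS O' ϖ' ℓ m')
    -- the frames
    (hτε : ∀ i, τ (ε₀ i : F) = ((ε₀' i : ↥B0') : F'))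
    -- the embeddings into `ℚ̄`
    (σ : Qb →+* Qb) (hσ : ∀ x, ι' (θ x) = σ (ι x))
    -- the cocycle part
    (act : Jb → Jb)
    (hκ : ∀ z u, kappa Λ (kOf e m) z u → kappa Λ' (kOf e' m') (act z) (τ u)) :
    (sit (Jb := Jb) hp hm C hι hloc hA hϖ he hℓe hΛ ε₀ j m H).IsHom
      (sit (Jb := Jb) hp' hm' C' hι' hloc' hA hϖ' he' hℓe' hΛ' ε₀' j' m' H') σ act := by
  have hφ' : ∀ o, φ (algebraMap O (Quo O ℓ (m + 1)) o)
      = algebraMap O' (Quo O' ℓ (m' + 1)) (θ o) := hφ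
  have M := morph_chg (S := Quo O ℓ (m + 1)) (S' := Quo O' ℓ (m' + 1)) θ φ hφ'
    (resHom τ hτp) (resHom_algebraMap τ hτp θ hτθ)
    (resHom τ hτm) (resHom_algebraMap τ hτm θ hτθ)
    (resHom τ hτ0) (resHom_algebraMap τ hτ0 θ hτθ)
    (ip := Subalgebra.inclusion hp) (im := Subalgebra.inclusion hm) (ε := ε₀)
    (ip' := Subalgebra.inclusion hp') (im' := Subalgebra.inclusion hm') (ε' := ε₀')
    (fun x => resHom_inclusion τ hτp hτ0 hp hp' x) (fun y => resHom_inclusion τ hτm hτ0 hm hm' y)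
    (fun i => Subtype.ext (hτε i)) (𝔪 := mS O ϖ ℓ m) (𝔪' := mS O' ϖ' ℓ m') hφm
  refine ⟨φ, chgMap θ φ hφ' (resHom τ hτp) (resHom_algebraMap τ hτp θ hτθ),
    chgMap θ φ hφ' (resHom τ hτm) (resHom_algebraMap τ hτm θ hτθ),
    chgMap θ φ hφ' (resHom τ hτ0) (resHom_algebraMap τ hτ0 θ hτθ), θ, M, hφ, hσ, ?_⟩
  intro z v hv
  exact kLevel_of_kappa (Λ := Λ) (Λ' := Λ') m hτ0 hτθ φ hφ' hκ hv

-- the base level
variable {Ap Am A0 : Type} [CommRing Ap] [CommRing Am] [CommRing A0]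
  [Algebra O₁ Ap] [Algebra O₁ Am] [Algebra O₁ A0]
  {ip₁ : Ap →ₐ[O₁] A0} {im₁ : Am →ₐ[O₁] A0} {ε₁ : Fin g → A0}

/-- **The generic `IsBased`**: the situation receives the base-level situation. -/
theorem isBased_of_chg
    (H : Hyp (mS O ϖ ℓ m) (mapS (Quo O ℓ (m + 1)) (Subalgebra.inclusion hp))
      (mapS (Quo O ℓ (m + 1)) (Subalgebra.inclusion hm)) (epsS (Quo O ℓ (m + 1)) ε₀))
    (βp : Ap →+* ↥Bp) (hβp : ∀ c, βp (algebraMap O₁ Ap c) = algebraMap O ↥Bp (j c))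
    (βm : Am →+* ↥Bm) (hβm : ∀ c, βm (algebraMap O₁ Am c) = algebraMap O ↥Bm (j c))
    (β0 : A0 →+* ↥B0) (hβ0 : ∀ c, β0 (algebraMap O₁ A0 c) = algebraMap O ↥B0 (j c))
    (hβip : ∀ x, β0 (ip₁ x) = Subalgebra.inclusion hp (βp x))
    (hβim : ∀ y, β0 (im₁ y) = Subalgebra.inclusion hm (βm y))
    (hβε : ∀ i, β0 (ε₁ i) = ε₀ i) :
    (sit (Jb := Jb) hp hm C hι hloc hA hϖ he hℓe hΛ ε₀ j m H).IsBased ip₁ im₁ ε₁ := by
  let _ : Algebra O₁ (Quo O ℓ (m + 1)) := ((red O ℓ (m + 1)).comp j).toAlgebra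
  have hφid : ∀ c : O₁, RingHom.id (Quo O ℓ (m + 1)) (algebraMap O₁ (Quo O ℓ (m + 1)) c)
      = algebraMap O (Quo O ℓ (m + 1)) (j c) := fun _ => rfl
  have M := morph_chg (S := Quo O ℓ (m + 1)) (S' := Quo O ℓ (m + 1)) j
    (RingHom.id (Quo O ℓ (m + 1))) hφid βp hβp βm hβm β0 hβ0
    (ip := ip₁) (im := im₁) (ε := ε₁) (ip' := Subalgebra.inclusion hp)
    (im' := Subalgebra.inclusion hm) (ε' := ε₀) hβip hβim hβε
    (𝔪 := mS O ϖ ℓ m) (𝔪' := mS O ϖ ℓ m) (fun s hs => hs)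
  exact ⟨chgMap j (RingHom.id (Quo O ℓ (m + 1))) hφid βp hβp,
    chgMap j (RingHom.id (Quo O ℓ (m + 1))) hφid βm hβm,
    chgMap j (RingHom.id (Quo O ℓ (m + 1))) hφid β0 hβ0, M⟩

/-- **Lowering the precision at a fixed level** (field `hmono`): no hypothesis left. -/
theorem isHom_prec
    (H₁ : Hyp (mS O ϖ ℓ (m + 1)) (mapS (Quo O ℓ (m + 1 + 1)) (Subalgebra.inclusion hp))
      (mapS (Quo O ℓ (m + 1 + 1)) (Subalgebra.inclusion hm)) (epsS (Quo O ℓ (m + 1 + 1)) ε₀))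
    (H₀ : Hyp (mS O ϖ ℓ m) (mapS (Quo O ℓ (m + 1)) (Subalgebra.inclusion hp))
      (mapS (Quo O ℓ (m + 1)) (Subalgebra.inclusion hm)) (epsS (Quo O ℓ (m + 1)) ε₀)) :
    (sit (Jb := Jb) hp hm C hι hloc hA hϖ he hℓe hΛ ε₀ j (m + 1) H₁).IsHom
      (sit (Jb := Jb) hp hm C hι hloc hA hϖ he hℓe hΛ ε₀ j m H₀) (RingHom.id Qb) id := by
  refine isHom_of_chg hp hm C hι hloc hA hϖ he hℓe hΛ ε₀ j (m + 1) hp hm C hι hloc hϖ he hℓe hΛ
    ε₀ j m H₁ H₀ (RingHom.id O) (RingHom.id F) (fun _ => rfl) (fun x hx => hx) (fun x hx => hx)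
    (fun x hx => hx) (quoRed O ℓ (m + 1)) (fun o => quoRed_red (m + 1) o)
    (fun s hs => quoRed_mem_mS hι hloc hϖ m hs) (fun _ => rfl) (RingHom.id Qb) (fun _ => rfl) id ?_
  intro z u hu
  exact LevelLinesHom.kappa_mono_le C (kOf_le_kOf_succ e m) hu

end Fermat.Agent.S19.Geo.LevelSitPack
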