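/-
S19 / GEO, [INST] item 1 of the field map #2368 (helper29): **the fields `hι` and `hbased` of
`InstanceOfSit.GeoFamily`**, for EVERY situation `LevelSit.sit` of a level `K ⊇ K₀` whose charts are
`BpK/BmK/B0K A N K`, whose frame is the image `F.εL h0` of a base frame `F : BaseLevel.Frame A N`
and whose structure map is `jK A h0 : O₁ → O_K` (in particular for THE family `X E m` of the ruling
#2386, whatever `Charts`, uniformiser, ramification index, system of lines and `Hyp` it is built with).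

* `sit_ι_jK`      : `(sit …).ι ((sit …).j c) = ι₁ A c`                         (field `hι`, `rfl`);
* `isBased_level` : `(sit …).IsBased (ip₁ A N) (im₁ A N) F.ε`                   (field `hbased`):
  `LevelSitPack.isBased_of_chg` with `β_? := finIncl / infIncl / midIncl A N h0` and
  `LevelBasis.chartHom_level`.
-/
import Mathlib
import Fermat.Agent.S19.Geo.LevelSitDefs
import Fermat.Agent.S19.Geo.LevelSitPack
import Fermat.Agent.S19.Geo.BaseFrame

set_option autoImplicit false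
set_option linter.unusedSectionVars false

open TensorProduct

namespace Fermat.Agent.S19.Geo.LevelSitBased

open Fermat.Agent.S19.Abs Fermat.Agent.S19.Coord Fermat.Agent.S19.Cech
  Fermat.Agent.S19.Cech.Cocycle Fermat.Agent.S19.Cech.CoordOfLines
  Fermat.Agent.S19.Cech.CoordFamily Fermat.Agent.S19.Cech.RedTuple
  Fermat.Agent.S19.Cech.BaseQuotLevel Fermat.Agent.S19.Cech.SepWireTensor
  Fermat.Agent.S19.Cech.LevelBasis Fermat.Agent.S19.Geo.LevelSit
  Fermat.Agent.S19.Geo.LevelSitMaps Fermat.Agent.S19.Geo.BaseLevel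
  Fermat.Agent.S19.Geo.LevelSitDefs Fermat.Agent.S19.Geo.LevelSitPack
  Fermat.Agent.N4.Setting Fermat.Agent.N4.Chart
  Fermat.Agent.N4F.C.Levels Fermat.Agent.P3G.Gamma

variable {A : ValuationSubring Qb} {N : ℕ} [NeZero N] {ℓ : ℕ} {Jb : Type} [AddCommGroup Jb]
  {K : IntermediateField ℚ Qb} [IsLocalRing (OL A K)] (h0 : K0 A ≤ K)
  {ϖ : OL A K} {Rg : Subring (FK N K)}
  (C : Charts (algebraMap (OL A K) (FK N K) ϖ) (BpK A N K).toSubring (BmK A N K).toSubring
    (B0K A N K).toSubring Rg)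
  (hι : IsLevelRing A ℓ (ιK A K))
  (hloc : ∀ x : OL A K, x ∈ IsLocalRing.maximalIdeal (OL A K) ↔ ιK A K x ∈ A.nonunits)
  (hA : A.LiesOverPrime ℓ) (hϖ : IsLocalRing.maximalIdeal (OL A K) = Ideal.span {ϖ})
  {e : ℕ} (he : 0 < e) (hℓe : Associated (((ℓ : ℕ) : OL A K)) (ϖ ^ e))
  {Λ : Jb → Line (algebraMap (OL A K) (FK N K) ϖ) (BpK A N K).toSubring (BmK A N K).toSubring
    (B0K A N K).toSubring Rg → Prop}
  (hΛ : LineSys C Λ) (F : Frame A N) (m : ℕ)
  (H : Hyp (mS (OL A K) ϖ ℓ m)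
    (mapS (Quo (OL A K) ℓ (m + 1)) (Subalgebra.inclusion (BpK_le_B0K A N K)))
    (mapS (Quo (OL A K) ℓ (m + 1)) (Subalgebra.inclusion (BmK_le_B0K A N K)))
    (epsS (Quo (OL A K) ℓ (m + 1)) (F.εL h0)))

/-- **Field `hι`**: the embedding of the level restricts to `ι₁` on the base level. -/
theorem sit_ι_jK (c : O₁ A) :
    (sit (Jb := Jb) (BpK_le_B0K A N K) (BmK_le_B0K A N K) C hι hloc hA hϖ he hℓe hΛ (F.εL h0)
      (jK A h0) m H).ι
      ((sit (Jb := Jb) (BpK_le_B0K A N K) (BmK_le_B0K A N K) C hι hloc hA hϖ he hℓe hΛ (F.εL h0)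
        (jK A h0) m H).j c) = ι₁ A c := rfl

/-- **Field `hbased`**: the situation of the level `K ⊇ K₀` receives the base-level situation. -/
theorem isBased_level :
    (sit (Jb := Jb) (BpK_le_B0K A N K) (BmK_le_B0K A N K) C hι hloc hA hϖ he hℓe hΛ (F.εL h0)
      (jK A h0) m H).IsBased (ip₁ A N) (im₁ A N) F.ε := by
  have CH := chartHom_level (LevelBasis.lvlIncl h0) N (baseRing A (K0 A)) (baseRing A K)
    (LevelBasis.lvlIncl_mem A h0)
  exact isBased_of_chg (BpK_le_B0K A N K) (BmK_le_B0K A N K) C hι hloc hA hϖ he hℓe hΛ (F.εL h0)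
    (jK A h0) m H (finIncl A N h0) CH.alg_p (infIncl A N h0) CH.alg_m (midIncl A N h0) CH.alg_0
    CH.comm_p CH.comm_m (fun _ => rfl)

end Fermat.Agent.S19.Geo.LevelSitBased
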