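/-
S19 / GEO, [INST] (helper29): **the field `hbased` of `InstanceOfSit.GeoFamily` for THE family
`InstanceLevels.X`**, in the exact binder shape of the field (ruling #2406, `_X` form):

  `hbased_X hℓ hA hℓN fr hΛ : ∀ E m, (X hℓ hA hℓN fr hΛ E m).IsBased (ip₁ A N) (im₁ A N) fr.ε`

for a generic system of lines `Λ`; no hypothesis left.  (`LevelSitBased.isBased_level` at the level
`lvl A E`, uniformiser `unif`, ramification index `ram`.)
-/
import Mathlib
import Fermat.Agent.S19.Geo.InstanceLevels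
import Fermat.Agent.S19.Geo.LevelSitBased

set_option autoImplicit false
set_option linter.unusedSectionVars false
set_option linter.style.haveILetI false

open ModularCurve AlgebraicCurve

namespace Fermat.Agent.S19.Geo.InstanceBased

open Fermat.Agent.S19.Abs Fermat.Agent.S19.Coord Fermat.Agent.S19.Cech
  Fermat.Agent.S19.Cech.CoordOfLines Fermat.Agent.S19.Cech.CoordFamily
  Fermat.Agent.S19.Geo.BaseLevel Fermat.Agent.S19.Geo.InstanceLevels
  Fermat.Agent.S19.Geo.LevelSitBased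

variable {A : ValuationSubring Qb} {N : ℕ} [NeZero N] {ℓ : ℕ}
  (hℓ : ℓ.Prime) (hA : A.LiesOverPrime ℓ) (hℓN : ¬ ℓ ∣ N) (fr : Frame A N)
  {Λ : ∀ E : Lv, JZero N → LineE hℓ hA N E → Prop}
  (hΛ : ∀ E, LineSys (charts hℓ hA hℓN E) (Λ E))

/-- **Field `hbased` of `GeoFamily` for `InstanceLevels.X`.** -/
theorem hbased_X : ∀ (E : Lv) (m : ℕ),
    (X hℓ hA hℓN fr hΛ E m).IsBased (ip₁ A N) (im₁ A N) fr.ε := by
  intro E m
  haveI := dvr_lvl hℓ hA E
  exact isBased_level (K0_le_lvl A E) (charts hℓ hA hℓN E) _ _ hA (maximalIdeal_eq hℓ hA E)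
    (ram_pos hℓ hA E) (associated_ram hℓ hA E) (hΛ E) fr m (hyp_lvl hℓ hA hℓN fr E m)

end Fermat.Agent.S19.Geo.InstanceBased
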