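/-
S19, geometric layer, level bookkeeping (helper22; DAG v1, rulings R3/R5).

The levels of the Čech construction are the EXPLICIT good levels `bigLevel A E = E(μ_m : ℓ ∤ m)`,
`E` a `Gal(Q̄/ℚ)`-stable number field (`P3G/Gamma`, `P3G/GammaBase`), with base level
`K₀ = bigLevel A ⊥` (unramified: `ℓ` is a uniformiser of `A ∩ K₀`).

* `apply_eq_of_mem_bigLevel` : an element of the inertia group which fixes `E` pointwise fixes
  `bigLevel A E` pointwise (the good roots of unity are inertia-fixed).  This is what field (C1')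
  `exists_rep_level` of `Coord.LevelCoordSystem` needs: representatives living in `A ∩ bigLevel A E`
  are fixed by `{σ ∈ I_A | σ|_E = id}`.
* `exists_stable_bigLevel_of_finite` : `GammaBase.exists_stable_level_of_finite` with the level
  EXPOSED as `bigLevel A E`, `E` a Galois-stable number field.
-/
import Mathlib
import Fermat.Agent.P3G.GammaBase

set_option autoImplicit false
set_option linter.style.haveILetI false
set_option linter.unusedSectionVars false

open AlgebraicCurve ModularCurve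
open Fermat.Agent.N4.BigDVR Fermat.Agent.N4.Setting
open Fermat.Agent.N4F.C Fermat.Agent.N4F.C.Levels Fermat.Agent.N4F.C.LevelCharts
open Fermat.Agent.S24.PlaceDeriv (ResidueTrivial)
open Fermat.Agent.P3G.Gamma Fermat.Agent.P3G.GammaBase

namespace Fermat.Agent.S19.Geo.LevelField

local notation "Γ" => (AlgebraicClosure ℚ ≃ₐ[ℚ] AlgebraicClosure ℚ)

variable {A : ValuationSubring Qb}

/-- **An inertia element fixing `E` fixes the level above `E`.** -/
theorem apply_eq_of_mem_bigLevel {ℓ : ℕ} (hℓ : ℓ.Prime) (hA : A.LiesOverPrime ℓ)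
    (E : IntermediateField ℚ Qb) {σ : Γ} (hσ : σ ∈ A.inertiaSubgroupIn ℚ)
    (hE : ∀ x ∈ E, σ x = x) {x : Qb} (hx : x ∈ bigLevel A E) : σ x = x := by
  rw [bigLevel_eq_adjoin] at hx
  let Fx : IntermediateField ℚ Qb :=
    { carrier := {y | σ y = y}
      mul_mem' := fun {a b} ha hb => by
        show σ (a * b) = a * b
        rw [map_mul, ha, hb]
      one_mem' := map_one σ
      add_mem' := fun {a b} ha hb => by
        show σ (a + b) = a + b
        rw [map_add, ha, hb]
      zero_mem' := map_zero σ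
      algebraMap_mem' := fun r => σ.commutes r
      inv_mem' := fun a ha => by
        show σ a⁻¹ = a⁻¹
        rw [map_inv₀, ha] }
  have h1 : IntermediateField.adjoin ℚ ((E : Set Qb) ∪ goodRoots A) ≤ Fx := by
    rw [IntermediateField.adjoin_le_iff]
    rintro y (hy | hy)
    · exact hE y hy
    · exact apply_goodRoot_of_mem_inertia hℓ hA hσ hy
  exact h1 hx

/-- **All-in-one Galois-stable level, exposed as `bigLevel A E`.** -/
theorem exists_stable_bigLevel_of_finite {ℓ : ℕ} (hℓ : ℓ.Prime) (hA : A.LiesOverPrime ℓ)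
    (N : ℕ) [NeZero N] (hℓN : ¬ ℓ ∣ N)
    (C : Finset Qb) (T : Finset (Fb N)) (S : Finset (Place Qb (Fb N))) :
    ∃ E : IntermediateField ℚ Qb, FiniteDimensional ℚ E ∧
      (∀ (τ : Γ) (x : Qb), x ∈ E → τ x ∈ E) ∧
      (∀ c ∈ C, c ∈ bigLevel A E) ∧ K0 A ≤ bigLevel A E ∧
      (∀ (τ : Γ) (x : Qb), x ∈ bigLevel A E → τ x ∈ bigLevel A E) ∧
      (∃ (_ : IsDiscreteValuationRing ↥(baseRing A (bigLevel A E)))
        (_ : IsAlgClosed (IsLocalRing.ResidueField ↥(baseRing A (bigLevel A E)))),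
        GoodBase (Lvl (bigLevel A E)) N (baseRing A (bigLevel A E)) ℓ ∧
        Function.Bijective (IsLocalRing.ResidueField.map (trIncl A (bigLevel A E))) ∧
        (∀ ξ ∈ goodRoots A, ξ ∈ bigLevel A E)) ∧
      (∀ t ∈ T, t ∈ Set.range (levK N (bigLevel A E))) ∧
      (∀ P ∈ S, ResidueTrivial (restrictK N (bigLevel A E) P)) ∧
      (∀ t ∈ T, t ∈ RtFin A N →
        ∃ x ∈ Rfin (Lvl (bigLevel A E)) N (baseRing A (bigLevel A E)),
          levK N (bigLevel A E) x = t) ∧
      (∀ t ∈ T, t ∈ RtInf A N →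
        ∃ x ∈ Rinf (Lvl (bigLevel A E)) N (baseRing A (bigLevel A E)),
          levK N (bigLevel A E) x = t) ∧
      (∀ σ ∈ A.inertiaSubgroupIn ℚ, (∀ x ∈ E, σ x = x) → ∀ x ∈ bigLevel A E, σ x = x) := by
  classical
  obtain ⟨K₁, hK₁fin, hK₁⟩ := exists_finiteDimensional_level N T S
  have hfin : ∀ t : Fb N, ∃ K₀ : IntermediateField ℚ Qb, FiniteDimensional ℚ K₀ ∧
      ∀ K : IntermediateField ℚ Qb, K₀ ≤ K → t ∈ RtFin A N →
        ∃ x ∈ Rfin (Lvl K) N (baseRing A K), levK N K x = t := by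
    intro t
    by_cases ht : t ∈ RtFin A N
    · obtain ⟨K₀, h1, h2⟩ := exists_finiteDimensional_RtFin A N ht
      exact ⟨K₀, h1, fun K hK _ => h2 K hK⟩
    · exact ⟨⊥, inferInstance, fun _ _ h => absurd h ht⟩
  have hinf : ∀ t : Fb N, ∃ K₀ : IntermediateField ℚ Qb, FiniteDimensional ℚ K₀ ∧
      ∀ K : IntermediateField ℚ Qb, K₀ ≤ K → t ∈ RtInf A N →
        ∃ x ∈ Rinf (Lvl K) N (baseRing A K), levK N K x = t := by
    intro t
    by_cases ht : t ∈ RtInf A N
    · obtain ⟨K₀, h1, h2⟩ := exists_finiteDimensional_RtInf A N ht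
      exact ⟨K₀, h1, fun K hK _ => h2 K hK⟩
    · exact ⟨⊥, inferInstance, fun _ _ h => absurd h ht⟩
  choose E₁ hE₁fin hE₁ using hfin
  choose E₂ hE₂fin hE₂ using hinf
  haveI := hK₁fin
  haveI : Algebra.IsAlgebraic ℚ Qb := AlgebraicClosure.isAlgebraic ℚ
  haveI : FiniteDimensional ℚ (IntermediateField.adjoin ℚ (C : Set Qb)) :=
    IntermediateField.finiteDimensional_adjoin fun x _ =>
      (Algebra.IsAlgebraic.isAlgebraic x).isIntegral
  haveI : FiniteDimensional ℚ (⨆ t ∈ T, E₁ t : IntermediateField ℚ Qb) :=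
    IntermediateField.finiteDimensional_iSup_of_finset
  haveI : FiniteDimensional ℚ (⨆ t ∈ T, E₂ t : IntermediateField ℚ Qb) :=
    IntermediateField.finiteDimensional_iSup_of_finset
  -- the number field containing everything, then a Galois-stable one above it
  set K₂ : IntermediateField ℚ Qb :=
    IntermediateField.adjoin ℚ (C : Set Qb) ⊔ K₁ ⊔ (⨆ t ∈ T, E₁ t) ⊔ (⨆ t ∈ T, E₂ t) with hK₂
  haveI : FiniteDimensional ℚ K₂ := by
    rw [hK₂]
    infer_instance
  obtain ⟨G, hG⟩ : K₂.FG := IntermediateField.essFiniteType_iff.mp inferInstance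
  obtain ⟨E, hEfin, hGE, hEstab⟩ := exists_stable_numberField G
  haveI := hEfin
  have hK₂E : K₂ ≤ E := by
    rw [← hG, IntermediateField.adjoin_le_iff]
    exact fun t ht => hGE t (Finset.mem_coe.mp ht)
  have hK : K₂ ≤ bigLevel A E := hK₂E.trans (le_bigLevel A E)
  obtain ⟨hDVR, hnu, hAC, hbij⟩ := bigLevel_spec hℓ hA E
  have h1 : IntermediateField.adjoin ℚ (C : Set Qb) ≤ bigLevel A E :=
    le_trans (le_trans (le_trans le_sup_left le_sup_left) le_sup_left) hK
  have h2 : K₁ ≤ bigLevel A E :=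
    le_trans (le_trans (le_trans le_sup_right le_sup_left) le_sup_left) hK
  have h3 : (⨆ t ∈ T, E₁ t) ≤ bigLevel A E := le_trans (le_trans le_sup_right le_sup_left) hK
  have h4 : (⨆ t ∈ T, E₂ t) ≤ bigLevel A E := le_trans le_sup_right hK
  refine ⟨E, hEfin, hEstab,
    fun c hc => h1 (IntermediateField.subset_adjoin ℚ _ (Finset.mem_coe.mpr hc)),
    K0_le_bigLevel A E, fun τ x hx => apply_mem_bigLevel E hEstab τ hx,
    ⟨hDVR, hAC, goodBase_of_level hℓ (bigLevel A E) hℓN hnu, hbij,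
      goodRoots_subset_bigLevel A E⟩,
    (hK₁ _ h2).1, (hK₁ _ h2).2, fun t ht => hE₁ t _ (le_trans ?_ h3),
    fun t ht => hE₂ t _ (le_trans ?_ h4),
    fun σ hσ hE x hx => apply_eq_of_mem_bigLevel hℓ hA E hσ hE hx⟩
  · exact le_iSup₂ (f := fun t _ => E₁ t) t ht
  · exact le_iSup₂ (f := fun t _ => E₂ t) t ht

end Fermat.Agent.S19.Geo.LevelField
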