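/-
S19 / GEO, leaf [INST] (helper8), part 1: **the concrete levels and the concrete situations.**

Levels are indexed by the Galois-stable number fields `E ⊆ ℚ̄`; the level of `E` is
`lvl E = bigLevel A E = E(μ_m : ℓ ∤ m)`.  For each level this file fixes ONCE the data that
`Geo/LevelSit.sit` (helper27) consumes: the DVR structure of `O_E = A ∩ lvl E`, `LevelPack`,
`StarStatement`, a uniformiser `ϖ_E`, the ramification index `e_E` (`ℓ ~ ϖ_E ^ e_E`), the charts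
`Cocycle.Charts` (helper18 `GaussN4.charts_of_star`), the frame (images of the base-level basis
lifts) and `Hyp` at every precision (helper26 `LevelFibreConst.hypAll_level_of_base`).
-/
import Mathlib
import Fermat.Agent.S19.Geo.LevelSit
import Fermat.Agent.S19.Geo.LevelSitMaps
import Fermat.Agent.S19.Geo.BaseLevel
import Fermat.Agent.S19.Geo.LevelField
import Fermat.Agent.S19.Cech.LevelFibreConst
import Fermat.Agent.S19.Cech.GaussN4
import Fermat.Agent.S19.Cech.DvrExt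
import Fermat.Agent.N4F.C.LevelTheta

set_option autoImplicit false
set_option linter.unusedSectionVars false
set_option linter.style.haveILetI false

open ModularCurve AlgebraicCurve

noncomputable section

namespace Fermat.Agent.S19.Geo.InstanceLevels

open Fermat.Agent.S19.Abs Fermat.Agent.S19.Coord Fermat.Agent.S19.Cech
open Fermat.Agent.N4.Setting Fermat.Agent.N4.BigDVR
open Fermat.Agent.N4F.C hiding Qb
open Fermat.Agent.N4F.C.Levels Fermat.Agent.N4F.C.LevelCharts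
  Fermat.Agent.N4F.C.ChartFactsProof Fermat.Agent.P3G.Gamma Fermat.Agent.P3G.GammaBase
  Fermat.Agent.S19.Cech.LevelBasis Fermat.Agent.S19.Cech.BaseQuotLevel
  Fermat.Agent.S19.Geo.BaseLevel Fermat.Agent.S19.Geo.LevelSitMaps

/-! ### the index set -/

/-- Galois-stable number fields inside `ℚ̄`. -/
def Lv : Type :=
  {E : IntermediateField ℚ Qb // FiniteDimensional ℚ E ∧ ∀ (τ : GQ) (x : Qb), x ∈ E → τ x ∈ E}

/-- inclusion of number fields -/
def Lv.le (E E' : Lv) : Prop := E.1 ≤ E'.1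

theorem Lv.directed (E E' : Lv) : ∃ E'' : Lv, E.le E'' ∧ E'.le E'' := by
  haveI := E.2.1
  haveI := E'.2.1
  refine ⟨⟨E.1 ⊔ E'.1, IntermediateField.finiteDimensional_sup _ _, fun τ x hx => ?_⟩,
    le_sup_left, le_sup_right⟩
  have h : E.1 ⊔ E'.1 ≤ (E.1 ⊔ E'.1).comap (τ : Qb →ₐ[ℚ] Qb) := by
    refine sup_le (fun y hy => ?_) (fun y hy => ?_)
    · exact (le_sup_left : E.1 ≤ E.1 ⊔ E'.1) (E.2.2 τ y hy)
    · exact (le_sup_right : E'.1 ≤ E.1 ⊔ E'.1) (E'.2.2 τ y hy)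
  exact h hx

variable (A : ValuationSubring Qb)

/-- the level of a Galois-stable number field -/
def lvl (E : Lv) : IntermediateField ℚ Qb := bigLevel A E.1

theorem lvl_mono {E E' : Lv} (h : E.le E') : lvl A E ≤ lvl A E' := bigLevel_mono A h

theorem K0_le_lvl (E : Lv) : K0 A ≤ lvl A E := K0_le_bigLevel A E.1

theorem lvl_stable (E : Lv) (τ : GQ) (x : Qb) (hx : x ∈ lvl A E) : τ x ∈ lvl A E :=
  apply_mem_bigLevel E.1 E.2.2 τ hx

/-! ### goodness of the levels -/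

section Good

variable {A} {N : ℕ} [NeZero N] {ℓ : ℕ}

theorem dvr_lvl (hℓ : ℓ.Prime) (hA : A.LiesOverPrime ℓ) (E : Lv) :
    IsDiscreteValuationRing ↥(baseRing A (lvl A E)) :=
  haveI := E.2.1
  (bigLevel_spec hℓ hA E.1).1

theorem goodBase_lvl (hℓ : ℓ.Prime) (hA : A.LiesOverPrime ℓ) (hℓN : ¬ ℓ ∣ N) (E : Lv) :
    GoodBase (Lvl (lvl A E)) N (baseRing A (lvl A E)) ℓ :=
  haveI := E.2.1
  goodBase_of_level hℓ (lvl A E) hℓN (bigLevel_spec hℓ hA E.1).2.1

theorem levelPack_lvl (hℓ : ℓ.Prime) (hA : A.LiesOverPrime ℓ) (hℓN : ¬ ℓ ∣ N) (E : Lv) :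
    haveI := dvr_lvl hℓ hA E
    LevelPack A N (lvl A E) := by
  haveI := E.2.1
  haveI := dvr_lvl hℓ hA E
  haveI : IsAlgClosed (IsLocalRing.ResidueField ↥(baseRing A (lvl A E))) :=
    (bigLevel_spec hℓ hA E.1).2.2.1
  exact levelPack hℓ hA hℓN (lvl A E) (goodBase_lvl hℓ hA hℓN E)
    (bigLevel_spec hℓ hA E.1).2.2.2 (goodRoots_subset_bigLevel A E.1)

theorem star_lvl (hℓ : ℓ.Prime) (hA : A.LiesOverPrime ℓ) (hℓN : ¬ ℓ ∣ N) (E : Lv) :
    haveI := dvr_lvl hℓ hA E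
    StarStatement (Lvl (lvl A E)) N (baseRing A (lvl A E)) :=
  haveI := dvr_lvl hℓ hA E
  Fermat.Agent.N4F.C.LevelStatements.starStatement_lvl hℓ hA (lvl A E)
    (goodBase_lvl hℓ hA hℓN E) (goodRoots_subset_bigLevel A E.1)

/-- the chosen uniformiser of `O_E = A ∩ lvl E` -/
def unif (hℓ : ℓ.Prime) (hA : A.LiesOverPrime ℓ) (E : Lv) : ↥(baseRing A (lvl A E)) :=
  haveI := dvr_lvl hℓ hA E
  Classical.choose (IsDiscreteValuationRing.exists_irreducible ↥(baseRing A (lvl A E)))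

theorem irreducible_unif (hℓ : ℓ.Prime) (hA : A.LiesOverPrime ℓ) (E : Lv) :
    Irreducible (unif hℓ hA E) :=
  haveI := dvr_lvl hℓ hA E
  Classical.choose_spec (IsDiscreteValuationRing.exists_irreducible ↥(baseRing A (lvl A E)))

theorem exists_ram (hℓ : ℓ.Prime) (hA : A.LiesOverPrime ℓ) (E : Lv) : ∃ e : ℕ, 0 < e ∧
    Associated ((ℓ : ↥(baseRing A (lvl A E)))) (unif hℓ hA E ^ e) := by
  haveI := dvr_lvl hℓ hA E
  obtain ⟨v, e, he, hv⟩ := DvrExt.exists_unit_mul_pow_natCast A ℓ hℓ.ne_zero hA (lvl A E)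
    (irreducible_unif hℓ hA E)
  refine ⟨e, he, ?_⟩
  rw [hv, mul_comm]
  exact (associated_mul_unit_left _ _ v.isUnit)

/-- the absolute ramification index of the level -/
def ram (hℓ : ℓ.Prime) (hA : A.LiesOverPrime ℓ) (E : Lv) : ℕ :=
  Classical.choose (exists_ram hℓ hA E)

theorem ram_pos (hℓ : ℓ.Prime) (hA : A.LiesOverPrime ℓ) (E : Lv) : 0 < ram hℓ hA E :=
  (Classical.choose_spec (exists_ram hℓ hA E)).1

theorem associated_ram (hℓ : ℓ.Prime) (hA : A.LiesOverPrime ℓ) (E : Lv) :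
    Associated ((ℓ : ↥(baseRing A (lvl A E)))) (unif hℓ hA E ^ ram hℓ hA E) :=
  (Classical.choose_spec (exists_ram hℓ hA E)).2

end Good

/-! ### the charts, the frame and `Hyp` at a level -/

section Situation

open Fermat.Agent.S19.Cech.Cocycle Fermat.Agent.S19.Cech.CoordOfLines
  Fermat.Agent.S19.Cech.CoordFamily Fermat.Agent.S19.Cech.RedTuple
  Fermat.Agent.N4.FibreEmbedding Fermat.Agent.N4F.C.LevelTheta

variable {A} {N : ℕ} [NeZero N] {ℓ : ℕ}

/-- the function field of the level -/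
abbrev FE (A : ValuationSubring Qb) (N : ℕ) (E : Lv) : Type := FF (Lvl (lvl A E)) N

/-- the base ring of the level -/
abbrev OE (A : ValuationSubring Qb) (E : Lv) : Type := ↥(baseRing A (lvl A E))

/-- the three charts and the Gauss ring of the level -/
abbrev Bp (A : ValuationSubring Qb) (N : ℕ) (E : Lv) : Subalgebra (OE A E) (FE A N E) :=
  Rfin (Lvl (lvl A E)) N (baseRing A (lvl A E))

abbrev Bm (A : ValuationSubring Qb) (N : ℕ) (E : Lv) : Subalgebra (OE A E) (FE A N E) :=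
  Rinf (Lvl (lvl A E)) N (baseRing A (lvl A E))

abbrev B0 (A : ValuationSubring Qb) (N : ℕ) (E : Lv) : Subalgebra (OE A E) (FE A N E) :=
  Rmid (Lvl (lvl A E)) N (baseRing A (lvl A E))

abbrev Wg (hℓ : ℓ.Prime) (hA : A.LiesOverPrime ℓ) (N : ℕ) (E : Lv) :
    Subalgebra (OE A E) (FE A N E) :=
  haveI := dvr_lvl hℓ hA E
  gaussSubalgebra (Lvl (lvl A E)) N (baseRing A (lvl A E))

theorem Bp_le (E : Lv) : Bp A N E ≤ B0 A N E :=
  Fermat.Agent.N4.Chart.chartAlg_mono (sFin_subset (Lvl (lvl A E)) N)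

theorem Bm_le (E : Lv) : Bm A N E ≤ B0 A N E :=
  Fermat.Agent.N4.Chart.chartAlg_mono (sInf_subset (Lvl (lvl A E)) N)

/-- the uniformiser of the level as a function -/
abbrev unifF (hℓ : ℓ.Prime) (hA : A.LiesOverPrime ℓ) (N : ℕ) (E : Lv) : FE A N E :=
  algebraMap (OE A E) (FE A N E) (unif hℓ hA E)

/-- the lines of the level -/
abbrev LineE (hℓ : ℓ.Prime) (hA : A.LiesOverPrime ℓ) (N : ℕ) (E : Lv) : Type :=
  Line (unifF hℓ hA N E) (Bp A N E).toSubring (Bm A N E).toSubring (B0 A N E).toSubring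
    (Wg hℓ hA N E).toSubring

/-- **the charts of the level** (helper18 `GaussN4.charts_of_star`) -/
theorem charts (hℓ : ℓ.Prime) (hA : A.LiesOverPrime ℓ) (hℓN : ¬ ℓ ∣ N) (E : Lv) :
    Charts (unifF hℓ hA N E) (Bp A N E).toSubring (Bm A N E).toSubring (B0 A N E).toSubring
      (Wg hℓ hA N E).toSubring :=
  haveI := dvr_lvl hℓ hA E
  GaussN4.charts_of_star (star_lvl hℓ hA hℓN E) (irreducible_unif hℓ hA E).ne_zero
    (irreducible_unif hℓ hA E).not_isUnit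

theorem maximalIdeal_eq (hℓ : ℓ.Prime) (hA : A.LiesOverPrime ℓ) (E : Lv) :
    haveI := dvr_lvl hℓ hA E
    IsLocalRing.maximalIdeal (OE A E) = Ideal.span {unif hℓ hA E} :=
  haveI := dvr_lvl hℓ hA E
  (irreducible_unif hℓ hA E).maximalIdeal_eq

/-- the frame of the level: the images of the basis lifts of the base level -/
def frameE (fr : Frame A N) (E : Lv) : Fin fr.g → ↥(B0 A N E) :=
  fun i => midIncl A N (K0_le_lvl A E) (fr.ε i)

/-- **`HypAll` at the level**, for the frame of the base level (helper26) -/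
theorem hypAll_lvl (hℓ : ℓ.Prime) (hA : A.LiesOverPrime ℓ) (hℓN : ¬ ℓ ∣ N) (fr : Frame A N)
    (E : Lv) :
    HypAll (inclFin (Lvl (lvl A E)) N (baseRing A (lvl A E)))
      (inclInf (Lvl (lvl A E)) N (baseRing A (lvl A E))) (frameE fr E) :=
  haveI := dvr_K0 hℓ hA
  haveI := dvr_lvl hℓ hA E
  LevelFibreConst.hypAll_level_of_base A N (K0_le_lvl A E) (levelPack_K0 hℓ hA hℓN)
    (levelPack_lvl hℓ hA hℓN E) fr.ε fr.b fr.hb

/-- the ideal `𝔪 = (red ϖ_E)` of `O_E ⧸ (ℓ^(m+1))` is nilpotent -/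
theorem mS_nilpotent (hℓ : ℓ.Prime) (hA : A.LiesOverPrime ℓ) (E : Lv) (m : ℕ) :
    ∃ d : ℕ, LevelSit.mS (OE A E) (unif hℓ hA E) ℓ m ^ d = ⊥ := by
  refine ⟨ram hℓ hA E * (m + 1), ?_⟩
  obtain ⟨u, hu⟩ := associated_ram hℓ hA E
  unfold LevelSit.mS
  rw [Ideal.span_singleton_pow, Ideal.span_singleton_eq_bot, ← map_pow, pow_mul, ← hu, mul_pow]
  exact (Ideal.Quotient.eq_zero_iff_mem).2
    (Ideal.mul_mem_right _ _ (Ideal.subset_span (Set.mem_singleton _)))

/-- **`Hyp` at the level `E` and the precision `m + 1`** -/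
theorem hyp_lvl (hℓ : ℓ.Prime) (hA : A.LiesOverPrime ℓ) (hℓN : ¬ ℓ ∣ N) (fr : Frame A N)
    (E : Lv) (m : ℕ) :
    Hyp (LevelSit.mS (OE A E) (unif hℓ hA E) ℓ m)
      (mapS (Quo (OE A E) ℓ (m + 1)) (Subalgebra.inclusion (Bp_le (A := A) (N := N) E)))
      (mapS (Quo (OE A E) ℓ (m + 1)) (Subalgebra.inclusion (Bm_le (A := A) (N := N) E)))
      (epsS (Quo (OE A E) ℓ (m + 1)) (frameE fr E)) :=
  hypAll_lvl hℓ hA hℓN fr E (Quo (OE A E) ℓ (m + 1)) _ (mS_nilpotent hℓ hA E m)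

/-- **The situation of the level `E` at the precision `m + 1`**, for a system of lines `Λ`. -/
def X (hℓ : ℓ.Prime) (hA : A.LiesOverPrime ℓ) (hℓN : ¬ ℓ ∣ N) (fr : Frame A N)
    {Λ : ∀ E : Lv, JZero N → LineE hℓ hA N E → Prop}
    (hΛ : ∀ E, LineSys (charts hℓ hA hℓN E) (Λ E)) (E : Lv) (m : ℕ) :
    Sit ℓ A (JZero N) fr.g (m + 1) (O₁ A) :=
  haveI := dvr_lvl hℓ hA E
  LevelSit.sit (Bp_le E) (Bm_le E) (charts hℓ hA hℓN E) (isLevelRing A (lvl A E) ℓ)
    (mem_maximalIdeal_iff A (lvl A E)) hA (maximalIdeal_eq hℓ hA E) (ram_pos hℓ hA E)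
    (associated_ram hℓ hA E) (hΛ E) (frameE fr E) (jL A (K0_le_lvl A E)) m
    (hyp_lvl hℓ hA hℓN fr E m)


section Fields

variable (hℓ : ℓ.Prime) (hA : A.LiesOverPrime ℓ) (hℓN : ¬ ℓ ∣ N) (fr : Frame A N)
  {Λ : ∀ E : Lv, JZero N → LineE hℓ hA N E → Prop}
  (hΛ : ∀ E, LineSys (charts hℓ hA hℓN E) (Λ E))

/-- field `hι` of `GeoFamily` -/
theorem X_ι_j (E : Lv) (m : ℕ) (c : O₁ A) :
    (X hℓ hA hℓN fr hΛ E m).ι ((X hℓ hA hℓN fr hΛ E m).j c) = ι₁ A c :=
  ιK_jL A (K0_le_lvl A E) c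

/-- the elements of `O_K` lie in `K` -/
theorem ιK_mem_level (K : IntermediateField ℚ Qb) (x : ↥(baseRing A K)) : ιK A K x ∈ K :=
  Lvl.algebraMap_mem K (x : Lvl K)

/-- field `hfixed` of `GeoFamily`: the level of `E` is fixed by the inertia elements fixing `E` -/
theorem X_fixed (E : Lv) : ∃ E' : IntermediateField ℚ Qb, FiniteDimensional ℚ E' ∧
    ∀ m x, ∀ σ ∈ A.inertiaSubgroupIn ℚ, (∀ y ∈ E', σ y = y) →
      σ ((X hℓ hA hℓN fr hΛ E m).ι x) = (X hℓ hA hℓN fr hΛ E m).ι x := by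
  refine ⟨E.1, E.2.1, fun m x σ hσ hE => ?_⟩
  exact LevelField.apply_eq_of_mem_bigLevel hℓ hA E.1 hσ hE
    (ιK_mem_level (lvl A E) (x : OE A E))

/-- the cocycle predicate of `X` -/
theorem X_K (E : Lv) (m : ℕ) :
    (X hℓ hA hℓN fr hΛ E m).K = LevelSit.KLevel (Λ E) ℓ (ram hℓ hA E) m := rfl

/-- cocycles of every precision exist for a class with a line at the level -/
theorem X_exists_K (E : Lv) {z : JZero N} {L : LineE hℓ hA N E} (hL : Λ E z L) (m : ℕ) :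
    ∃ v, (X hℓ hA hℓN fr hΛ E m).K z v :=
  haveI := dvr_lvl hℓ hA E
  LevelSit.exists_K (charts hℓ hA hℓN E) (hΛ E) m hL

end Fields

end Situation

end Fermat.Agent.S19.Geo.InstanceLevels
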