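/-
S19 / Čech-units route, [KHOM] σ-instance (helper21): **the Galois transport at a stable level.**

`K ⊆ ℚ̄` a `Gal(ℚ̄/ℚ)`-stable level with `O_K = baseRing A K` a DVR, `σ` in the decomposition group
of `A`, `g_σ = GammaAut.levelFF K hK N σ` the coefficientwise action on `F_K = FF (Lvl K) N`.

* `phi` : `g_σ` as a ring automorphism of `F_K`;
* `equivariant_level` : **the instance of `TransportAut.Equivariant`**: `g_σ ϖ = u ϖ`, `u ∈ O_Kˣ`, and
  `g_σ` maps the charts `Rfin, Rinf, Rmid` and the Gauss ring `W_K` onto themselves;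
* `isOne_smul_iff` : `g_σ f ≡ 1 mod ϖ W_K ↔ f ≡ 1 mod ϖ W_K`;
* `isCocycle_smul`, `isCocycle_smul_iff` : cocycles of `lineOf D` ↦ cocycles of `lineOf (g_σ • D)`;
  `isCocycle_gal_smul` : the same for `D = levelDiv K D₀`, `g_σ • D = levelDiv K (σ • D₀)`;
* `levelFF_smul_eq_ffMap`, `levelFF_smul_ffMap` : `g_σ` is `ffMap` of `σ|_K`, and commutes with the
  inclusion of levels `ffMap (lvlIncl hKK')`.
-/
import Mathlib
import Fermat.Agent.S19.Cech.TransportAut
import Fermat.Agent.S19.Cech.LevelGalois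
import Fermat.Agent.S19.Cech.GaussN4
import Fermat.Agent.S19.Cech.LevelBasis
import Fermat.Agent.S19.Cech.CoordOfLines

set_option autoImplicit false
set_option linter.unusedSectionVars false
set_option linter.style.haveILetI false

open ModularCurve AlgebraicCurve
open Fermat.Agent.N4.Setting Fermat.Agent.N4.Chart Fermat.Agent.N4.FibreEmbedding
  Fermat.Agent.N4.BaseDescent

noncomputable section

namespace Fermat.Agent.S19.Geo.LevelEquivariant

open Fermat.Agent.N4F.C Fermat.Agent.N4F.C.Levels Fermat.Agent.N4F.C.LevelCharts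
  Fermat.Agent.N4F.C.Galois
  Fermat.Agent.P3G.GammaAut Fermat.Agent.P3G.GammaGauss
  Fermat.Agent.S19.Cech.Cocycle Fermat.Agent.S19.Cech.TransportAut
  Fermat.Agent.S19.Cech.LevelDiv Fermat.Agent.S19.Cech.DivModule
  Fermat.Agent.S19.Cech.LevelGalois Fermat.Agent.S19.Cech.LevelBasis

local notation "Γ" => (AlgebraicClosure ℚ ≃ₐ[ℚ] AlgebraicClosure ℚ)

/-! ### Abstract: the cocycle systems `kappa` along an equivariant isomorphism -/

section Kappa

open Fermat.Agent.S19.Cech.CoordOfLines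

variable {F F' : Type*} [CommRing F] [IsDomain F] [CommRing F'] [IsDomain F']
  {ϖ : F} {ϖ' c d : F'} {Bp Bm B0 Rg : Subring F} {Bp' Bm' B0' Rg' : Subring F'}
  {φ : F ≃+* F'} {Jb Jb' : Type*} [AddCommGroup Jb] [AddCommGroup Jb']

/-- **Cocycles of the classes along an equivariant isomorphism**: if every line of `z` has a line of
`act z` containing its image, the cocycles `kappa Λ k z` map into `kappa Λ' k (act z)`. -/
theorem kappa_of_equivariant (T : Equivariant φ ϖ ϖ' c d Bp Bm B0 Rg Bp' Bm' B0' Rg')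
    (C' : Charts ϖ' Bp' Bm' B0' Rg') {Λ : Jb → Line ϖ Bp Bm B0 Rg → Prop}
    {Λ' : Jb' → Line ϖ' Bp' Bm' B0' Rg' → Prop} (act : Jb → Jb')
    (hΛ : ∀ z L, Λ z L → ∃ L', Λ' (act z) L' ∧ (∀ x ∈ L.Lp, φ x ∈ L'.Lp) ∧
      (∀ x ∈ L.Lm, φ x ∈ L'.Lm) ∧ (∀ x ∈ L.L0, φ x ∈ L'.L0))
    {k : ℕ} {z : Jb} {u : F} (h : kappa Λ k z u) : kappa Λ' k (act z) (φ u) := by
  obtain ⟨L, hL, fp, hfp, fm, hfm, h1p, h1m, hc⟩ := h
  obtain ⟨L', hL', hp, hm, h0⟩ := hΛ z L hL
  have hcR : c ∈ Rg' := C'.le_R (C'.p_le T.c_mem_p)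
  have hdR : d ∈ Rg' := C'.le_R (C'.p_le T.d_mem_p)
  exact ⟨L', hL', φ fp, hp fp hfp, φ fm, hm fm hfm, (T.isOne_iff hcR hdR).2 h1p,
    (T.isOne_iff hcR hdR).2 h1m, T.isCocycle_of_image C' L L' h0 hc⟩

end Kappa

variable (K : IntermediateField ℚ Qb) (hK : ∀ (τ : Γ) (x : Qb), x ∈ K → τ x ∈ K)
  (N : ℕ) [NeZero N]

/-- The coefficientwise action of `σ` on the function field of a stable level, as a ring
automorphism. -/
abbrev phi (σ : Γ) : FF (Lvl K) N ≃+* FF (Lvl K) N :=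
  SemilinearAut.toRingAut (levelFF K hK N σ)

theorem phi_apply (σ : Γ) (f : FF (Lvl K) N) : phi K hK N σ f = levelFF K hK N σ • f := rfl

theorem phi_symm_apply (σ : Γ) (f : FF (Lvl K) N) :
    (phi K hK N σ).symm f = (levelFF K hK N σ)⁻¹ • f := rfl

section Level

variable {A : ValuationSubring Qb} [IsDiscreteValuationRing ↥(baseRing A K)]
  [IsFractionRing ↥(baseRing A K) (Lvl K)]

/-- `g_σ` preserves the overlap chart. -/
theorem levelFF_smul_mem_Rmid_iff {σ : Γ} (hσ : σ ∈ A.decompositionSubgroup ℚ)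
    {x : FF (Lvl K) N} :
    levelFF K hK N σ • x ∈ Rmid (Lvl K) N (baseRing A K) ↔ x ∈ Rmid (Lvl K) N (baseRing A K) :=
  levelFF_smul_mem_chartAlg_iff K hK N hσ (fun u hu => by
    rcases hu with rfl | hu
    · exact levelFF_smul_jF K hK N σ
    · rw [Set.mem_singleton_iff] at hu
      rw [hu, levelFF_smul_jF_inv])

/-- **The `TransportAut.Equivariant` instance of `g_σ` at a stable level**, `σ` in the decomposition
group, `σ ϖ = u ϖ`. -/
theorem equivariant_level {σ : Γ} (hσ : σ ∈ A.decompositionSubgroup ℚ) {ϖ : ↥(baseRing A K)}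
    {u : (↥(baseRing A K))ˣ} (hu : baseAut K hK hσ ϖ = (u : ↥(baseRing A K)) * ϖ) :
    Equivariant (phi K hK N σ) (algebraMap ↥(baseRing A K) (FF (Lvl K) N) ϖ)
      (algebraMap ↥(baseRing A K) (FF (Lvl K) N) ϖ)
      (algebraMap ↥(baseRing A K) (FF (Lvl K) N) (u : ↥(baseRing A K)))
      (algebraMap ↥(baseRing A K) (FF (Lvl K) N) ((u⁻¹ : (↥(baseRing A K))ˣ) : ↥(baseRing A K)))
      (Rfin (Lvl K) N (baseRing A K)).toSubring (Rinf (Lvl K) N (baseRing A K)).toSubring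
      (Rmid (Lvl K) N (baseRing A K)).toSubring
      (gaussSubalgebra (Lvl K) N (baseRing A K)).toSubring
      (Rfin (Lvl K) N (baseRing A K)).toSubring (Rinf (Lvl K) N (baseRing A K)).toSubring
      (Rmid (Lvl K) N (baseRing A K)).toSubring
      (gaussSubalgebra (Lvl K) N (baseRing A K)).toSubring where
  map_ϖ := by
    rw [← map_mul, ← hu]
    exact levelFF_smul_algebraMap_base K hK N hσ ϖ
  mul_inv := by rw [← map_mul, Units.mul_inv, map_one]
  c_mem_p := Subalgebra.algebraMap_mem _ _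
  c_mem_m := Subalgebra.algebraMap_mem _ _
  d_mem_p := Subalgebra.algebraMap_mem _ _
  d_mem_m := Subalgebra.algebraMap_mem _ _
  mem_p _ := levelFF_smul_mem_Rfin_iff K hK N hσ
  mem_m _ := levelFF_smul_mem_Rinf_iff K hK N hσ
  mem_0 _ := levelFF_smul_mem_Rmid_iff K hK N hσ
  mem_R _ := levelFF_smul_mem_gaussSubalgebra_iff K hK N hσ

/-- The same with the unit produced from a uniformiser. -/
theorem exists_equivariant_level {σ : Γ} (hσ : σ ∈ A.decompositionSubgroup ℚ)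
    {ϖ : ↥(baseRing A K)} (hϖ : Irreducible ϖ) :
    ∃ u : (↥(baseRing A K))ˣ,
      Equivariant (phi K hK N σ) (algebraMap ↥(baseRing A K) (FF (Lvl K) N) ϖ)
      (algebraMap ↥(baseRing A K) (FF (Lvl K) N) ϖ)
      (algebraMap ↥(baseRing A K) (FF (Lvl K) N) (u : ↥(baseRing A K)))
      (algebraMap ↥(baseRing A K) (FF (Lvl K) N) ((u⁻¹ : (↥(baseRing A K))ˣ) : ↥(baseRing A K)))
      (Rfin (Lvl K) N (baseRing A K)).toSubring (Rinf (Lvl K) N (baseRing A K)).toSubring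
      (Rmid (Lvl K) N (baseRing A K)).toSubring
      (gaussSubalgebra (Lvl K) N (baseRing A K)).toSubring
      (Rfin (Lvl K) N (baseRing A K)).toSubring (Rinf (Lvl K) N (baseRing A K)).toSubring
      (Rmid (Lvl K) N (baseRing A K)).toSubring
      (gaussSubalgebra (Lvl K) N (baseRing A K)).toSubring := by
  obtain ⟨u, hu⟩ := exists_unit_baseAut_eq K hK hσ hϖ
  exact ⟨u, equivariant_level K hK N hσ hu⟩

/-- `g_σ f ≡ 1 mod ϖ W_K ↔ f ≡ 1 mod ϖ W_K`. -/
theorem isOne_smul_iff {σ : Γ} (hσ : σ ∈ A.decompositionSubgroup ℚ) {ϖ : ↥(baseRing A K)}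
    (hϖ : Irreducible ϖ) {f : FF (Lvl K) N} :
    IsOne (algebraMap ↥(baseRing A K) (FF (Lvl K) N) ϖ)
        (gaussSubalgebra (Lvl K) N (baseRing A K)).toSubring (levelFF K hK N σ • f) ↔
      IsOne (algebraMap ↥(baseRing A K) (FF (Lvl K) N) ϖ)
        (gaussSubalgebra (Lvl K) N (baseRing A K)).toSubring f := by
  obtain ⟨u, T⟩ := exists_equivariant_level K hK N hσ hϖ
  exact T.isOne_iff (Subalgebra.algebraMap_mem _ _) (Subalgebra.algebraMap_mem _ _)

/-! ### Cocycles of the divisorial lines -/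

section Lines

open Fermat.Agent.S19.Cech.GaussN4

variable (hstar : StarStatement (Lvl K) N (baseRing A K)) {σ : Γ}
  (hσ : σ ∈ A.decompositionSubgroup ℚ) {ϖ : ↥(baseRing A K)} (hϖ : Irreducible ϖ)
  (D : Divisor (Lvl K) (FF (Lvl K) N))
  (rp : ∀ x ∈ Lp (gaussSubalgebra (Lvl K) N (baseRing A K)) (jF (Lvl K) N) D,
    ∃ b ∈ Rfin (Lvl K) N (baseRing A K), ∃ r ∈ gaussSubalgebra (Lvl K) N (baseRing A K),
      x = b + algebraMap ↥(baseRing A K) (FF (Lvl K) N) ϖ * r)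
  (rm : ∀ x ∈ Lm (gaussSubalgebra (Lvl K) N (baseRing A K)) (jF (Lvl K) N) D,
    ∃ b ∈ Rinf (Lvl K) N (baseRing A K), ∃ r ∈ gaussSubalgebra (Lvl K) N (baseRing A K),
      x = b + algebraMap ↥(baseRing A K) (FF (Lvl K) N) ϖ * r)

include hσ hϖ in
/-- **Cocycles of `lineOf D` map to cocycles of `lineOf (g_σ • D)`.** -/
theorem isCocycle_smul
    (rp' : ∀ x ∈ Lp (gaussSubalgebra (Lvl K) N (baseRing A K)) (jF (Lvl K) N)
        (levelFF K hK N σ • D),
      ∃ b ∈ Rfin (Lvl K) N (baseRing A K), ∃ r ∈ gaussSubalgebra (Lvl K) N (baseRing A K),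
        x = b + algebraMap ↥(baseRing A K) (FF (Lvl K) N) ϖ * r)
    (rm' : ∀ x ∈ Lm (gaussSubalgebra (Lvl K) N (baseRing A K)) (jF (Lvl K) N)
        (levelFF K hK N σ • D),
      ∃ b ∈ Rinf (Lvl K) N (baseRing A K), ∃ r ∈ gaussSubalgebra (Lvl K) N (baseRing A K),
        x = b + algebraMap ↥(baseRing A K) (FF (Lvl K) N) ϖ * r)
    {k : ℕ} {fp fm u : FF (Lvl K) N}
    (h : (lineOf hstar hϖ.ne_zero D rp rm).IsCocycle k fp fm u) :
    (lineOf hstar hϖ.ne_zero (levelFF K hK N σ • D) rp' rm').IsCocycle k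
      (levelFF K hK N σ • fp) (levelFF K hK N σ • fm) (levelFF K hK N σ • u) := by
  obtain ⟨v, T⟩ := exists_equivariant_level K hK N hσ hϖ
  exact T.isCocycle_of_image (charts_of_star hstar hϖ.ne_zero hϖ.not_isUnit)
    (lineOf hstar hϖ.ne_zero D rp rm) (lineOf hstar hϖ.ne_zero (levelFF K hK N σ • D) rp' rm')
    (fun x hx => (levelFF_smul_mem_L0_iff K hK N hσ D x).2 hx) h

include hσ hϖ in
/-- Cocycles of `lineOf D` and of `lineOf (g_σ • D)` correspond. -/
theorem isCocycle_smul_iff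
    (rp' : ∀ x ∈ Lp (gaussSubalgebra (Lvl K) N (baseRing A K)) (jF (Lvl K) N)
        (levelFF K hK N σ • D),
      ∃ b ∈ Rfin (Lvl K) N (baseRing A K), ∃ r ∈ gaussSubalgebra (Lvl K) N (baseRing A K),
        x = b + algebraMap ↥(baseRing A K) (FF (Lvl K) N) ϖ * r)
    (rm' : ∀ x ∈ Lm (gaussSubalgebra (Lvl K) N (baseRing A K)) (jF (Lvl K) N)
        (levelFF K hK N σ • D),
      ∃ b ∈ Rinf (Lvl K) N (baseRing A K), ∃ r ∈ gaussSubalgebra (Lvl K) N (baseRing A K),
        x = b + algebraMap ↥(baseRing A K) (FF (Lvl K) N) ϖ * r)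
    {k : ℕ} {fp fm u : FF (Lvl K) N} :
    (lineOf hstar hϖ.ne_zero (levelFF K hK N σ • D) rp' rm').IsCocycle k
        (levelFF K hK N σ • fp) (levelFF K hK N σ • fm) (levelFF K hK N σ • u) ↔
      (lineOf hstar hϖ.ne_zero D rp rm).IsCocycle k fp fm u := by
  refine ⟨fun h => ?_, isCocycle_smul K hK N hstar hσ hϖ D rp rm rp' rm'⟩
  obtain ⟨v, T⟩ := exists_equivariant_level K hK N hσ hϖ
  have h1 := T.symm.isCocycle_of_image (charts_of_star hstar hϖ.ne_zero hϖ.not_isUnit)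
    (lineOf hstar hϖ.ne_zero (levelFF K hK N σ • D) rp' rm') (lineOf hstar hϖ.ne_zero D rp rm)
    (fun x hx => by
      rw [mem_lineOf_L0] at hx ⊢
      rw [← levelFF_smul_mem_L0_iff K hK N hσ D]
      have e : levelFF K hK N σ • (phi K hK N σ).symm x = x := (phi K hK N σ).apply_symm_apply x
      rw [e]
      exact hx) h
  have e : ∀ y : FF (Lvl K) N, (phi K hK N σ).symm (levelFF K hK N σ • y) = y :=
    fun y => (phi K hK N σ).symm_apply_apply y
  rwa [e, e, e] at h1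

include hσ hϖ in
/-- **The form for the lines of classes**: cocycles of `lineOf (levelDiv K D₀)` map to cocycles of
`lineOf (levelDiv K (σ • D₀))`. -/
theorem isCocycle_gal_smul (D₀ : Divisor Qb (Fb N))
    (rp₀ : ∀ x ∈ Lp (gaussSubalgebra (Lvl K) N (baseRing A K)) (jF (Lvl K) N) (levelDiv K D₀),
      ∃ b ∈ Rfin (Lvl K) N (baseRing A K), ∃ r ∈ gaussSubalgebra (Lvl K) N (baseRing A K),
        x = b + algebraMap ↥(baseRing A K) (FF (Lvl K) N) ϖ * r)
    (rm₀ : ∀ x ∈ Lm (gaussSubalgebra (Lvl K) N (baseRing A K)) (jF (Lvl K) N) (levelDiv K D₀),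
      ∃ b ∈ Rinf (Lvl K) N (baseRing A K), ∃ r ∈ gaussSubalgebra (Lvl K) N (baseRing A K),
        x = b + algebraMap ↥(baseRing A K) (FF (Lvl K) N) ϖ * r)
    (rp' : ∀ x ∈ Lp (gaussSubalgebra (Lvl K) N (baseRing A K)) (jF (Lvl K) N)
        (levelDiv K (gal N σ • D₀)),
      ∃ b ∈ Rfin (Lvl K) N (baseRing A K), ∃ r ∈ gaussSubalgebra (Lvl K) N (baseRing A K),
        x = b + algebraMap ↥(baseRing A K) (FF (Lvl K) N) ϖ * r)
    (rm' : ∀ x ∈ Lm (gaussSubalgebra (Lvl K) N (baseRing A K)) (jF (Lvl K) N)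
        (levelDiv K (gal N σ • D₀)),
      ∃ b ∈ Rinf (Lvl K) N (baseRing A K), ∃ r ∈ gaussSubalgebra (Lvl K) N (baseRing A K),
        x = b + algebraMap ↥(baseRing A K) (FF (Lvl K) N) ϖ * r)
    {k : ℕ} {fp fm u : FF (Lvl K) N}
    (h : (lineOf hstar hϖ.ne_zero (levelDiv K D₀) rp₀ rm₀).IsCocycle k fp fm u) :
    (lineOf hstar hϖ.ne_zero (levelDiv K (gal N σ • D₀)) rp' rm').IsCocycle k
      (levelFF K hK N σ • fp) (levelFF K hK N σ • fm) (levelFF K hK N σ • u) := by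
  obtain ⟨v, T⟩ := exists_equivariant_level K hK N hσ hϖ
  refine T.isCocycle_of_image (charts_of_star hstar hϖ.ne_zero hϖ.not_isUnit)
    (lineOf hstar hϖ.ne_zero (levelDiv K D₀) rp₀ rm₀)
    (lineOf hstar hϖ.ne_zero (levelDiv K (gal N σ • D₀)) rp' rm') (fun x hx => ?_) h
  rw [mem_lineOf_L0] at hx ⊢
  rw [levelDiv_gal_smul K hK]
  exact (levelFF_smul_mem_L0_iff K hK N hσ _ x).2 hx

include hstar hσ hϖ in
/-- **The `σ`-instance of the cocycle part of [KHOM]**: for any two systems of lines `Λ`, `Λ'` on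
the level charts such that every line of `z` has a line of `act z` containing its `g_σ`-image, the
cocycles `kappa Λ k z` are mapped by `g_σ` into `kappa Λ' k (act z)`. -/
theorem kappa_levelFF_smul {Jb Jb' : Type*} [AddCommGroup Jb] [AddCommGroup Jb']
    {Λ : Jb → Line (algebraMap ↥(baseRing A K) (FF (Lvl K) N) ϖ)
      (Rfin (Lvl K) N (baseRing A K)).toSubring (Rinf (Lvl K) N (baseRing A K)).toSubring
      (Rmid (Lvl K) N (baseRing A K)).toSubring
      (gaussSubalgebra (Lvl K) N (baseRing A K)).toSubring → Prop}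
    {Λ' : Jb' → Line (algebraMap ↥(baseRing A K) (FF (Lvl K) N) ϖ)
      (Rfin (Lvl K) N (baseRing A K)).toSubring (Rinf (Lvl K) N (baseRing A K)).toSubring
      (Rmid (Lvl K) N (baseRing A K)).toSubring
      (gaussSubalgebra (Lvl K) N (baseRing A K)).toSubring → Prop} (act : Jb → Jb')
    (hΛ : ∀ z L, Λ z L → ∃ L', Λ' (act z) L' ∧ (∀ x ∈ L.Lp, levelFF K hK N σ • x ∈ L'.Lp) ∧
      (∀ x ∈ L.Lm, levelFF K hK N σ • x ∈ L'.Lm) ∧ (∀ x ∈ L.L0, levelFF K hK N σ • x ∈ L'.L0))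
    {k : ℕ} {z : Jb} {u : FF (Lvl K) N}
    (h : Fermat.Agent.S19.Cech.CoordOfLines.kappa Λ k z u) :
    Fermat.Agent.S19.Cech.CoordOfLines.kappa Λ' k (act z) (levelFF K hK N σ • u) := by
  obtain ⟨v, T⟩ := exists_equivariant_level K hK N hσ hϖ
  exact kappa_of_equivariant T (charts_of_star hstar hϖ.ne_zero hϖ.not_isUnit) act hΛ h

end Lines

end Level

/-! ### Compatibility with the inclusion of levels -/

section Incl

/-- `g_σ` is the coefficientwise base change along `σ|_K`. -/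
theorem levelFF_smul_eq_ffMap (σ : Γ) (f : FF (Lvl K) N) :
    levelFF K hK N σ • f =
      ffMap ((levelAut K hK σ : Lvl K ≃+* Lvl K) : Lvl K →+* Lvl K) N f :=
  Subtype.ext rfl

variable {K} {K' : IntermediateField ℚ Qb} (hK' : ∀ (τ : Γ) (x : Qb), x ∈ K' → τ x ∈ K')

/-- **The Galois actions of two stable levels `K ≤ K'` are compatible with the inclusion of the
function fields.** -/
theorem levelFF_smul_ffMap (hKK' : K ≤ K') (σ : Γ) (f : FF (Lvl K) N) :
    levelFF K' hK' N σ • ffMap (lvlIncl hKK') N f =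
      ffMap (lvlIncl hKK') N (levelFF K hK N σ • f) := by
  apply (levK N K').toRingHom.injective
  show levK N K' _ = levK N K' _
  rw [levK_levelFF_smul, levK_ffMap, levK_ffMap, levK_levelFF_smul]

end Incl

end Fermat.Agent.S19.Geo.LevelEquivariant
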