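/-
S19 / GEO, [INST] field `hinertia` (helper21; dispatch #2368 item 3): **the inertia group acts on the
situation of a Galois-stable level.**

`L ⊆ ℚ̄` a `Gal(ℚ̄/ℚ)`-stable level containing the unramified base level `K₀ = K0 A`, `O_L` a DVR,
`σ` in the inertia group of `A`.  For the situation `LevelSit.sit` of the level `L` (charts
`Rfin, Rinf, Rmid`, Gauss ring `W_L`, any system of lines `Λ`, frame `ε₀ = midIncl (K₀ ≤ L) ∘ ε₁`
coming from the base level) and any precision `m + 1`: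

  `(sit … m H).IsHom (sit … m H) σ (galActJ N σ)`

(`LevelSitPack.isHom_of_chg` with `θ = σ|_{O_L}`, `τ = g_σ = levelFF L hL N σ`, `φ = φGal`).  The only
hypothesis left is the compatibility of the lines with `σ` (`LevelLinesHom.LinesHom`, [LINES] `Λ_gal`).

* `levelFF_smul_ffMap_K0` : the inertia group fixes the image of the function field of `K₀` in the
  function field of `L` (so the frame is fixed);
* `isHom_inertia` : the statement above;  `isHom_decomp_of_frame` : the same for `σ` in the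
  decomposition group and any frame fixed by `g_σ`.
-/
import Mathlib
import Fermat.Agent.S19.Geo.LevelSitPack
import Fermat.Agent.S19.Geo.LevelEquivariant
import Fermat.Agent.S19.Abs.TopWire

set_option autoImplicit false
set_option linter.unusedSectionVars false
set_option linter.style.haveILetI false

open ModularCurve AlgebraicCurve TensorProduct
open Fermat.Agent.N4.Setting Fermat.Agent.N4.Chart Fermat.Agent.N4.FibreEmbedding
  Fermat.Agent.N4.BaseDescent

noncomputable section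

namespace Fermat.Agent.S19.Geo.LevelSitInertia

open Fermat.Agent.N4F.C.Levels Fermat.Agent.N4F.C.LevelCharts
  Fermat.Agent.N4F.C.Galois Fermat.Agent.P3G.Gamma
  Fermat.Agent.P3G.GammaAut Fermat.Agent.P3G.GammaGauss
  Fermat.Agent.S19.Abs Fermat.Agent.S19.Coord Fermat.Agent.S19.Cech
  Fermat.Agent.S19.Cech.Cocycle Fermat.Agent.S19.Cech.CoordOfLines
  Fermat.Agent.S19.Cech.CoordFamily Fermat.Agent.S19.Cech.RedTuple
  Fermat.Agent.S19.Cech.BaseQuotLevel Fermat.Agent.S19.Cech.LevelBasis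
  Fermat.Agent.S19.Cech.LevelGalois
  Fermat.Agent.S19.Geo.LevelSit Fermat.Agent.S19.Geo.LevelSitMaps
  Fermat.Agent.S19.Geo.LevelSitIdeal Fermat.Agent.S19.Geo.LevelSitPack
  Fermat.Agent.S19.Geo.LevelLinesHom Fermat.Agent.S19.Geo.LevelEquivariant

variable {A : ValuationSubring Qb} {ℓ : ℕ} {N : ℕ} [NeZero N]
  (L : IntermediateField ℚ Qb) (hL : ∀ (τ : GQ) (x : Qb), x ∈ L → τ x ∈ L)

/-- **The inertia group fixes the functions defined over the unramified base level.** -/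
theorem levelFF_smul_ffMap_K0 (hℓ : ℓ.Prime) (hA : A.LiesOverPrime ℓ) (h0 : K0 A ≤ L) {σ : GQ}
    (hσ : σ ∈ A.inertiaSubgroupIn ℚ) (x : FF (Lvl (K0 A)) N) :
    levelFF L hL N σ • ffMap (LevelBasis.lvlIncl h0) N x = ffMap (LevelBasis.lvlIncl h0) N x := by
  apply (levK N L).toRingHom.injective
  show levK N L _ = levK N L _
  rw [levK_levelFF_smul, levK_ffMap, gal_smul_levK_K0_of_mem_inertia N hℓ hA hσ]

variable [IsDiscreteValuationRing ↥(baseRing A L)] [IsFractionRing ↥(baseRing A L) (Lvl L)]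

section Decomp

variable (hp : Rfin (Lvl L) N (baseRing A L) ≤ Rmid (Lvl L) N (baseRing A L))
  (hm : Rinf (Lvl L) N (baseRing A L) ≤ Rmid (Lvl L) N (baseRing A L)) {ϖ : OL A L}
  (C : Charts (algebraMap (OL A L) (FF (Lvl L) N) ϖ) (Rfin (Lvl L) N (baseRing A L)).toSubring
    (Rinf (Lvl L) N (baseRing A L)).toSubring (Rmid (Lvl L) N (baseRing A L)).toSubring
    (gaussSubalgebra (Lvl L) N (baseRing A L)).toSubring)
  (hι : IsLevelRing A ℓ (ιK A L))
  (hloc : ∀ x : OL A L, x ∈ IsLocalRing.maximalIdeal (OL A L) ↔ ιK A L x ∈ A.nonunits)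
  (hA : A.LiesOverPrime ℓ) (hϖ : IsLocalRing.maximalIdeal (OL A L) = Ideal.span {ϖ})
  {e : ℕ} (he : 0 < e) (hℓe : Associated ((ℓ : OL A L)) (ϖ ^ e))
  {Λ : JZero N → Line (algebraMap (OL A L) (FF (Lvl L) N) ϖ)
    (Rfin (Lvl L) N (baseRing A L)).toSubring (Rinf (Lvl L) N (baseRing A L)).toSubring
    (Rmid (Lvl L) N (baseRing A L)).toSubring
    (gaussSubalgebra (Lvl L) N (baseRing A L)).toSubring → Prop}
  (hΛ : LineSys C Λ) {g : ℕ} (ε₀ : Fin g → ↥(Rmid (Lvl L) N (baseRing A L)))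
  {O₁ : Type} [CommRing O₁] (j : O₁ →+* OL A L) (m : ℕ)
  (H : Hyp (mS (OL A L) ϖ ℓ m)
    (mapS (Quo (OL A L) ℓ (m + 1)) (Subalgebra.inclusion hp))
    (mapS (Quo (OL A L) ℓ (m + 1)) (Subalgebra.inclusion hm))
    (epsS (Quo (OL A L) ℓ (m + 1)) ε₀))

/-- **`σ` in the decomposition group is a morphism of the situation of a stable level to itself**, as
soon as it fixes the frame and respects the lines. -/
theorem isHom_decomp_of_frame {σ : GQ} (hσ : σ ∈ A.decompositionSubgroup ℚ)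
    (hϖi : Irreducible ϖ)
    (hε : ∀ i, levelFF L hL N σ • (ε₀ i : FF (Lvl L) N) = (ε₀ i : FF (Lvl L) N))
    (hΛσ : LinesHom ((phi L hL N σ : FF (Lvl L) N ≃+* FF (Lvl L) N) :
      FF (Lvl L) N →+* FF (Lvl L) N) Λ Λ (galActJ N σ)) :
    (sit (Jb := JZero N) hp hm C hι hloc hA hϖ he hℓe hΛ ε₀ j m H).IsHom
      (sit (Jb := JZero N) hp hm C hι hloc hA hϖ he hℓe hΛ ε₀ j m H)
      ((σ : GQ) : Qb →+* Qb) (galActJ N σ) := by
  obtain ⟨v, T⟩ := exists_equivariant_level L hL N hσ hϖi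
  refine isHom_of_chg hp hm C hι hloc hA hϖ he hℓe hΛ ε₀ j m hp hm C hι hloc hϖ he hℓe hΛ ε₀ j m
    H H (θGal L hL hσ)
    ((phi L hL N σ : FF (Lvl L) N ≃+* FF (Lvl L) N) : FF (Lvl L) N →+* FF (Lvl L) N)
    (fun o => levelFF_smul_algebraMap_base L hL N hσ o)
    (fun x hx => (levelFF_smul_mem_Rfin_iff L hL N hσ).2 hx)
    (fun x hx => (levelFF_smul_mem_Rinf_iff L hL N hσ).2 hx)
    (fun x hx => (levelFF_smul_mem_Rmid_iff L hL N hσ).2 hx)
    (φGal ℓ L hL hσ (m + 1)) (fun o => φGal_red ℓ L hL hσ (m + 1) o)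
    (fun s hs => φGal_mem_mS ℓ L hL hσ hϖ m hs) hε ((σ : GQ) : Qb →+* Qb)
    (fun x => ιK_θGal L hL hσ x) (galActJ N σ) ?_
  intro z u hu
  exact kappa_map_equivariant T C hΛσ le_rfl hu

end Decomp

section Inertia

variable (hp : Rfin (Lvl L) N (baseRing A L) ≤ Rmid (Lvl L) N (baseRing A L))
  (hm : Rinf (Lvl L) N (baseRing A L) ≤ Rmid (Lvl L) N (baseRing A L)) {ϖ : OL A L}
  (C : Charts (algebraMap (OL A L) (FF (Lvl L) N) ϖ) (Rfin (Lvl L) N (baseRing A L)).toSubring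
    (Rinf (Lvl L) N (baseRing A L)).toSubring (Rmid (Lvl L) N (baseRing A L)).toSubring
    (gaussSubalgebra (Lvl L) N (baseRing A L)).toSubring)
  (hι : IsLevelRing A ℓ (ιK A L))
  (hloc : ∀ x : OL A L, x ∈ IsLocalRing.maximalIdeal (OL A L) ↔ ιK A L x ∈ A.nonunits)
  (hℓ : ℓ.Prime) (hA : A.LiesOverPrime ℓ)
  (hϖ : IsLocalRing.maximalIdeal (OL A L) = Ideal.span {ϖ})
  {e : ℕ} (he : 0 < e) (hℓe : Associated ((ℓ : OL A L)) (ϖ ^ e))
  {Λ : JZero N → Line (algebraMap (OL A L) (FF (Lvl L) N) ϖ)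
    (Rfin (Lvl L) N (baseRing A L)).toSubring (Rinf (Lvl L) N (baseRing A L)).toSubring
    (Rmid (Lvl L) N (baseRing A L)).toSubring
    (gaussSubalgebra (Lvl L) N (baseRing A L)).toSubring → Prop}
  (hΛ : LineSys C Λ) {g : ℕ} (h0 : K0 A ≤ L)
  (ε₁ : Fin g → ↥(Rmid (Lvl (K0 A)) N (baseRing A (K0 A))))
  {O₁ : Type} [CommRing O₁] (j : O₁ →+* OL A L) (m : ℕ)
  (H : Hyp (mS (OL A L) ϖ ℓ m)
    (mapS (Quo (OL A L) ℓ (m + 1)) (Subalgebra.inclusion hp))
    (mapS (Quo (OL A L) ℓ (m + 1)) (Subalgebra.inclusion hm))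
    (epsS (Quo (OL A L) ℓ (m + 1)) (fun i => midIncl A N h0 (ε₁ i))))

include hℓ in
/-- **The field `hinertia`**: `σ` in the inertia group is a morphism of the situation of a stable
level `L ⊇ K₀` (frame = image of a frame of the base level `K₀`) to itself, over `σ` on `ℚ̄` and
`galActJ N σ` on the classes.  `hΛσ` = [LINES] `Λ_gal`. -/
theorem isHom_inertia {σ : GQ} (hσ : σ ∈ A.inertiaSubgroupIn ℚ) (hϖi : Irreducible ϖ)
    (hΛσ : LinesHom ((phi L hL N σ : FF (Lvl L) N ≃+* FF (Lvl L) N) :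
      FF (Lvl L) N →+* FF (Lvl L) N) Λ Λ (galActJ N σ)) :
    (sit (Jb := JZero N) hp hm C hι hloc hA hϖ he hℓe hΛ (fun i => midIncl A N h0 (ε₁ i)) j m
        H).IsHom
      (sit (Jb := JZero N) hp hm C hι hloc hA hϖ he hℓe hΛ (fun i => midIncl A N h0 (ε₁ i)) j m H)
      ((σ : GQ) : Qb →+* Qb) (galActJ N σ) :=
  isHom_decomp_of_frame L hL hp hm C hι hloc hA hϖ he hℓe hΛ (fun i => midIncl A N h0 (ε₁ i)) j m H
    (mem_decompositionSubgroup_of_mem_inertia hσ) hϖi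
    (fun i => levelFF_smul_ffMap_K0 L hL hℓ hA h0 hσ (ε₁ i : FF (Lvl (K0 A)) N)) hΛσ

end Inertia

end Fermat.Agent.S19.Geo.LevelSitInertia
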