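/-
S19 / GEO, [INST] field `hinertia` at the concrete family (helper21; dispatch #2406):
**`GeoFamily.hinertia` verbatim for `InstanceLevels.X`.**

For the concrete situations `X hℓ hA hℓN fr hΛ E m` of helper8's `Geo/InstanceLevels.lean` (level
`lvl A E = bigLevel A E`, `E` a Galois-stable number field; generic system of lines `Λ E`), every
`σ` in the inertia group of `A` is a morphism `X E m → X E m` over `σ` on `ℚ̄` and `galActJ N σ` on
the classes (`LevelSitInertia.isHom_inertia`; the level is Galois-stable, so `E' := E`).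

The only hypothesis left is the compatibility of the lines with `σ`
(`LevelLinesHom.LinesHom` for `phi (lvl A E) (lvl_stable A E) N σ`, [LINES] `Λ_gal`), asked either
for the inertia group (`hinertia_X'`) or for the whole decomposition group (`hinertia_X`, the shape
shared with `htwist_X`).
-/
import Mathlib
import Fermat.Agent.S19.Geo.InstanceLevels
import Fermat.Agent.S19.Geo.LevelSitInertia

set_option autoImplicit false
set_option linter.unusedSectionVars false
set_option linter.style.haveILetI false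

open ModularCurve AlgebraicCurve

noncomputable section

namespace Fermat.Agent.S19.Geo.InstanceInertia

open Fermat.Agent.S19.Abs Fermat.Agent.S19.Coord Fermat.Agent.S19.Cech
open Fermat.Agent.N4.Setting
open Fermat.Agent.N4F.C.Levels Fermat.Agent.N4F.C.LevelCharts
  Fermat.Agent.N4F.C.Galois
  Fermat.Agent.P3G.Gamma Fermat.Agent.P3G.GammaBase
  Fermat.Agent.S19.Cech.LevelBasis Fermat.Agent.S19.Cech.BaseQuotLevel
  Fermat.Agent.S19.Cech.Cocycle Fermat.Agent.S19.Cech.CoordOfLines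
  Fermat.Agent.S19.Geo.BaseLevel Fermat.Agent.S19.Geo.LevelSitMaps
  Fermat.Agent.S19.Geo.LevelLinesHom Fermat.Agent.S19.Geo.LevelEquivariant
  Fermat.Agent.S19.Geo.LevelSitInertia Fermat.Agent.S19.Geo.InstanceLevels

variable {A : ValuationSubring Qb} {N : ℕ} [NeZero N] {ℓ : ℕ}
  (hℓ : ℓ.Prime) (hA : A.LiesOverPrime ℓ) (hℓN : ¬ ℓ ∣ N) (fr : Frame A N)
  {Λ : ∀ E : Lv, JZero N → LineE hℓ hA N E → Prop}
  (hΛ : ∀ E, LineSys (charts hℓ hA hℓN E) (Λ E))

/-- `σ` in the inertia group is a morphism of `X E m` to itself, given `LinesHom` for this `σ` at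
this level. -/
theorem isHom_X_inertia (E : Lv) (m : ℕ) {σ : GQ} (hσ : σ ∈ A.inertiaSubgroupIn ℚ)
    (hΛσ : LinesHom ((phi (lvl A E) (lvl_stable A E) N σ : FE A N E ≃+* FE A N E) :
      FE A N E →+* FE A N E) (Λ E) (Λ E) (galActJ N σ)) :
    (X hℓ hA hℓN fr hΛ E m).IsHom (X hℓ hA hℓN fr hΛ E m) ((σ : GQ) : Qb →+* Qb)
      (galActJ N σ) :=
  haveI := dvr_lvl hℓ hA E
  isHom_inertia (lvl A E) (lvl_stable A E) (Bp_le E) (Bm_le E) (charts hℓ hA hℓN E)
    (isLevelRing A (lvl A E) ℓ) (mem_maximalIdeal_iff A (lvl A E)) hℓ hA (maximalIdeal_eq hℓ hA E)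
    (ram_pos hℓ hA E) (associated_ram hℓ hA E) (hΛ E) (K0_le_lvl A E) fr.ε
    (jL A (K0_le_lvl A E)) m (hyp_lvl hℓ hA hℓN fr E m) hσ (irreducible_unif hℓ hA E) hΛσ

/-- **Field `hinertia` of `GeoFamily`** for `InstanceLevels.X`, from `LinesHom` for the inertia
group. -/
theorem hinertia_X'
    (hΛσ : ∀ E, ∀ σ ∈ A.inertiaSubgroupIn ℚ,
      LinesHom ((phi (lvl A E) (lvl_stable A E) N σ : FE A N E ≃+* FE A N E) :
        FE A N E →+* FE A N E) (Λ E) (Λ E) (galActJ N σ)) :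
    ∀ σ ∈ A.inertiaSubgroupIn ℚ, ∀ E m,
      ∃ E', (X hℓ hA hℓN fr hΛ E m).IsHom (X hℓ hA hℓN fr hΛ E' m) ((σ : GQ) : Qb →+* Qb)
        (galActJ N σ) :=
  fun σ hσ E m => ⟨E, isHom_X_inertia hℓ hA hℓN fr hΛ E m hσ (hΛσ E σ hσ)⟩

/-- **Field `hinertia` of `GeoFamily`** for `InstanceLevels.X`, from `LinesHom` for the
decomposition group (the hypothesis shared with `htwist_X`). -/
theorem hinertia_X
    (hΛσ : ∀ E, ∀ σ ∈ A.decompositionSubgroup ℚ,
      LinesHom ((phi (lvl A E) (lvl_stable A E) N σ : FE A N E ≃+* FE A N E) :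
        FE A N E →+* FE A N E) (Λ E) (Λ E) (galActJ N σ)) :
    ∀ σ ∈ A.inertiaSubgroupIn ℚ, ∀ E m,
      ∃ E', (X hℓ hA hℓN fr hΛ E m).IsHom (X hℓ hA hℓN fr hΛ E' m) ((σ : GQ) : Qb →+* Qb)
        (galActJ N σ) :=
  hinertia_X' hℓ hA hℓN fr hΛ
    (fun E σ hσ => hΛσ E σ (mem_decompositionSubgroup_of_mem_inertia hσ))

end Fermat.Agent.S19.Geo.InstanceInertia
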