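/-
S19 / GEO, leaf [KHOM], **the instance "inclusion of levels" `K ≤ K'`** (helper12; abstract lemma:
helper6's `Geo/LevelLinesHom.lean`; ingredients: `Cech/LineLevelMono.lean`).

`τ := ffMap (LevelBasis.lvlIncl hKK') N : F_K →+* F_{K'}`, `ϖ`, `ϖ'` elements of the base rings with
`DvrExt.oIncl A hKK' ϖ = u * ϖ' ^ e` (helper24's `exists_unit_mul_pow_level`), charts
`Rfin / Rinf / Rmid`, Gauss rings `W_K = gaussSubalgebra (Lvl K) N (baseRing A K)`.

* `chartHom_ffMap` : `LevelLinesHom.ChartHom τ ϖ ϖ' u e Rmid_K W_K Rmid_{K'} W_{K'}`;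
* `linesHom_ffMap` : `LevelLinesHom.LinesHom τ Λ Λ' id` from `LineLevelMono.LinesLift` (every line
  of `Λ z` is `lineOf (levelDiv K D)` for a divisor `D` of `Fb N` with `K`-rational support whose
  line `lineOf (levelDiv K' D)` at the level `K'` belongs to `Λ' z`);
* `kappa_incl`, `kImage_incl` : the conclusions of `LevelLinesHom.kappa_map / kImage_map` for this
  instance (`k' + 1 ≤ e (k + 1)`; with `LevelSit.kOf`: `LevelLinesHom.kOf_mul_le`).
-/
import Mathlib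
import Fermat.Agent.S19.Cech.LineLevelMono
import Fermat.Agent.S19.Geo.LevelLinesHom

set_option autoImplicit false
set_option linter.unusedSectionVars false
set_option linter.style.haveILetI false
set_option synthInstance.maxHeartbeats 400000
set_option maxHeartbeats 800000

open ModularCurve AlgebraicCurve
open Fermat.Agent.N4.Setting Fermat.Agent.S24
open Fermat.Agent.S24.PlaceDeriv (ResidueTrivial)

noncomputable section

namespace Fermat.Agent.S19.Geo.LevelLinesHomIncl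

open Fermat.Agent.N4F.C Fermat.Agent.N4F.C.Levels Fermat.Agent.N4F.C.LevelCharts
  Fermat.Agent.N4.BaseDescent Fermat.Agent.N4.FibreEmbedding
  Fermat.Agent.S19.Cech.LevelDiv Fermat.Agent.S19.Cech.DivModule
  Fermat.Agent.S19.Cech.LevelBasis Fermat.Agent.S19.Cech.DvrExt
  Fermat.Agent.S19.Cech.Cocycle Fermat.Agent.S19.Cech.CoordOfLines
  Fermat.Agent.S19.Cech.LineLevelMono Fermat.Agent.S19.Geo.LevelLinesHom

variable {A : ValuationSubring Qb} {N : ℕ} [NeZero N] {K K' : IntermediateField ℚ Qb}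
  (hKK' : K ≤ K')
  [IsDiscreteValuationRing ↥(baseRing A K)] [IsFractionRing ↥(baseRing A K) (Lvl K)]
  [IsDiscreteValuationRing ↥(baseRing A K')] [IsFractionRing ↥(baseRing A K') (Lvl K')]

/-- **The inclusion of levels is a `ChartHom`.** -/
theorem chartHom_ffMap {ϖ : ↥(baseRing A K)} {ϖ' u : ↥(baseRing A K')} {e : ℕ} (he : 1 ≤ e)
    (hϖ : oIncl A hKK' ϖ = u * ϖ' ^ e) :
    ChartHom (ffMap (lvlIncl hKK') N) (algebraMap ↥(baseRing A K) (FF (Lvl K) N) ϖ)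
      (algebraMap ↥(baseRing A K') (FF (Lvl K') N) ϖ')
      (algebraMap ↥(baseRing A K') (FF (Lvl K') N) u) e
      (Rmid (Lvl K) N (baseRing A K)).toSubring
      (gaussSubalgebra (Lvl K) N (baseRing A K)).toSubring
      (Rmid (Lvl K') N (baseRing A K')).toSubring
      (gaussSubalgebra (Lvl K') N (baseRing A K')).toSubring where
  pos := he
  map_ϖ := ffMap_algebraMap_uniformiser A hKK' hϖ
  c_mem := (Rmid (Lvl K') N (baseRing A K')).algebraMap_mem u
  map_0 := fun _ hb => ffMap_mem_Rmid (lvlIncl hKK') N (baseRing A K) (baseRing A K')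
    (lvlIncl_mem A hKK') hb
  map_R := fun _ hr => ffMap_mem_gaussSubalgebra A hKK' hr

variable {hstar : StarStatement (Lvl K) N (baseRing A K)}
  {hstar' : StarStatement (Lvl K') N (baseRing A K')}
  {ϖ : ↥(baseRing A K)} {hϖ0 : ϖ ≠ 0} {ϖ' : ↥(baseRing A K')} {hϖ0' : ϖ' ≠ 0}
  {Jb : Type*} [AddCommGroup Jb]
  {Λ : Jb → Line (algebraMap ↥(baseRing A K) (FF (Lvl K) N) ϖ)
    (Rfin (Lvl K) N (baseRing A K)).toSubring (Rinf (Lvl K) N (baseRing A K)).toSubring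
    (Rmid (Lvl K) N (baseRing A K)).toSubring
    (gaussSubalgebra (Lvl K) N (baseRing A K)).toSubring → Prop}
  {Λ' : Jb → Line (algebraMap ↥(baseRing A K') (FF (Lvl K') N) ϖ')
    (Rfin (Lvl K') N (baseRing A K')).toSubring (Rinf (Lvl K') N (baseRing A K')).toSubring
    (Rmid (Lvl K') N (baseRing A K')).toSubring
    (gaussSubalgebra (Lvl K') N (baseRing A K')).toSubring → Prop}

/-- **The inclusion of levels maps lines into lines** (same divisor `D` of `Fb N`). -/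
theorem linesHom_ffMap (hΛ : LinesLift A hstar hstar' hϖ0 hϖ0' (Λ := Λ) (Λ' := Λ')) :
    LinesHom (ffMap (lvlIncl hKK') N) Λ Λ' id := by
  intro z L hL
  obtain ⟨D, hrat, rp, rm, rp', rm', rfl, hL'⟩ := hΛ z L hL
  exact ⟨_, hL',
    fun _ hx => ffMap_mem_lineOf_Lp A hKK' hstar hstar' hϖ0 hϖ0' D hrat rp rm rp' rm' hx,
    fun _ hx => ffMap_mem_lineOf_Lm A hKK' hstar hstar' hϖ0 hϖ0' D hrat rp rm rp' rm' hx,
    fun _ hx => ffMap_mem_lineOf_L0 A hKK' hstar hstar' hϖ0 hϖ0' D hrat rp rm rp' rm' hx⟩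

/-- **[KHOM], level inclusion, cocycle form.** -/
theorem kappa_incl (hϖ'nu : ¬ IsUnit ϖ')
    (hΛ : LinesLift A hstar hstar' hϖ0 hϖ0' (Λ := Λ) (Λ' := Λ'))
    {u : ↥(baseRing A K')} {e : ℕ} (he : 1 ≤ e) (hϖ : oIncl A hKK' ϖ = u * ϖ' ^ e)
    {k k' : ℕ} (hk : k' + 1 ≤ e * (k + 1)) {z : Jb} {u₀ : FF (Lvl K) N}
    (h : kappa Λ k z u₀) : kappa Λ' k' z (ffMap (lvlIncl hKK') N u₀) :=
  LevelLinesHom.kappa_map (Fermat.Agent.S19.Cech.GaussN4.charts_of_star hstar' hϖ0' hϖ'nu) (chartHom_ffMap hKK' he hϖ)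
    (linesHom_ffMap hKK' hΛ) hk h

/-- **[KHOM], level inclusion, image form** (the cocycle clause of `Sit.IsHom` for `hlift`). -/
theorem kImage_incl (hϖ'nu : ¬ IsUnit ϖ')
    (hΛ : LinesLift A hstar hstar' hϖ0 hϖ0' (Λ := Λ) (Λ' := Λ'))
    {u : ↥(baseRing A K')} {e : ℕ} (he : 1 ≤ e) (hϖ : oIncl A hKK' ϖ = u * ϖ' ^ e)
    {k k' : ℕ} (hk : k' + 1 ≤ e * (k + 1))
    {C0 C0' : Type*} [CommRing C0] [CommRing C0']
    {q0 : (Rmid (Lvl K) N (baseRing A K)).toSubring →+* C0}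
    {q0' : (Rmid (Lvl K') N (baseRing A K')).toSubring →+* C0'} {ψ0 : C0 →+* C0'}
    (hq : ∀ (b : FF (Lvl K) N) (hb : b ∈ (Rmid (Lvl K) N (baseRing A K)).toSubring),
      ψ0 (q0 ⟨b, hb⟩) = q0' ⟨ffMap (lvlIncl hKK') N b, (chartHom_ffMap hKK' he hϖ).map_0 b hb⟩)
    {z : Jb} {v : C0} (h : kImage q0 (kappa Λ k) z v) :
    kImage q0' (kappa Λ' k') z (ψ0 v) :=
  LevelLinesHom.kImage_map (Fermat.Agent.S19.Cech.GaussN4.charts_of_star hstar' hϖ0' hϖ'nu)
    (chartHom_ffMap hKK' he hϖ) (linesHom_ffMap hKK' hΛ) hk hq h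

end Fermat.Agent.S19.Geo.LevelLinesHomIncl
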