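/-
S19 / GEO, [INST] support (helper12): **multiplicativity of the ramification exponents along an
inclusion of levels**, in the shape needed by the cocycle clause of `hlift`
(`LevelLinesHomIncl.kImage_incl` / `LevelLinesHom.kappa_map` ask for `k' + 1 ≤ r * (k + 1)` with
`k = LevelSit.kOf e m`, `k' = LevelSit.kOf e' m`).

`θ : O → O'` a ring homomorphism into a domain (the inclusion `O_L → O_{L'}`), `ℓ ~ ϖ ^ e` in `O`,
`ℓ ~ ϖ' ^ e'` in `O'` (the hypotheses `hℓe` of `LevelSit.sit` at the two levels), `θ ϖ = u ϖ' ^ r`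
with `u` a unit (`DvrExt.exists_unit_mul_pow_level`), `ϖ'` a nonzero non-unit.  Then `e' = r * e`.

* `eq_of_associated_pow` : the exponent of a power of a nonzero non-unit is determined up to
  association;
* `ramIndex_mul` : `e' = r * e`;
* `kOf_add_one_eq`, `kOf_add_one_le` : `kOf e' m + 1 = r * (kOf e m + 1)` (`hk` with equality).
-/
import Mathlib
import Fermat.Agent.S19.Geo.LevelSit

set_option autoImplicit false

namespace Fermat.Agent.S19.Geo.LevelRamIndex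

open Fermat.Agent.S19.Geo.LevelSit

/-- Associated powers of a nonzero non-unit of a domain have the same exponent. -/
theorem eq_of_associated_pow {R : Type*} [CommRing R] [IsDomain R] {ϖ : R} (h0 : ϖ ≠ 0)
    (hnu : ¬ IsUnit ϖ) {a b : ℕ} (h : Associated (ϖ ^ a) (ϖ ^ b)) : a = b :=
  le_antisymm ((pow_dvd_pow_iff h0 hnu).mp h.dvd) ((pow_dvd_pow_iff h0 hnu).mp h.symm.dvd)

variable {O O' : Type*} [CommRing O] [CommRing O'] [IsDomain O'] (θ : O →+* O') {ℓ : ℕ}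
  {ϖ : O} {ϖ' u : O'} {e e' r : ℕ}

/-- **Multiplicativity of the ramification exponents**: `ℓ ~ ϖ^e`, `ℓ ~ ϖ'^e'`, `θ ϖ = u ϖ'^r`,
`u` a unit `⟹ e' = r e`. -/
theorem ramIndex_mul (hℓe : Associated ((ℓ : O)) (ϖ ^ e)) (hℓe' : Associated ((ℓ : O')) (ϖ' ^ e'))
    (hu : IsUnit u) (hϖ : θ ϖ = u * ϖ' ^ r) (h0 : ϖ' ≠ 0) (hnu : ¬ IsUnit ϖ') : e' = r * e := by
  have h1 : Associated ((ℓ : O')) (θ ϖ ^ e) := by
    have := hℓe.map (θ : O →* O')
    simpa using this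
  have h2 : Associated (θ ϖ ^ e) (ϖ' ^ (r * e)) := by
    rw [hϖ, mul_pow, ← pow_mul]
    exact associated_unit_mul_left _ _ (hu.pow e)
  exact eq_of_associated_pow h0 hnu (hℓe'.symm.trans (h1.trans h2))

/-- The exponents `k + 1 = e (m + 1)` of the two levels: `kOf e' m + 1 = r * (kOf e m + 1)`. -/
theorem kOf_add_one_eq (hℓe : Associated ((ℓ : O)) (ϖ ^ e))
    (hℓe' : Associated ((ℓ : O')) (ϖ' ^ e')) (hu : IsUnit u) (hϖ : θ ϖ = u * ϖ' ^ r)
    (h0 : ϖ' ≠ 0) (hnu : ¬ IsUnit ϖ') (he : 0 < e) (hr : 0 < r) (m : ℕ) :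
    kOf e' m + 1 = r * (kOf e m + 1) := by
  have h := ramIndex_mul θ hℓe hℓe' hu hϖ h0 hnu
  have he' : 0 < e' := by rw [h]; exact Nat.mul_pos hr he
  rw [kOf_succ he', kOf_succ he, h, mul_assoc]

/-- The hypothesis `hk` of `LevelLinesHom.kappa_map` / `LevelLinesHomIncl.kImage_incl` for the
inclusion of levels at the same precision `m + 1`. -/
theorem kOf_add_one_le (hℓe : Associated ((ℓ : O)) (ϖ ^ e))
    (hℓe' : Associated ((ℓ : O')) (ϖ' ^ e')) (hu : IsUnit u) (hϖ : θ ϖ = u * ϖ' ^ r)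
    (h0 : ϖ' ≠ 0) (hnu : ¬ IsUnit ϖ') (he : 0 < e) (hr : 0 < r) (m : ℕ) :
    kOf e' m + 1 ≤ r * (kOf e m + 1) :=
  (kOf_add_one_eq θ hℓe hℓe' hu hϖ h0 hnu he hr m).le

end Fermat.Agent.S19.Geo.LevelRamIndex
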