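/-
S19 / GEO, leaf [INST] (helper12): **the fields `hlift` and `hmono` of `InstanceOfSit.GeoFamily`,
VERBATIM, for THE family `InstanceLevels.X hℓ hA hℓN fr hΛ`** (helper8), for a GENERIC system of
lines `Λ : ∀ E : Lv, JZero N → LineE hℓ hA N E → Prop`, `hΛ : ∀ E, LineSys (charts …) (Λ E)`.

* `hmono_X` : `∀ E m, (X E (m + 1)).IsHom (X E m) (RingHom.id Qb) id` — no hypothesis
  (helper9's `LevelSitPack.isHom_prec`);
* `hlift_X` : `∀ E E' m, E.le E' → (X E m).IsHom (X E' m) (RingHom.id Qb) id` — the ONLY hypothesis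
  is the line-level statement `LineLevelMono.LinesLift` between the levels of `E ≤ E'` (same divisor
  at the two levels; helper11's `LevelLines.linesLift_incl` for `Λ E = Lam …`).

Proof of `hlift_X`: helper9's `LevelSitPack.isHom_of_chg` with `θ = baseMapIncl`,
`τ = ffMap (lvlIncl _) N`, `φ = φIncl`; the cocycle part `hκ` is `LevelLinesHomIncl.kappa_incl` with
`ϖ_E = u ϖ_{E'} ^ r` (helper24's `DvrExt.exists_unit_mul_pow_level`) and
`kOf e' m + 1 ≤ r (kOf e m + 1)` (`LevelRamIndex.kOf_add_one_le`: `e' = r e` by uniqueness of the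
exponent, for THE constants `unif`, `ram` of `InstanceLevels`).
-/
import Mathlib
import Fermat.Agent.S19.Geo.InstanceLevels
import Fermat.Agent.S19.Geo.LevelSitPack
import Fermat.Agent.S19.Geo.LevelLinesHomIncl
import Fermat.Agent.S19.Geo.LevelRamIndex
import Fermat.Agent.S19.Cech.LevelInclComp

set_option autoImplicit false
set_option linter.unusedSectionVars false
set_option linter.style.haveILetI false
set_option synthInstance.maxHeartbeats 400000
set_option maxHeartbeats 1600000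

open TensorProduct ModularCurve AlgebraicCurve
open Fermat.Agent.N4.Setting Fermat.Agent.S24

noncomputable section

namespace Fermat.Agent.S19.Geo.InstanceLift

open Fermat.Agent.S19.Abs Fermat.Agent.S19.Coord Fermat.Agent.S19.Cech
  Fermat.Agent.S19.Cech.Cocycle Fermat.Agent.S19.Cech.CoordOfLines
  Fermat.Agent.S19.Cech.CoordFamily Fermat.Agent.S19.Cech.RedTuple
  Fermat.Agent.S19.Cech.BaseQuotLevel Fermat.Agent.S19.Cech.SepWireTensor
  Fermat.Agent.S19.Cech.LevelBasis Fermat.Agent.S19.Cech.DvrExt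
  Fermat.Agent.S19.Geo.LevelSit
  Fermat.Agent.S19.Geo.LevelSitMaps Fermat.Agent.S19.Geo.BaseLevel
  Fermat.Agent.S19.Geo.LevelSitPack
  Fermat.Agent.S19.Geo.LevelSitIdeal Fermat.Agent.S19.Geo.LevelLinesHomIncl
  Fermat.Agent.S19.Geo.LevelRamIndex
  Fermat.Agent.S19.Cech.LineLevelMono Fermat.Agent.S19.Cech.LevelInclComp
  Fermat.Agent.S19.Geo.InstanceLevels
  Fermat.Agent.N4.Chart Fermat.Agent.N4.FibreEmbedding Fermat.Agent.N4.BaseDescent
  Fermat.Agent.N4F.C.Levels Fermat.Agent.P3G.Gamma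
open Fermat.Agent.N4F.C hiding Qb jb

variable {A : ValuationSubring Qb} {N : ℕ} [NeZero N] {ℓ : ℕ}
  (hℓ : ℓ.Prime) (hA : A.LiesOverPrime ℓ) (hℓN : ¬ ℓ ∣ N) (fr : Frame A N)
  {Λ : ∀ E : Lv, JZero N → LineE hℓ hA N E → Prop}
  (hΛ : ∀ E, LineSys (charts hℓ hA hℓN E) (Λ E))

/-- **field `hmono` of `GeoFamily` at `InstanceLevels.X`**: lowering the precision. -/
theorem hmono_X : ∀ (E : Lv) (m : ℕ),
    (X hℓ hA hℓN fr hΛ E (m + 1)).IsHom (X hℓ hA hℓN fr hΛ E m) (RingHom.id Qb) id := by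
  intro E m
  haveI := dvr_lvl hℓ hA E
  exact isHom_prec (Bp_le E) (Bm_le E) (charts hℓ hA hℓN E) (isLevelRing A (lvl A E) ℓ)
    (mem_maximalIdeal_iff A (lvl A E)) hA (maximalIdeal_eq hℓ hA E) (ram_pos hℓ hA E)
    (associated_ram hℓ hA E) (hΛ E) (frameE fr E) (jL A (K0_le_lvl A E)) m
    (hyp_lvl hℓ hA hℓN fr E (m + 1)) (hyp_lvl hℓ hA hℓN fr E m)

/-- the cocycle part of `hlift_X`: the inclusion of the levels of `E ≤ E'` maps the cocycles of
precision `kOf (ram E) m` to cocycles of precision `kOf (ram E') m`. -/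
theorem kappa_lvl_incl {E E' : Lv} (h : E.le E')
    (hΛincl :
      haveI := dvr_lvl hℓ hA E
      haveI := dvr_lvl hℓ hA E'
      LinesLift A (star_lvl hℓ hA hℓN E) (star_lvl hℓ hA hℓN E')
        (irreducible_unif hℓ hA E).ne_zero (irreducible_unif hℓ hA E').ne_zero
        (Λ := Λ E) (Λ' := Λ E')) (m : ℕ) :
    ∀ z u, kappa (Λ E) (kOf (ram hℓ hA E) m) z u →
      kappa (Λ E') (kOf (ram hℓ hA E') m) (id z)
        (ffMap (LevelBasis.lvlIncl (lvl_mono A h)) N u) := by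
  haveI := dvr_lvl hℓ hA E
  haveI := dvr_lvl hℓ hA E'
  obtain ⟨u₀, r, hr, hϖ⟩ := exists_unit_mul_pow_level A (lvl_mono A h)
    (irreducible_unif hℓ hA E).ne_zero (irreducible_unif hℓ hA E).not_isUnit
    (irreducible_unif hℓ hA E')
  intro z u hu
  exact kappa_incl (lvl_mono A h) (irreducible_unif hℓ hA E').not_isUnit hΛincl hr hϖ
    (kOf_add_one_le (oIncl A (lvl_mono A h)) (associated_ram hℓ hA E) (associated_ram hℓ hA E')
      u₀.isUnit hϖ (irreducible_unif hℓ hA E').ne_zero (irreducible_unif hℓ hA E').not_isUnit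
      (ram_pos hℓ hA E) hr m) hu

/-- **field `hlift` of `GeoFamily` at `InstanceLevels.X`**: the inclusion of levels `E ≤ E'` at a
fixed precision; the only hypothesis is `LinesLift` between the lines of the two levels. -/
theorem hlift_X
    (hΛincl : ∀ E E' : Lv, E.le E' →
      haveI := dvr_lvl hℓ hA E
      haveI := dvr_lvl hℓ hA E'
      LinesLift A (star_lvl hℓ hA hℓN E) (star_lvl hℓ hA hℓN E')
        (irreducible_unif hℓ hA E).ne_zero (irreducible_unif hℓ hA E').ne_zero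
        (Λ := Λ E) (Λ' := Λ E')) :
    ∀ E E' m, E.le E' →
      (X hℓ hA hℓN fr hΛ E m).IsHom (X hℓ hA hℓN fr hΛ E' m) (RingHom.id Qb) id := by
  intro E E' m h
  haveI := dvr_lvl hℓ hA E
  haveI := dvr_lvl hℓ hA E'
  have hKK' : lvl A E ≤ lvl A E' := lvl_mono A h
  exact isHom_of_chg (Bp_le E) (Bm_le E) (charts hℓ hA hℓN E) (isLevelRing A (lvl A E) ℓ)
    (mem_maximalIdeal_iff A (lvl A E)) hA (maximalIdeal_eq hℓ hA E) (ram_pos hℓ hA E)
    (associated_ram hℓ hA E) (hΛ E) (frameE fr E) (jL A (K0_le_lvl A E)) m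
    (Bp_le E') (Bm_le E') (charts hℓ hA hℓN E') (isLevelRing A (lvl A E') ℓ)
    (mem_maximalIdeal_iff A (lvl A E')) (maximalIdeal_eq hℓ hA E') (ram_pos hℓ hA E')
    (associated_ram hℓ hA E') (hΛ E') (frameE fr E') (jL A (K0_le_lvl A E')) m
    (hyp_lvl hℓ hA hℓN fr E m) (hyp_lvl hℓ hA hℓN fr E' m)
    (baseMapIncl A hKK') (ffMap (LevelBasis.lvlIncl hKK') N)
    (fun o => ffMap_algebraMap_base (LevelBasis.lvlIncl hKK') N (baseRing A (lvl A E))
      (baseRing A (lvl A E')) (lvlIncl_mem A hKK') o)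
    (fun _ hx => ffMap_mem_Rfin (LevelBasis.lvlIncl hKK') N (baseRing A (lvl A E))
      (baseRing A (lvl A E')) (lvlIncl_mem A hKK') hx)
    (fun _ hx => ffMap_mem_Rinf (LevelBasis.lvlIncl hKK') N (baseRing A (lvl A E))
      (baseRing A (lvl A E')) (lvlIncl_mem A hKK') hx)
    (fun _ hx => ffMap_mem_Rmid (LevelBasis.lvlIncl hKK') N (baseRing A (lvl A E))
      (baseRing A (lvl A E')) (lvlIncl_mem A hKK') hx)
    (φIncl A ℓ hKK' (m + 1)) (fun o => φIncl_red A ℓ hKK' (m + 1) o)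
    (fun s hs => φIncl_mem_mS A ℓ hKK' (maximalIdeal_eq hℓ hA E) (maximalIdeal_eq hℓ hA E') m hs)
    (fun i => ffMap_lvlIncl_lvlIncl N (K0_le_lvl A E) hKK' _)
    (RingHom.id Qb) (fun x => ιK_baseMapIncl_id A hKK' x) id
    (kappa_lvl_incl hℓ hA hℓN h (hΛincl E E' h) m)

end Fermat.Agent.S19.Geo.InstanceLift
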