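/-
S19, geometric layer, leaf GEO-D (helper4), part 1: **(T2) for chart elements.**

The prelude's (T2) (`IsPlaceReductionModL`) is stated for integral `q`-expansions.  Here we record the
same formula `(r_* div g)(Q) = ord_Q (ḡ)` for `g` in one of the two `Q̄`-level charts
(`RtFin A N`, `RtInf A N`) and `Q` a place of the special fibre lying on that chart; this is
`Formula.chart_formula` at a level where `g` and the support of `div g` are rational.
-/
import Mathlib
import Fermat.Agent.N4F.C.MainFinal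

set_option autoImplicit false
set_option linter.unusedSectionVars false
set_option linter.style.haveILetI false
set_option synthInstance.maxHeartbeats 400000
set_option maxHeartbeats 800000

open ModularCurve AlgebraicCurve
open Fermat.Agent.N4.Setting Fermat.Agent.N4.BigDVR Fermat.Agent.S24
open Fermat.Agent.S24.PlaceDeriv (ResidueTrivial)

noncomputable section

namespace Fermat.Agent.S19.Geo.ChartFormula

open Fermat.Agent.N4F.C Fermat.Agent.N4F.C.LevelCharts
  Fermat.Agent.N4F.C.LocalMult Fermat.Agent.N4F.C.Formula Fermat.Agent.N4F.C.Centre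
  Fermat.Agent.N4F.C.Main Fermat.Agent.N4F.C.WRing
open Fermat.Agent.N4F.C.Levels hiding jb

variable {A : ValuationSubring Qb} {N : ℕ} [NeZero N] {ℓ : ℕ}
  (hℓ : ℓ.Prime) (hA : A.LiesOverPrime ℓ) (hℓN : ¬ ℓ ∣ N)

include hℓ hA hℓN

/-- (T1) on the finite chart for `rC`. -/
theorem rC_fin (P : Place Qb (Fb N)) (hj : IntAt A P (jb N)) (g : Fb N) (hg : g ∈ RtFin A N)
    (c : ↥A) (hc : g - algebraMap Qb (Fb N) (c : Qb) ∈ P.toValuationSubring.nonunits) :
    thetaFt A N g - algebraMap (Kap A) (Ft A N) (IsLocalRing.residue ↥A c) ∈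
      (rC hℓ hA hℓN P).toValuationSubring.nonunits :=
  rCan_fin _ _ P hj g hg c hc

/-- (T1) on the chart at infinity for `rC`. -/
theorem rC_inf (P : Place Qb (Fb N)) (hj : ¬ IntAt A P (jb N)) (g : Fb N) (hg : g ∈ RtInf A N)
    (c : ↥A) (hc : g - algebraMap Qb (Fb N) (c : Qb) ∈ P.toValuationSubring.nonunits) :
    thetaFt A N g - algebraMap (Kap A) (Ft A N) (IsLocalRing.residue ↥A c) ∈
      (rC hℓ hA hℓN P).toValuationSubring.nonunits :=
  rCan_inf_of_not _ _ P hj g hg c hc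

/-- A place reducing into the finite chart of the special fibre lies on the finite chart. -/
theorem intAt_jb_of_rC_eq {P : Place Qb (Fb N)} {Q : Place (Kap A) (Ft A N)}
    (hQ : thetaFt A N (jb N) ∈ Q.toValuationSubring) (hPQ : rC hℓ hA hℓN P = Q) :
    IntAt A P (jb N) := by
  by_contra hI
  obtain ⟨c, hcm, hc⟩ := (Formula.intAt_or_inv A P (jb N)).resolve_left hI
  have h2 := rC_inf hℓ hA hℓN P hI _ Formula.jb_inv_mem_RtInf c hc
  rw [(IsLocalRing.residue_eq_zero_iff _).mpr hcm, map_zero, sub_zero, hPQ] at h2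
  have h3 := LocalMult.mul_mem_nonunits Q hQ h2
  rw [mul_comm, Formula.thetaFt_jb_inv_mul] at h3
  exact LocalMult.one_not_mem_nonunits Q h3

/-- A place reducing outside the finite chart of the special fibre lies off the finite chart. -/
theorem not_intAt_jb_of_rC_eq {P : Place Qb (Fb N)} {Q : Place (Kap A) (Ft A N)}
    (hQ : thetaFt A N (jb N) ∉ Q.toValuationSubring) (hPQ : rC hℓ hA hℓN P = Q) :
    ¬ IntAt A P (jb N) := by
  intro hI
  obtain ⟨c, hc⟩ := hI
  have h2 := Q.toValuationSubring.nonunits_subset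
    (hPQ ▸ rC_fin hℓ hA hℓN P ⟨c, hc⟩ _ Formula.jb_mem_RtFin c hc)
  have h3 := Q.toValuationSubring.add_mem _ _ h2
    (Q.algebraMap_mem' (IsLocalRing.residue ↥A c))
  rw [sub_add_cancel] at h3
  exact hQ h3

/-! ### (T2) for chart elements -/

omit hℓ hA hℓN in
/-- **(T2) at a level, for an element of the level chart** (`a := x`, `b := 1` in
`Formula.chart_formula`). -/
theorem formula_at_level_chart (r : Place Qb (Fb N) → Place (Kap A) (Ft A N))
    (Rt : Subalgebra ↥A (Fb N)) (InCh : Place Qb (Fb N) → Prop)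
    (hW : ∀ P, InCh P → ∀ g ∈ Rt, IntAt A P g)
    (hspec : ∀ P, InCh P → ∀ g ∈ Rt, ∀ c : ↥A,
      g - algebraMap Qb (Fb N) (c : Qb) ∈ P.toValuationSubring.nonunits →
      thetaFt A N g - algebraMap (Kap A) (Ft A N) (IsLocalRing.residue ↥A c) ∈
        (r P).toValuationSubring.nonunits)
    (K : IntermediateField ℚ Qb) [IsDiscreteValuationRing ↥(baseRing A K)]
    [IsFractionRing ↥(baseRing A K) (Lvl K)]
    (R : Subalgebra ↥(baseRing A K) (FF (Lvl K) N)) (gen : Fb N)
    (hcl : ChartLevel A N K R Rt gen)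
    (Q : Place (Kap A) (Ft A N)) (hQgen : thetaFt A N gen ∈ Q.toValuationSubring)
    (hin : ∀ P, r P = Q → InCh P)
    (hin' : ∀ ρ : ↥R →+* Ft A N,
      (∀ x : R, ρ x = thetaFt A N (levK N K (x : FF (Lvl K) N))) →
      ∀ (v : Place (Lvl K) (FF (Lvl K) N)) (P : Place Qb (Fb N)),
      CentredAt ↥(baseRing A K) ρ Q v → v = restrictK N K P → InCh P)
    (x : R) (hx0 : thetaFt A N (levK N K (x : FF (Lvl K) N)) ≠ 0)
    (D : Divisor Qb (Fb N)) (hD : ∀ P, D P = P.ord (levK N K (x : FF (Lvl K) N)))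
    (hrat : ∀ P ∈ D.support, ResidueTrivial (restrictK N K P)) :
    Finsupp.mapDomain r D Q = Q.ord (thetaFt A N (levK N K (x : FF (Lvl K) N))) := by
  haveI := hcl.noeth
  haveI := hcl.frac
  obtain ⟨ϖ, ρ, hϖ, hρc, hded, hker, hfrac, hmemQ, -⟩ := hcl.exists_rho
  have hρ : ∀ x : R, ρ x = thetaFt A N (levK N K (x : FF (Lvl K) N)) := by
    intro x
    apply Subtype.ext
    rw [coe_thetaFt_of_mem (by rw [← hρc x]; exact (ρ x).2), hρc x]
  have h1 : ρ (1 : R) ≠ 0 := by rw [map_one]; exact one_ne_zero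
  exact chart_formula r Rt InCh hcl.lev_mem hρ hW hspec hϖ hded hker hfrac Q (hmemQ Q hQgen) hin
    (hin' ρ hρ) (x : FF (Lvl K) N) x 1 h1 (by rw [OneMemClass.coe_one, mul_one]) _ hx0
    (by rw [map_one, mul_one]; exact hρ x) D hD hrat

/-- **(T2) for an element of the finite chart**: if `g ∈ R̃^fin` has nonzero reduction and `Q` is a
place of the special fibre on the finite chart, then `(rC_* div g)(Q) = ord_Q ḡ`. -/
theorem mapDomain_rC_of_mem_RtFin {g : Fb N} (hg : g ∈ RtFin A N) (hg0 : thetaFt A N g ≠ 0)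
    (D : Divisor Qb (Fb N)) (hD : ∀ P, D P = P.ord g)
    (Q : Place (Kap A) (Ft A N)) (hQ : thetaFt A N (jb N) ∈ Q.toValuationSubring) :
    Finsupp.mapDomain (rC hℓ hA hℓN) D Q = Q.ord (thetaFt A N g) := by
  classical
  obtain ⟨K, -, ⟨hDVR, hAC, hGB, -, hroots⟩, -, hS, hF, -⟩ :=
    exists_level_of_finite A N hℓ hA hℓN ∅ {g} D.support
  obtain ⟨x, hxm, hx⟩ := hF g (Finset.mem_singleton_self _) hg
  haveI := hGB.frac
  obtain ⟨hfinK, -⟩ := MainFinal.levelHyp hℓ hA hℓN K hGB hroots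
  have key := formula_at_level_chart (rC hℓ hA hℓN) (RtFin A N) (fun P => IntAt A P (jb N))
    (fun _ hj _ hg => WRing.RtFin_le_wRing hj hg) (fun P hj g hg c hc => rC_fin hℓ hA hℓN P hj g hg c hc)
    K (Rfin (Lvl K) N (baseRing A K)) (jb N) hfinK Q hQ
    (fun P hPQ => intAt_jb_of_rC_eq hℓ hA hℓN hQ hPQ) ?_ ⟨x, hxm⟩ (by rw [hx]; exact hg0) D
    (by intro P; rw [hD P, hx]) hS
  · rwa [hx] at key
  · intro ρ hρ v P hcen hvP
    obtain ⟨c, hc⟩ := hcen.exists_const (jFin (Lvl K) N (baseRing A K))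
    rw [hvP] at hc
    have h1 : levK N K (jF (Lvl K) N) - algebraMap Qb (Fb N) ((baseIncl A K c : ↥A) : Qb) ∈
        P.toValuationSubring.nonunits := sub_mem_nonunits_of_restrictK hc
    rw [levK_jF] at h1
    exact ⟨baseIncl A K c, h1⟩

/-- **(T2) for an element of the chart at infinity**. -/
theorem mapDomain_rC_of_mem_RtInf {g : Fb N} (hg : g ∈ RtInf A N) (hg0 : thetaFt A N g ≠ 0)
    (D : Divisor Qb (Fb N)) (hD : ∀ P, D P = P.ord g)
    (Q : Place (Kap A) (Ft A N)) (hQ : thetaFt A N (jb N) ∉ Q.toValuationSubring) :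
    Finsupp.mapDomain (rC hℓ hA hℓN) D Q = Q.ord (thetaFt A N g) := by
  classical
  obtain ⟨K, -, ⟨hDVR, hAC, hGB, -, hroots⟩, -, hS, -, hI⟩ :=
    exists_level_of_finite A N hℓ hA hℓN ∅ {g} D.support
  obtain ⟨x, hxm, hx⟩ := hI g (Finset.mem_singleton_self _) hg
  haveI := hGB.frac
  obtain ⟨-, hinfK⟩ := MainFinal.levelHyp hℓ hA hℓN K hGB hroots
  have hQ' : thetaFt A N (jb N)⁻¹ ∈ Q.toValuationSubring.nonunits := by
    rw [thetaFt_jb_inv, ← thetaFt_jb A N]
    exact (Q.toValuationSubring.inv_mem_nonunits_iff).mpr (Or.inr hQ)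
  have key := formula_at_level_chart (rC hℓ hA hℓN) (RtInf A N) (fun P => ¬ IntAt A P (jb N))
    (fun _ hj _ hg => WRing.RtInf_le_wRing (intAt_inv_of_not hj) hg)
    (fun P hj g hg c hc => rC_inf hℓ hA hℓN P hj g hg c hc)
    K (Rinf (Lvl K) N (baseRing A K)) (jb N)⁻¹ hinfK Q
    (Q.toValuationSubring.nonunits_subset hQ')
    (fun P hPQ => not_intAt_jb_of_rC_eq hℓ hA hℓN hQ hPQ) ?_ ⟨x, hxm⟩ (by rw [hx]; exact hg0) D
    (by intro P; rw [hD P, hx]) hS
  · rwa [hx] at key
  · intro ρ hρ v P hcen hvP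
    obtain ⟨c, hc⟩ := hcen.exists_const (jInvInf (Lvl K) N (baseRing A K))
    have hcm : c ∈ IsLocalRing.maximalIdeal ↥(baseRing A K) := by
      refine (hcen.mem_iff _ c hc).mpr ?_
      have e : ρ (jInvInf (Lvl K) N (baseRing A K)) = thetaFt A N (levK N K (jF (Lvl K) N)⁻¹) :=
        hρ _
      rw [e, levK_jF_inv]
      exact hQ'
    rw [hvP] at hc
    have h1 : levK N K (jF (Lvl K) N)⁻¹ - algebraMap Qb (Fb N) ((baseIncl A K c : ↥A) : Qb) ∈
        P.toValuationSubring.nonunits := sub_mem_nonunits_of_restrictK hc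
    rw [levK_jF_inv] at h1
    exact not_intAt_jb_of_inv ((baseIncl_mem_maximalIdeal_iff c).mpr hcm) h1

end Fermat.Agent.S19.Geo.ChartFormula
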