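/-
S19, geometric layer (helper4): **(T2) for Gauss units, and the positivity lemma behind `red_p`.**

* `ord_thetaFt_const`: a Gauss unit which is a constant has a reduction without zeros and poles.
* `mapDomain_rC_of_isGaussUnit`: for EVERY Gauss unit `f` of `Q̄·F_N` (element of the Gauss ring
  whose reduction is a nonzero function of the special fibre) and every place `Q` of the special
  fibre, `(rC_* div f)(Q) = ord_Q (f̃)`.  (The prelude's (T2) is the case of integral `q`-series,
  `ClassDict.exists_gaussUnit_of_principal` gives it for SOME generator of each principal divisor.)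
* `ord_thetaFt_nonneg_of_forall`: **(red)** if `f` is a Gauss unit, `D` a divisor whose push-forward
  vanishes at `Q`, and `ord_P f + D P ≥ 0` at every place `P` in the residue disc of `Q`, then the
  reduction of `f` is regular at `Q`;  `ord_thetaFt_eq_zero_of_forall` (equality version).
-/
import Mathlib
import Fermat.Agent.S19.Geo.ChartFormula
import Fermat.Agent.S19.Cech.ClassDict
import Fermat.Agent.P3G.LevelDescent
import Fermat.Agent.N4F.Tors.Canonical

set_option autoImplicit false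
set_option linter.unusedSectionVars false
set_option linter.style.haveILetI false
set_option synthInstance.maxHeartbeats 400000
set_option maxHeartbeats 800000

open ModularCurve AlgebraicCurve
open Fermat.Agent.N4.Setting Fermat.Agent.N4.BigDVR Fermat.Agent.S24

noncomputable section

namespace Fermat.Agent.S19.Geo.GaussFormula

open Fermat.Agent.N4F.C Fermat.Agent.N4F.C.Formula Fermat.Agent.N4F.C.Centre
  Fermat.Agent.N4F.C.Main
open Fermat.Agent.S19.Cech.ClassDict

variable {A : ValuationSubring Qb} {N : ℕ} [NeZero N] {ℓ : ℕ}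

/-- The reduction of a constant Gauss unit has neither zeros nor poles. -/
theorem ord_thetaFt_const {c : Qb} (hc : IsGaussUnit A N (algebraMap Qb (Fb N) c))
    (Q : Place (Kap A) (Ft A N)) : Q.ord (thetaFt A N (algebraMap Qb (Fb N) c)) = 0 := by
  have key : ∀ c' : ↥A, IsGaussUnit A N (algebraMap Qb (Fb N) (c' : Qb)) →
      Q.ord (thetaFt A N (algebraMap Qb (Fb N) (c' : Qb))) = 0 := by
    intro c' hc'
    have hne := hc'.thetaFt_ne_zero
    rw [thetaFt_const] at hne ⊢
    have hres : IsLocalRing.residue ↥A c' ≠ 0 := fun h0 => hne (by rw [h0, map_zero])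
    exact Fermat.Agent.S24.Hurwitz.ord_algebraMap Q hres
  rcases A.mem_or_inv_mem c with h | h
  · exact key ⟨c, h⟩ hc
  · have hinv : IsGaussUnit A N (algebraMap Qb (Fb N) ((⟨c⁻¹, h⟩ : ↥A) : Qb)) := by
      have := hc.inv
      rwa [← map_inv₀] at this
    have h1 := key ⟨c⁻¹, h⟩ hinv
    have h2 : thetaFt A N (algebraMap Qb (Fb N) ((⟨c⁻¹, h⟩ : ↥A) : Qb)) =
        (thetaFt A N (algebraMap Qb (Fb N) c))⁻¹ := by
      rw [← hc.thetaFt_inv, ← map_inv₀]
    rw [h2, Q.ord_inv, neg_eq_zero] at h1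
    exact h1

variable (hℓ : ℓ.Prime) (hA : A.LiesOverPrime ℓ) (hℓN : ¬ ℓ ∣ N)

include hℓ hA hℓN

/-- **(T2) for Gauss units.** -/
theorem mapDomain_rC_of_isGaussUnit {f : Fb N} (hf : IsGaussUnit A N f)
    (D : Divisor Qb (Fb N)) (hD : ∀ P, D P = P.ord f) (Q : Place (Kap A) (Ft A N)) :
    Finsupp.mapDomain (rC hℓ hA hℓN) D Q = Q.ord (thetaFt A N f) := by
  have hmem : D ∈ Divisor.principal (K := Qb) (F := Fb N) := ⟨f, hf.ne_zero, hD⟩
  obtain ⟨w, hw, hdiv, hred⟩ := exists_gaussUnit_of_principal hℓ hA hℓN hmem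
  have ht : IsGaussUnit A N (f * w⁻¹) := hf.mul hw.inv
  have hord : ∀ P : Place Qb (Fb N), P.ord (f * w⁻¹) = 0 := by
    intro P
    rw [P.ord_mul hf.ne_zero (inv_ne_zero hw.ne_zero), P.ord_inv, ← hD P, ← hdiv P, add_neg_cancel]
  obtain ⟨c, -, hc⟩ :=
    Fermat.Agent.P3G.LevelDescent.exists_const_of_forall_ord_eq_zero N ht.ne_zero hord
  have hfw : f = f * w⁻¹ * w := by
    rw [mul_assoc, inv_mul_cancel₀ hw.ne_zero, mul_one]
  rw [hred Q]
  conv_rhs => rw [hfw]
  rw [ht.thetaFt_mul hw, Q.ord_mul ht.thetaFt_ne_zero hw.thetaFt_ne_zero]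
  rw [hc] at ht ⊢
  rw [ord_thetaFt_const ht Q, zero_add]

/-- **(red)**: a Gauss unit `f` with `div f + D ≥ 0` on the residue disc of `Q`, where the
push-forward of `D` vanishes at `Q`, has reduction regular at `Q`. -/
theorem ord_thetaFt_nonneg_of_forall {f : Fb N} (hf : IsGaussUnit A N f)
    (D : Divisor Qb (Fb N)) (Q : Place (Kap A) (Ft A N))
    (hDQ : Finsupp.mapDomain (rC hℓ hA hℓN) D Q = 0)
    (h : ∀ P, rC hℓ hA hℓN P = Q → 0 ≤ P.ord f + D P) :
    0 ≤ Q.ord (thetaFt A N f) := by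
  classical
  haveI : HasPrincipalDivisors Qb (Fb N) := Fermat.Agent.N4F.A.LevelMaps.hasPrincipalDivisors_bar N
  set E : Divisor Qb (Fb N) := Fermat.Agent.N4F.Tors.Canonical.divOf (K := Qb) f with hE
  have hEf : ∀ P, E P = P.ord f := fun P => Fermat.Agent.N4F.Tors.Canonical.divOf_apply' f P
  have h1 := mapDomain_rC_of_isGaussUnit hℓ hA hℓN hf E hEf Q
  have h2 : Finsupp.mapDomain (rC hℓ hA hℓN) (E + D) Q = Q.ord (thetaFt A N f) := by
    rw [Finsupp.mapDomain_add, Finsupp.add_apply, h1, hDQ, add_zero]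
  rw [← h2, mapDomain_apply_eq_sum]
  refine Finset.sum_nonneg fun P hP => ?_
  rw [Finset.mem_filter] at hP
  rw [Finsupp.add_apply, hEf P]
  exact h P hP.2

/-- Equality version of `ord_thetaFt_nonneg_of_forall`: if `ord_P f = - D P` on the residue disc of
`Q` and the push-forward of `D` vanishes at `Q`, the reduction of `f` is a unit at `Q`. -/
theorem ord_thetaFt_eq_zero_of_forall {f : Fb N} (hf : IsGaussUnit A N f)
    (D : Divisor Qb (Fb N)) (Q : Place (Kap A) (Ft A N))
    (hDQ : Finsupp.mapDomain (rC hℓ hA hℓN) D Q = 0)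
    (h : ∀ P, rC hℓ hA hℓN P = Q → P.ord f + D P = 0) :
    Q.ord (thetaFt A N f) = 0 := by
  classical
  haveI : HasPrincipalDivisors Qb (Fb N) := Fermat.Agent.N4F.A.LevelMaps.hasPrincipalDivisors_bar N
  set E : Divisor Qb (Fb N) := Fermat.Agent.N4F.Tors.Canonical.divOf (K := Qb) f with hE
  have hEf : ∀ P, E P = P.ord f := fun P => Fermat.Agent.N4F.Tors.Canonical.divOf_apply' f P
  have h1 := mapDomain_rC_of_isGaussUnit hℓ hA hℓN hf E hEf Q
  have h2 : Finsupp.mapDomain (rC hℓ hA hℓN) (E + D) Q = Q.ord (thetaFt A N f) := by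
    rw [Finsupp.mapDomain_add, Finsupp.add_apply, h1, hDQ, add_zero]
  rw [← h2, mapDomain_apply_eq_sum]
  refine Finset.sum_eq_zero fun P hP => ?_
  rw [Finset.mem_filter] at hP
  rw [Finsupp.add_apply, hEf P]
  exact h P hP.2

end Fermat.Agent.S19.Geo.GaussFormula
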