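/-
S19, geometric layer (helper4): **the charts of the special fibre are intersections of valuation
rings, and the `Q̄`-level form of `Line.red_p` / `Line.red_m`.**

* `mem_of_forall_mem_place`: a Dedekind chart `Sg ⊆ F'` (with `Frac Sg = F'`) contains every function
  which is regular at all places of `F'/κ` containing `Sg`.
* `mem_SigmaFin_of_forall_ord_nonneg`, `mem_SigmaInf_of_forall_ord_nonneg`: the two charts of the
  special fibre of `X₀(N)`.
* `ord_jb_nonneg_of_rC_eq`, `ord_jb_inv_nonneg_of_rC_eq`: a place of `Q̄·F_N` reducing into a chart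
  of the special fibre lies on the corresponding chart of the generic fibre.
* **`exists_mem_RtFin_thetaFt_eq`** (RED₊): a Gauss unit `f` with `ord_P f + D P ≥ 0` at all places `P`
  of the finite chart (`ord_P j ≥ 0`), where `rC_* D = 0`, has the same reduction as an element of
  the chart `R̃^fin = RtFin A N`;  **`exists_mem_RtInf_thetaFt_eq`** (RED₋).
-/
import Mathlib
import Fermat.Agent.S19.Geo.GaussFormula
import Fermat.Agent.S24.PlaceDict

set_option autoImplicit false
set_option linter.unusedSectionVars false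
set_option linter.style.haveILetI false
set_option synthInstance.maxHeartbeats 400000
set_option maxHeartbeats 800000

open ModularCurve AlgebraicCurve IsDedekindDomain
open Fermat.Agent.N4.Setting Fermat.Agent.N4.BigDVR Fermat.Agent.S24

noncomputable section

namespace Fermat.Agent.S19.Geo.FibreRegular

/-! ### A Dedekind chart is the intersection of the valuation rings of its places -/

section Abstract

variable {κ F' : Type*} [Field κ] [Field F'] [Algebra κ F']

theorem mem_of_forall_mem_place (Sg : Subalgebra κ F') [IsDedekindDomain ↥Sg]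
    [IsFractionRing ↥Sg F'] (x : F')
    (h : ∀ Q : Place κ F', (∀ s ∈ Sg, s ∈ Q.toValuationSubring) → x ∈ Q.toValuationSubring) :
    x ∈ Sg := by
  have h1 : x ∈ (algebraMap ↥Sg F').range := by
    refine HeightOneSpectrum.mem_integers_of_valuation_le_one F' x fun w => ?_
    rw [← Fermat.Agent.S24.mem_ofHeightOneSpectrum_iff (K := κ) w x]
    exact h _ fun s hs =>
      Fermat.Agent.S24.algebraMap_mem_ofHeightOneSpectrum (K := κ) w ⟨s, hs⟩
  obtain ⟨s, rfl⟩ := h1
  exact s.2

end Abstract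

open Fermat.Agent.N4F.C Fermat.Agent.N4F.C.Formula Fermat.Agent.N4F.C.Centre
  Fermat.Agent.N4F.C.Main Fermat.Agent.N4F.C.ChartFactsProof Fermat.Agent.N4F.C.ChartFibre
open Fermat.Agent.S19.Cech.ClassDict Fermat.Agent.S19.Geo.ChartFormula
  Fermat.Agent.S19.Geo.GaussFormula

variable {A : ValuationSubring Qb} {N : ℕ} [NeZero N] {ℓ : ℕ}
  (hℓ : ℓ.Prime) (hA : A.LiesOverPrime ℓ) (hℓN : ¬ ℓ ∣ N)

include hℓ hA hℓN

/-! ### The two charts of the special fibre -/

/-- A function on the special fibre regular at every place of the finite chart lies in `Σ^fin`. -/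
theorem mem_SigmaFin_of_forall_ord_nonneg (x : Ft A N)
    (h : ∀ Q : Place (Kap A) (Ft A N), thetaFt A N (jb N) ∈ Q.toValuationSubring → 0 ≤ Q.ord x) :
    x ∈ SigmaFin (Kap A) N := by
  have H := chartFacts_fin hℓ hA hℓN
  haveI := H.dedekind
  haveI := H.frac
  refine mem_of_forall_mem_place (SigmaFin (Kap A) N) x fun Q hQ => ?_
  have hj : thetaFt A N (jb N) ∈ Q.toValuationSubring := by
    rw [Formula.thetaFt_jb]
    exact hQ _ (Fermat.Agent.N4.Chart.subset_chartAlg _ (Set.mem_singleton _))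
  by_cases hx : x = 0
  · rw [hx]; exact zero_mem _
  · exact (Fermat.Agent.S24.mem_iff_ord_nonneg Q hx).mpr (h Q hj)

/-- A function on the special fibre regular at every place of the chart at infinity lies in
`Σ^inf`. -/
theorem mem_SigmaInf_of_forall_ord_nonneg (x : Ft A N)
    (h : ∀ Q : Place (Kap A) (Ft A N), thetaFt A N (jb N)⁻¹ ∈ Q.toValuationSubring → 0 ≤ Q.ord x) :
    x ∈ SigmaInf (Kap A) N := by
  have H := chartFacts_inf hℓ hA hℓN
  haveI := H.dedekind
  haveI := H.frac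
  refine mem_of_forall_mem_place (SigmaInf (Kap A) N) x fun Q hQ => ?_
  have hj : thetaFt A N (jb N)⁻¹ ∈ Q.toValuationSubring := by
    rw [Formula.thetaFt_jb_inv]
    exact hQ _ (Fermat.Agent.N4.Chart.subset_chartAlg _ (Set.mem_singleton _))
  by_cases hx : x = 0
  · rw [hx]; exact zero_mem _
  · exact (Fermat.Agent.S24.mem_iff_ord_nonneg Q hx).mpr (h Q hj)

/-! ### Residue discs and charts -/

/-- A place reducing into the finite chart of the special fibre has `ord_P j ≥ 0`. -/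
theorem ord_jb_nonneg_of_rC_eq {P : Place Qb (Fb N)} {Q : Place (Kap A) (Ft A N)}
    (hQ : thetaFt A N (jb N) ∈ Q.toValuationSubring) (hPQ : rC hℓ hA hℓN P = Q) :
    0 ≤ P.ord (jb N) :=
  (Fermat.Agent.S24.mem_iff_ord_nonneg P Centre.jb_ne_zero).mp
    (intAt_jb_of_rC_eq hℓ hA hℓN hQ hPQ).mem

/-- A place reducing into the chart at infinity of the special fibre has `ord_P j⁻¹ ≥ 0`. -/
theorem ord_jb_inv_nonneg_of_rC_eq {P : Place Qb (Fb N)} {Q : Place (Kap A) (Ft A N)}
    (hQ : thetaFt A N (jb N)⁻¹ ∈ Q.toValuationSubring) (hPQ : rC hℓ hA hℓN P = Q) :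
    0 ≤ P.ord (jb N)⁻¹ := by
  have hinv0 : (jb N)⁻¹ ≠ 0 := inv_ne_zero Centre.jb_ne_zero
  by_cases hQ' : thetaFt A N (jb N) ∈ Q.toValuationSubring
  · -- the overlap: `j` takes a unit value at `P`
    obtain ⟨c, hc⟩ := intAt_jb_of_rC_eq hℓ hA hℓN hQ' hPQ
    have h1 := rC_fin hℓ hA hℓN P ⟨c, hc⟩ _ Formula.jb_mem_RtFin c hc
    rw [hPQ] at h1
    have hres : IsLocalRing.residue ↥A c ≠ 0 := by
      intro h0
      rw [h0, map_zero, sub_zero] at h1
      have h2 := LocalMult.mul_mem_nonunits Q hQ h1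
      rw [Formula.thetaFt_jb_inv_mul] at h2
      exact LocalMult.one_not_mem_nonunits Q h2
    have hc0 : (c : Qb) ≠ 0 := by
      intro h0
      apply hres
      have : c = 0 := Subtype.ext h0
      rw [this, map_zero]
    -- `j` is a unit at `P`
    have hmem : jb N ∈ P.toValuationSubring := IntAt.mem (A := A) ⟨c, hc⟩
    have hnot : jb N ∉ P.toValuationSubring.nonunits := by
      intro hn
      have h3 := P.toValuationSubring.nonunits.sub_mem hn hc
      rw [sub_sub_cancel] at h3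
      exact Centre.const_not_mem_nonunits' P hc0 h3
    exact (Fermat.Agent.S24.mem_iff_ord_nonneg P hinv0).mp
      (LocalMult.inv_mem_of_not_mem_nonunits P hmem hnot)
  · have hI := not_intAt_jb_of_rC_eq hℓ hA hℓN hQ' hPQ
    exact (Fermat.Agent.S24.mem_iff_ord_nonneg P hinv0).mp (intAt_inv_of_not hI).mem

/-! ### (RED₊), (RED₋) -/

/-- **(RED₊)**: a Gauss unit `f` with `div f + D ≥ 0` on the finite chart of the generic fibre, where
the push-forward of `D` vanishes on the finite chart of the special fibre, reduces into `Σ^fin`. -/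
theorem thetaFt_mem_SigmaFin {f : Fb N} (hf : IsGaussUnit A N f) (D : Divisor Qb (Fb N))
    (hD : ∀ Q : Place (Kap A) (Ft A N), thetaFt A N (jb N) ∈ Q.toValuationSubring →
      Finsupp.mapDomain (rC hℓ hA hℓN) D Q = 0)
    (h : ∀ P : Place Qb (Fb N), 0 ≤ P.ord (jb N) → 0 ≤ P.ord f + D P) :
    thetaFt A N f ∈ SigmaFin (Kap A) N :=
  mem_SigmaFin_of_forall_ord_nonneg hℓ hA hℓN _ fun Q hQ =>
    ord_thetaFt_nonneg_of_forall hℓ hA hℓN hf D Q (hD Q hQ) fun P hPQ =>
      h P (ord_jb_nonneg_of_rC_eq hℓ hA hℓN hQ hPQ)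

/-- **(RED₊)**, lifted: `f` has the same reduction as an element of the chart `R̃^fin`. -/
theorem exists_mem_RtFin_thetaFt_eq {f : Fb N} (hf : IsGaussUnit A N f) (D : Divisor Qb (Fb N))
    (hD : ∀ Q : Place (Kap A) (Ft A N), thetaFt A N (jb N) ∈ Q.toValuationSubring →
      Finsupp.mapDomain (rC hℓ hA hℓN) D Q = 0)
    (h : ∀ P : Place Qb (Fb N), 0 ≤ P.ord (jb N) → 0 ≤ P.ord f + D P) :
    ∃ g ∈ RtFin A N, thetaFt A N g = thetaFt A N f :=
  (chartFacts_fin hℓ hA hℓN).surj _ (thetaFt_mem_SigmaFin hℓ hA hℓN hf D hD h)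

/-- **(RED₋)**. -/
theorem thetaFt_mem_SigmaInf {f : Fb N} (hf : IsGaussUnit A N f) (D : Divisor Qb (Fb N))
    (hD : ∀ Q : Place (Kap A) (Ft A N), thetaFt A N (jb N)⁻¹ ∈ Q.toValuationSubring →
      Finsupp.mapDomain (rC hℓ hA hℓN) D Q = 0)
    (h : ∀ P : Place Qb (Fb N), 0 ≤ P.ord (jb N)⁻¹ → 0 ≤ P.ord f + D P) :
    thetaFt A N f ∈ SigmaInf (Kap A) N :=
  mem_SigmaInf_of_forall_ord_nonneg hℓ hA hℓN _ fun Q hQ =>
    ord_thetaFt_nonneg_of_forall hℓ hA hℓN hf D Q (hD Q hQ) fun P hPQ =>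
      h P (ord_jb_inv_nonneg_of_rC_eq hℓ hA hℓN hQ hPQ)

/-- **(RED₋)**, lifted. -/
theorem exists_mem_RtInf_thetaFt_eq {f : Fb N} (hf : IsGaussUnit A N f) (D : Divisor Qb (Fb N))
    (hD : ∀ Q : Place (Kap A) (Ft A N), thetaFt A N (jb N)⁻¹ ∈ Q.toValuationSubring →
      Finsupp.mapDomain (rC hℓ hA hℓN) D Q = 0)
    (h : ∀ P : Place Qb (Fb N), 0 ≤ P.ord (jb N)⁻¹ → 0 ≤ P.ord f + D P) :
    ∃ g ∈ RtInf A N, thetaFt A N g = thetaFt A N f :=
  (chartFacts_inf hℓ hA hℓN).surj _ (thetaFt_mem_SigmaInf hℓ hA hℓN hf D hD h)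

end Fermat.Agent.S19.Geo.FibreRegular
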