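/-
S19, geometric layer, leaf GEO-D (helper4), part 2: **inertia-fixed lifts of points of the special
fibre** and the axiom block (C7) of `Coord.CoordSystem` for `J₀(N)`.

* (D1) `exists_fixed_lift`: every place `Q` of the special fibre `F_N(κ)` is the reduction `rC P` of
  a place `P` of `Q̄·F_N` fixed by the inertia group `I_A` (Hensel, in the form: the chart at the
  maximal unramified level `Kmax A` has an element `g` whose reduction is a uniformiser at `Q`; by
  the formula (T2) `g` has exactly one zero in the residue disc of `Q`, and `I_A` fixes `g`).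
* (D2) `unramClasses`: the subgroup `U` of `J₀(N)(Q̄)` of classes of degree-zero divisors supported
  on `I_A`-fixed places; `kerRed`: the kernel `J¹` of `ClassDict.redC` (the reduction map built on
  `rC`); (C7): `inertia_sub_mem`, `unramClasses_fixed`, `unramClasses_stable`, `exists_unram_lift`;
  (C3): `kerRed_stable`.
* (D3) `residueTrivial_restrictK_Kmax`: an `I_A`-fixed place is rational at the level `Kmax A`.
-/
import Mathlib
import Fermat.Agent.S19.Geo.ChartFormula
import Fermat.Agent.S36.Descent.UnramLevel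
import Fermat.Agent.S36.Descent.LevelFacts
import Fermat.Agent.N4F.Tors.Canonical
import Fermat.Agent.S19.Cech.ClassDict

set_option autoImplicit false
set_option linter.unusedSectionVars false
set_option linter.style.haveILetI false
set_option synthInstance.maxHeartbeats 400000
set_option maxHeartbeats 800000

open ModularCurve AlgebraicCurve
open Fermat.Agent.N4.Setting Fermat.Agent.N4.BigDVR Fermat.Agent.S24
open Fermat.Agent.S24.PlaceDeriv (ResidueTrivial)

noncomputable section

namespace Fermat.Agent.S19.Geo.FixedLift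

open Fermat.Agent.N4F.C Fermat.Agent.N4F.C.LevelCharts
  Fermat.Agent.N4F.C.LocalMult Fermat.Agent.N4F.C.Formula Fermat.Agent.N4F.C.Centre
  Fermat.Agent.N4F.C.Main Fermat.Agent.N4F.C.WRing
open Fermat.Agent.N4F.C.Levels hiding jb
open Fermat.Agent.S19.Geo.ChartFormula
open Fermat.Agent.S19.Cech.ClassDict (redC redC_mk redC_inertia_sub redC_gal_smul_eq_zero_iff)

/-! ### A finite sum of positive integers equal to one has exactly one term -/

theorem exists_eq_singleton_of_sum_eq_one {α : Type*} (S : Finset α) (f : α → ℤ)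
    (hpos : ∀ P ∈ S, 0 < f P) (hsum : ∑ P ∈ S, f P = 1) : ∃ P₀, S = {P₀} := by
  classical
  have h1 : S.card • (1 : ℤ) ≤ ∑ P ∈ S, f P :=
    Finset.card_nsmul_le_sum S f 1 fun P hP => hpos P hP
  rw [hsum, nsmul_eq_mul, mul_one] at h1
  have h2 : S.card ≠ 0 := by
    intro h0
    rw [Finset.card_eq_zero] at h0
    rw [h0, Finset.sum_empty] at hsum
    exact zero_ne_one hsum
  have h3 : S.card = 1 := by
    have : S.card ≤ 1 := by exact_mod_cast h1
    omega
  exact Finset.card_eq_one.mp h3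

variable {A : ValuationSubring Qb} {N : ℕ} [NeZero N] {ℓ : ℕ}

/-! ### An element of a level chart whose reduction is a uniformiser at `Q` -/

/-- On a level chart, some element has reduction of order one at a given closed point. -/
theorem exists_ord_one_of_chartLevel (K : IntermediateField ℚ Qb)
    [IsDiscreteValuationRing ↥(baseRing A K)] [IsFractionRing ↥(baseRing A K) (Lvl K)]
    (R : Subalgebra ↥(baseRing A K) (FF (Lvl K) N)) (Rt : Subalgebra ↥A (Fb N)) (gen : Fb N)
    (hcl : ChartLevel A N K R Rt gen)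
    (Q : Place (Kap A) (Ft A N)) (hQgen : thetaFt A N gen ∈ Q.toValuationSubring) :
    ∃ a : R, Q.ord (thetaFt A N (levK N K (a : FF (Lvl K) N))) = 1 := by
  haveI := hcl.noeth
  haveI := hcl.frac
  obtain ⟨ϖ, ρ, hϖ, hρc, hded, hker, hfrac, hmemQ, -⟩ := hcl.exists_rho
  have hρ : ∀ x : R, ρ x = thetaFt A N (levK N K (x : FF (Lvl K) N)) := by
    intro x
    apply Subtype.ext
    rw [coe_thetaFt_of_mem (by rw [← hρc x]; exact (ρ x).2), hρc x]
  have hcd : ChartData ϖ ρ Q := ⟨hϖ, hded, hker, hfrac, hmemQ Q hQgen⟩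
  obtain ⟨t, ht⟩ := IsDiscreteValuationRing.exists_irreducible Q.toValuationSubring
  obtain ⟨y, hy⟩ := hcd.rhoS_surjective (Lvl K) (F := FF (Lvl K) N) t
  obtain ⟨a, s, rfl⟩ := IsLocalization.exists_mk'_eq hcd.pt.primeCompl y
  have h1 := congrArg (hcd.rhoS (FF (Lvl K) N))
    (IsLocalization.mk'_spec (hcd.locRing (FF (Lvl K) N)) a s)
  rw [map_mul, ChartData.rhoS_algebraMap, ChartData.rhoS_algebraMap, hy] at h1
  obtain ⟨u, hu⟩ := hcd.isUnit_rhoQ s
  refine ⟨a, ?_⟩
  rw [← hρ a]
  have h2 : (ρ a : Ft A N) = ((t : Q.toValuationSubring) : Ft A N) *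
      ((u : Q.toValuationSubring) : Ft A N) := by
    have := congrArg (fun x : Q.toValuationSubring => (x : Ft A N)) h1
    simp only [coe_rhoQ] at this
    rw [← this, hu]
    rfl
  have ht0 : ((t : Q.toValuationSubring) : Ft A N) ≠ 0 := fun h =>
    ht.ne_zero (Subtype.ext h)
  have hu0 : ((u : Q.toValuationSubring) : Ft A N) ≠ 0 := fun h =>
    u.ne_zero (Subtype.ext h)
  rw [h2, Q.ord_mul ht0 hu0, Q.ord_coe_irreducible ht, Q.ord_coe_unit, add_zero]

/-! ### Inertia-fixed uniformising elements at the maximal unramified level -/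

section Kmax

open Fermat.Agent.S36.Descent.UnramLevel Fermat.Agent.S36.Descent

variable (hℓ : ℓ.Prime) (hA : A.LiesOverPrime ℓ) (hℓN : ¬ ℓ ∣ N)

include hℓ hA hℓN

/-- The two chart levels at the maximal unramified level `Kmax A`, together with the fact that the
level functions are inertia-fixed. -/
theorem exists_fixed_uniformiser (Q : Place (Kap A) (Ft A N)) :
    (thetaFt A N (jb N) ∈ Q.toValuationSubring →
      ∃ g ∈ RtFin A N, (∀ σ ∈ A.inertiaSubgroupIn ℚ, Galois.gal N σ • g = g) ∧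
        Q.ord (thetaFt A N g) = 1) ∧
    (thetaFt A N (jb N) ∉ Q.toValuationSubring →
      ∃ g ∈ RtInf A N, (∀ σ ∈ A.inertiaSubgroupIn ℚ, Galois.gal N σ • g = g) ∧
        Q.ord (thetaFt A N g) = 1) := by
  haveI : Fact ℓ.Prime := ⟨hℓ⟩
  have hK := isUnramLevel_Kmax hℓ hA
  haveI := hK.dvr
  haveI : IsAlgClosed (IsLocalRing.ResidueField ↥(baseRing A (Kmax A))) := hK.algClosed
  have hnu : ¬ IsUnit ((ℓ : ℕ) : ↥(baseRing A (Kmax A))) := hK.irred.not_isUnit
  have hGB := LevelFacts.goodBase (A := A) (q := ℓ) (Kmax A) hnu N hℓN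
  haveI := hGB.frac
  obtain ⟨hfinK, hinfK⟩ := MainFinal.levelHyp hℓ hA hℓN (Kmax A) hGB hK.roots
  have hfix : ∀ (f : FF (Lvl (Kmax A)) N), ∀ σ ∈ A.inertiaSubgroupIn ℚ,
      Galois.gal N σ • levK N (Kmax A) f = levK N (Kmax A) f := fun f σ hσ =>
    arithmeticGalois_smul_lev N (Lvl (Kmax A)) σ
      (fun c => hK.fixed σ hσ _ (Lvl.algebraMap_mem _ c)) f
  refine ⟨fun hQ => ?_, fun hQ => ?_⟩
  · obtain ⟨a, ha⟩ := exists_ord_one_of_chartLevel (Kmax A) _ _ _ hfinK Q hQ
    exact ⟨levK N (Kmax A) a, hfinK.lev_mem a, hfix _, ha⟩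
  · have hQ' : thetaFt A N (jb N)⁻¹ ∈ Q.toValuationSubring.nonunits := by
      rw [thetaFt_jb_inv, ← thetaFt_jb A N]
      exact (Q.toValuationSubring.inv_mem_nonunits_iff).mpr (Or.inr hQ)
    obtain ⟨a, ha⟩ := exists_ord_one_of_chartLevel (Kmax A) _ _ _ hinfK Q
      (Q.toValuationSubring.nonunits_subset hQ')
    exact ⟨levK N (Kmax A) a, hinfK.lev_mem a, hfix _, ha⟩

end Kmax

/-! ### (D1): inertia-fixed lifts -/

section D1

open Fermat.Agent.N4F.Tors.Canonical

variable (hℓ : ℓ.Prime) (hA : A.LiesOverPrime ℓ) (hℓN : ¬ ℓ ∣ N)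

include hℓ hA hℓN

/-- `rC` is invariant under the inertia group. -/
theorem rC_inertia_smul {σ : Qb ≃ₐ[ℚ] Qb} (hσ : σ ∈ A.inertiaSubgroupIn ℚ)
    (P : Place Qb (Fb N)) : rC hℓ hA hℓN (Galois.gal N σ • P) = rC hℓ hA hℓN P := by
  have hσD := Galois.mem_decompositionSubgroup_of_mem_inertia hσ
  have h := rC_galois_smul hℓ hA hℓN ⟨σ, hσD⟩ P
  rw [Galois.resAut_eq_one_of_mem_inertia hσ hσD, map_one, one_smul] at h
  exact h

/-- **Core of (D1)**: an inertia-fixed function `g`, regular on the residue disc of `Q`, whose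
divisor reduces at `Q` with multiplicity one, has exactly one zero in the residue disc of `Q`, and
this zero is an inertia-fixed place. -/
theorem exists_fixed_lift_of_uniformiser (Q : Place (Kap A) (Ft A N)) (g : Fb N)
    (hfix : ∀ σ ∈ A.inertiaSubgroupIn ℚ, Galois.gal N σ • g = g)
    (hD : ∀ D : Divisor Qb (Fb N), (∀ P, D P = P.ord g) →
      Finsupp.mapDomain (rC hℓ hA hℓN) D Q = 1)
    (hnonneg : ∀ P, rC hℓ hA hℓN P = Q → 0 ≤ P.ord g) :
    ∃ P : Place Qb (Fb N), rC hℓ hA hℓN P = Q ∧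
      ∀ σ ∈ A.inertiaSubgroupIn ℚ, Galois.gal N σ • P = P := by
  classical
  haveI : HasPrincipalDivisors Qb (Fb N) := Fermat.Agent.N4F.A.LevelMaps.hasPrincipalDivisors_bar N
  set D : Divisor Qb (Fb N) := divOf (K := Qb) g with hDdef
  have hDg : ∀ P, D P = P.ord g := fun P => divOf_apply' g P
  have hsum := hD D hDg
  rw [mapDomain_apply_eq_sum] at hsum
  have hpos : ∀ P ∈ D.support.filter (fun P => rC hℓ hA hℓN P = Q), 0 < D P := by
    intro P hP
    rw [Finset.mem_filter, Finsupp.mem_support_iff] at hP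
    have h1 := hnonneg P hP.2
    rw [← hDg P] at h1
    exact lt_of_le_of_ne h1 (Ne.symm hP.1)
  obtain ⟨P₀, hS⟩ := exists_eq_singleton_of_sum_eq_one _ _ hpos hsum
  have hP₀ : P₀ ∈ D.support.filter (fun P => rC hℓ hA hℓN P = Q) := by
    rw [hS]; exact Finset.mem_singleton_self _
  rw [Finset.mem_filter, Finsupp.mem_support_iff] at hP₀
  refine ⟨P₀, hP₀.2, fun σ hσ => ?_⟩
  have hmem : Galois.gal N σ • P₀ ∈ D.support.filter (fun P => rC hℓ hA hℓN P = Q) := by
    rw [Finset.mem_filter, Finsupp.mem_support_iff]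
    refine ⟨?_, ?_⟩
    · rw [hDg, ← hfix σ hσ, SemilinearAut.ord_smul, ← hDg]
      exact hP₀.1
    · rw [rC_inertia_smul hℓ hA hℓN hσ, hP₀.2]
  rw [hS] at hmem
  exact Finset.mem_singleton.mp hmem

/-- **(D1)** Every place of the special fibre is the reduction of an inertia-fixed place of
`Q̄·F_N`. -/
theorem exists_fixed_lift (Q : Place (Kap A) (Ft A N)) :
    ∃ P : Place Qb (Fb N), rC hℓ hA hℓN P = Q ∧
      ∀ σ ∈ A.inertiaSubgroupIn ℚ, Galois.gal N σ • P = P := by
  obtain ⟨hfin, hinf⟩ := exists_fixed_uniformiser hℓ hA hℓN Q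
  by_cases hQ : thetaFt A N (jb N) ∈ Q.toValuationSubring
  · obtain ⟨g, hg, hfix, hord⟩ := hfin hQ
    have hg0 : thetaFt A N g ≠ 0 := by
      intro h0
      rw [h0, Place.ord_zero] at hord
      exact zero_ne_one hord
    refine exists_fixed_lift_of_uniformiser hℓ hA hℓN Q g hfix (fun D hD => ?_) (fun P hPQ => ?_)
    · rw [mapDomain_rC_of_mem_RtFin hℓ hA hℓN hg hg0 D hD Q hQ, hord]
    · have hj := intAt_jb_of_rC_eq hℓ hA hℓN hQ hPQ
      have hmem : g ∈ P.toValuationSubring := (WRing.RtFin_le_wRing hj hg).mem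
      by_cases hg00 : g = 0
      · rw [hg00, Place.ord_zero]
      · exact (Fermat.Agent.S24.mem_iff_ord_nonneg P hg00).mp hmem
  · obtain ⟨g, hg, hfix, hord⟩ := hinf hQ
    have hg0 : thetaFt A N g ≠ 0 := by
      intro h0
      rw [h0, Place.ord_zero] at hord
      exact zero_ne_one hord
    refine exists_fixed_lift_of_uniformiser hℓ hA hℓN Q g hfix (fun D hD => ?_) (fun P hPQ => ?_)
    · rw [mapDomain_rC_of_mem_RtInf hℓ hA hℓN hg hg0 D hD Q hQ, hord]
    · have hj := not_intAt_jb_of_rC_eq hℓ hA hℓN hQ hPQ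
      have hmem : g ∈ P.toValuationSubring :=
        (WRing.RtInf_le_wRing (intAt_inv_of_not hj) hg).mem
      by_cases hg00 : g = 0
      · rw [hg00, Place.ord_zero]
      · exact (Fermat.Agent.S24.mem_iff_ord_nonneg P hg00).mp hmem

end D1

/-! ### (D2): unramified classes and the axiom block (C7) -/

section D2

local notation "Γ" => (Qb ≃ₐ[ℚ] Qb)

/-- A place of `Q̄·F_N` fixed by the inertia group of `A`. -/
def IsInertiaFixed (A : ValuationSubring Qb) (N : ℕ) (P : Place Qb (Fb N)) : Prop :=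
  ∀ σ ∈ A.inertiaSubgroupIn ℚ, Galois.gal N σ • P = P

/-- The decomposition group permutes the inertia-fixed places. -/
theorem IsInertiaFixed.smul {P : Place Qb (Fb N)} (hP : IsInertiaFixed A N P) {σ : Γ}
    (hσ : σ ∈ A.decompositionSubgroup ℚ) : IsInertiaFixed A N (Galois.gal N σ • P) := by
  intro τ hτ
  have hconj : σ⁻¹ * τ * σ⁻¹⁻¹ ∈ A.inertiaSubgroupIn ℚ :=
    Fermat.Agent.N4F.Core.conj_mem_inertiaSubgroupIn (inv_mem hσ) hτ
  have h1 := hP _ hconj
  have e : τ * σ = σ * (σ⁻¹ * τ * σ⁻¹⁻¹) := by group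
  rw [← mul_smul, ← map_mul, e, map_mul, mul_smul, h1]

/-- A divisor supported on inertia-fixed places is fixed by the inertia group. -/
theorem smul_eq_self_of_support {D : Divisor Qb (Fb N)}
    (hD : ∀ P ∈ D.support, IsInertiaFixed A N P) {σ : Γ} (hσ : σ ∈ A.inertiaSubgroupIn ℚ) :
    Galois.gal N σ • D = D := by
  rw [SemilinearAut.divisor_smul_def]
  conv_rhs => rw [← Finsupp.mapDomain_id (v := D)]
  exact Finsupp.mapDomain_congr fun P hP => hD P hP σ hσ

variable (A N) in
/-- Degree-zero divisors supported on inertia-fixed places. -/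
def unramDivisors : AddSubgroup (Divisor.degZero (K := Qb) (F := Fb N)) where
  carrier := {D | ∀ P ∈ (D : Divisor Qb (Fb N)).support, IsInertiaFixed A N P}
  zero_mem' := by
    intro P hP
    simp at hP
  add_mem' := by
    classical
    intro D E hD hE P hP
    rcases Finset.mem_union.mp (Finsupp.support_add hP) with h | h
    · exact hD P h
    · exact hE P h
  neg_mem' := by
    intro D hD P hP
    rw [AddSubgroup.coe_neg, Finsupp.support_neg] at hP
    exact hD P hP

theorem mem_unramDivisors {D : Divisor.degZero (K := Qb) (F := Fb N)} :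
    D ∈ unramDivisors A N ↔ ∀ P ∈ (D : Divisor Qb (Fb N)).support, IsInertiaFixed A N P :=
  Iff.rfl

variable (A N) in
/-- **The unramified classes** `U ⊆ J₀(N)(Q̄)`: classes of degree-zero divisors supported on
inertia-fixed places. -/
def unramClasses : AddSubgroup (JZero N) :=
  (unramDivisors A N).map (QuotientAddGroup.mk' _)

theorem mem_unramClasses {z : JZero N} :
    z ∈ unramClasses A N ↔ ∃ D ∈ unramDivisors A N, Pic0.mk D = z :=
  Iff.rfl

/-- (C7), `U_fixed`: unramified classes are fixed by inertia. -/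
theorem unramClasses_fixed {σ : Γ} (hσ : σ ∈ A.inertiaSubgroupIn ℚ) {z : JZero N}
    (hz : z ∈ unramClasses A N) : σ • z = z := by
  obtain ⟨D, hD, rfl⟩ := hz
  show σ • Pic0.mk D = Pic0.mk D
  rw [galois_smul_pic0_def, SemilinearAut.pic0_smul_mk]
  congr 1
  apply Subtype.ext
  rw [SemilinearAut.coe_degZeroSMulHom]
  exact smul_eq_self_of_support hD hσ

/-- (C7), `U_stable`: the decomposition group preserves the unramified classes. -/
theorem unramClasses_stable {σ : Γ} (hσ : σ ∈ A.decompositionSubgroup ℚ) {z : JZero N}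
    (hz : z ∈ unramClasses A N) : σ • z ∈ unramClasses A N := by
  classical
  obtain ⟨D, hD, rfl⟩ := hz
  refine ⟨SemilinearAut.degZeroSMulHom (Galois.gal N σ) D, ?_, rfl⟩
  intro P hP
  rw [SemilinearAut.coe_degZeroSMulHom, SemilinearAut.divisor_smul_def] at hP
  obtain ⟨P', hP', rfl⟩ := Finset.mem_image.mp (Finsupp.mapDomain_support hP)
  exact (hD P' hP').smul hσ

variable (hℓ : ℓ.Prime) (hA : A.LiesOverPrime ℓ) (hℓN : ¬ ℓ ∣ N)

/-- **The kernel of reduction** `J¹ ⊆ J₀(N)(Q̄)`: the kernel of `ClassDict.redC`, the reduction map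
built on the canonical place reduction `rC`. -/
def kerRed : AddSubgroup (JZero N) := (redC hℓ hA hℓN).ker

theorem mem_kerRed {z : JZero N} : z ∈ kerRed hℓ hA hℓN ↔ redC hℓ hA hℓN z = 0 := Iff.rfl

/-- A degree-zero divisor with vanishing reduction (as a divisor) has class in the kernel of
reduction. -/
theorem mk_mem_kerRed_of_mapDomain_eq_zero (D : Divisor.degZero (K := Qb) (F := Fb N))
    (h : Finsupp.mapDomain (rC hℓ hA hℓN) (D : Divisor Qb (Fb N)) = 0) :
    Pic0.mk D ∈ kerRed hℓ hA hℓN := by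
  rw [mem_kerRed, redC_mk]
  have : reductionDegZeroAlong (rC hℓ hA hℓN)
      (MainFinal.isPlaceReductionModL_rC hℓ hA hℓN).1 D = 0 :=
    Subtype.ext (by rw [coe_reductionDegZeroAlong, h]; rfl)
  rw [this]
  rfl

/-- (C7), `inertia_sub_mem`: the reduction map is invariant under inertia. -/
theorem inertia_sub_mem {σ : Γ} (hσ : σ ∈ A.inertiaSubgroupIn ℚ) (y : JZero N) :
    σ • y - y ∈ kerRed hℓ hA hℓN :=
  redC_inertia_sub hℓ hA hℓN hσ y

/-- (C3), `J1_stable`: the decomposition group preserves the kernel of reduction. -/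
theorem kerRed_stable {σ : Γ} (hσ : σ ∈ A.decompositionSubgroup ℚ) {z : JZero N}
    (hz : z ∈ kerRed hℓ hA hℓN) : σ • z ∈ kerRed hℓ hA hℓN :=
  (redC_gal_smul_eq_zero_iff hℓ hA hℓN ⟨σ, hσ⟩ z).mpr hz

/-- The degree of a divisor of `Q̄·F_N` is unchanged by moving its points. -/
theorem degree_mapDomain_bar (φ : Place Qb (Fb N) → Place Qb (Fb N)) (D : Divisor Qb (Fb N)) :
    Divisor.degree (Finsupp.mapDomain φ D) = Divisor.degree D := by
  have hdeg : ∀ P : Place Qb (Fb N), P.deg = 1 := fun P => by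
    haveI : P.FiniteResidue := ⟨Fermat.Agent.N4F.A.LevelMaps.finite_residueField_bar N P⟩
    exact Hurwitz.deg_eq_one P
  induction D using Finsupp.induction with
  | zero => simp
  | single_add P n D _ _ ih =>
    rw [Finsupp.mapDomain_add, map_add, map_add, ih, Finsupp.mapDomain_single,
      Divisor.degree_single, Divisor.degree_single, hdeg, hdeg]

/-- (C7), `exists_lift`: every class is congruent, modulo the kernel of reduction, to an
unramified class. -/
theorem exists_unram_lift (y : JZero N) :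
    ∃ x ∈ unramClasses A N, y - x ∈ kerRed hℓ hA hℓN := by
  classical
  obtain ⟨D, rfl⟩ := Pic0.mk_surjective y
  choose φ hφ hφfix using fun P : Place Qb (Fb N) =>
    exists_fixed_lift hℓ hA hℓN (rC hℓ hA hℓN P)
  have hdeg : Finsupp.mapDomain φ (D : Divisor Qb (Fb N)) ∈
      Divisor.degZero (K := Qb) (F := Fb N) := by
    rw [Divisor.mem_degZero, degree_mapDomain_bar]
    exact D.2
  set D' : Divisor.degZero (K := Qb) (F := Fb N) := ⟨_, hdeg⟩ with hD'
  refine ⟨Pic0.mk D', ⟨D', ?_, rfl⟩, ?_⟩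
  · intro P hP
    obtain ⟨P', -, rfl⟩ := Finset.mem_image.mp (Finsupp.mapDomain_support hP)
    exact hφfix P'
  · have e : Pic0.mk D - Pic0.mk D' = Pic0.mk (D - D') := rfl
    rw [e]
    apply mk_mem_kerRed_of_mapDomain_eq_zero
    rw [AddSubgroup.coe_sub, Finsupp.mapDomain_sub, hD']
    show Finsupp.mapDomain _ (D : Divisor Qb (Fb N)) -
      Finsupp.mapDomain _ (Finsupp.mapDomain φ (D : Divisor Qb (Fb N))) = 0
    rw [← Finsupp.mapDomain_comp, sub_eq_zero]
    exact Finsupp.mapDomain_congr fun P _ => (hφ P).symm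

end D2

/-! ### (D3): inertia-fixed places are rational at the maximal unramified level -/

section D3

open Fermat.Agent.S36.Descent.UnramLevel

/-- An inertia-fixed place of `Q̄·F_N` restricts to a place of `F_{Kmax}` with residue field
`Kmax A`. -/
theorem residueTrivial_restrictK_Kmax {P : Place Qb (Fb N)} (hP : IsInertiaFixed A N P) :
    ResidueTrivial (restrictK N (Kmax A) P) := by
  refine residueTrivial_of_extends (extends_restrictK N (Kmax A) P) (residueTrivial_bar N P)
    {g | ∃ σ ∈ A.inertiaSubgroupIn ℚ, g = Galois.gal N σ} ?_ ?_ ?_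
  · rintro g ⟨σ, hσ, rfl⟩
    exact hP σ hσ
  · rintro g ⟨σ, hσ, rfl⟩ f
    exact arithmeticGalois_smul_lev N (Lvl (Kmax A)) σ
      (fun c => apply_eq_of_mem_Kmax (Lvl.algebraMap_mem _ c) hσ) f
  · intro c hc
    have hmem : c ∈ Kmax A := mem_Kmax_iff.mpr fun σ hσ => hc _ ⟨σ, hσ, rfl⟩
    exact (Lvl.mem_range_iff (Kmax A)).mpr hmem

end D3

end Fermat.Agent.S19.Geo.FixedLift
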