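/-
S19 / GEO, leaf [LINES] (helper11; field map v2.1 of helper22): **the system of lines `Λ_K` of a good
level `K`** and the instance of `CoordOfLines.LineSys` for it.

For a level `K` (an intermediate field of `ℚ̄/ℚ` with `O_K = A ∩ K` a discrete valuation ring and
`StarStatement`), a uniformiser `ϖ` of `O_K`:

* `Adm K D` : the degree-zero divisor `D` of `ℚ̄·F_N` is *admissible at the level `K`*: its
  push-forward under the canonical reduction of places `rC` vanishes, and its support consists of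
  `K`-rational places;
* `GenAt K hstar ϖ D'` : the [GEN] package for a divisor `D'` of `F_K`: the two reduction fields of
  `GaussN4.lineOf` and generators `≡ 1` on both charts (NAMED HYPOTHESIS of this file, owner of the
  proof: helper13/helper1/helper15);
* `Lam K hstar hϖ0 z L` : "`L` is the line `GaussN4.lineOf (levelDiv K D)` of an admissible divisor `D`
  of class `z`";
* `lineSys_level` : `LineSys (GaussN4.charts_of_star ..) (Lam ..)` — `zero` (the zero divisor), `add`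
  (sums of divisors; `DivModuleMul`), `indep` (the level form of (Z2), helper4's
  `ClassDictLevel.exists_gauss_unit_of_rep_goodLevel`, + helper18's `GaussLevel.isOne_of_levK` +
  `DivModuleMul.mul_mem_LD_of_ord_eq`), `gens` (= [GEN]);
* `mem_kerRed_of_lam` (`hmem` of `GeoFamily`), `exists_adm_of_mem_kerRed` ((Z1) + the level
  bookkeeping of `LevelField`: `hex`), `lam_of_adm`.
-/
import Mathlib
import Fermat.Agent.S19.Cech.GaussN4
import Fermat.Agent.S19.Cech.DivModuleMul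
import Fermat.Agent.S19.Cech.GaussLevel
import Fermat.Agent.S19.Cech.ClassDictLevel
import Fermat.Agent.S19.Cech.CoordOfLines
import Fermat.Agent.S19.Geo.FixedLift
import Fermat.Agent.S19.Geo.LevelField
import Fermat.Agent.S19.Cech.LineLevelMono
import Fermat.Agent.S19.Geo.LevelLinesHom

set_option autoImplicit false
set_option linter.unusedSectionVars false
set_option linter.style.haveILetI false
set_option synthInstance.maxHeartbeats 400000
set_option maxHeartbeats 800000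

open ModularCurve AlgebraicCurve
open Fermat.Agent.N4.Setting Fermat.Agent.S24
open Fermat.Agent.S24.PlaceDeriv (ResidueTrivial)
open Fermat.Agent.N4.FibreEmbedding Fermat.Agent.S19.Cech.DivModule

noncomputable section

namespace Fermat.Agent.S19.Geo.LevelLines

open Fermat.Agent.N4F.C Fermat.Agent.N4F.C.Main Fermat.Agent.N4F.C.Centre
  Fermat.Agent.N4F.C.Levels Fermat.Agent.N4F.C.LevelCharts
  Fermat.Agent.S19.Cech.ClassDict Fermat.Agent.S19.Cech.LevelDiv
  Fermat.Agent.S19.Cech Fermat.Agent.S19.Cech.Cocycle Fermat.Agent.S19.Cech.CoordOfLines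
open Fermat.Agent.S19.Geo.FixedLift (kerRed mem_kerRed mk_mem_kerRed_of_mapDomain_eq_zero)

local notation "Γ" => (AlgebraicClosure ℚ ≃ₐ[ℚ] AlgebraicClosure ℚ)

variable {A : ValuationSubring Qb} {N : ℕ} [NeZero N] {ℓ : ℕ}
  (hℓ : ℓ.Prime) (hA : A.LiesOverPrime ℓ) (hℓN : ¬ ℓ ∣ N)

/-! ### admissible divisors -/

/-- `D` is **admissible at the level `K`**: zero reduction (as a divisor) and `K`-rational
support. -/
def Adm (K : IntermediateField ℚ Qb) (D : Divisor.degZero (K := Qb) (F := Fb N)) : Prop :=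
  Finsupp.mapDomain (rC hℓ hA hℓN) (D : Divisor Qb (Fb N)) = 0 ∧
    ∀ P ∈ (D : Divisor Qb (Fb N)).support, ResidueTrivial (restrictK N K P)

theorem adm_zero (K : IntermediateField ℚ Qb) :
    Adm hℓ hA hℓN K (0 : Divisor.degZero (K := Qb) (F := Fb N)) := by
  refine ⟨?_, fun P hP => ?_⟩
  · rw [AddSubgroup.coe_zero, Finsupp.mapDomain_zero]
  · rw [AddSubgroup.coe_zero, Finsupp.support_zero] at hP
    exact absurd hP (Finset.notMem_empty P)

theorem Adm.add {K : IntermediateField ℚ Qb} {D D' : Divisor.degZero (K := Qb) (F := Fb N)}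
    (h : Adm hℓ hA hℓN K D) (h' : Adm hℓ hA hℓN K D') : Adm hℓ hA hℓN K (D + D') := by
  classical
  refine ⟨?_, fun P hP => ?_⟩
  · rw [AddSubgroup.coe_add, Finsupp.mapDomain_add, h.1, h'.1, add_zero]
  · rw [AddSubgroup.coe_add] at hP
    rcases Finset.mem_union.mp (Finsupp.support_add hP) with hP | hP
    · exact h.2 P hP
    · exact h'.2 P hP

theorem Adm.mk_mem_kerRed {K : IntermediateField ℚ Qb}
    {D : Divisor.degZero (K := Qb) (F := Fb N)} (h : Adm hℓ hA hℓN K D) :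
    (Pic0.mk D : JZero N) ∈ kerRed hℓ hA hℓN :=
  mk_mem_kerRed_of_mapDomain_eq_zero hℓ hA hℓN D h.1

/-- admissibility goes up with the level -/
theorem Adm.mono {K K' : IntermediateField ℚ Qb} (hKK' : K ≤ K')
    {D : Divisor.degZero (K := Qb) (F := Fb N)} (h : Adm hℓ hA hℓN K D) :
    Adm hℓ hA hℓN K' D :=
  ⟨h.1, fun P hP => LineLevelMono.residueTrivial_restrictK_of_le hKK' P (h.2 P hP)⟩

/-- **`hex`, level part**: every class of the kernel of reduction is the class of a divisor which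
is admissible at the level `bigLevel A E` of some Galois-stable number field `E` ((Z1) + the level
bookkeeping). -/
theorem exists_adm_of_mem_kerRed {z : JZero N} (hz : z ∈ kerRed hℓ hA hℓN) :
    ∃ E : IntermediateField ℚ Qb, FiniteDimensional ℚ E ∧
      (∀ (τ : Γ) (x : Qb), x ∈ E → τ x ∈ E) ∧
      ∃ D : Divisor.degZero (K := Qb) (F := Fb N), Pic0.mk D = z ∧
        Adm hℓ hA hℓN (Fermat.Agent.P3G.Gamma.bigLevel A E) D := by
  classical
  obtain ⟨D, rfl, hD⟩ := exists_rep_of_redC_eq_zero hℓ hA hℓN ((mem_kerRed hℓ hA hℓN).mp hz)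
  obtain ⟨E, hfin, hst, -, -, -, -, -, hS, -⟩ :=
    Fermat.Agent.S19.Geo.LevelField.exists_stable_bigLevel_of_finite hℓ hA N hℓN ∅ ∅
      (D : Divisor Qb (Fb N)).support
  exact ⟨E, hfin, hst, D, rfl, hD, hS⟩

/-- the same, at every level above `bigLevel A E` -/
theorem exists_adm_of_mem_kerRed' {z : JZero N} (hz : z ∈ kerRed hℓ hA hℓN) :
    ∃ E : IntermediateField ℚ Qb, FiniteDimensional ℚ E ∧
      (∀ (τ : Γ) (x : Qb), x ∈ E → τ x ∈ E) ∧
      ∃ D : Divisor.degZero (K := Qb) (F := Fb N), Pic0.mk D = z ∧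
        ∀ K : IntermediateField ℚ Qb, Fermat.Agent.P3G.Gamma.bigLevel A E ≤ K →
          Adm hℓ hA hℓN K D := by
  obtain ⟨E, hfin, hst, D, hz, hD⟩ := exists_adm_of_mem_kerRed hℓ hA hℓN hz
  exact ⟨E, hfin, hst, D, hz, fun K hK => hD.mono hℓ hA hℓN hK⟩

/-! ### the lines of a level -/

section Level

variable (K : IntermediateField ℚ Qb) [IsDiscreteValuationRing ↥(baseRing A K)]
  [IsFractionRing ↥(baseRing A K) (Lvl K)]
  (hstar : StarStatement (Lvl K) N (baseRing A K)) (ϖ : ↥(baseRing A K))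

/-- **The [GEN] package** for a divisor `D'` of the level `K`: the two reduction fields of
`GaussN4.lineOf` and generators `≡ 1 mod ϖ W_K` on both charts. -/
structure GenAt (D' : Divisor (Lvl K) (FF (Lvl K) N)) : Prop where
  red_p : ∀ x ∈ Lp (gaussSubalgebra (Lvl K) N (baseRing A K)) (jF (Lvl K) N) D',
    ∃ b ∈ Rfin (Lvl K) N (baseRing A K), ∃ r ∈ gaussSubalgebra (Lvl K) N (baseRing A K),
      x = b + algebraMap ↥(baseRing A K) (FF (Lvl K) N) ϖ * r
  red_m : ∀ x ∈ Lm (gaussSubalgebra (Lvl K) N (baseRing A K)) (jF (Lvl K) N) D',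
    ∃ b ∈ Rinf (Lvl K) N (baseRing A K), ∃ r ∈ gaussSubalgebra (Lvl K) N (baseRing A K),
      x = b + algebraMap ↥(baseRing A K) (FF (Lvl K) N) ϖ * r
  gen_p : ∃ fp ∈ Lp (gaussSubalgebra (Lvl K) N (baseRing A K)) (jF (Lvl K) N) D',
    IsOne (algebraMap ↥(baseRing A K) (FF (Lvl K) N) ϖ)
      (gaussSubalgebra (Lvl K) N (baseRing A K)).toSubring fp
  gen_m : ∃ fm ∈ Lm (gaussSubalgebra (Lvl K) N (baseRing A K)) (jF (Lvl K) N) D',
    IsOne (algebraMap ↥(baseRing A K) (FF (Lvl K) N) ϖ)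
      (gaussSubalgebra (Lvl K) N (baseRing A K)).toSubring fm

variable {ϖ} (hϖ0 : ϖ ≠ 0)

/-- **The lines of the level `K`**: `Lam z L`, "`L` is the line of an admissible divisor of class
`z`". -/
def Lam (z : JZero N) (L : Line (algebraMap ↥(baseRing A K) (FF (Lvl K) N) ϖ)
    (Rfin (Lvl K) N (baseRing A K)).toSubring (Rinf (Lvl K) N (baseRing A K)).toSubring
    (Rmid (Lvl K) N (baseRing A K)).toSubring
    (gaussSubalgebra (Lvl K) N (baseRing A K)).toSubring) : Prop :=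
  ∃ D : Divisor.degZero (K := Qb) (F := Fb N), Pic0.mk D = z ∧ Adm hℓ hA hℓN K D ∧
    ∃ rp rm, L = GaussN4.lineOf hstar hϖ0 (levelDiv K (D : Divisor Qb (Fb N))) rp rm

/-- `hmem` of `GeoFamily`: a class with a line lies in the kernel of reduction. -/
theorem mem_kerRed_of_lam {z : JZero N} {L} (h : Lam hℓ hA hℓN K hstar hϖ0 z L) :
    z ∈ kerRed hℓ hA hℓN := by
  obtain ⟨D, rfl, hD, -⟩ := h
  exact hD.mk_mem_kerRed

/-- an admissible divisor has a line, given [GEN] for it -/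
theorem lam_of_adm {D : Divisor.degZero (K := Qb) (F := Fb N)} (hD : Adm hℓ hA hℓN K D)
    (hg : GenAt K ϖ (levelDiv K (D : Divisor Qb (Fb N)))) :
    Lam hℓ hA hℓN K hstar hϖ0 (Pic0.mk D)
      (GaussN4.lineOf hstar hϖ0 (levelDiv K (D : Divisor Qb (Fb N))) hg.red_p hg.red_m) :=
  ⟨D, rfl, hD, hg.red_p, hg.red_m, rfl⟩

/-! ### the system of lines -/

section LineSys

variable [IsAlgClosed (IsLocalRing.ResidueField ↥(baseRing A K))]
  (hG : GoodBase (Lvl K) N (baseRing A K) ℓ)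
  (hroots : ∀ ξ ∈ Fermat.Agent.N4.BigDVR.goodRoots A, ξ ∈ K)
  (hsurj : Function.Surjective (IsLocalRing.ResidueField.map (baseIncl A K)))
  (hϖ : Irreducible ϖ)
  (hgen : ∀ D : Divisor.degZero (K := Qb) (F := Fb N), Adm hℓ hA hℓN K D →
    GenAt K ϖ (levelDiv K (D : Divisor Qb (Fb N))))

include hG hroots hsurj hϖ in
/-- **Independence of the representative, at the level `K`**: two admissible divisors of the same
class differ by the divisor of a function `w ≡ 1 mod ϖ W_K` of the level. -/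
theorem exists_isOne_of_mk_eq {D D' : Divisor.degZero (K := Qb) (F := Fb N)}
    (h : (Pic0.mk D : JZero N) = Pic0.mk D') (hD : Adm hℓ hA hℓN K D)
    (hD' : Adm hℓ hA hℓN K D') :
    ∃ w : FF (Lvl K) N, w ≠ 0 ∧ w ∈ gaussSubalgebra (Lvl K) N (baseRing A K) ∧
      IsOne (algebraMap ↥(baseRing A K) (FF (Lvl K) N) ϖ)
        (gaussSubalgebra (Lvl K) N (baseRing A K)).toSubring w ∧
      ∀ v : Place (Lvl K) (FF (Lvl K) N),
        v.ord w = levelDiv K (D' : Divisor Qb (Fb N)) v - levelDiv K (D : Divisor Qb (Fb N)) v := by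
  obtain ⟨w, hw, hθ, hord⟩ := ClassDictLevel.exists_gauss_unit_of_rep_goodLevel hℓ hA hℓN K hG hroots
    hsurj h.symm hD'.1 hD.1 hD'.2 hD.2
  have hw0 : w ≠ 0 := by
    rintro rfl
    exact hw.ne_zero (map_zero _)
  have h1 : thetaBar A N (levK N K w) = 1 := by
    rw [← hw.coe_thetaFt, hθ]
    rfl
  exact ⟨w, hw0, GaussLevel.mem_gaussSubalgebra_of_levK_mem A N K hw.1,
    GaussLevel.isOne_of_levK A N K hϖ hw.1 h1, hord⟩

include hG hroots hsurj hgen in
/-- **The lines of a good level form a `LineSys`** (given [GEN] at the level). -/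
theorem lineSys_level :
    LineSys (GaussN4.charts_of_star hstar hϖ.ne_zero hϖ.not_isUnit)
      (Lam hℓ hA hℓN K hstar hϖ.ne_zero) where
  gens := by
    rintro z L ⟨D, rfl, hD, rp, rm, rfl⟩
    obtain ⟨fp, hfp, h1p⟩ := (hgen D hD).gen_p
    obtain ⟨fm, hfm, h1m⟩ := (hgen D hD).gen_m
    exact ⟨fp, hfp, fm, hfm, h1p, h1m⟩
  zero := by
    have h0 := adm_zero hℓ hA hℓN (N := N) K
    have hg := hgen 0 h0
    refine ⟨GaussN4.lineOf hstar hϖ.ne_zero _ hg.red_p hg.red_m,
      ⟨0, Pic0.mk_zero, h0, hg.red_p, hg.red_m, rfl⟩, ?_, ?_⟩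
    · show (1 : FF (Lvl K) N) ∈ Lp _ _ (levelDiv K
        ((0 : Divisor.degZero (K := Qb) (F := Fb N)) : Divisor Qb (Fb N)))
      rw [AddSubgroup.coe_zero, levelDiv_zero]
      exact DivModuleMul.one_mem_LD_zero
    · show (1 : FF (Lvl K) N) ∈ Lm _ _ (levelDiv K
        ((0 : Divisor.degZero (K := Qb) (F := Fb N)) : Divisor Qb (Fb N)))
      rw [AddSubgroup.coe_zero, levelDiv_zero]
      exact DivModuleMul.one_mem_LD_zero
  add := by
    rintro z z' L L' ⟨D, rfl, hD, rp, rm, rfl⟩ ⟨D', rfl, hD', rp', rm', rfl⟩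
    have hadd := hD.add hℓ hA hℓN hD'
    have hg := hgen (D + D') hadd
    have e : levelDiv K ((D + D' : Divisor.degZero (K := Qb) (F := Fb N)) : Divisor Qb (Fb N))
        = levelDiv K (D : Divisor Qb (Fb N)) + levelDiv K (D' : Divisor Qb (Fb N)) := by
      rw [AddSubgroup.coe_add, levelDiv_add]
    refine ⟨GaussN4.lineOf hstar hϖ.ne_zero _ hg.red_p hg.red_m,
      ⟨D + D', Pic0.mk_add D D', hadd, hg.red_p, hg.red_m, rfl⟩, ?_, ?_, ?_⟩
    · intro x hx x' hx'
      show x * x' ∈ Lp _ _ (levelDiv K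
        ((D + D' : Divisor.degZero (K := Qb) (F := Fb N)) : Divisor Qb (Fb N)))
      rw [e]
      exact DivModuleMul.mul_mem_LD_add hx hx'
    · intro x hx x' hx'
      show x * x' ∈ Lm _ _ (levelDiv K
        ((D + D' : Divisor.degZero (K := Qb) (F := Fb N)) : Divisor Qb (Fb N)))
      rw [e]
      exact DivModuleMul.mul_mem_LD_add hx hx'
    · intro x hx x' hx'
      show x * x' ∈ L0 _ _ (levelDiv K
        ((D + D' : Divisor.degZero (K := Qb) (F := Fb N)) : Divisor Qb (Fb N)))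
      rw [e]
      exact DivModuleMul.mul_mem_LD_add hx hx'
  indep := by
    rintro z L L' ⟨D, rfl, hD, rp, rm, rfl⟩ ⟨D', hDD', hD', rp', rm', rfl⟩
    obtain ⟨w, hw0, hwW, hw1, hord⟩ :=
      exists_isOne_of_mk_eq hℓ hA hℓN K hG hroots hsurj hϖ hDD'.symm hD hD'
    refine ⟨w, hw1, ?_, ?_, ?_⟩
    · intro x hx
      exact DivModuleMul.mul_mem_LD_of_ord_eq hwW hw0 (fun P _ => hord P) hx
    · intro x hx
      exact DivModuleMul.mul_mem_LD_of_ord_eq hwW hw0 (fun P _ => hord P) hx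
    · intro x hx
      exact DivModuleMul.mul_mem_LD_of_ord_eq hwW hw0 (fun P _ => hord P) hx

end LineSys

end Level

/-! ### [GEN] in the form "generators of the line" -/

section GenAdapter

variable (K : IntermediateField ℚ Qb) [IsDiscreteValuationRing ↥(baseRing A K)]
  [IsFractionRing ↥(baseRing A K) (Lvl K)]
  (hstar : StarStatement (Lvl K) N (baseRing A K)) {ϖ : ↥(baseRing A K)} (hϖ0 : ϖ ≠ 0)

/-- the [GEN] package from the statement "`lineOf D'` exists and has generators `≡ 1`" -/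
theorem genAt_of_line_gens {D' : Divisor (Lvl K) (FF (Lvl K) N)}
    (h : ∃ rp rm, ∃ fp ∈ (GaussN4.lineOf hstar hϖ0 D' rp rm).Lp,
      ∃ fm ∈ (GaussN4.lineOf hstar hϖ0 D' rp rm).Lm,
        IsOne (algebraMap ↥(baseRing A K) (FF (Lvl K) N) ϖ)
          (gaussSubalgebra (Lvl K) N (baseRing A K)).toSubring fp ∧
        IsOne (algebraMap ↥(baseRing A K) (FF (Lvl K) N) ϖ)
          (gaussSubalgebra (Lvl K) N (baseRing A K)).toSubring fm) :
    GenAt K ϖ D' := by
  obtain ⟨rp, rm, fp, hfp, fm, hfm, h1p, h1m⟩ := h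
  exact ⟨rp, rm, ⟨fp, hfp, h1p⟩, ⟨fm, hfm, h1m⟩⟩

/-- conversely -/
theorem GenAt.line_gens {D' : Divisor (Lvl K) (FF (Lvl K) N)} (hg : GenAt K ϖ D') :
    ∃ fp ∈ (GaussN4.lineOf hstar hϖ0 D' hg.red_p hg.red_m).Lp,
      ∃ fm ∈ (GaussN4.lineOf hstar hϖ0 D' hg.red_p hg.red_m).Lm,
        IsOne (algebraMap ↥(baseRing A K) (FF (Lvl K) N) ϖ)
          (gaussSubalgebra (Lvl K) N (baseRing A K)).toSubring fp ∧
        IsOne (algebraMap ↥(baseRing A K) (FF (Lvl K) N) ϖ)
          (gaussSubalgebra (Lvl K) N (baseRing A K)).toSubring fm := by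
  obtain ⟨fp, hfp, h1p⟩ := hg.gen_p
  obtain ⟨fm, hfm, h1m⟩ := hg.gen_m
  exact ⟨fp, hfp, fm, hfm, h1p, h1m⟩

end GenAdapter

/-! ### inclusion of levels -/

section Incl

open Fermat.Agent.S19.Cech.LevelBasis (lvlIncl)
open Fermat.Agent.N4.BaseDescent (ffMap)

variable {K K' : IntermediateField ℚ Qb} (hKK' : K ≤ K')
  [IsDiscreteValuationRing ↥(baseRing A K)] [IsFractionRing ↥(baseRing A K) (Lvl K)]
  [IsDiscreteValuationRing ↥(baseRing A K')] [IsFractionRing ↥(baseRing A K') (Lvl K')]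
  (hstar : StarStatement (Lvl K) N (baseRing A K))
  (hstar' : StarStatement (Lvl K') N (baseRing A K'))
  {ϖ : ↥(baseRing A K)} (hϖ0 : ϖ ≠ 0) {ϖ' : ↥(baseRing A K')} (hϖ0' : ϖ' ≠ 0)
  (hgen' : ∀ D : Divisor.degZero (K := Qb) (F := Fb N), Adm hℓ hA hℓN K' D →
    GenAt K' ϖ' (levelDiv K' (D : Divisor Qb (Fb N))))

include hKK' hgen' in
/-- **Level inclusion, helper12's shape** (`LineLevelMono.LinesLift`): the line of `D` at the level
`K` goes to the line of the SAME `D` at the level `K'`. -/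
theorem linesLift_incl :
    LineLevelMono.LinesLift A hstar hstar' hϖ0 hϖ0'
      (Λ := Lam hℓ hA hℓN K hstar hϖ0) (Λ' := Lam hℓ hA hℓN K' hstar' hϖ0') := by
  rintro z L ⟨D, rfl, hD, rp, rm, rfl⟩
  have hD' := hD.mono hℓ hA hℓN hKK'
  have hg := hgen' D hD'
  exact ⟨(D : Divisor Qb (Fb N)), hD.2, rp, rm, hg.red_p, hg.red_m, rfl,
    ⟨D, rfl, hD', hg.red_p, hg.red_m, rfl⟩⟩

include hKK' hgen' in
/-- **Level inclusion, helper6's shape** (`LevelLinesHom.LinesHom`, `act = id`). -/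
theorem linesHom_incl :
    LevelLinesHom.LinesHom (ffMap (lvlIncl hKK') N) (Lam hℓ hA hℓN K hstar hϖ0)
      (Lam hℓ hA hℓN K' hstar' hϖ0') id := by
  rintro z L ⟨D, rfl, hD, rp, rm, rfl⟩
  have hD' := hD.mono hℓ hA hℓN hKK'
  have hg := hgen' D hD'
  refine ⟨GaussN4.lineOf hstar' hϖ0' (levelDiv K' (D : Divisor Qb (Fb N))) hg.red_p hg.red_m,
    ⟨D, rfl, hD', hg.red_p, hg.red_m, rfl⟩, ?_, ?_, ?_⟩
  · intro x hx
    exact LineLevelMono.ffMap_mem_lineOf_Lp A hKK' hstar hstar' hϖ0 hϖ0' _ hD.2 rp rm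
      hg.red_p hg.red_m hx
  · intro x hx
    exact LineLevelMono.ffMap_mem_lineOf_Lm A hKK' hstar hstar' hϖ0 hϖ0' _ hD.2 rp rm
      hg.red_p hg.red_m hx
  · intro x hx
    exact LineLevelMono.ffMap_mem_lineOf_L0 A hKK' hstar hstar' hϖ0 hϖ0' _ hD.2 rp rm
      hg.red_p hg.red_m hx

end Incl

end Fermat.Agent.S19.Geo.LevelLines
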