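/-
S19 / GEO, leaf [INST] (helper4; dispatch #2399 item 2): **the lines of the concrete levels** of
`Geo/InstanceLevels.lean` (helper8) and the fields `hmem`, `hex` of `InstanceOfSit.GeoFamily` for the
concrete family `InstanceLevels.X`.

* `genAt_lvl` : the [GEN] package `LevelLines.GenAt` at every level `lvl A E` (from helper13's
  `Cech/Generators.lean`: `red_fin`, `red_inf`, `exists_gen_fin`, `exists_gen_inf`) — NO hypothesis;
* `ΛE` : the predicate "`L` is a line of the class `z` at the level `E`" (`LevelLines.Lam` at the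
  constants of `InstanceLevels`);
* `hΛE` : `LineSys (charts hℓ hA hℓN E) (ΛE hℓ hA hℓN E)` (= the argument `hΛ` of `InstanceLevels.X`);
* `hmem_X`, `hex_X` : the fields `hmem`, `hex` of `GeoFamily` for `X hℓ hA hℓN fr hΛ` (any proof `hΛ`
  of the line-system property of `ΛE`), in the exact binder shape;
* `exists_lam_of_mem_kerRed` : the level and the line of a class of the kernel of reduction (same
  choice for `hex` and `hsep`).
-/
import Mathlib
import Fermat.Agent.S19.Geo.InstanceLevels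
import Fermat.Agent.S19.Geo.LevelLines
import Fermat.Agent.S19.Cech.Generators

set_option autoImplicit false
set_option linter.unusedSectionVars false
set_option linter.style.haveILetI false
set_option synthInstance.maxHeartbeats 400000
set_option maxHeartbeats 800000

open ModularCurve AlgebraicCurve

noncomputable section

namespace Fermat.Agent.S19.Geo.InstanceLines

open Fermat.Agent.S19.Abs Fermat.Agent.S19.Coord Fermat.Agent.S19.Cech
open Fermat.Agent.N4.Setting Fermat.Agent.N4.BigDVR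
open Fermat.Agent.N4F.C hiding Qb
open Fermat.Agent.N4F.C.Levels Fermat.Agent.N4F.C.LevelCharts
  Fermat.Agent.N4F.C.ChartFactsProof Fermat.Agent.P3G.Gamma Fermat.Agent.P3G.GammaBase
  Fermat.Agent.S19.Geo.BaseLevel Fermat.Agent.S19.Geo.InstanceLevels
  Fermat.Agent.S19.Geo.LevelLines Fermat.Agent.S19.Cech.LevelDiv
  Fermat.Agent.S19.Cech.Cocycle Fermat.Agent.S19.Cech.CoordOfLines
open Fermat.Agent.S19.Geo.FixedLift (kerRed)

variable {A : ValuationSubring Qb} {N : ℕ} [NeZero N] {ℓ : ℕ}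
  (hℓ : ℓ.Prime) (hA : A.LiesOverPrime ℓ) (hℓN : ¬ ℓ ∣ N)

include hℓ hA hℓN in
/-- the fraction-field instance of a level -/
theorem frac_lvl (E : Lv) : IsFractionRing ↥(baseRing A (lvl A E)) (Lvl (lvl A E)) :=
  (goodBase_lvl hℓ hA hℓN E).frac

/-- **[GEN] at every concrete level** (helper13's `Generators`), no hypothesis left. -/
theorem genAt_lvl (E : Lv) (D : Divisor.degZero (K := Qb) (F := Fb N))
    (hD : Adm hℓ hA hℓN (lvl A E) D) :
    haveI := dvr_lvl hℓ hA E
    haveI := frac_lvl hℓ hA hℓN E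
    GenAt (lvl A E) (unif hℓ hA E) (levelDiv (lvl A E) (D : Divisor Qb (Fb N))) := by
  haveI := E.2.1
  haveI := dvr_lvl hℓ hA E
  haveI := frac_lvl hℓ hA hℓN E
  haveI : IsAlgClosed (IsLocalRing.ResidueField ↥(baseRing A (lvl A E))) :=
    (bigLevel_spec hℓ hA E.1).2.2.1
  obtain ⟨hclp, hclm⟩ := MainFinal.levelHyp hℓ hA hℓN (lvl A E) (goodBase_lvl hℓ hA hℓN E)
    (goodRoots_subset_bigLevel A E.1)
  have P := levelPack_lvl hℓ hA hℓN E
  have hϖ := irreducible_unif hℓ hA E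
  obtain ⟨ϖp, ρp, hρp⟩ := exists_rhoData hclp
  obtain ⟨ϖm, ρm, hρm⟩ := exists_rhoData hclm
  haveI := hclp.noeth
  haveI := hclp.frac
  haveI := hclm.noeth
  haveI := hclm.frac
  exact ⟨Generators.red_fin hℓ hA hℓN hϖ hρp P.hbij _ hD.1 hD.2,
    Generators.red_inf hℓ hA hℓN hϖ hρm P.hbij _ hD.1 hD.2,
    Generators.exists_gen_fin hℓ hA hℓN hϖ hρp P.hbij _ hD.1 hD.2,
    Generators.exists_gen_inf hℓ hA hℓN hϖ hρm P.hbij _ hD.1 hD.2⟩

/-- **The lines of the level `E`**: `ΛE E z L`, "`L` is the line of an admissible divisor of class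
`z` at the level `lvl A E`" (`LevelLines.Lam` at the constants of `InstanceLevels`). -/
def ΛE (E : Lv) : JZero N → LineE hℓ hA N E → Prop :=
  haveI := dvr_lvl hℓ hA E
  haveI := frac_lvl hℓ hA hℓN E
  Lam hℓ hA hℓN (lvl A E) (star_lvl hℓ hA hℓN E) (irreducible_unif hℓ hA E).ne_zero

/-- **The lines of every level form a `LineSys`** (= the argument `hΛ` of `InstanceLevels.X`). -/
theorem hΛE (E : Lv) : LineSys (charts hℓ hA hℓN E) (ΛE hℓ hA hℓN E) := by
  haveI := E.2.1
  haveI := dvr_lvl hℓ hA E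
  haveI := frac_lvl hℓ hA hℓN E
  haveI : IsAlgClosed (IsLocalRing.ResidueField ↥(baseRing A (lvl A E))) :=
    (bigLevel_spec hℓ hA E.1).2.2.1
  exact lineSys_level hℓ hA hℓN (lvl A E) (star_lvl hℓ hA hℓN E) (goodBase_lvl hℓ hA hℓN E)
    (goodRoots_subset_bigLevel A E.1) (bigLevel_spec hℓ hA E.1).2.2.2.surjective
    (irreducible_unif hℓ hA E) (genAt_lvl hℓ hA hℓN E)

/-- a class with a line at some level lies in the kernel of reduction -/
theorem mem_kerRed_of_ΛE {E : Lv} {z : JZero N} {L : LineE hℓ hA N E}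
    (h : ΛE hℓ hA hℓN E z L) : z ∈ kerRed hℓ hA hℓN :=
  haveI := dvr_lvl hℓ hA E
  haveI := frac_lvl hℓ hA hℓN E
  mem_kerRed_of_lam hℓ hA hℓN (lvl A E) (star_lvl hℓ hA hℓN E) (irreducible_unif hℓ hA E).ne_zero h

/-- an admissible divisor at the level `E` has a line there -/
theorem ΛE_of_adm (E : Lv) {D : Divisor.degZero (K := Qb) (F := Fb N)}
    (hD : Adm hℓ hA hℓN (lvl A E) D) : ∃ L, ΛE hℓ hA hℓN E (Pic0.mk D) L :=
  haveI := dvr_lvl hℓ hA E
  haveI := frac_lvl hℓ hA hℓN E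
  ⟨_, lam_of_adm hℓ hA hℓN (lvl A E) (star_lvl hℓ hA hℓN E) (irreducible_unif hℓ hA E).ne_zero hD
    (genAt_lvl hℓ hA hℓN E D hD)⟩

/-- **The level of a class of the kernel of reduction**: a Galois-stable number field `E`, an
admissible divisor `D` of the class at the level `lvl A E` (and at every level above it) and its
line. -/
theorem exists_lam_of_mem_kerRed {z : JZero N} (hz : z ∈ kerRed hℓ hA hℓN) :
    ∃ (E : Lv) (D : Divisor.degZero (K := Qb) (F := Fb N)), Pic0.mk D = z ∧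
      (∀ E' : Lv, E.le E' → Adm hℓ hA hℓN (lvl A E') D) ∧
      ∃ L, ΛE hℓ hA hℓN E z L := by
  obtain ⟨E, hfin, hst, D, rfl, hD⟩ := exists_adm_of_mem_kerRed' hℓ hA hℓN hz
  refine ⟨⟨E, hfin, hst⟩, D, rfl, fun E' hE' => hD _ (bigLevel_mono A hE'), ?_⟩
  exact ΛE_of_adm hℓ hA hℓN ⟨E, hfin, hst⟩ (hD _ le_rfl)

section Fields

variable (fr : Frame A N) (hΛ : ∀ E, LineSys (charts hℓ hA hℓN E) (ΛE hℓ hA hℓN E))

/-- **field `hmem` of `GeoFamily`** for the concrete family. -/
theorem hmem_X : ∀ (E : Lv) (m : ℕ) (z : JZero N) (v : (X hℓ hA hℓN fr hΛ E m).C0),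
    (X hℓ hA hℓN fr hΛ E m).K z v → z ∈ kerRed hℓ hA hℓN := by
  rintro E m z v ⟨u, ⟨L, hL, -⟩, -⟩
  exact mem_kerRed_of_ΛE hℓ hA hℓN hL

/-- **field `hex` of `GeoFamily`** for the concrete family. -/
theorem hex_X : ∀ z ∈ kerRed hℓ hA hℓN, ∃ E : Lv, ∀ m, ∃ v, (X hℓ hA hℓN fr hΛ E m).K z v := by
  intro z hz
  obtain ⟨E, D, -, -, L, hL⟩ := exists_lam_of_mem_kerRed hℓ hA hℓN hz
  exact ⟨E, fun m => X_exists_K hℓ hA hℓN fr hΛ E hL m⟩

end Fields

end Fermat.Agent.S19.Geo.InstanceLines
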