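/-
S19 / GEO, [INST] field `htwist` (helper21, insurance copy of helper24's `Geo/InstanceTwist.lean`;
dispatch #2438): **the decomposition group twists the situation of a Galois-stable level.**

`L ⊆ ℚ̄` a `Gal(ℚ̄/ℚ)`-stable level containing the unramified base level `K₀ = K0 A`, `O_L` a DVR,
`σ` in the decomposition group of `A`, `fr : BaseLevel.Frame A N` a frame of the base level.  For
the situation `LevelSit.sit` of the level `L` (charts `Rfin, Rinf, Rmid`, Gauss ring `W_L`, any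
system of lines `Λ`, frame `midIncl (K₀ ≤ L) ∘ fr.ε`, structure map `jL`):

  `(sit … m H).IsTwist (sit … m H) (ip₁ A N) (im₁ A N) fr.ε σ (galActJ N σ) (LevelHyp.εt fr hσ)`

(`LevelSitTwist.isTwist_of_chg` with `β_? = finIncl/infIncl/midIncl (K₀ ≤ L)`, `θ = σ|_{O_L}`,
`τ = g_σ = levelFF L hL N σ`, `φ = φGal`, twisted frame `εt = σ fr.ε` computed at the base level).
The only hypothesis left is the compatibility of the lines with `σ` (`LevelLinesHom.LinesHom`).

* `phi_εL` : `g_σ (ε_L i) = midIncl (K₀ ≤ L) (εt i)` in the function field of `L`;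
* `isTwist_decomp` : the statement above at a variable stable level;
* `htwist_X'` / `htwist_X` : **the field `htwist` of `InstanceOfSit.GeoFamily` verbatim for
  `InstanceLevels.X`** (generic lines `Λ E`; `E' := E`).
-/
import Mathlib
import Fermat.Agent.S19.Geo.InstanceLevels
import Fermat.Agent.S19.Geo.LevelSitInertia
import Fermat.Agent.S19.Geo.LevelSitTwist
import Fermat.Agent.S19.Cech.LevelHyp

set_option autoImplicit false
set_option linter.unusedSectionVars false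
set_option linter.style.haveILetI false

open ModularCurve AlgebraicCurve TensorProduct
open Fermat.Agent.N4.Setting Fermat.Agent.N4.Chart Fermat.Agent.N4.FibreEmbedding
  Fermat.Agent.N4.BaseDescent

noncomputable section

namespace Fermat.Agent.S19.Geo.InstanceTwistB

open Fermat.Agent.N4F.C.Levels Fermat.Agent.N4F.C.LevelCharts
  Fermat.Agent.N4F.C.Galois Fermat.Agent.P3G.Gamma
  Fermat.Agent.P3G.GammaAut Fermat.Agent.P3G.GammaGauss
  Fermat.Agent.S19.Abs Fermat.Agent.S19.Coord Fermat.Agent.S19.Cech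
  Fermat.Agent.S19.Cech.Cocycle Fermat.Agent.S19.Cech.CoordOfLines
  Fermat.Agent.S19.Cech.CoordFamily Fermat.Agent.S19.Cech.RedTuple
  Fermat.Agent.S19.Cech.BaseQuotLevel Fermat.Agent.S19.Cech.LevelBasis
  Fermat.Agent.S19.Cech.LevelBasisBig Fermat.Agent.S19.Cech.LevelGalois
  Fermat.Agent.S19.Cech.LevelHyp
  Fermat.Agent.S19.Geo.LevelSit Fermat.Agent.S19.Geo.LevelSitMaps
  Fermat.Agent.S19.Geo.LevelSitIdeal Fermat.Agent.S19.Geo.LevelSitTwist
  Fermat.Agent.S19.Geo.LevelLinesHom Fermat.Agent.S19.Geo.LevelEquivariant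
  Fermat.Agent.S19.Geo.BaseLevel

variable {A : ValuationSubring Qb} {ℓ : ℕ} {N : ℕ} [NeZero N]
  (L : IntermediateField ℚ Qb) (hL : ∀ (τ : GQ) (x : Qb), x ∈ L → τ x ∈ L)

/-- **`g_σ` moves the frame of `L` to the image of the twisted frame of the base level.** -/
theorem phi_εL (h0 : K0 A ≤ L) (fr : Frame A N) {σ : GQ}
    (hσ : σ ∈ A.decompositionSubgroup ℚ) (i : Fin fr.g) :
    levelFF L hL N σ • ((midIncl A N h0 (fr.ε i) : ↥(Rmid (Lvl L) N (baseRing A L))) :
        FF (Lvl L) N) =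
      ((midIncl A N h0 (εt fr hσ i) : ↥(Rmid (Lvl L) N (baseRing A L))) : FF (Lvl L) N) := by
  have h := congrArg (fun x : ↥(Rmid (Lvl L) N (baseRing A L)) => (x : FF (Lvl L) N))
    (midGal_εL fr h0 hL hσ i)
  rw [levelFF_smul_eq_ffMap]
  exact h

variable [IsDiscreteValuationRing ↥(baseRing A L)] [IsFractionRing ↥(baseRing A L) (Lvl L)]

section Decomp

variable (hp : Rfin (Lvl L) N (baseRing A L) ≤ Rmid (Lvl L) N (baseRing A L))
  (hm : Rinf (Lvl L) N (baseRing A L) ≤ Rmid (Lvl L) N (baseRing A L)) {ϖ : OL A L}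
  (C : Charts (algebraMap (OL A L) (FF (Lvl L) N) ϖ) (Rfin (Lvl L) N (baseRing A L)).toSubring
    (Rinf (Lvl L) N (baseRing A L)).toSubring (Rmid (Lvl L) N (baseRing A L)).toSubring
    (gaussSubalgebra (Lvl L) N (baseRing A L)).toSubring)
  (hι : IsLevelRing A ℓ (ιK A L))
  (hloc : ∀ x : OL A L, x ∈ IsLocalRing.maximalIdeal (OL A L) ↔ ιK A L x ∈ A.nonunits)
  (hA : A.LiesOverPrime ℓ) (hϖ : IsLocalRing.maximalIdeal (OL A L) = Ideal.span {ϖ})
  {e : ℕ} (he : 0 < e) (hℓe : Associated ((ℓ : OL A L)) (ϖ ^ e))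
  {Λ : JZero N → Line (algebraMap (OL A L) (FF (Lvl L) N) ϖ)
    (Rfin (Lvl L) N (baseRing A L)).toSubring (Rinf (Lvl L) N (baseRing A L)).toSubring
    (Rmid (Lvl L) N (baseRing A L)).toSubring
    (gaussSubalgebra (Lvl L) N (baseRing A L)).toSubring → Prop}
  (hΛ : LineSys C Λ) (h0 : K0 A ≤ L) (fr : Frame A N) (m : ℕ)
  (H : Hyp (mS (OL A L) ϖ ℓ m)
    (mapS (Quo (OL A L) ℓ (m + 1)) (Subalgebra.inclusion hp))
    (mapS (Quo (OL A L) ℓ (m + 1)) (Subalgebra.inclusion hm))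
    (epsS (Quo (OL A L) ℓ (m + 1)) (fun i => midIncl A N h0 (fr.ε i))))

set_option maxHeartbeats 800000 in
/-- **The field `htwist` at one stable level**: `σ` in the decomposition group twists the
situation of the level `L ⊇ K₀` (frame = image of the frame `fr` of the base level) into itself,
over `σ` on `ℚ̄` and `galActJ N σ` on the classes, with twisted frame `εt fr hσ = σ fr.ε`.
`hΛσ` = [LINES] `Λ_gal`. -/
theorem isTwist_decomp {σ : GQ} (hσ : σ ∈ A.decompositionSubgroup ℚ) (hϖi : Irreducible ϖ)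
    (hΛσ : LinesHom ((phi L hL N σ : FF (Lvl L) N ≃+* FF (Lvl L) N) :
      FF (Lvl L) N →+* FF (Lvl L) N) Λ Λ (galActJ N σ)) :
    (sit (Jb := JZero N) hp hm C hι hloc hA hϖ he hℓe hΛ (fun i => midIncl A N h0 (fr.ε i))
        (jL A h0) m H).IsTwist
      (sit (Jb := JZero N) hp hm C hι hloc hA hϖ he hℓe hΛ (fun i => midIncl A N h0 (fr.ε i))
        (jL A h0) m H)
      (ip₁ A N) (im₁ A N) fr.ε ((σ : GQ) : Qb →+* Qb) (galActJ N σ) (εt fr hσ) := by
  obtain ⟨v, T⟩ := exists_equivariant_level L hL N hσ hϖi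
  have CH := chartHom_level (LevelBasis.lvlIncl h0) N (baseRing A (K0 A)) (baseRing A L)
    (LevelBasis.lvlIncl_mem A h0)
  refine isTwist_of_chg hp hm C hι hloc hA hϖ he hℓe hΛ (fun i => midIncl A N h0 (fr.ε i))
    (jL A h0) m hp hm C hι hloc hϖ he hℓe hΛ (fun i => midIncl A N h0 (fr.ε i)) (jL A h0) H H
    (finIncl A N h0) CH.alg_p (infIncl A N h0) CH.alg_m (midIncl A N h0) CH.alg_0
    CH.comm_p CH.comm_m (fun _ => rfl)
    (θGal L hL hσ)
    ((phi L hL N σ : FF (Lvl L) N ≃+* FF (Lvl L) N) : FF (Lvl L) N →+* FF (Lvl L) N)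
    (fun o => levelFF_smul_algebraMap_base L hL N hσ o)
    (fun x hx => (levelFF_smul_mem_Rfin_iff L hL N hσ).2 hx)
    (fun x hx => (levelFF_smul_mem_Rinf_iff L hL N hσ).2 hx)
    (fun x hx => (levelFF_smul_mem_Rmid_iff L hL N hσ).2 hx)
    (φGal ℓ L hL hσ (m + 1)) (fun o => φGal_red ℓ L hL hσ (m + 1) o)
    (fun s hs => φGal_mem_mS ℓ L hL hσ hϖ m hs) (εt fr hσ)
    (fun i => phi_εL L hL h0 fr hσ i) ((σ : GQ) : Qb →+* Qb)
    (fun x => ιK_θGal L hL hσ x) (galActJ N σ) ?_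
  intro z u hu
  exact kappa_map_equivariant T C hΛσ le_rfl hu

end Decomp

/-! ### the field `htwist` for `InstanceLevels.X` -/

section Instance

open Fermat.Agent.S19.Geo.InstanceLevels

variable (hℓ : ℓ.Prime) (hA : A.LiesOverPrime ℓ) (hℓN : ¬ ℓ ∣ N) (fr : Frame A N)
  {Λ : ∀ E : Lv, JZero N → LineE hℓ hA N E → Prop}
  (hΛ : ∀ E, LineSys (charts hℓ hA hℓN E) (Λ E))

/-- `σ` in the decomposition group twists `X E m` into itself, given `LinesHom` for this `σ` at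
this level. -/
theorem isTwist_X (E : Lv) (m : ℕ) {σ : GQ} (hσ : σ ∈ A.decompositionSubgroup ℚ)
    (hΛσ : LinesHom ((phi (lvl A E) (lvl_stable A E) N σ : FE A N E ≃+* FE A N E) :
      FE A N E →+* FE A N E) (Λ E) (Λ E) (galActJ N σ)) :
    (X hℓ hA hℓN fr hΛ E m).IsTwist (X hℓ hA hℓN fr hΛ E m) (ip₁ A N) (im₁ A N) fr.ε
      ((σ : GQ) : Qb →+* Qb) (galActJ N σ) (εt fr hσ) :=
  haveI := dvr_lvl hℓ hA E
  isTwist_decomp (lvl A E) (lvl_stable A E) (Bp_le E) (Bm_le E) (charts hℓ hA hℓN E)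
    (isLevelRing A (lvl A E) ℓ) (mem_maximalIdeal_iff A (lvl A E)) hA (maximalIdeal_eq hℓ hA E)
    (ram_pos hℓ hA E) (associated_ram hℓ hA E) (hΛ E) (K0_le_lvl A E) fr m
    (hyp_lvl hℓ hA hℓN fr E m) hσ (irreducible_unif hℓ hA E) hΛσ

/-- **Field `htwist` of `GeoFamily`** for `InstanceLevels.X`, from `LinesHom` for the decomposition
group (the hypothesis of `InstanceInertia.hinertia_X`). -/
theorem htwist_X
    (hΛσ : ∀ E, ∀ σ ∈ A.decompositionSubgroup ℚ,
      LinesHom ((phi (lvl A E) (lvl_stable A E) N σ : FE A N E ≃+* FE A N E) :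
        FE A N E →+* FE A N E) (Λ E) (Λ E) (galActJ N σ)) :
    ∀ σ ∈ A.decompositionSubgroup ℚ, ∃ εt : Fin fr.g → A0 A N, ∀ E m,
      ∃ E', (X hℓ hA hℓN fr hΛ E m).IsTwist (X hℓ hA hℓN fr hΛ E' m) (ip₁ A N) (im₁ A N) fr.ε
        ((σ : GQ) : Qb →+* Qb) (galActJ N σ) εt :=
  fun σ hσ => ⟨εt fr hσ, fun E m => ⟨E, isTwist_X hℓ hA hℓN fr hΛ E m hσ (hΛσ E σ hσ)⟩⟩

end Instance

end Fermat.Agent.S19.Geo.InstanceTwistB
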