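/-
S19 / GEO, leaf [LINES] x [GEN] (helper2; dispatch #2399 item 1 of helper22): **the named hypothesis
`hgen` of `LevelLines.lineSys_level` is a theorem**, hence the lines of a good level form a
`CoordOfLines.LineSys` with NO hypothesis left.

* `genAt_of_chartLevel` : for a level `K` with `LevelPack A N K`, the two `ChartLevel`s of the level,
  any uniformiser `ϖ` of `O_K`, every admissible divisor `D` (`LevelLines.Adm`) has the [GEN]
  package `LevelLines.GenAt K ϖ (levelDiv K D)` (helper13's `Generators.red_fin_CL`, `red_inf_CL`,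
  `exists_gens_CL`);
* `genAt_level` : the same with the two `ChartLevel`s supplied by `MainFinal.levelHyp` (helper16/
  helper9), i.e. from `GoodBase` + `goodRoots ⊆ K` + `LevelPack` alone;
* `lineSys_lvl` : `LineSys (GaussN4.charts_of_star ..) (LevelLines.Lam ..)` at such a level;
* `linesLift_lvl`, `linesHom_lvl` : the level inclusions of `LevelLines` (helper12's / helper6's
  shapes) with no `hgen'` left;
* at helper8's constants (`Geo/InstanceLevels`): `isAlgClosed_lvl`, `goodRoots_lvl`, `genAt_lvlE`,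
  `lineSys_lvlE : LineSys (charts hℓ hA hℓN E) (Lam hℓ hA hℓN (lvl A E) (star_lvl ..) ..)`,
  `linesLift_lvlE`, `linesHom_lvlE` (for `E.le E'`), `lam_of_adm_lvlE`.
-/
import Mathlib
import Fermat.Agent.S19.Geo.LevelLines
import Fermat.Agent.S19.Cech.Generators
import Fermat.Agent.S19.Geo.InstanceLevels
import Fermat.Agent.N4F.C.MainFinal

set_option autoImplicit false
set_option linter.unusedSectionVars false
set_option linter.style.haveILetI false
set_option synthInstance.maxHeartbeats 400000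
set_option maxHeartbeats 800000

open ModularCurve AlgebraicCurve
open Fermat.Agent.N4.Setting Fermat.Agent.S24
open Fermat.Agent.S24.PlaceDeriv (ResidueTrivial)
open Fermat.Agent.N4.FibreEmbedding Fermat.Agent.S19.Cech.DivModule

noncomputable section

namespace Fermat.Agent.S19.Geo.LevelLinesGen

open Fermat.Agent.N4F.C Fermat.Agent.N4F.C.Main Fermat.Agent.N4F.C.Centre
  Fermat.Agent.N4F.C.Levels Fermat.Agent.N4F.C.LevelCharts
  Fermat.Agent.N4F.C.Formula Fermat.Agent.N4F.C.ChartFactsProof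
  Fermat.Agent.S19.Cech.ClassDict Fermat.Agent.S19.Cech.LevelDiv
  Fermat.Agent.S19.Cech Fermat.Agent.S19.Cech.Cocycle Fermat.Agent.S19.Cech.CoordOfLines
open Fermat.Agent.S19.Geo.LevelLines

variable {A : ValuationSubring Qb} {N : ℕ} [NeZero N] {ℓ : ℕ}
  (hℓ : ℓ.Prime) (hA : A.LiesOverPrime ℓ) (hℓN : ¬ ℓ ∣ N)

/-! ### [GEN] at a good level -/

section Level

variable (K : IntermediateField ℚ Qb) [IsDiscreteValuationRing ↥(baseRing A K)]
  [IsFractionRing ↥(baseRing A K) (Lvl K)]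

include hℓ hA hℓN in
/-- **[GEN] for an admissible divisor**, from `LevelPack` and the two `ChartLevel`s of the level. -/
theorem genAt_of_chartLevel (P : LevelPack A N K) {ϖ : ↥(baseRing A K)} (hϖ : Irreducible ϖ)
    (hclp : ChartLevel A N K (Rfin (Lvl K) N (baseRing A K)) (RtFin A N) (N4F.C.jb N))
    (hclm : ChartLevel A N K (Rinf (Lvl K) N (baseRing A K)) (RtInf A N) (N4F.C.jb N)⁻¹)
    (D : Divisor.degZero (K := Qb) (F := Fb N)) (hD : Adm hℓ hA hℓN K D) :
    GenAt K ϖ (levelDiv K (D : Divisor Qb (Fb N))) := by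
  obtain ⟨fp, hfp, fm, hfm, h1p, h1m⟩ :=
    Generators.exists_gens_CL hℓ hA hℓN P hϖ hclp hclm (D : Divisor Qb (Fb N)) hD.1 hD.2
  exact ⟨Generators.red_fin_CL hℓ hA hℓN P hϖ hclp (D : Divisor Qb (Fb N)) hD.1 hD.2,
    Generators.red_inf_CL hℓ hA hℓN P hϖ hclm (D : Divisor Qb (Fb N)) hD.1 hD.2,
    ⟨fp, hfp, h1p⟩, ⟨fm, hfm, h1m⟩⟩

variable [IsAlgClosed (IsLocalRing.ResidueField ↥(baseRing A K))]
  (hG : GoodBase (Lvl K) N (baseRing A K) ℓ)
  (hroots : ∀ ξ ∈ Fermat.Agent.N4.BigDVR.goodRoots A, ξ ∈ K)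
  (P : LevelPack A N K)

include hℓ hA hℓN hG hroots P in
/-- **`hgen` of `LevelLines.lineSys_level`**: every admissible divisor of a good level has the
[GEN] package (for any uniformiser `ϖ` of `O_K`). -/
theorem genAt_level {ϖ : ↥(baseRing A K)} (hϖ : Irreducible ϖ) :
    ∀ D : Divisor.degZero (K := Qb) (F := Fb N), Adm hℓ hA hℓN K D →
      GenAt K ϖ (levelDiv K (D : Divisor Qb (Fb N))) := by
  obtain ⟨hclp, hclm⟩ := MainFinal.levelHyp hℓ hA hℓN K hG hroots
  exact fun D hD => genAt_of_chartLevel hℓ hA hℓN K P hϖ hclp hclm D hD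

include hG hroots P in
/-- **The lines of a good level form a `LineSys`** — no hypothesis left. -/
theorem lineSys_lvl (hstar : StarStatement (Lvl K) N (baseRing A K)) {ϖ : ↥(baseRing A K)}
    (hϖ : Irreducible ϖ) :
    LineSys (GaussN4.charts_of_star hstar hϖ.ne_zero hϖ.not_isUnit)
      (Lam hℓ hA hℓN K hstar hϖ.ne_zero) :=
  lineSys_level hℓ hA hℓN K hstar hG hroots P.hbij.surjective hϖ
    (genAt_level hℓ hA hℓN K hG hroots P hϖ)

include hG hroots P in
/-- an admissible divisor has a line (no [GEN] hypothesis) -/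
theorem exists_lam_of_adm (hstar : StarStatement (Lvl K) N (baseRing A K)) {ϖ : ↥(baseRing A K)}
    (hϖ : Irreducible ϖ) {D : Divisor.degZero (K := Qb) (F := Fb N)} (hD : Adm hℓ hA hℓN K D) :
    ∃ L, Lam hℓ hA hℓN K hstar hϖ.ne_zero (Pic0.mk D) L :=
  ⟨_, lam_of_adm hℓ hA hℓN K hstar hϖ.ne_zero hD (genAt_level hℓ hA hℓN K hG hroots P hϖ D hD)⟩

end Level

/-! ### inclusion of good levels -/

section Incl

open Fermat.Agent.S19.Cech.LevelBasis (lvlIncl)
open Fermat.Agent.N4.BaseDescent (ffMap)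

variable {K K' : IntermediateField ℚ Qb} (hKK' : K ≤ K')
  [IsDiscreteValuationRing ↥(baseRing A K)] [IsFractionRing ↥(baseRing A K) (Lvl K)]
  [IsDiscreteValuationRing ↥(baseRing A K')] [IsFractionRing ↥(baseRing A K') (Lvl K')]
  [IsAlgClosed (IsLocalRing.ResidueField ↥(baseRing A K'))]
  (hstar : StarStatement (Lvl K) N (baseRing A K))
  (hstar' : StarStatement (Lvl K') N (baseRing A K'))
  {ϖ : ↥(baseRing A K)} (hϖ0 : ϖ ≠ 0) {ϖ' : ↥(baseRing A K')} (hϖ' : Irreducible ϖ')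
  (hG' : GoodBase (Lvl K') N (baseRing A K') ℓ)
  (hroots' : ∀ ξ ∈ Fermat.Agent.N4.BigDVR.goodRoots A, ξ ∈ K')
  (P' : LevelPack A N K')

include hKK' hG' hroots' P' in
/-- **Level inclusion, helper12's shape**, with no [GEN] hypothesis (only the upper level has to
be good). -/
theorem linesLift_lvl :
    LineLevelMono.LinesLift A hstar hstar' hϖ0 hϖ'.ne_zero
      (Λ := Lam hℓ hA hℓN K hstar hϖ0) (Λ' := Lam hℓ hA hℓN K' hstar' hϖ'.ne_zero) :=
  linesLift_incl hℓ hA hℓN hKK' hstar hstar' hϖ0 hϖ'.ne_zero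
    (genAt_level hℓ hA hℓN K' hG' hroots' P' hϖ')

include hKK' hG' hroots' P' in
/-- **Level inclusion, helper6's shape** (`act = id`), with no [GEN] hypothesis. -/
theorem linesHom_lvl :
    LevelLinesHom.LinesHom (ffMap (lvlIncl hKK') N) (Lam hℓ hA hℓN K hstar hϖ0)
      (Lam hℓ hA hℓN K' hstar' hϖ'.ne_zero) id :=
  linesHom_incl hℓ hA hℓN hKK' hstar hstar' hϖ0 hϖ'.ne_zero
    (genAt_level hℓ hA hℓN K' hG' hroots' P' hϖ')

end Incl

/-! ### at the constants of `Geo/InstanceLevels` -/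

section Instance

open Fermat.Agent.S19.Geo.InstanceLevels Fermat.Agent.P3G.Gamma
open Fermat.Agent.S19.Cech.LevelBasis (lvlIncl)
open Fermat.Agent.N4.BaseDescent (ffMap)

/-- the residue field of `O_E = A ∩ lvl E` is algebraically closed -/
theorem isAlgClosed_lvl (E : Lv) :
    haveI := dvr_lvl hℓ hA E
    IsAlgClosed (IsLocalRing.ResidueField ↥(baseRing A (lvl A E))) :=
  haveI := E.2.1
  (bigLevel_spec hℓ hA E.1).2.2.1

/-- the good roots of unity lie in every level -/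
theorem goodRoots_lvl (E : Lv) : ∀ ξ ∈ Fermat.Agent.N4.BigDVR.goodRoots A, ξ ∈ lvl A E :=
  goodRoots_subset_bigLevel A E.1

/-- **[GEN] at the level `lvl A E`**, for the chosen uniformiser. -/
theorem genAt_lvlE (E : Lv) :
    haveI := dvr_lvl hℓ hA E
    ∀ D : Divisor.degZero (K := Qb) (F := Fb N), Adm hℓ hA hℓN (lvl A E) D →
      GenAt (lvl A E) (unif hℓ hA E) (levelDiv (lvl A E) (D : Divisor Qb (Fb N))) :=
  haveI := dvr_lvl hℓ hA E
  haveI := isAlgClosed_lvl hℓ hA E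
  genAt_level hℓ hA hℓN (lvl A E) (goodBase_lvl hℓ hA hℓN E) (goodRoots_lvl E)
    (levelPack_lvl hℓ hA hℓN E) (irreducible_unif hℓ hA E)

/-- **The system of lines of the level `lvl A E`** (helper4's `ΛE` unfolded) **is a `LineSys`** for
helper8's `InstanceLevels.charts`. -/
theorem lineSys_lvlE (E : Lv) :
    haveI := dvr_lvl hℓ hA E
    LineSys (InstanceLevels.charts hℓ hA hℓN E)
      (Lam hℓ hA hℓN (lvl A E) (star_lvl hℓ hA hℓN E) (irreducible_unif hℓ hA E).ne_zero) :=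
  haveI := dvr_lvl hℓ hA E
  haveI := isAlgClosed_lvl hℓ hA E
  lineSys_lvl hℓ hA hℓN (lvl A E) (goodBase_lvl hℓ hA hℓN E) (goodRoots_lvl E)
    (levelPack_lvl hℓ hA hℓN E) (star_lvl hℓ hA hℓN E) (irreducible_unif hℓ hA E)

/-- an admissible divisor of the level `lvl A E` has a line -/
theorem lam_of_adm_lvlE (E : Lv) {D : Divisor.degZero (K := Qb) (F := Fb N)}
    (hD : Adm hℓ hA hℓN (lvl A E) D) :
    haveI := dvr_lvl hℓ hA E
    ∃ L, Lam hℓ hA hℓN (lvl A E) (star_lvl hℓ hA hℓN E) (irreducible_unif hℓ hA E).ne_zero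
      (Pic0.mk D) L :=
  haveI := dvr_lvl hℓ hA E
  haveI := isAlgClosed_lvl hℓ hA E
  exists_lam_of_adm hℓ hA hℓN (lvl A E) (goodBase_lvl hℓ hA hℓN E) (goodRoots_lvl E)
    (levelPack_lvl hℓ hA hℓN E) (star_lvl hℓ hA hℓN E) (irreducible_unif hℓ hA E) hD

/-- **`hΛincl` of `hlift`**: level inclusion of the lines, helper12's shape, at the constants. -/
theorem linesLift_lvlE {E E' : Lv} (h : E.le E') :
    haveI := dvr_lvl hℓ hA E
    haveI := dvr_lvl hℓ hA E'
    LineLevelMono.LinesLift A (star_lvl hℓ hA hℓN E) (star_lvl hℓ hA hℓN E')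
      (irreducible_unif hℓ hA E).ne_zero (irreducible_unif hℓ hA E').ne_zero
      (Λ := Lam hℓ hA hℓN (lvl A E) (star_lvl hℓ hA hℓN E) (irreducible_unif hℓ hA E).ne_zero)
      (Λ' := Lam hℓ hA hℓN (lvl A E') (star_lvl hℓ hA hℓN E')
        (irreducible_unif hℓ hA E').ne_zero) :=
  haveI := dvr_lvl hℓ hA E
  haveI := dvr_lvl hℓ hA E'
  haveI := isAlgClosed_lvl hℓ hA E'
  linesLift_lvl hℓ hA hℓN (lvl_mono A h) (star_lvl hℓ hA hℓN E) (star_lvl hℓ hA hℓN E')
    (irreducible_unif hℓ hA E).ne_zero (irreducible_unif hℓ hA E')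
    (goodBase_lvl hℓ hA hℓN E') (goodRoots_lvl E') (levelPack_lvl hℓ hA hℓN E')

/-- level inclusion of the lines, helper6's shape (`act = id`), at the constants. -/
theorem linesHom_lvlE {E E' : Lv} (h : E.le E') :
    haveI := dvr_lvl hℓ hA E
    haveI := dvr_lvl hℓ hA E'
    LevelLinesHom.LinesHom (ffMap (lvlIncl (lvl_mono A h)) N)
      (Lam hℓ hA hℓN (lvl A E) (star_lvl hℓ hA hℓN E) (irreducible_unif hℓ hA E).ne_zero)
      (Lam hℓ hA hℓN (lvl A E') (star_lvl hℓ hA hℓN E') (irreducible_unif hℓ hA E').ne_zero) id :=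
  haveI := dvr_lvl hℓ hA E
  haveI := dvr_lvl hℓ hA E'
  haveI := isAlgClosed_lvl hℓ hA E'
  linesHom_lvl hℓ hA hℓN (lvl_mono A h) (star_lvl hℓ hA hℓN E) (star_lvl hℓ hA hℓN E')
    (irreducible_unif hℓ hA E).ne_zero (irreducible_unif hℓ hA E')
    (goodBase_lvl hℓ hA hℓN E') (goodRoots_lvl E') (levelPack_lvl hℓ hA hℓN E')

end Instance

end Fermat.Agent.S19.Geo.LevelLinesGen
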