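/-
S19 / GEO, leaf [LINES] (helper11), part 2: **the lines `Lam K` of a good level under the
decomposition group, and the triviality criterion `hprinc`.**

* `deg_eq_one_of_residueTrivial`, `degree_levelDiv` : the push-down to the level `K` of a divisor
  with `K`-rational support has the same degree;
* `eq_zero_of_lam_of_common` : **`hprinc`** of `SepWireLines.eq_zero_of_repQb` for `Λ = Lam K`: a
  line of `z` with a global generator `≡ 1` forces `z = 0` (`GaussN4.isPrincipal_of_common` +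
  helper4's `LevelDivPrincipal.mk_eq_zero_of_levelDiv`);
* `Adm.gal` : the decomposition group preserves admissibility at a Galois-stable level;
* `lam_gal`, `linesHom_gal` : **the `σ`-instance of `LinesHom`** (helper21's
  `LevelEquivariant.kappa_levelFF_smul` / helper6's `LevelLinesHom.kappa_map_equivariant` apply):
  the line of `D` goes to the line of `σ • D`, `act = (σ • ·)`.
-/
import Mathlib
import Fermat.Agent.S19.Geo.LevelLines
import Fermat.Agent.S19.Geo.LevelEquivariant
import Fermat.Agent.S19.Geo.LevelDivPrincipal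
import Fermat.Agent.S19.Cech.SepWire

set_option autoImplicit false
set_option linter.unusedSectionVars false
set_option linter.style.haveILetI false
set_option synthInstance.maxHeartbeats 400000
set_option maxHeartbeats 800000

open ModularCurve AlgebraicCurve
open Fermat.Agent.N4.Setting Fermat.Agent.S24
open Fermat.Agent.S24.PlaceDeriv (ResidueTrivial)
open Fermat.Agent.N4.FibreEmbedding Fermat.Agent.S19.Cech.DivModule

noncomputable section

namespace Fermat.Agent.S19.Geo.LevelLines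

open Fermat.Agent.N4F.C Fermat.Agent.N4F.C.Main Fermat.Agent.N4F.C.Centre
  Fermat.Agent.N4F.C.Levels Fermat.Agent.N4F.C.LevelCharts
  Fermat.Agent.S19.Cech.ClassDict Fermat.Agent.S19.Cech.LevelDiv
  Fermat.Agent.S19.Cech Fermat.Agent.S19.Cech.Cocycle Fermat.Agent.S19.Cech.CoordOfLines
open Fermat.Agent.S19.Geo.FixedLift (kerRed mem_kerRed mk_mem_kerRed_of_mapDomain_eq_zero)
open Fermat.Agent.P3G.GammaAut Fermat.Agent.S19.Cech.LevelGalois

local notation "Γ" => (AlgebraicClosure ℚ ≃ₐ[ℚ] AlgebraicClosure ℚ)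

/-! ### degrees -/

section Degree

/-- A place with trivial residue extension has degree one. -/
theorem deg_eq_one_of_residueTrivial {K F : Type*} [Field K] [Field F] [Algebra K F]
    {v : Place K F} (hv : ResidueTrivial v) : v.deg = 1 := by
  unfold Place.deg
  rw [finrank_eq_one_iff_of_nonzero' (1 : v.ResidueField) one_ne_zero]
  intro y
  obtain ⟨u, rfl⟩ := IsLocalRing.residue_surjective y
  obtain ⟨c, hc⟩ := hv u
  refine ⟨c, ?_⟩
  rw [Algebra.smul_def, mul_one]
  have h0 : IsLocalRing.residue v.toValuationSubring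
      (u - algebraMap K v.toValuationSubring c) = 0 :=
    (IsLocalRing.residue_eq_zero_iff _).mpr hc
  rw [map_sub, sub_eq_zero] at h0
  rw [h0]
  rfl

variable {N : ℕ} [NeZero N] (K : IntermediateField ℚ Qb)

/-- The push-down to the level `K` of a divisor with `K`-rational support has the same degree. -/
theorem degree_levelDiv (D : Divisor Qb (Fb N))
    (hrat : ∀ P ∈ D.support, ResidueTrivial (restrictK N K P)) :
    Divisor.degree (levelDiv K D) = Divisor.degree D := by
  classical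
  have h1 : Divisor.degree (levelDiv K D) = D.sum fun P n => n * ((restrictK N K P).deg : ℤ) := by
    unfold levelDiv Finsupp.mapDomain
    rw [map_finsuppSum]
    exact Finsupp.sum_congr fun P _ => Divisor.degree_single _ _
  have h2 : Divisor.degree D = D.sum fun P n => n * ((P.deg : ℕ) : ℤ) := by
    conv_lhs => rw [← Finsupp.sum_single D]
    rw [map_finsuppSum]
    exact Finsupp.sum_congr fun P _ => Divisor.degree_single _ _
  rw [h1, h2]
  refine Finsupp.sum_congr fun P hP => ?_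
  have hdeg : P.deg = 1 := by
    haveI : P.FiniteResidue := ⟨Fermat.Agent.N4F.A.LevelMaps.finite_residueField_bar N P⟩
    exact Hurwitz.deg_eq_one P
  rw [deg_eq_one_of_residueTrivial (hrat P hP), hdeg]

end Degree

variable {A : ValuationSubring Qb} {N : ℕ} [NeZero N] {ℓ : ℕ}
  (hℓ : ℓ.Prime) (hA : A.LiesOverPrime ℓ) (hℓN : ¬ ℓ ∣ N)

/-! ### `hprinc` -/

section Princ

variable (K : IntermediateField ℚ Qb) [IsDiscreteValuationRing ↥(baseRing A K)]
  [IsFractionRing ↥(baseRing A K) (Lvl K)]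
  (hstar : StarStatement (Lvl K) N (baseRing A K)) {ϖ : ↥(baseRing A K)} (hϖ0 : ϖ ≠ 0)

/-- **`hprinc`**: a line of the class `z` with a global generator `≡ 1` forces `z = 0`. -/
theorem eq_zero_of_lam_of_common (hϖ : ¬ IsUnit ϖ) {z : JZero N} {L}
    (hL : Lam hℓ hA hℓN K hstar hϖ0 z L)
    (h : ∃ s ∈ L.Lp, s ∈ L.Lm ∧ IsOne (algebraMap ↥(baseRing A K) (FF (Lvl K) N) ϖ)
      (gaussSubalgebra (Lvl K) N (baseRing A K)).toSubring s) : z = 0 := by
  obtain ⟨D, rfl, hD, rp, rm, rfl⟩ := hL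
  obtain ⟨s, hsp, hsm, hs1⟩ := h
  have hs0 : s ≠ 0 := SepWire.isOne_ne_zero (GaussN4.charts_of_star hstar hϖ0 hϖ) hs1
  have hdeg : Divisor.degree (levelDiv K (D : Divisor Qb (Fb N))) = 0 := by
    rw [degree_levelDiv K _ hD.2]
    exact D.2
  have hpr := GaussN4.isPrincipal_of_common (K := Lvl K) (N := N) (O := baseRing A K) hs0 hsp hsm
    hdeg
  exact Fermat.Agent.S19.Geo.LevelDivPrincipal.mk_eq_zero_of_levelDiv K D hD.2 hpr

/-- `hprinc` in the exact binder shape of `SepWireLines.eq_zero_of_repQb`. -/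
theorem hprinc_lam (hϖ : ¬ IsUnit ϖ) :
    ∀ (z : JZero N) L, Lam hℓ hA hℓN K hstar hϖ0 z L →
      (∃ s ∈ L.Lp, s ∈ L.Lm ∧ IsOne (algebraMap ↥(baseRing A K) (FF (Lvl K) N) ϖ)
        (gaussSubalgebra (Lvl K) N (baseRing A K)).toSubring s) → z = 0 :=
  fun _ _ hL h => eq_zero_of_lam_of_common hℓ hA hℓN K hstar hϖ0 hϖ hL h

end Princ

/-! ### the decomposition group -/

section Gal

variable (K : IntermediateField ℚ Qb) (hK : ∀ (τ : Γ) (x : Qb), x ∈ K → τ x ∈ K)

include hK in
/-- The decomposition group preserves admissibility at a Galois-stable level. -/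
theorem Adm.gal {σ : Γ} (hσ : σ ∈ A.decompositionSubgroup ℚ)
    {D : Divisor.degZero (K := Qb) (F := Fb N)} (h : Adm hℓ hA hℓN K D) :
    Adm hℓ hA hℓN K (SemilinearAut.degZeroSMulHom (Galois.gal N σ) D) := by
  classical
  refine ⟨?_, fun P hP => ?_⟩
  · rw [SemilinearAut.coe_degZeroSMulHom]
    exact (mapDomain_rC_gal_smul_eq_zero_iff hℓ hA hℓN ⟨σ, hσ⟩ _).mpr h.1
  · rw [SemilinearAut.coe_degZeroSMulHom, SemilinearAut.divisor_smul_def] at hP
    obtain ⟨P', hP', rfl⟩ := Finset.mem_image.mp (Finsupp.mapDomain_support hP)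
    exact (residueTrivial_restrictK_gal_smul_iff K hK N σ P').mpr (h.2 P' hP')

variable [IsDiscreteValuationRing ↥(baseRing A K)] [IsFractionRing ↥(baseRing A K) (Lvl K)]
  (hstar : StarStatement (Lvl K) N (baseRing A K)) {ϖ : ↥(baseRing A K)} (hϖ0 : ϖ ≠ 0)
  (hgen : ∀ D : Divisor.degZero (K := Qb) (F := Fb N), Adm hℓ hA hℓN K D →
    GenAt K ϖ (levelDiv K (D : Divisor Qb (Fb N))))

include hgen in
/-- **The `σ`-instance of the line part of [KHOM]** (helper21's shape: the `hΛ` of
`LevelEquivariant.kappa_levelFF_smul`): the line of `D` goes to the line of `σ • D`. -/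
theorem lam_gal {σ : Γ} (hσ : σ ∈ A.decompositionSubgroup ℚ) :
    ∀ (z : JZero N) L, Lam hℓ hA hℓN K hstar hϖ0 z L →
      ∃ L', Lam hℓ hA hℓN K hstar hϖ0 (σ • z) L' ∧
        (∀ x ∈ L.Lp, levelFF K hK N σ • x ∈ L'.Lp) ∧ (∀ x ∈ L.Lm, levelFF K hK N σ • x ∈ L'.Lm) ∧
        (∀ x ∈ L.L0, levelFF K hK N σ • x ∈ L'.L0) := by
  rintro z L ⟨D, rfl, hD, rp, rm, rfl⟩
  have hD' := hD.gal hℓ hA hℓN K hK hσ
  have hg := hgen _ hD'
  have e : levelDiv K ((SemilinearAut.degZeroSMulHom (Galois.gal N σ) D :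
      Divisor.degZero (K := Qb) (F := Fb N)) : Divisor Qb (Fb N)) =
      levelFF K hK N σ • levelDiv K (D : Divisor Qb (Fb N)) := by
    rw [SemilinearAut.coe_degZeroSMulHom, levelDiv_gal_smul K hK]
  refine ⟨GaussN4.lineOf hstar hϖ0 _ hg.red_p hg.red_m,
    ⟨SemilinearAut.degZeroSMulHom (Galois.gal N σ) D, rfl, hD', hg.red_p, hg.red_m, rfl⟩,
    ?_, ?_, ?_⟩
  · intro x hx
    show levelFF K hK N σ • x ∈ Lp _ _ (levelDiv K _)
    rw [e]
    exact (levelFF_smul_mem_Lp_iff K hK N hσ _ x).mpr hx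
  · intro x hx
    show levelFF K hK N σ • x ∈ Lm _ _ (levelDiv K _)
    rw [e]
    exact (levelFF_smul_mem_Lm_iff K hK N hσ _ x).mpr hx
  · intro x hx
    show levelFF K hK N σ • x ∈ L0 _ _ (levelDiv K _)
    rw [e]
    exact (levelFF_smul_mem_L0_iff K hK N hσ _ x).mpr hx

include hgen in
/-- The same in helper6's shape `LevelLinesHom.LinesHom`, `τ = phi K hK N σ`, `act = (σ • ·)`. -/
theorem linesHom_gal {σ : Γ} (hσ : σ ∈ A.decompositionSubgroup ℚ) :
    LevelLinesHom.LinesHom
      ((Fermat.Agent.S19.Geo.LevelEquivariant.phi K hK N σ : FF (Lvl K) N ≃+* FF (Lvl K) N) :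
        FF (Lvl K) N →+* FF (Lvl K) N)
      (Lam hℓ hA hℓN K hstar hϖ0) (Lam hℓ hA hℓN K hstar hϖ0) (fun z => σ • z) :=
  lam_gal hℓ hA hℓN K hK hstar hϖ0 hgen hσ

end Gal

end Fermat.Agent.S19.Geo.LevelLines
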