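/-
S19 / GEO, leaf [LINES] (helper11), part 3: **[GEN] discharged, and the system of lines of the
concrete levels `InstanceLevels.lvl A E`.**

* `genAt_of_chartLevel` : the [GEN] package `LevelLines.GenAt` at a level with `LevelPack` and the
  `ChartLevel` data of the two charts, for any uniformiser (helper13's `Generators.red_fin_CL`,
  `red_inf_CL`, `exists_gens_CL`);
* `genAt_goodLevel` : the same at a good level (`GoodBase`, good roots of unity, residue field);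
* `LamE`, `lineSys_lvl` : **the lines of the level of `E : Lv` and `LineSys (charts ..) (LamE ..)`
  with NO hypothesis left** — the arguments `Λ`, `hΛ` of `InstanceLevels.X`;
* `X_hmem`, `X_hex` : the fields `hmem`, `hex` of `InstanceOfSit.GeoFamily` for
  `InstanceLevels.X hℓ hA hℓN fr (lineSys_lvl hℓ hA hℓN)`;
* `linesLift_lvl`, `linesHom_lvl` (inclusion of levels), `linesHom_gal_lvl` (decomposition group),
  `hprinc_lvl` : the line-level inputs of `hlift`, `hinertia`/`htwist`, `hsep`.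
-/
import Mathlib
import Fermat.Agent.S19.Geo.LevelLinesGal
import Fermat.Agent.S19.Geo.InstanceLevels
import Fermat.Agent.S19.Cech.Generators
import Fermat.Agent.S19.Abs.TopWire

set_option autoImplicit false
set_option linter.unusedSectionVars false
set_option linter.style.haveILetI false
set_option synthInstance.maxHeartbeats 400000
set_option maxHeartbeats 800000

open ModularCurve AlgebraicCurve
open Fermat.Agent.N4.Setting Fermat.Agent.S24
open Fermat.Agent.S24.PlaceDeriv (ResidueTrivial)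
open Fermat.Agent.N4.FibreEmbedding Fermat.Agent.S19.Cech.DivModule

noncomputable section

namespace Fermat.Agent.S19.Geo.LevelLinesInst

open Fermat.Agent.N4F.C Fermat.Agent.N4F.C.Main Fermat.Agent.N4F.C.Centre
  Fermat.Agent.N4F.C.LevelCharts Fermat.Agent.N4F.C.Formula
  Fermat.Agent.N4F.C.ChartFactsProof
  Fermat.Agent.S19.Cech.ClassDict Fermat.Agent.S19.Cech.LevelDiv
  Fermat.Agent.S19.Cech Fermat.Agent.S19.Cech.Cocycle Fermat.Agent.S19.Cech.CoordOfLines
  Fermat.Agent.S19.Geo.LevelLines Fermat.Agent.S19.Geo.InstanceLevels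
open Fermat.Agent.N4F.C.Levels hiding jb
open Fermat.Agent.N4.BigDVR (trIncl)
open Fermat.Agent.S19.Geo.FixedLift (kerRed)
open Fermat.Agent.S19.Abs (galActJ)
open Fermat.Agent.P3G.Gamma Fermat.Agent.P3G.GammaAut

local notation "Γ" => (AlgebraicClosure ℚ ≃ₐ[ℚ] AlgebraicClosure ℚ)

variable {A : ValuationSubring Qb} {N : ℕ} [NeZero N] {ℓ : ℕ}
  (hℓ : ℓ.Prime) (hA : A.LiesOverPrime ℓ) (hℓN : ¬ ℓ ∣ N)

/-! ### [GEN] at a level -/

section Gen

variable (K : IntermediateField ℚ Qb) [IsDiscreteValuationRing ↥(baseRing A K)]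
  [IsFractionRing ↥(baseRing A K) (Lvl K)] {ϖ : ↥(baseRing A K)}

/-- **[GEN] at a level** with `LevelPack` and the chart data of the two charts. -/
theorem genAt_of_chartLevel (P : LevelPack A N K) (hϖ : Irreducible ϖ)
    (hclp : ChartLevel A N K (Rfin (Lvl K) N (baseRing A K)) (RtFin A N) (jb N))
    (hclm : ChartLevel A N K (Rinf (Lvl K) N (baseRing A K)) (RtInf A N) (jb N)⁻¹)
    (D : Divisor.degZero (K := Qb) (F := Fb N)) (hD : Adm hℓ hA hℓN K D) :
    GenAt K ϖ (levelDiv K (D : Divisor Qb (Fb N))) := by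
  obtain ⟨fp, hfp, fm, hfm, h1p, h1m⟩ :=
    Generators.exists_gens_CL hℓ hA hℓN P hϖ hclp hclm (D : Divisor Qb (Fb N)) hD.1 hD.2
  exact ⟨Generators.red_fin_CL hℓ hA hℓN P hϖ hclp _ hD.1 hD.2,
    Generators.red_inf_CL hℓ hA hℓN P hϖ hclm _ hD.1 hD.2, ⟨fp, hfp, h1p⟩, ⟨fm, hfm, h1m⟩⟩

/-- **[GEN] at a good level.** -/
theorem genAt_goodLevel [IsAlgClosed (IsLocalRing.ResidueField ↥(baseRing A K))]
    (hG : GoodBase (Lvl K) N (baseRing A K) ℓ)
    (hroots : ∀ ξ ∈ Fermat.Agent.N4.BigDVR.goodRoots A, ξ ∈ K)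
    (hbij : Function.Bijective (IsLocalRing.ResidueField.map (trIncl A K)))
    (hϖ : Irreducible ϖ)
    (D : Divisor.degZero (K := Qb) (F := Fb N)) (hD : Adm hℓ hA hℓN K D) :
    GenAt K ϖ (levelDiv K (D : Divisor Qb (Fb N))) :=
  genAt_of_chartLevel hℓ hA hℓN K (levelPack hℓ hA hℓN K hG hbij hroots) hϖ
    (MainFinal.levelHyp hℓ hA hℓN K hG hroots).1 (MainFinal.levelHyp hℓ hA hℓN K hG hroots).2 D hD

/-- **The lines of a good level form a `LineSys`, no hypothesis left.** -/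
theorem lineSys_goodLevel (hstar : StarStatement (Lvl K) N (baseRing A K))
    [IsAlgClosed (IsLocalRing.ResidueField ↥(baseRing A K))]
    (hG : GoodBase (Lvl K) N (baseRing A K) ℓ)
    (hroots : ∀ ξ ∈ Fermat.Agent.N4.BigDVR.goodRoots A, ξ ∈ K)
    (hbij : Function.Bijective (IsLocalRing.ResidueField.map (trIncl A K)))
    (hϖ : Irreducible ϖ) :
    LineSys (GaussN4.charts_of_star hstar hϖ.ne_zero hϖ.not_isUnit)
      (Lam hℓ hA hℓN K hstar hϖ.ne_zero) :=
  lineSys_level hℓ hA hℓN K hstar hG hroots hbij.surjective hϖ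
    (genAt_goodLevel hℓ hA hℓN K hG hroots hbij hϖ)

end Gen

/-! ### the concrete levels -/

section Lvl

/-- the level of `E` is a good level: the instances and hypotheses, bundled -/
theorem isAlgClosed_lvl (E : Lv) :
    haveI := dvr_lvl hℓ hA E
    IsAlgClosed (IsLocalRing.ResidueField ↥(baseRing A (lvl A E))) :=
  haveI := E.2.1
  (bigLevel_spec hℓ hA E.1).2.2.1

include hℓ hA in
theorem bijective_lvl (E : Lv) :
    Function.Bijective (IsLocalRing.ResidueField.map (trIncl A (lvl A E))) :=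
  haveI := E.2.1
  (bigLevel_spec hℓ hA E.1).2.2.2

/-- **The lines of the level of `E`** (the argument `Λ` of `InstanceLevels.X`). -/
def LamE (E : Lv) : JZero N → LineE hℓ hA N E → Prop :=
  haveI := dvr_lvl hℓ hA E
  Lam hℓ hA hℓN (lvl A E) (star_lvl hℓ hA hℓN E) (irreducible_unif hℓ hA E).ne_zero

/-- [GEN] at the level of `E` -/
theorem genAt_lvl (E : Lv) (D : Divisor.degZero (K := Qb) (F := Fb N))
    (hD : Adm hℓ hA hℓN (lvl A E) D) :
    haveI := dvr_lvl hℓ hA E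
    GenAt (lvl A E) (unif hℓ hA E) (levelDiv (lvl A E) (D : Divisor Qb (Fb N))) := by
  haveI := dvr_lvl hℓ hA E
  haveI := isAlgClosed_lvl hℓ hA E
  exact genAt_goodLevel hℓ hA hℓN (lvl A E) (goodBase_lvl hℓ hA hℓN E)
    (goodRoots_subset_bigLevel A E.1) (bijective_lvl hℓ hA E) (irreducible_unif hℓ hA E) D hD

/-- **`hΛ` of `InstanceLevels.X`**: the lines of every level form a `LineSys`. -/
theorem lineSys_lvl (E : Lv) : LineSys (charts hℓ hA hℓN E) (LamE hℓ hA hℓN E) := by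
  haveI := dvr_lvl hℓ hA E
  haveI := isAlgClosed_lvl hℓ hA E
  exact lineSys_goodLevel hℓ hA hℓN (lvl A E) (star_lvl hℓ hA hℓN E) (goodBase_lvl hℓ hA hℓN E)
    (goodRoots_subset_bigLevel A E.1) (bijective_lvl hℓ hA E) (irreducible_unif hℓ hA E)

/-- a class with a line at some level lies in the kernel of reduction -/
theorem mem_kerRed_of_lamE {E : Lv} {z : JZero N} {L : LineE hℓ hA N E}
    (h : LamE hℓ hA hℓN E z L) : z ∈ kerRed hℓ hA hℓN := by
  haveI := dvr_lvl hℓ hA E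
  exact mem_kerRed_of_lam hℓ hA hℓN (lvl A E) (star_lvl hℓ hA hℓN E)
    (irreducible_unif hℓ hA E).ne_zero h

/-- every class of the kernel of reduction has a line at some level -/
theorem exists_lamE {z : JZero N} (hz : z ∈ kerRed hℓ hA hℓN) :
    ∃ (E : Lv) (L : LineE hℓ hA N E), LamE hℓ hA hℓN E z L := by
  obtain ⟨E, hfin, hst, D, rfl, hD⟩ := exists_adm_of_mem_kerRed hℓ hA hℓN hz
  let E' : Lv := ⟨E, hfin, hst⟩
  haveI := dvr_lvl hℓ hA E'
  have hD' : Adm hℓ hA hℓN (lvl A E') D := hD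
  exact ⟨E', _, lam_of_adm hℓ hA hℓN (lvl A E') (star_lvl hℓ hA hℓN E')
    (irreducible_unif hℓ hA E').ne_zero hD' (genAt_lvl hℓ hA hℓN E' D hD')⟩

/-- the same above a given level -/
theorem exists_lamE_ge {z : JZero N} (hz : z ∈ kerRed hℓ hA hℓN) (E₀ : Lv) :
    ∃ (E : Lv) (L : LineE hℓ hA N E), E₀.le E ∧ LamE hℓ hA hℓN E z L := by
  obtain ⟨E, hfin, hst, D, rfl, hD⟩ := exists_adm_of_mem_kerRed hℓ hA hℓN hz
  obtain ⟨E', h0, h1⟩ := Lv.directed E₀ ⟨E, hfin, hst⟩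
  haveI := dvr_lvl hℓ hA E'
  have hD' : Adm hℓ hA hℓN (lvl A E') D := hD.mono hℓ hA hℓN (bigLevel_mono A h1)
  exact ⟨E', _, h0, lam_of_adm hℓ hA hℓN (lvl A E') (star_lvl hℓ hA hℓN E')
    (irreducible_unif hℓ hA E').ne_zero hD' (genAt_lvl hℓ hA hℓN E' D hD')⟩

/-! ### the fields `hmem`, `hex` of `GeoFamily` -/

variable (fr : BaseLevel.Frame A N)

/-- **field `hmem`** -/
theorem X_hmem (E : Lv) (m : ℕ) (z : JZero N) (v) 
    (h : (X hℓ hA hℓN fr (lineSys_lvl hℓ hA hℓN) E m).K z v) : z ∈ kerRed hℓ hA hℓN := by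
  obtain ⟨u, ⟨L, hL, -⟩, -⟩ := h
  exact mem_kerRed_of_lamE hℓ hA hℓN hL

/-- **field `hex`** -/
theorem X_hex (z : JZero N) (hz : z ∈ kerRed hℓ hA hℓN) :
    ∃ E : Lv, ∀ m, ∃ v, (X hℓ hA hℓN fr (lineSys_lvl hℓ hA hℓN) E m).K z v := by
  obtain ⟨E, L, hL⟩ := exists_lamE hℓ hA hℓN hz
  exact ⟨E, fun m => X_exists_K hℓ hA hℓN fr (lineSys_lvl hℓ hA hℓN) E hL m⟩

/-! ### the line-level inputs of `hlift`, `hinertia`/`htwist`, `hsep` -/

/-- **inclusion of levels**, helper12's shape (`LineLevelMono.kImage_ffMap`,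
`LevelLinesHomIncl.kImage_incl`) -/
theorem linesLift_lvl {E E' : Lv} (h : E.le E') :
    haveI := dvr_lvl hℓ hA E
    haveI := dvr_lvl hℓ hA E'
    LineLevelMono.LinesLift A (star_lvl hℓ hA hℓN E) (star_lvl hℓ hA hℓN E')
      (irreducible_unif hℓ hA E).ne_zero (irreducible_unif hℓ hA E').ne_zero
      (Λ := LamE hℓ hA hℓN E) (Λ' := LamE hℓ hA hℓN E') := by
  haveI := dvr_lvl hℓ hA E
  haveI := dvr_lvl hℓ hA E'
  exact linesLift_incl hℓ hA hℓN (lvl_mono A h) (star_lvl hℓ hA hℓN E) (star_lvl hℓ hA hℓN E')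
    (irreducible_unif hℓ hA E).ne_zero (irreducible_unif hℓ hA E').ne_zero
    (genAt_lvl hℓ hA hℓN E')

/-- **inclusion of levels**, helper6's shape (`LevelLinesHom.kappa_map`) -/
theorem linesHom_lvl {E E' : Lv} (h : E.le E') :
    LevelLinesHom.LinesHom
      (Fermat.Agent.N4.BaseDescent.ffMap (LevelBasis.lvlIncl (lvl_mono A h)) N)
      (LamE hℓ hA hℓN E) (LamE hℓ hA hℓN E') id := by
  haveI := dvr_lvl hℓ hA E
  haveI := dvr_lvl hℓ hA E'
  exact linesHom_incl hℓ hA hℓN (lvl_mono A h) (star_lvl hℓ hA hℓN E) (star_lvl hℓ hA hℓN E')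
    (irreducible_unif hℓ hA E).ne_zero (irreducible_unif hℓ hA E').ne_zero
    (genAt_lvl hℓ hA hℓN E')

/-- **the decomposition group**, helper21's shape (the `hΛ` of
`LevelEquivariant.kappa_levelFF_smul`) -/
theorem lamE_gal (E : Lv) {σ : Γ} (hσ : σ ∈ A.decompositionSubgroup ℚ) :
    ∀ (z : JZero N) (L : LineE hℓ hA N E), LamE hℓ hA hℓN E z L →
      ∃ L' : LineE hℓ hA N E, LamE hℓ hA hℓN E (galActJ N σ z) L' ∧
        (∀ x ∈ L.Lp, levelFF (lvl A E) (lvl_stable A E) N σ • x ∈ L'.Lp) ∧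
        (∀ x ∈ L.Lm, levelFF (lvl A E) (lvl_stable A E) N σ • x ∈ L'.Lm) ∧
        (∀ x ∈ L.L0, levelFF (lvl A E) (lvl_stable A E) N σ • x ∈ L'.L0) := by
  haveI := dvr_lvl hℓ hA E
  exact lam_gal hℓ hA hℓN (lvl A E) (lvl_stable A E) (star_lvl hℓ hA hℓN E)
    (irreducible_unif hℓ hA E).ne_zero (genAt_lvl hℓ hA hℓN E) hσ

/-- **the decomposition group**, helper6's shape (the `hΛσ` of
`LevelSitInertia.isHom_inertia` / `isHom_decomp_of_frame`) -/
theorem linesHom_gal_lvl (E : Lv) {σ : Γ} (hσ : σ ∈ A.decompositionSubgroup ℚ) :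
    LevelLinesHom.LinesHom
      ((Fermat.Agent.S19.Geo.LevelEquivariant.phi (lvl A E) (lvl_stable A E) N σ :
        FE A N E ≃+* FE A N E) : FE A N E →+* FE A N E)
      (LamE hℓ hA hℓN E) (LamE hℓ hA hℓN E) (galActJ N σ) :=
  lamE_gal hℓ hA hℓN E hσ

/-- **`hprinc`** of `SepWireLines.eq_zero_of_repQb` at the level of `E` -/
theorem hprinc_lvl (E : Lv) :
    ∀ (z : JZero N) (L : LineE hℓ hA N E), LamE hℓ hA hℓN E z L →
      (∃ s ∈ L.Lp, s ∈ L.Lm ∧ IsOne (unifF hℓ hA N E) (Wg hℓ hA N E).toSubring s) → z = 0 := by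
  haveI := dvr_lvl hℓ hA E
  exact hprinc_lam hℓ hA hℓN (lvl A E) (star_lvl hℓ hA hℓN E) (irreducible_unif hℓ hA E).ne_zero
    (irreducible_unif hℓ hA E).not_isUnit

/-- unfolding `LamE`: a line of the level of `E` is the line of an admissible divisor -/
theorem lamE_iff (E : Lv) {z : JZero N} {L : LineE hℓ hA N E} :
    haveI := dvr_lvl hℓ hA E
    LamE hℓ hA hℓN E z L ↔
      ∃ D : Divisor.degZero (K := Qb) (F := Fb N), Pic0.mk D = z ∧ Adm hℓ hA hℓN (lvl A E) D ∧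
        ∃ rp rm, L = GaussN4.lineOf (star_lvl hℓ hA hℓN E) (irreducible_unif hℓ hA E).ne_zero
          (levelDiv (lvl A E) (D : Divisor Qb (Fb N))) rp rm :=
  Iff.rfl

end Lvl

end Fermat.Agent.S19.Geo.LevelLinesInst
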