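/-
S19 / GEO, leaf [INST] (helper8), the final assembly: **the `GeoFamily` at every place**.

`geoFamily hℓ hA hℓN` is the structure literal of `InstanceOfSit.GeoFamily` for the concrete family
`XX E m = InstanceLevels.X hℓ hA hℓN (frame hℓ hA hℓN) (hΛE hℓ hA hℓN) E m`: the levels are the
Galois-stable number fields `E`, the situation of `(E, m)` is `LevelSit.sit` at `bigLevel A E` and
the precision `ℓ^(m+1)`, the lines are the lines of the admissible divisors (`InstanceLines.ΛE`).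
Fields: `hι`, `hfixed` (`InstanceLevels`), `hbased` (`InstanceBased`), `hlift` (`InstanceLift` +
`LevelLinesGen.linesLift_lvlE`), `hmono` (`LevelSitPack.isHom_prec`), `hinertia`
(`InstanceInertia` + `LevelLinesInst.linesHom_gal_lvl`), `htwist` (`InstanceTwistB`), `hmem`, `hex`
(`InstanceLines`), `hsep` (`SepInstLam`).

`geoTarget : Abs.GeoTarget` follows by `InstanceOfSit.geoTarget_of_family`.
-/
import Mathlib
import Fermat.Agent.S19.Geo.InstanceOfSit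
import Fermat.Agent.S19.Geo.InstanceLevels
import Fermat.Agent.S19.Geo.InstanceLines
import Fermat.Agent.S19.Geo.InstanceBased
import Fermat.Agent.S19.Geo.BaseFrame
import Fermat.Agent.S19.Geo.LevelSitPack
import Fermat.Agent.S19.Geo.InstanceLift
import Fermat.Agent.S19.Geo.InstanceInertia
import Fermat.Agent.S19.Geo.LevelLinesInst
import Fermat.Agent.S19.Geo.LevelLinesGen
import Fermat.Agent.S19.Geo.InstanceTwistB
import Fermat.Agent.S19.Geo.SepInstLam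

set_option autoImplicit false
set_option linter.unusedSectionVars false
set_option linter.style.haveILetI false

open ModularCurve AlgebraicCurve

noncomputable section

namespace Fermat.Agent.S19.Geo.Instance

open Fermat.Agent.S19.Abs Fermat.Agent.S19.Coord Fermat.Agent.S19.Cech
  Fermat.Agent.S19.Cech.CoordOfLines Fermat.Agent.S19.Cech.CoordFamily
  Fermat.Agent.S19.Coord.OfLevels Fermat.Agent.S19.Order
  Fermat.Agent.S19.Geo.FixedLift Fermat.Agent.S19.Geo.BaseLevel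
  Fermat.Agent.S19.Geo.InstanceLevels Fermat.Agent.S19.Geo.InstanceLines
  Fermat.Agent.S19.Geo.InstanceOfSit

variable {A : ValuationSubring Qb} {N : ℕ} [NeZero N] {ℓ : ℕ}
  (hℓ : ℓ.Prime) (hA : A.LiesOverPrime ℓ) (hℓN : ¬ ℓ ∣ N)

/-- **THE family of situations.** -/
abbrev XX (E : Lv) (m : ℕ) : Sit ℓ A (JZero N) (frame hℓ hA hℓN).g (m + 1) (O₁ A) :=
  X hℓ hA hℓN (frame hℓ hA hℓN) (hΛE hℓ hA hℓN) E m

/-- field `hmono` -/
theorem hmono_XX (E : Lv) (m : ℕ) :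
    (XX hℓ hA hℓN E (m + 1)).IsHom (XX hℓ hA hℓN E m) (RingHom.id Qb) id :=
  haveI := dvr_lvl hℓ hA E
  LevelSitPack.isHom_prec (Bp_le E) (Bm_le E) (charts hℓ hA hℓN E) _ _ hA (maximalIdeal_eq hℓ hA E)
    (ram_pos hℓ hA E) (associated_ram hℓ hA E) (hΛE hℓ hA hℓN E) (frameE (frame hℓ hA hℓN) E)
    (LevelSitMaps.jL A (K0_le_lvl A E)) m (hyp_lvl hℓ hA hℓN _ E (m + 1)) (hyp_lvl hℓ hA hℓN _ E m)

/-- field `hlift` -/
theorem hlift_XX (L L' : Lv) (m : ℕ) (h : L.le L') :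
    (XX hℓ hA hℓN L m).IsHom (XX hℓ hA hℓN L' m) (RingHom.id Qb) id :=
  InstanceLift.hlift_X hℓ hA hℓN (frame hℓ hA hℓN) (hΛE hℓ hA hℓN)
    (fun _ _ h' => LevelLinesGen.linesLift_lvlE hℓ hA hℓN h') L L' m h

/-- field `hinertia` -/
theorem hinertia_XX : ∀ σ ∈ A.inertiaSubgroupIn ℚ, ∀ (L : Lv) (m : ℕ),
    ∃ L' : Lv, (XX hℓ hA hℓN L m).IsHom (XX hℓ hA hℓN L' m) ((σ : GQ) : Qb →+* Qb)
      (galActJ N σ) :=
  InstanceInertia.hinertia_X hℓ hA hℓN (frame hℓ hA hℓN) (hΛE hℓ hA hℓN)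
    (fun E _ hσ => LevelLinesInst.linesHom_gal_lvl hℓ hA hℓN E hσ)

/-- field `htwist` -/
theorem htwist_XX : ∀ σ ∈ A.decompositionSubgroup ℚ,
    ∃ εt : Fin (frame hℓ hA hℓN).g → A0 A N, ∀ (L : Lv) (m : ℕ), ∃ L' : Lv,
      (XX hℓ hA hℓN L m).IsTwist (XX hℓ hA hℓN L' m) (ip₁ A N) (im₁ A N) (frame hℓ hA hℓN).ε
        ((σ : GQ) : Qb →+* Qb) (galActJ N σ) εt :=
  InstanceTwistB.htwist_X hℓ hA hℓN (frame hℓ hA hℓN) (hΛE hℓ hA hℓN)
    (fun E _ hσ => LevelLinesInst.linesHom_gal_lvl hℓ hA hℓN E hσ)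

/-- field `hsep` -/
theorem hsep_XX : ∀ z ∈ kerRed hℓ hA hℓN, ∃ L₀ : Lv, (∀ m, ∃ v, (XX hℓ hA hℓN L₀ m).K z v) ∧
    ∃ m₀, ∀ m, m₀ ≤ m → ∀ v, (XX hℓ hA hℓN L₀ m).K z v →
      (XX hℓ hA hℓN L₀ m).H.coord v = 0 → z = 0 :=
  SepInstLam.hsep_XE hℓ hA hℓN (frame hℓ hA hℓN) (hΛE hℓ hA hℓN)

/-- **The `GeoFamily` of the place `A` over `ℓ ∤ N`**: every obligation of
`CoordFamily.levelCoordSystem` for the concrete family `XX`. -/
def geoFamily :
    GeoFamily hℓ hA hℓN where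
  g := (frame hℓ hA hℓN).g
  O₁ := O₁ A
  Ap := Ap A N
  Am := Am A N
  A0 := A0 A N
  ip₁ := ip₁ A N
  im₁ := im₁ A N
  ε₁ := (frame hℓ hA hℓN).ε
  hH := (frame hℓ hA hℓN).hH
  ι₁ := ι₁ A
  hι₁ := isUnr_ι₁ hℓ hA
  Lv := Lv
  le := Lv.le
  hdir := Lv.directed
  X := XX hℓ hA hℓN
  hι := X_ι_j hℓ hA hℓN _ _
  hbased := InstanceBased.hbased_X hℓ hA hℓN _ _
  hlift := hlift_XX hℓ hA hℓN
  hmono := hmono_XX hℓ hA hℓN
  hinertia := hinertia_XX hℓ hA hℓN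
  htwist := htwist_XX hℓ hA hℓN
  hmem := hmem_X hℓ hA hℓN _ _
  hex := hex_X hℓ hA hℓN _ _
  hfixed := X_fixed hℓ hA hℓN _ _
  hsep := hsep_XX hℓ hA hℓN

/-- **The geometric target**: a level coordinate system on `J₀(N)(ℚ̄)` at every place over every
prime `ℓ ∤ N`. -/
theorem geoTarget : GeoTarget :=
  geoTarget_of_family fun _ _ _ hℓ hℓN _ hA => ⟨geoFamily hℓ hA hℓN⟩

end Fermat.Agent.S19.Geo.Instance
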