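/-
S19 / GEO, [INST] support (helper22): **the constants of `Geo/InstanceLevels.lean` (helper8:
`unif`, `ram` at `lvl A E`) versus the constants of `Geo/LevelSitDefs.lean` (helper27: `ϖK`, `eK`,
`kK`, `KK` at a variable level `K`).**

`unif hℓ hA E` IS `ϖK A (lvl A E)` (`rfl`: the same `Classical.choose`), whereas `ram hℓ hA E` and
`eK A ℓ (lvl A E)` are two different `Classical.choose`; they are equal because both are the
exponent of `ℓ ~ ϖ ^ e` (`LevelRamIndex.eq_of_associated_pow`).  So every statement about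
`LevelSitDefs.{ϖK, eK, kK, KK}` at the level `lvl A E` (e.g. helper12 `LevelLiftKappa.hκ_incl`)
transports to the situation `InstanceLevels.X` by rewriting with `ram_eq_eK` / `kOf_ram`.
-/
import Mathlib
import Fermat.Agent.S19.Geo.InstanceLevels
import Fermat.Agent.S19.Geo.LevelSitDefs
import Fermat.Agent.S19.Geo.LevelRamIndex

set_option autoImplicit false
set_option linter.unusedSectionVars false
set_option linter.style.haveILetI false

open ModularCurve AlgebraicCurve

noncomputable section

namespace Fermat.Agent.S19.Geo.InstanceLevelsBridge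

open Fermat.Agent.S19.Abs Fermat.Agent.S19.Coord Fermat.Agent.S19.Cech
open Fermat.Agent.N4.Setting Fermat.Agent.N4.BigDVR
open Fermat.Agent.N4F.C hiding Qb
open Fermat.Agent.N4F.C.Levels Fermat.Agent.N4F.C.LevelCharts
  Fermat.Agent.N4F.C.ChartFactsProof Fermat.Agent.P3G.Gamma Fermat.Agent.P3G.GammaBase
open Fermat.Agent.S19.Geo.InstanceLevels Fermat.Agent.S19.Geo.LevelSitDefs

variable {A : ValuationSubring Qb} {ℓ : ℕ} (hℓ : ℓ.Prime) (hA : A.LiesOverPrime ℓ)

/-- the chosen uniformiser of `InstanceLevels` is THE uniformiser of `LevelSitDefs` -/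
theorem unif_eq_ϖK (E : Lv) :
    unif hℓ hA E = @ϖK A (lvl A E) (dvr_lvl hℓ hA E) := rfl

/-- the ramification index of `InstanceLevels` is THE ramification index of `LevelSitDefs` -/
theorem ram_eq_eK (E : Lv) :
    ram hℓ hA E = @eK A ℓ (lvl A E) (dvr_lvl hℓ hA E) := by
  haveI := dvr_lvl hℓ hA E
  have h1 : Associated ((ℓ : ↥(baseRing A (lvl A E)))) (unif hℓ hA E ^ ram hℓ hA E) :=
    associated_ram hℓ hA E
  have h2 : Associated ((ℓ : ↥(baseRing A (lvl A E))))
      (unif hℓ hA E ^ eK A ℓ (lvl A E)) := associated_eK A ℓ (lvl A E) hℓ.ne_zero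
  exact LevelRamIndex.eq_of_associated_pow (irreducible_unif hℓ hA E).ne_zero
    (irreducible_unif hℓ hA E).not_isUnit (h1.symm.trans h2)

/-- the exponent `k` of the situation `X E m` is `kK` -/
theorem kOf_ram (E : Lv) (m : ℕ) :
    LevelSit.kOf (ram hℓ hA E) m = @kK A ℓ (lvl A E) (dvr_lvl hℓ hA E) m := by
  rw [ram_eq_eK hℓ hA E]

end Fermat.Agent.S19.Geo.InstanceLevelsBridge
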