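/-
S19 / GEO, [INST] field `hlift`, **the cocycle hypothesis `hκ` of `LevelSitPack.isHom_of_chg` for the
inclusion of two good levels `K ≤ K'`, about the constants of `LevelSitDefs`** (helper12).

Inputs: only the line-level statement `LineLevelMono.LinesLift` (same divisor at the two levels;
[LINES]).  Everything else is discharged here: the uniformisers are THE `ϖK A K`, `ϖK A K'`, the
relation `ϖ_K = u ϖ_{K'} ^ r` is helper24's `DvrExt.exists_unit_mul_pow_level`, the exponents are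
THE `eK A ℓ K`, `eK A ℓ K'` and `e_{K'} = r e_K` is `LevelRamIndex.ramIndex_mul`.

* `hκ_incl` : `∀ z u, kappa Λ (kK A ℓ K m) z u → kappa Λ' (kK A ℓ K' m) (id z) (τ u)`,
  `τ = ffMap (LevelBasis.lvlIncl hKK') N`;
* `kK_incl` : `kK A ℓ K' m + 1 = r * (kK A ℓ K m + 1)` for every `r`, `u` with `ϖ_K = u ϖ_{K'} ^ r`.
-/
import Mathlib
import Fermat.Agent.S19.Geo.LevelSitDefs
import Fermat.Agent.S19.Geo.LevelLinesHomIncl
import Fermat.Agent.S19.Geo.LevelRamIndex

set_option autoImplicit false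
set_option linter.unusedSectionVars false
set_option linter.style.haveILetI false
set_option synthInstance.maxHeartbeats 400000
set_option maxHeartbeats 800000

open ModularCurve AlgebraicCurve
open Fermat.Agent.N4.Setting Fermat.Agent.S24

noncomputable section

namespace Fermat.Agent.S19.Geo.LevelLiftKappa

open Fermat.Agent.N4F.C Fermat.Agent.N4F.C.Levels Fermat.Agent.N4F.C.LevelCharts
  Fermat.Agent.N4.BaseDescent Fermat.Agent.N4.FibreEmbedding
  Fermat.Agent.S19.Cech.LevelBasis Fermat.Agent.S19.Cech.DvrExt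
  Fermat.Agent.S19.Cech.Cocycle Fermat.Agent.S19.Cech.CoordOfLines
  Fermat.Agent.S19.Cech.LineLevelMono Fermat.Agent.S19.Geo.LevelLinesHomIncl
  Fermat.Agent.S19.Geo.LevelRamIndex Fermat.Agent.S19.Geo.LevelSitDefs
  Fermat.Agent.S19.Geo.LevelSitMaps Fermat.Agent.S19.Geo.LevelSit

variable {A : ValuationSubring Qb} {N : ℕ} [NeZero N] {ℓ : ℕ} {K K' : IntermediateField ℚ Qb}
  (hKK' : K ≤ K')
  [IsDiscreteValuationRing (OL A K)] [IsFractionRing (OL A K) (Lvl K)]
  [IsDiscreteValuationRing (OL A K')] [IsFractionRing (OL A K') (Lvl K')]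

/-- `e_{K'} (m + 1) = r · e_K (m + 1)` in the `kK` form, for every presentation
`ϖ_K = u ϖ_{K'} ^ r`. -/
theorem kK_incl (hℓ : ℓ ≠ 0) (hA : A.LiesOverPrime ℓ) {u : OL A K'} (hu : IsUnit u) {r : ℕ}
    (hr : 1 ≤ r) (hϖ : oIncl A hKK' (ϖK A K) = u * ϖK A K' ^ r) (m : ℕ) :
    kK A ℓ K' m + 1 = r * (kK A ℓ K m + 1) :=
  kOf_add_one_eq (oIncl A hKK') (associated_eK A ℓ K hℓ) (associated_eK A ℓ K' hℓ) hu hϖ
    (ϖK_ne_zero A K') (not_isUnit_ϖK A K') (eK_pos A ℓ K hℓ hA) hr m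

variable {hstar : StarStatement (Lvl K) N (baseRing A K)}
  {hstar' : StarStatement (Lvl K') N (baseRing A K')}
  {Jb : Type*} [AddCommGroup Jb] {Λ : Jb → LineK A N K → Prop} {Λ' : Jb → LineK A N K' → Prop}

/-- **The cocycle hypothesis `hκ` of `hlift`**, from `LinesLift` alone. -/
theorem hκ_incl (hℓ : ℓ ≠ 0) (hA : A.LiesOverPrime ℓ)
    (hΛ : LinesLift A hstar hstar' (ϖK_ne_zero A K) (ϖK_ne_zero A K') (Λ := Λ) (Λ' := Λ'))
    (m : ℕ) :
    ∀ z u, kappa Λ (kK A ℓ K m) z u →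
      kappa Λ' (kK A ℓ K' m) (id z) (ffMap (lvlIncl hKK') N u) := by
  obtain ⟨u₀, r, hr, hϖ⟩ := exists_unit_mul_pow_level A hKK' (ϖK_ne_zero A K)
    (not_isUnit_ϖK A K) (irreducible_ϖK A K')
  intro z u hu
  exact kappa_incl hKK' (not_isUnit_ϖK A K') hΛ hr hϖ
    (kK_incl hKK' hℓ hA u₀.isUnit hr hϖ m).le hu

end Fermat.Agent.S19.Geo.LevelLiftKappa
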