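/-
S19 / GEO, leaf [INST]: **the concrete `IsBased` / `IsHom` / `IsTwist` between the situations of the
levels** (helper9).  Levels `L` with `O_L = baseRing A L` local, function field `FF (Lvl L) N`,
charts `Rfin / Rinf / Rmid (Lvl L) N (baseRing A L)`, frames = images `midIncl (K₀ ≤ L) ε₁` of a
family `ε₁` at the base level `K₀ = K0 A`, `j = jL A h0`, `ι = ιK A L`; the Gauss ring `Rg`, the
uniformiser `ϖ`, `e`, `C : Charts`, the system of lines `Λ` and `H : Hyp` are ARGUMENTS (so the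
statements apply to whatever `Geo/LevelSitDefs` / `Geo/Instance` plug in).

Everything about rings, charts, frames, ideals and `ℚ̄`-embeddings is proved here; the ONLY named
hypothesis of each theorem is the cocycle part `hκ` of [KHOM] (shape of
`LevelLinesHom.kappa_map`):

* `isBased_level`   : field `hbased`   (no hypothesis at all);
* `isHom_incl`      : field `hlift`    (`L ≤ L'`, `τ = ffMap (lvlIncl _) N`);
* `isHom_inertia`   : field `hinertia` (`σ ∈ I_A`, `L` Galois-stable, `τ = ffMap (galLvl L hL σ) N`);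
* `isTwist_level`   : field `htwist`   (`σ ∈ D_A`, `εt = midGal K₀ σ ∘ ε₁`).
(`hmono` is `LevelSitPack.isHom_prec`.)
-/
import Mathlib
import Fermat.Agent.S19.Geo.LevelSitPack
import Fermat.Agent.S19.Cech.LevelInclComp
import Fermat.Agent.S19.Cech.LevelBasisBig

set_option autoImplicit false
set_option linter.unusedSectionVars false

open TensorProduct ModularCurve AlgebraicCurve

namespace Fermat.Agent.S19.Geo.LevelSitPackN4

open Fermat.Agent.S19.Abs Fermat.Agent.S19.Coord Fermat.Agent.S19.Cech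
  Fermat.Agent.S19.Cech.Cocycle Fermat.Agent.S19.Cech.CoordOfLines
  Fermat.Agent.S19.Cech.CoordFamily Fermat.Agent.S19.Cech.RedTuple
  Fermat.Agent.S19.Geo.LevelSit Fermat.Agent.S19.Geo.LevelSitTwist
  Fermat.Agent.S19.Geo.LevelSitIdeal Fermat.Agent.S19.Geo.LevelSitMaps
  Fermat.Agent.S19.Geo.LevelSitPack
  Fermat.Agent.S19.Cech.LevelBasis Fermat.Agent.S19.Cech.LevelInclComp
  Fermat.Agent.S19.Cech.LevelBasisBig
open Fermat.Agent.S19.Cech.BaseQuotLevel (isLevelRing mem_maximalIdeal_iff ιK)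
open Fermat.Agent.N4.Chart Fermat.Agent.N4.Setting Fermat.Agent.N4.BaseDescent
open Fermat.Agent.N4F.C.Levels
open Fermat.Agent.P3G.Gamma Fermat.Agent.P3G.GammaAut

variable {ℓ : ℕ} {A : ValuationSubring Qb} (hA : A.LiesOverPrime ℓ) {N : ℕ} [NeZero N]
  {Jb : Type} [AddCommGroup Jb]

/-! ### coercion lemmas for the frames -/

theorem coe_midIncl_midIncl {K K₁ K₂ : IntermediateField ℚ Qb} (h₁ : K ≤ K₁) (h₂ : K₁ ≤ K₂)
    (x : ↥(Rmid (Lvl K) N (baseRing A K))) :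
    ffMap (lvlIncl h₂) N ((midIncl A N h₁ x : ↥(Rmid (Lvl K₁) N (baseRing A K₁))) : FF (Lvl K₁) N)
      = ((midIncl A N (h₁.trans h₂) x : ↥(Rmid (Lvl K₂) N (baseRing A K₂))) : FF (Lvl K₂) N) := by
  have := congrArg Subtype.val (midIncl_midIncl A N h₁ h₂ x)
  rwa [coe_midMap] at this

/-! ### `hbased` -/

section Based

variable {L : IntermediateField ℚ Qb} (h0 : K0 A ≤ L) [IsLocalRing (OL A L)]
  (hp : Rfin (Lvl L) N (baseRing A L) ≤ Rmid (Lvl L) N (baseRing A L))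
  (hm : Rinf (Lvl L) N (baseRing A L) ≤ Rmid (Lvl L) N (baseRing A L))
  {Rg : Subring (FF (Lvl L) N)} {ϖ : OL A L}
  (C : Charts (algebraMap (OL A L) (FF (Lvl L) N) ϖ) (Rfin (Lvl L) N (baseRing A L)).toSubring
    (Rinf (Lvl L) N (baseRing A L)).toSubring (Rmid (Lvl L) N (baseRing A L)).toSubring Rg)
  (hϖ : IsLocalRing.maximalIdeal (OL A L) = Ideal.span {ϖ})
  {e : ℕ} (he : 0 < e) (hℓe : Associated ((ℓ : OL A L)) (ϖ ^ e))
  {Λ : Jb → Line (algebraMap (OL A L) (FF (Lvl L) N) ϖ) (Rfin (Lvl L) N (baseRing A L)).toSubring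
    (Rinf (Lvl L) N (baseRing A L)).toSubring (Rmid (Lvl L) N (baseRing A L)).toSubring Rg → Prop}
  (hΛ : LineSys C Λ) {g : ℕ}
  (ε₁ : Fin g → ↥(Rmid (Lvl (K0 A)) N (baseRing A (K0 A)))) (m : ℕ)

/-- **field `hbased`**: the situation of the level `L` receives the base-level situation. -/
theorem isBased_level
    (H : Hyp (mS (OL A L) ϖ ℓ m) (mapS (Quo (OL A L) ℓ (m + 1)) (Subalgebra.inclusion hp))
      (mapS (Quo (OL A L) ℓ (m + 1)) (Subalgebra.inclusion hm))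
      (epsS (Quo (OL A L) ℓ (m + 1)) (fun i => midIncl A N h0 (ε₁ i)))) :
    (sit (Jb := Jb) hp hm C (isLevelRing A L ℓ) (mem_maximalIdeal_iff A L) hA hϖ he hℓe hΛ
      (fun i => midIncl A N h0 (ε₁ i)) (jL A h0) m H).IsBased
      (inclFin (Lvl (K0 A)) N (baseRing A (K0 A))) (inclInf (Lvl (K0 A)) N (baseRing A (K0 A)))
      ε₁ := by
  have hch := chartHom_level (lvlIncl h0) N (baseRing A (K0 A)) (baseRing A L) (lvlIncl_mem A h0)
  exact isBased_of_chg hp hm C (isLevelRing A L ℓ) (mem_maximalIdeal_iff A L) hA hϖ he hℓe hΛ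
    (fun i => midIncl A N h0 (ε₁ i)) (jL A h0) m H
    (finIncl A N h0) hch.alg_p (infIncl A N h0) hch.alg_m (midIncl A N h0) hch.alg_0
    (fun x => Subtype.ext (by rw [hch.comm_p])) (fun y => Subtype.ext (by rw [hch.comm_m]))
    (fun _ => rfl)

end Based

/-! ### `hlift` -/

section Incl

variable {L L' : IntermediateField ℚ Qb} (hLL' : L ≤ L') (h0 : K0 A ≤ L)
  [IsLocalRing (OL A L)] [IsLocalRing (OL A L')]
  (hp : Rfin (Lvl L) N (baseRing A L) ≤ Rmid (Lvl L) N (baseRing A L))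
  (hm : Rinf (Lvl L) N (baseRing A L) ≤ Rmid (Lvl L) N (baseRing A L))
  {Rg : Subring (FF (Lvl L) N)} {ϖ : OL A L}
  (C : Charts (algebraMap (OL A L) (FF (Lvl L) N) ϖ) (Rfin (Lvl L) N (baseRing A L)).toSubring
    (Rinf (Lvl L) N (baseRing A L)).toSubring (Rmid (Lvl L) N (baseRing A L)).toSubring Rg)
  (hϖ : IsLocalRing.maximalIdeal (OL A L) = Ideal.span {ϖ})
  {e : ℕ} (he : 0 < e) (hℓe : Associated ((ℓ : OL A L)) (ϖ ^ e))
  {Λ : Jb → Line (algebraMap (OL A L) (FF (Lvl L) N) ϖ) (Rfin (Lvl L) N (baseRing A L)).toSubring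
    (Rinf (Lvl L) N (baseRing A L)).toSubring (Rmid (Lvl L) N (baseRing A L)).toSubring Rg → Prop}
  (hΛ : LineSys C Λ)
  (hp' : Rfin (Lvl L') N (baseRing A L') ≤ Rmid (Lvl L') N (baseRing A L'))
  (hm' : Rinf (Lvl L') N (baseRing A L') ≤ Rmid (Lvl L') N (baseRing A L'))
  {Rg' : Subring (FF (Lvl L') N)} {ϖ' : OL A L'}
  (C' : Charts (algebraMap (OL A L') (FF (Lvl L') N) ϖ')
    (Rfin (Lvl L') N (baseRing A L')).toSubring (Rinf (Lvl L') N (baseRing A L')).toSubring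
    (Rmid (Lvl L') N (baseRing A L')).toSubring Rg')
  (hϖ' : IsLocalRing.maximalIdeal (OL A L') = Ideal.span {ϖ'})
  {e' : ℕ} (he' : 0 < e') (hℓe' : Associated ((ℓ : OL A L')) (ϖ' ^ e'))
  {Λ' : Jb → Line (algebraMap (OL A L') (FF (Lvl L') N) ϖ')
    (Rfin (Lvl L') N (baseRing A L')).toSubring (Rinf (Lvl L') N (baseRing A L')).toSubring
    (Rmid (Lvl L') N (baseRing A L')).toSubring Rg' → Prop}
  (hΛ' : LineSys C' Λ') {g : ℕ}
  (ε₁ : Fin g → ↥(Rmid (Lvl (K0 A)) N (baseRing A (K0 A)))) (m : ℕ)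

/-- **field `hlift`**: the level inclusion `L ≤ L'` at a fixed precision; the only hypothesis is the
cocycle part `hκ` of [KHOM] for `τ = ffMap (lvlIncl hLL') N`. -/
theorem isHom_incl
    (H : Hyp (mS (OL A L) ϖ ℓ m) (mapS (Quo (OL A L) ℓ (m + 1)) (Subalgebra.inclusion hp))
      (mapS (Quo (OL A L) ℓ (m + 1)) (Subalgebra.inclusion hm))
      (epsS (Quo (OL A L) ℓ (m + 1)) (fun i => midIncl A N h0 (ε₁ i))))
    (H' : Hyp (mS (OL A L') ϖ' ℓ m) (mapS (Quo (OL A L') ℓ (m + 1)) (Subalgebra.inclusion hp'))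
      (mapS (Quo (OL A L') ℓ (m + 1)) (Subalgebra.inclusion hm'))
      (epsS (Quo (OL A L') ℓ (m + 1)) (fun i => midIncl A N (h0.trans hLL') (ε₁ i))))
    (hκ : ∀ z u, kappa Λ (kOf e m) z u → kappa Λ' (kOf e' m) z (ffMap (lvlIncl hLL') N u)) :
    (sit (Jb := Jb) hp hm C (isLevelRing A L ℓ) (mem_maximalIdeal_iff A L) hA hϖ he hℓe hΛ
      (fun i => midIncl A N h0 (ε₁ i)) (jL A h0) m H).IsHom
    (sit (Jb := Jb) hp' hm' C' (isLevelRing A L' ℓ) (mem_maximalIdeal_iff A L') hA hϖ' he' hℓe' hΛ'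
      (fun i => midIncl A N (h0.trans hLL') (ε₁ i)) (jL A (h0.trans hLL')) m H')
      (RingHom.id Qb) id :=
  isHom_of_chg hp hm C (isLevelRing A L ℓ) (mem_maximalIdeal_iff A L) hA hϖ he hℓe hΛ
    (fun i => midIncl A N h0 (ε₁ i)) (jL A h0) m hp' hm' C' (isLevelRing A L' ℓ)
    (mem_maximalIdeal_iff A L') hϖ' he' hℓe' hΛ' (fun i => midIncl A N (h0.trans hLL') (ε₁ i))
    (jL A (h0.trans hLL')) m H H' (baseMapIncl A hLL') (ffMap (lvlIncl hLL') N)
    (fun o => ffMap_algebraMap_base (lvlIncl hLL') N (baseRing A L) (baseRing A L')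
      (lvlIncl_mem A hLL') o)
    (fun _ hx => ffMap_mem_Rfin (lvlIncl hLL') N (baseRing A L) (baseRing A L')
      (lvlIncl_mem A hLL') hx)
    (fun _ hx => ffMap_mem_Rinf (lvlIncl hLL') N (baseRing A L) (baseRing A L')
      (lvlIncl_mem A hLL') hx)
    (fun _ hx => ffMap_mem_Rmid (lvlIncl hLL') N (baseRing A L) (baseRing A L')
      (lvlIncl_mem A hLL') hx)
    (φIncl A ℓ hLL' (m + 1)) (fun o => φIncl_red A ℓ hLL' (m + 1) o)
    (fun _ hs => φIncl_mem_mS A ℓ hLL' hϖ hϖ' m hs)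
    (fun i => coe_midIncl_midIncl h0 hLL' (ε₁ i)) (RingHom.id Qb)
    (fun x => ιK_baseMapIncl_id A hLL' x) id hκ

end Incl

/-! ### the decomposition group: `hinertia` and `htwist` -/

section Gal

variable {L : IntermediateField ℚ Qb} (hL : ∀ (τ : GQ) (x : Qb), x ∈ L → τ x ∈ L) (h0 : K0 A ≤ L)
  [IsLocalRing (OL A L)]
  (hp : Rfin (Lvl L) N (baseRing A L) ≤ Rmid (Lvl L) N (baseRing A L))
  (hm : Rinf (Lvl L) N (baseRing A L) ≤ Rmid (Lvl L) N (baseRing A L))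
  {Rg : Subring (FF (Lvl L) N)} {ϖ : OL A L}
  (C : Charts (algebraMap (OL A L) (FF (Lvl L) N) ϖ) (Rfin (Lvl L) N (baseRing A L)).toSubring
    (Rinf (Lvl L) N (baseRing A L)).toSubring (Rmid (Lvl L) N (baseRing A L)).toSubring Rg)
  (hϖ : IsLocalRing.maximalIdeal (OL A L) = Ideal.span {ϖ})
  {e : ℕ} (he : 0 < e) (hℓe : Associated ((ℓ : OL A L)) (ϖ ^ e))
  {Λ : Jb → Line (algebraMap (OL A L) (FF (Lvl L) N) ϖ) (Rfin (Lvl L) N (baseRing A L)).toSubring
    (Rinf (Lvl L) N (baseRing A L)).toSubring (Rmid (Lvl L) N (baseRing A L)).toSubring Rg → Prop}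
  (hΛ : LineSys C Λ) {g : ℕ}
  (ε₁ : Fin g → ↥(Rmid (Lvl (K0 A)) N (baseRing A (K0 A)))) (m : ℕ)
  {σ : GQ} (hσ : σ ∈ A.decompositionSubgroup ℚ)

/-- `τ = σ` on the function field of the level is semilinear over `θGal` -/
theorem ffMap_galLvl_algebraMap (o : OL A L) :
    ffMap (galLvl L hL σ) N (algebraMap (OL A L) (FF (Lvl L) N) o)
      = algebraMap (OL A L) (FF (Lvl L) N) (θGal L hL hσ o) :=
  (ffMap_algebraMap_base (galLvl L hL σ) N (baseRing A L) (baseRing A L)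
    (galLvl_mem L hL hσ) o).trans
    (congrArg (algebraMap (OL A L) (FF (Lvl L) N)) (baseGal_apply L hL hσ o))

/-- the twisted frame: `σ (midIncl ε) = midIncl (σ ε)` -/
theorem coe_galLvl_midIncl (x : ↥(Rmid (Lvl (K0 A)) N (baseRing A (K0 A)))) :
    ffMap (galLvl L hL σ) N ((midIncl A N h0 x : ↥(Rmid (Lvl L) N (baseRing A L))) : FF (Lvl L) N)
      = ((midIncl A N h0 (midGal (K0 A) K0_stable N hσ x) : ↥(Rmid (Lvl L) N (baseRing A L))) :
          FF (Lvl L) N) := by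
  have := congrArg Subtype.val (midGal_midIncl h0 K0_stable hL N hσ x)
  rwa [coe_midMap] at this

/-- the inertia group acts trivially on the base level -/
theorem galLvl_K0_eq_id {ℓ : ℕ} (hℓ : ℓ.Prime) (hA : A.LiesOverPrime ℓ)
    (hσI : σ ∈ A.inertiaSubgroupIn ℚ) :
    galLvl (K0 A) K0_stable σ = RingHom.id (Lvl (K0 A)) :=
  RingHom.ext fun x => levelAut_eq_of_mem_K0 (K0 A) K0_stable hℓ hA hσI
    (Lvl.algebraMap_mem (K0 A) x)

theorem midGal_K0_eq_self {ℓ : ℕ} (hℓ : ℓ.Prime) (hA : A.LiesOverPrime ℓ)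
    (hσI : σ ∈ A.inertiaSubgroupIn ℚ) (x : ↥(Rmid (Lvl (K0 A)) N (baseRing A (K0 A)))) :
    midGal (K0 A) K0_stable N hσ x = x := by
  apply Subtype.ext
  rw [coe_midMap]
  apply Subtype.ext
  rw [coe_ffMap, coeffMap_congr (galLvl_K0_eq_id hℓ hA hσI), coeffMap_id]

/-- **field `hinertia`**: `σ ∈ I_A` on a Galois-stable level, the frames are preserved; the only
hypothesis is the cocycle part `hκ` of [KHOM] for `τ = ffMap (galLvl L hL σ) N`
(`= GammaAut.levelFF L hL N σ • ·`). -/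
theorem isHom_inertia (hℓ : ℓ.Prime) (hσI : σ ∈ A.inertiaSubgroupIn ℚ) (act : Jb → Jb)
    (H : Hyp (mS (OL A L) ϖ ℓ m) (mapS (Quo (OL A L) ℓ (m + 1)) (Subalgebra.inclusion hp))
      (mapS (Quo (OL A L) ℓ (m + 1)) (Subalgebra.inclusion hm))
      (epsS (Quo (OL A L) ℓ (m + 1)) (fun i => midIncl A N h0 (ε₁ i))))
    (hκ : ∀ z u, kappa Λ (kOf e m) z u →
      kappa Λ (kOf e m) (act z) (ffMap (galLvl L hL σ) N u)) :
    (sit (Jb := Jb) hp hm C (isLevelRing A L ℓ) (mem_maximalIdeal_iff A L) hA hϖ he hℓe hΛ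
      (fun i => midIncl A N h0 (ε₁ i)) (jL A h0) m H).IsHom
    (sit (Jb := Jb) hp hm C (isLevelRing A L ℓ) (mem_maximalIdeal_iff A L) hA hϖ he hℓe hΛ
      (fun i => midIncl A N h0 (ε₁ i)) (jL A h0) m H) ((σ : GQ) : Qb →+* Qb) act := by
  have hσ : σ ∈ A.decompositionSubgroup ℚ :=
    Fermat.Agent.S19.Coord.OfLevels.mem_inertia_le hσI
  exact isHom_of_chg hp hm C (isLevelRing A L ℓ) (mem_maximalIdeal_iff A L) hA hϖ he hℓe hΛ
    (fun i => midIncl A N h0 (ε₁ i)) (jL A h0) m hp hm C (isLevelRing A L ℓ)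
    (mem_maximalIdeal_iff A L) hϖ he hℓe hΛ (fun i => midIncl A N h0 (ε₁ i)) (jL A h0) m H H
    (θGal L hL hσ) (ffMap (galLvl L hL σ) N) (fun o => ffMap_galLvl_algebraMap hL hσ o)
    (fun _ hx => ffMap_mem_Rfin (galLvl L hL σ) N (baseRing A L) (baseRing A L)
      (galLvl_mem L hL hσ) hx)
    (fun _ hx => ffMap_mem_Rinf (galLvl L hL σ) N (baseRing A L) (baseRing A L)
      (galLvl_mem L hL hσ) hx)
    (fun _ hx => ffMap_mem_Rmid (galLvl L hL σ) N (baseRing A L) (baseRing A L)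
      (galLvl_mem L hL hσ) hx)
    (φGal ℓ L hL hσ (m + 1)) (fun o => φGal_red ℓ L hL hσ (m + 1) o)
    (fun _ hs => φGal_mem_mS ℓ L hL hσ hϖ m hs)
    (fun i => by
      rw [coe_galLvl_midIncl hL h0 hσ, midGal_K0_eq_self hσ hℓ hA hσI])
    ((σ : GQ) : Qb →+* Qb) (fun x => ιK_θGal L hL hσ x) act hκ

/-- **field `htwist`**: `σ ∈ D_A` on a Galois-stable level, the frame moves to the image of
`εt = σ ε₁` (a family at the base level); the only hypothesis is the cocycle part `hκ`. -/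
theorem isTwist_level (act : Jb → Jb)
    (H : Hyp (mS (OL A L) ϖ ℓ m) (mapS (Quo (OL A L) ℓ (m + 1)) (Subalgebra.inclusion hp))
      (mapS (Quo (OL A L) ℓ (m + 1)) (Subalgebra.inclusion hm))
      (epsS (Quo (OL A L) ℓ (m + 1)) (fun i => midIncl A N h0 (ε₁ i))))
    (hκ : ∀ z u, kappa Λ (kOf e m) z u →
      kappa Λ (kOf e m) (act z) (ffMap (galLvl L hL σ) N u)) :
    (sit (Jb := Jb) hp hm C (isLevelRing A L ℓ) (mem_maximalIdeal_iff A L) hA hϖ he hℓe hΛ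
      (fun i => midIncl A N h0 (ε₁ i)) (jL A h0) m H).IsTwist
    (sit (Jb := Jb) hp hm C (isLevelRing A L ℓ) (mem_maximalIdeal_iff A L) hA hϖ he hℓe hΛ
      (fun i => midIncl A N h0 (ε₁ i)) (jL A h0) m H)
      (inclFin (Lvl (K0 A)) N (baseRing A (K0 A))) (inclInf (Lvl (K0 A)) N (baseRing A (K0 A)))
      ε₁ ((σ : GQ) : Qb →+* Qb) act (fun i => midGal (K0 A) K0_stable N hσ (ε₁ i)) := by
  have hch := chartHom_level (lvlIncl h0) N (baseRing A (K0 A)) (baseRing A L) (lvlIncl_mem A h0)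
  exact isTwist_of_chg hp hm C (isLevelRing A L ℓ) (mem_maximalIdeal_iff A L) hA hϖ he hℓe hΛ
    (fun i => midIncl A N h0 (ε₁ i)) (jL A h0) m hp hm C (isLevelRing A L ℓ)
    (mem_maximalIdeal_iff A L) hϖ he hℓe hΛ (fun i => midIncl A N h0 (ε₁ i)) (jL A h0) H H
    (finIncl A N h0) hch.alg_p (infIncl A N h0) hch.alg_m (midIncl A N h0) hch.alg_0
    (fun x => Subtype.ext (by rw [hch.comm_p])) (fun y => Subtype.ext (by rw [hch.comm_m]))
    (fun _ => rfl)
    (θGal L hL hσ) (ffMap (galLvl L hL σ) N) (fun o => ffMap_galLvl_algebraMap hL hσ o)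
    (fun _ hx => ffMap_mem_Rfin (galLvl L hL σ) N (baseRing A L) (baseRing A L)
      (galLvl_mem L hL hσ) hx)
    (fun _ hx => ffMap_mem_Rinf (galLvl L hL σ) N (baseRing A L) (baseRing A L)
      (galLvl_mem L hL hσ) hx)
    (fun _ hx => ffMap_mem_Rmid (galLvl L hL σ) N (baseRing A L) (baseRing A L)
      (galLvl_mem L hL hσ) hx)
    (φGal ℓ L hL hσ (m + 1)) (fun o => φGal_red ℓ L hL hσ (m + 1) o)
    (fun _ hs => φGal_mem_mS ℓ L hL hσ hϖ m hs)
    (fun i => midGal (K0 A) K0_stable N hσ (ε₁ i))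
    (fun i => coe_galLvl_midIncl hL h0 hσ (ε₁ i))
    ((σ : GQ) : Qb →+* Qb) (fun x => ιK_θGal L hL hσ x) act hκ

end Gal

end Fermat.Agent.S19.Geo.LevelSitPackN4
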