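/-
S19 / GEO, [INST] field `hlift` at the concrete family (helper9; dispatch #2406/#2438):
**`GeoFamily.hlift` (and `hmono`) verbatim for `InstanceLevels.X`.**

For the concrete situations `X hℓ hA hℓN fr hΛ E m` of helper8's `Geo/InstanceLevels.lean` (level
`lvl A E = bigLevel A E`), the inclusion of levels `E ≤ E'` is a morphism `X E m → X E' m` over the
identity of `ℚ̄` and the identity of the classes (`LevelSitPackN4.isHom_incl`).

* `isHom_X_incl` : for a generic system of lines `Λ`, from the line-level statement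
  `LineLevelMono.LinesLift` (same divisor at the two levels; the cocycle part is helper12's
  `LevelLiftKappa.hκ_incl`, transported by helper22's bridge `kOf_ram`);
* `hlift_X'` : the field, generic `Λ`, hypothesis `LinesLift` for all `E ≤ E'`;
* `hlift_X` : the field for THE lines `InstanceLines.ΛE` (no hypothesis left; the `LinesLift` input
  is helper11's `LevelLinesInst.linesLift_lvl`);
* `hmono_X'` / `hmono_X` : the field `hmono` (generic `Λ`, no hypothesis / THE lines).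
-/
import Mathlib
import Fermat.Agent.S19.Geo.InstanceLevels
import Fermat.Agent.S19.Geo.InstanceLevelsBridge
import Fermat.Agent.S19.Geo.InstanceLines
import Fermat.Agent.S19.Geo.LevelLinesInst
import Fermat.Agent.S19.Geo.LevelLiftKappa
import Fermat.Agent.S19.Geo.LevelSitPack
import Fermat.Agent.S19.Geo.LevelSitPackN4

set_option autoImplicit false
set_option linter.unusedSectionVars false
set_option linter.style.haveILetI false

open ModularCurve AlgebraicCurve

noncomputable section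

namespace Fermat.Agent.S19.Geo.InstanceHlift

open Fermat.Agent.S19.Abs Fermat.Agent.S19.Coord Fermat.Agent.S19.Cech
open Fermat.Agent.N4.Setting Fermat.Agent.N4.BaseDescent
open Fermat.Agent.N4F.C.Levels Fermat.Agent.N4F.C.LevelCharts
  Fermat.Agent.S19.Cech.LevelBasis
  Fermat.Agent.S19.Cech.Cocycle Fermat.Agent.S19.Cech.CoordOfLines
  Fermat.Agent.S19.Geo.BaseLevel Fermat.Agent.S19.Geo.LevelSitMaps
  Fermat.Agent.S19.Geo.InstanceLevels

open Fermat.Agent.S19.Cech.BaseQuotLevel (isLevelRing mem_maximalIdeal_iff ιK)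

variable {A : ValuationSubring Qb} {N : ℕ} [NeZero N] {ℓ : ℕ}
  (hℓ : ℓ.Prime) (hA : A.LiesOverPrime ℓ) (hℓN : ¬ ℓ ∣ N) (fr : Frame A N)

section Generic

variable {Λ : ∀ E : Lv, JZero N → LineE hℓ hA N E → Prop}
  (hΛ : ∀ E, LineSys (charts hℓ hA hℓN E) (Λ E))

/-- the cocycle part of `hlift` for `InstanceLevels.X`, from `LinesLift`. -/
theorem hκ_X {E E' : Lv} (h : E.le E') (m : ℕ)
    (hΛincl : haveI := dvr_lvl hℓ hA E
      haveI := dvr_lvl hℓ hA E'
      LineLevelMono.LinesLift A (star_lvl hℓ hA hℓN E) (star_lvl hℓ hA hℓN E')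
        (irreducible_unif hℓ hA E).ne_zero (irreducible_unif hℓ hA E').ne_zero
        (Λ := Λ E) (Λ' := Λ E')) :
    ∀ z u, kappa (Λ E) (LevelSit.kOf (ram hℓ hA E) m) z u →
      kappa (Λ E') (LevelSit.kOf (ram hℓ hA E') m) z (ffMap (lvlIncl (lvl_mono A h)) N u) := by
  haveI := dvr_lvl hℓ hA E
  haveI := dvr_lvl hℓ hA E'
  intro z u hu
  rw [InstanceLevelsBridge.kOf_ram hℓ hA E m] at hu
  rw [InstanceLevelsBridge.kOf_ram hℓ hA E' m]
  exact LevelLiftKappa.hκ_incl (lvl_mono A h) hℓ.ne_zero hA hΛincl m z u hu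

/-- the inclusion of levels `E ≤ E'` is a morphism `X E m → X E' m`, given `LinesLift`. -/
theorem isHom_X_incl {E E' : Lv} (h : E.le E') (m : ℕ)
    (hΛincl : haveI := dvr_lvl hℓ hA E
      haveI := dvr_lvl hℓ hA E'
      LineLevelMono.LinesLift A (star_lvl hℓ hA hℓN E) (star_lvl hℓ hA hℓN E')
        (irreducible_unif hℓ hA E).ne_zero (irreducible_unif hℓ hA E').ne_zero
        (Λ := Λ E) (Λ' := Λ E')) :
    (X hℓ hA hℓN fr hΛ E m).IsHom (X hℓ hA hℓN fr hΛ E' m) (RingHom.id Qb) id :=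
  haveI := dvr_lvl hℓ hA E
  haveI := dvr_lvl hℓ hA E'
  LevelSitPackN4.isHom_incl hA (lvl_mono A h) (K0_le_lvl A E) (Bp_le E) (Bm_le E)
    (charts hℓ hA hℓN E) (maximalIdeal_eq hℓ hA E) (ram_pos hℓ hA E) (associated_ram hℓ hA E)
    (hΛ E) (Bp_le E') (Bm_le E') (charts hℓ hA hℓN E') (maximalIdeal_eq hℓ hA E')
    (ram_pos hℓ hA E') (associated_ram hℓ hA E') (hΛ E') fr.ε m (hyp_lvl hℓ hA hℓN fr E m)
    (hyp_lvl hℓ hA hℓN fr E' m) (hκ_X hℓ hA hℓN h m hΛincl)

/-- **Field `hlift` of `GeoFamily`** for `InstanceLevels.X`, generic lines, from `LinesLift`. -/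
theorem hlift_X'
    (hΛincl : ∀ E E' : Lv, E.le E' →
      haveI := dvr_lvl hℓ hA E
      haveI := dvr_lvl hℓ hA E'
      LineLevelMono.LinesLift A (star_lvl hℓ hA hℓN E) (star_lvl hℓ hA hℓN E')
        (irreducible_unif hℓ hA E).ne_zero (irreducible_unif hℓ hA E').ne_zero
        (Λ := Λ E) (Λ' := Λ E')) :
    ∀ E E' m, Lv.le E E' →
      (X hℓ hA hℓN fr hΛ E m).IsHom (X hℓ hA hℓN fr hΛ E' m) (RingHom.id Qb) id :=
  fun E E' m h => isHom_X_incl hℓ hA hℓN fr hΛ h m (hΛincl E E' h)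

/-- **Field `hmono` of `GeoFamily`** for `InstanceLevels.X`, generic lines; no hypothesis. -/
theorem hmono_X' : ∀ E m,
    (X hℓ hA hℓN fr hΛ E (m + 1)).IsHom (X hℓ hA hℓN fr hΛ E m) (RingHom.id Qb) id := by
  intro E m
  haveI := dvr_lvl hℓ hA E
  exact LevelSitPack.isHom_prec (Bp_le E) (Bm_le E) (charts hℓ hA hℓN E)
    (isLevelRing A (lvl A E) ℓ) (mem_maximalIdeal_iff A (lvl A E)) hA (maximalIdeal_eq hℓ hA E)
    (ram_pos hℓ hA E) (associated_ram hℓ hA E) (hΛ E) (frameE fr E) (jL A (K0_le_lvl A E)) m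
    (hyp_lvl hℓ hA hℓN fr E (m + 1)) (hyp_lvl hℓ hA hℓN fr E m)

end Generic

/-! ### THE family: the lines `InstanceLines.ΛE` -/

/-- **Field `hlift` of `GeoFamily` for THE family** `X hℓ hA hℓN fr (InstanceLines.hΛE hℓ hA hℓN)`:
no hypothesis left. -/
theorem hlift_X : ∀ E E' m, Lv.le E E' →
    (X hℓ hA hℓN fr (InstanceLines.hΛE hℓ hA hℓN) E m).IsHom
      (X hℓ hA hℓN fr (InstanceLines.hΛE hℓ hA hℓN) E' m) (RingHom.id Qb) id :=
  hlift_X' hℓ hA hℓN fr (InstanceLines.hΛE hℓ hA hℓN)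
    (fun _ _ h => LevelLinesInst.linesLift_lvl hℓ hA hℓN h)

/-- **Field `hmono` of `GeoFamily` for THE family**. -/
theorem hmono_X : ∀ E m,
    (X hℓ hA hℓN fr (InstanceLines.hΛE hℓ hA hℓN) E (m + 1)).IsHom
      (X hℓ hA hℓN fr (InstanceLines.hΛE hℓ hA hℓN) E m) (RingHom.id Qb) id :=
  hmono_X' hℓ hA hℓN fr (InstanceLines.hΛE hℓ hA hℓN)

end Fermat.Agent.S19.Geo.InstanceHlift
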