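/-
S19 / GEO, [INST] (helper29): **the field `hmono` of `InstanceOfSit.GeoFamily` for THE family
`InstanceLevels.X`**, in the exact binder shape of the field (ruling #2406/#2438, `_X` form):

  `hmono_X hℓ hA hℓN fr hΛ : ∀ E m, (X hℓ hA hℓN fr hΛ E (m + 1)).IsHom (X hℓ hA hℓN fr hΛ E m) id id`

for a generic system of lines `Λ`; no hypothesis left (`LevelSitPack.isHom_prec` at the level
`lvl A E`, uniformiser `unif`, ramification index `ram`).
-/
import Mathlib
import Fermat.Agent.S19.Geo.InstanceLevels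
import Fermat.Agent.S19.Geo.LevelSitPack

set_option autoImplicit false
set_option linter.unusedSectionVars false
set_option linter.style.haveILetI false

open ModularCurve AlgebraicCurve

namespace Fermat.Agent.S19.Geo.InstanceMono

open Fermat.Agent.S19.Abs Fermat.Agent.S19.Coord Fermat.Agent.S19.Cech
  Fermat.Agent.S19.Cech.CoordOfLines Fermat.Agent.S19.Cech.CoordFamily
  Fermat.Agent.S19.Cech.BaseQuotLevel
  Fermat.Agent.S19.Geo.BaseLevel Fermat.Agent.S19.Geo.InstanceLevels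
  Fermat.Agent.S19.Geo.LevelSitMaps Fermat.Agent.S19.Geo.LevelSitPack

variable {A : ValuationSubring Qb} {N : ℕ} [NeZero N] {ℓ : ℕ}
  (hℓ : ℓ.Prime) (hA : A.LiesOverPrime ℓ) (hℓN : ¬ ℓ ∣ N) (fr : Frame A N)
  {Λ : ∀ E : Lv, JZero N → LineE hℓ hA N E → Prop}
  (hΛ : ∀ E, LineSys (charts hℓ hA hℓN E) (Λ E))

/-- **Field `hmono` of `GeoFamily` for `InstanceLevels.X`**: lowering the precision at a fixed
level. -/
theorem hmono_X : ∀ (E : Lv) (m : ℕ),
    (X hℓ hA hℓN fr hΛ E (m + 1)).IsHom (X hℓ hA hℓN fr hΛ E m) (RingHom.id Qb) id := by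
  intro E m
  haveI := dvr_lvl hℓ hA E
  exact isHom_prec (Bp_le E) (Bm_le E) (charts hℓ hA hℓN E) (isLevelRing A (lvl A E) ℓ)
    (mem_maximalIdeal_iff A (lvl A E)) hA (maximalIdeal_eq hℓ hA E) (ram_pos hℓ hA E)
    (associated_ram hℓ hA E) (hΛ E) (frameE fr E) (jL A (K0_le_lvl A E)) m
    (hyp_lvl hℓ hA hℓN fr E (m + 1)) (hyp_lvl hℓ hA hℓN fr E m)

end Fermat.Agent.S19.Geo.InstanceMono
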