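/-
S19 / GEO, leaf [INST], the contract of the final assembly (helper3).

`GeoFamily hℓ hA hℓN` is ONE structure whose fields are exactly the obligations of
`Cech.CoordFamily.levelCoordSystem` for `Jb := JZero N`, `actJ := galActJ N`,
`J1 := FixedLift.kerRed` (the kernel of the reduction map `ClassDict.redC`) and
`U := FixedLift.unramClasses`: the base-level charts with `HypAll`, the directed family of levels,
the bundled situations `X L m` (level `L`, precision `m + 1`) and the morphisms between them.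

* `GeoFamily.levelCoordSystem` : the contract `Coord.LevelCoordSystem` from a `GeoFamily`
  ((C7) and `J1_stable` come from `Geo/FixedLift.lean`);
* `geoTarget_of_family` : `Abs.GeoTarget` from a `GeoFamily` at every place;
* `geoTarget_of_family'` : the same, if a `GeoFamily` exists at SOME place over every `ℓ ∤ p`.

So `S19.lean` is `Abs.s19_of_geo (geoTarget_of_family fam)`, where `fam` is the term assembled in
`Geo/Instance.lean`.
-/
import Mathlib
import Fermat.Agent.S19.Cech.CoordFamily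
import Fermat.Agent.S19.Geo.FixedLift
import Fermat.Agent.S19.Abs.TopGeo

set_option autoImplicit false

open ModularCurve AlgebraicCurve

namespace Fermat.Agent.S19.Geo.InstanceOfSit

open Fermat.Agent.S19.Abs Fermat.Agent.S19.Coord Fermat.Agent.S19.Cech
  Fermat.Agent.S19.Cech.CoordOfLines Fermat.Agent.S19.Cech.CoordFamily
  Fermat.Agent.S19.Coord.OfLevels Fermat.Agent.S19.Order
  Fermat.Agent.S19.Geo.FixedLift TensorProduct

/-- **The obligations of the geometric layer at one place `A` over `ℓ ∤ N`**, bundled: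
a family of situations on `J₀(N)(ℚ̄)` with `J¹ = ker (reduction)`. -/
structure GeoFamily {N : ℕ} [NeZero N] {ℓ : ℕ} (hℓ : ℓ.Prime) {A : ValuationSubring Qb}
    (hA : A.LiesOverPrime ℓ) (hℓN : ¬ ℓ ∣ N) where
  /-- the genus (= rank of `H¹`) -/
  g : ℕ
  /-- the base level (unramified) -/
  O₁ : Type
  [cO₁ : CommRing O₁]
  /-- the three charts at the base level -/
  Ap : Type
  Am : Type
  A0 : Type
  [cAp : CommRing Ap]
  [cAm : CommRing Am]
  [cA0 : CommRing A0]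
  [aAp : Algebra O₁ Ap]
  [aAm : Algebra O₁ Am]
  [aA0 : Algebra O₁ A0]
  ip₁ : Ap →ₐ[O₁] A0
  im₁ : Am →ₐ[O₁] A0
  /-- basis lifts of `H¹` at the base level -/
  ε₁ : Fin g → A0
  hH : HypAll ip₁ im₁ ε₁
  ι₁ : O₁ →+* Qb
  hι₁ : ∀ c, IsUnr A (ι₁ c)
  /-- the levels -/
  Lv : Type
  le : Lv → Lv → Prop
  hdir : ∀ L L', ∃ L'', le L L'' ∧ le L' L''
  /-- the situation of level `L` and precision `m + 1` -/
  X : Lv → (m : ℕ) → Sit ℓ A (JZero N) g (m + 1) O₁
  hι : ∀ L m c, (X L m).ι ((X L m).j c) = ι₁ c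
  hbased : ∀ L m, (X L m).IsBased ip₁ im₁ ε₁
  hlift : ∀ L L' m, le L L' → (X L m).IsHom (X L' m) (RingHom.id Qb) id
  hmono : ∀ L m, (X L (m + 1)).IsHom (X L m) (RingHom.id Qb) id
  hinertia : ∀ σ ∈ A.inertiaSubgroupIn ℚ, ∀ L m,
    ∃ L', (X L m).IsHom (X L' m) ((σ : GQ) : Qb →+* Qb) (galActJ N σ)
  htwist : ∀ σ ∈ A.decompositionSubgroup ℚ, ∃ εt : Fin g → A0, ∀ L m,
    ∃ L', (X L m).IsTwist (X L' m) ip₁ im₁ ε₁ ((σ : GQ) : Qb →+* Qb) (galActJ N σ) εt
  hmem : ∀ L m z v, (X L m).K z v → z ∈ kerRed hℓ hA hℓN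
  hex : ∀ z ∈ kerRed hℓ hA hℓN, ∃ L, ∀ m, ∃ v, (X L m).K z v
  hfixed : ∀ L, ∃ E : IntermediateField ℚ Qb, FiniteDimensional ℚ E ∧
    ∀ m x, ∀ σ ∈ A.inertiaSubgroupIn ℚ, (∀ y ∈ E, σ y = y) → σ ((X L m).ι x) = (X L m).ι x
  hsep : ∀ z ∈ kerRed hℓ hA hℓN, ∃ L₀, (∀ m, ∃ v, (X L₀ m).K z v) ∧ ∃ m₀, ∀ m, m₀ ≤ m → ∀ v,
    (X L₀ m).K z v → (X L₀ m).H.coord v = 0 → z = 0

attribute [instance] GeoFamily.cO₁ GeoFamily.cAp GeoFamily.cAm GeoFamily.cA0 GeoFamily.aAp
  GeoFamily.aAm GeoFamily.aA0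

section

variable {N : ℕ} [NeZero N] {ℓ : ℕ} {hℓ : ℓ.Prime} {A : ValuationSubring Qb}
  {hA : A.LiesOverPrime ℓ} {hℓN : ¬ ℓ ∣ N}

/-- the level-wise representatives of a `GeoFamily` -/
noncomputable def GeoFamily.levelReps (F : GeoFamily hℓ hA hℓN) :
    LevelReps ℓ A (JZero N) (galActJ N) :=
  CoordFamily.levelReps (actJ := galActJ N) (kerRed hℓ hA hℓN) F.le F.hdir F.X F.hH F.ι₁ F.hι₁
    F.hι F.hbased F.hlift F.hmono F.hinertia F.htwist F.hmem F.hex F.hfixed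

@[simp] theorem GeoFamily.levelReps_J1 (F : GeoFamily hℓ hA hℓN) :
    F.levelReps.J1 = kerRed hℓ hA hℓN := rfl

/-- **The level coordinate system of a `GeoFamily`.** -/
noncomputable def GeoFamily.levelCoordSystem (F : GeoFamily hℓ hA hℓN) :
    LevelCoordSystem ℓ A (JZero N) (galActJ N) :=
  CoordFamily.levelCoordSystem (actJ := galActJ N) hA (kerRed hℓ hA hℓN) (unramClasses A N)
    F.le F.hdir F.X F.hH F.ι₁ F.hι₁ F.hι F.hbased F.hlift F.hmono F.hinertia F.htwist F.hmem F.hex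
    F.hfixed F.hsep
    (fun _ hσ _ hz => kerRed_stable hℓ hA hℓN hσ hz)
    (fun _ hσ y => inertia_sub_mem hℓ hA hℓN hσ y)
    (fun _ hσ _ hz => unramClasses_fixed hσ hz)
    (fun _ hσ _ hz => unramClasses_stable hσ hz)
    (fun y => exists_unram_lift hℓ hA hℓN y)

end

/-- **The geometric target from a `GeoFamily` at every place.** -/
theorem geoTarget_of_family
    (fam : ∀ (N : ℕ) [NeZero N] (ℓ : ℕ) (hℓ : ℓ.Prime) (hℓN : ¬ ℓ ∣ N)
      (A : ValuationSubring Qb) (hA : A.LiesOverPrime ℓ), Nonempty (GeoFamily hℓ hA hℓN)) :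
    GeoTarget :=
  geoTarget_of_forall fun N _ ℓ hℓ hℓN A hA => by
    obtain ⟨F⟩ := fam N ℓ hℓ hℓN A hA
    exact ⟨F.levelCoordSystem⟩

/-- **The geometric target from a `GeoFamily` at some place over every `ℓ ∤ N`.** -/
theorem geoTarget_of_family'
    (fam : ∀ (N : ℕ) [NeZero N] (ℓ : ℕ) (hℓ : ℓ.Prime) (hℓN : ¬ ℓ ∣ N),
      ∃ (A : ValuationSubring Qb) (hA : A.LiesOverPrime ℓ), Nonempty (GeoFamily hℓ hA hℓN)) :
    GeoTarget := by
  intro N _ ℓ hℓ hℓN
  obtain ⟨A, hA, ⟨F⟩⟩ := fam N ℓ hℓ hℓN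
  exact ⟨A, hA, ⟨F.levelCoordSystem⟩⟩

end Fermat.Agent.S19.Geo.InstanceOfSit
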