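/-
S19 / GEO, leaf [INST], the tail (C7) + (C3-J1): for ANY family of level-wise representatives
`X : Coord.OfLevels.LevelReps ℓ A (JZero N) (galActJ N)` whose kernel of reduction is
`FixedLift.kerRed` (the kernel of `ClassDict.redC`), the contract `Coord.LevelCoordSystem` follows
from the separation statement (C6) alone: the fields `J1_stable`, `inertia_sub_mem`, `U_fixed`,
`U_stable`, `exists_lift` are supplied by `Geo/FixedLift.lean` with `U := unramClasses A N`.
-/
import Mathlib
import Fermat.Agent.S19.Coord.OfLevels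
import Fermat.Agent.S19.Geo.FixedLift
import Fermat.Agent.S19.Abs.TopWire

set_option autoImplicit false

open ModularCurve AlgebraicCurve

namespace Fermat.Agent.S19.Geo.InstanceTail

open Fermat.Agent.S19.Abs Fermat.Agent.S19.Coord Fermat.Agent.S19.Coord.OfLevels
open Fermat.Agent.S19.Geo.FixedLift

variable {A : ValuationSubring Qb} {N : ℕ} [NeZero N] {ℓ : ℕ}
variable (hℓ : ℓ.Prime) (hA : A.LiesOverPrime ℓ) (hℓN : ¬ ℓ ∣ N)

/-- **Tail of [INST]**: level-wise representatives with `J1 = kerRed` and the separation (C6) give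
the level coordinate system; (C7) and (C3-J1) come from `Geo/FixedLift.lean`. -/
noncomputable def levelCoordSystem (X : LevelReps ℓ A (JZero N) (galActJ N))
    (hJ1 : X.J1 = kerRed hℓ hA hℓN)
    (separated : ∀ {z}, z ∈ X.J1 →
      (∀ n, 0 < n → ∃ L a, X.R L n z a ∧ ∀ i, a i ∈ lpow A ℓ n) → z = 0) :
    LevelCoordSystem ℓ A (JZero N) (galActJ N) :=
  X.toLevelCoordSystem hA (unramClasses A N)
    (fun σ hσ z hz => by
      rw [hJ1] at hz ⊢
      exact kerRed_stable hℓ hA hℓN hσ hz)
    separated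
    (fun σ hσ y => by
      rw [hJ1]
      exact inertia_sub_mem hℓ hA hℓN hσ y)
    (fun σ hσ z hz => unramClasses_fixed hσ hz)
    (fun σ hσ z hz => unramClasses_stable hσ hz)
    (fun y => by
      rw [hJ1]
      exact exists_unram_lift hℓ hA hℓN y)

@[simp] theorem levelCoordSystem_J1 (X : LevelReps ℓ A (JZero N) (galActJ N))
    (hJ1 : X.J1 = kerRed hℓ hA hℓN)
    (separated : ∀ {z}, z ∈ X.J1 →
      (∀ n, 0 < n → ∃ L a, X.R L n z a ∧ ∀ i, a i ∈ lpow A ℓ n) → z = 0) :
    (levelCoordSystem hℓ hA hℓN X hJ1 separated).J1 = X.J1 := rfl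

/-- The geometric target at one place, from level-wise representatives. -/
theorem nonempty_levelCoordSystem (X : LevelReps ℓ A (JZero N) (galActJ N))
    (hJ1 : X.J1 = kerRed hℓ hA hℓN)
    (separated : ∀ {z}, z ∈ X.J1 →
      (∀ n, 0 < n → ∃ L a, X.R L n z a ∧ ∀ i, a i ∈ lpow A ℓ n) → z = 0) :
    Nonempty (LevelCoordSystem ℓ A (JZero N) (galActJ N)) :=
  ⟨levelCoordSystem hℓ hA hℓN X hJ1 separated⟩

end Fermat.Agent.S19.Geo.InstanceTail
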