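/-
S19 / GEO, leaf [INST], field `htwist` of `InstanceOfSit.GeoFamily` (helper24; item 4 of the field
map #2368 of helper22): **the `σ`-twist of the situation of a Galois-stable level**, `σ ∈ D_A`.

For a `Gal(ℚ̄/ℚ)`-stable level `L ⊇ K₀` with `O_L` a discrete valuation ring, ANY uniformiser `ϖ`
(`hϖ : 𝔪_{O_L} = (ϖ)`), ANY chart data `C`, system of lines `Λ`, `hΛ : LineSys C Λ`, ANY frame
`F : BaseLevel.Frame A N` of the base level and ANY two proofs `H, H'` of `Hyp` at `(L, m + 1)`: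

  `(sit … (F.εL h0) (jK A h0) m H).IsTwist (sit … (F.εL h0) (jK A h0) m H')
      (ip₁ A N) (im₁ A N) F.ε σ act (LevelHyp.εt F hσ)`

(`isTwist_level`), given only the cocycle part

  `hκ : ∀ z u, kappa Λ (kOf e m) z u → kappa Λ (kOf e m) (act z) (ffMap (galLvl L hL σ) N u)`

(`= LevelEquivariant.kappa_levelFF_smul` after `ffMap_galLvl`; `isTwist_level_of_lines` takes the
line-level input of that lemma instead).  The twisted frame `εt = σ ε₁` at the BASE level is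
`LevelHyp.εt F hσ` — it does not depend on `L`, `m` (as the binder of `GeoFamily.htwist` asks).

All the ring-level data are the ones on main: `θ = LevelBasisBig.baseGal`, `τ = ffMap (galLvl ..)`,
`φ = quoMap θ`, base maps `β_? = fin/inf/midIncl (K₀ ≤ L)`; glue = `LevelSitTwist.isTwist_of_chg`.
-/
import Mathlib
import Fermat.Agent.S19.Geo.LevelSitTwist
import Fermat.Agent.S19.Geo.LevelSitDefs
import Fermat.Agent.S19.Geo.LevelSitIdeal
import Fermat.Agent.S19.Geo.LevelEquivariant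
import Fermat.Agent.S19.Cech.LevelHyp
import Fermat.Agent.S19.Cech.LevelBasisBig

set_option autoImplicit false
set_option linter.unusedSectionVars false

open TensorProduct ModularCurve

noncomputable section

namespace Fermat.Agent.S19.Geo.LevelSitTwistInst

open Fermat.Agent.S19.Abs Fermat.Agent.S19.Coord Fermat.Agent.S19.Cech
  Fermat.Agent.S19.Cech.Cocycle Fermat.Agent.S19.Cech.CoordOfLines
  Fermat.Agent.S19.Cech.CoordFamily Fermat.Agent.S19.Cech.RedTuple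
  Fermat.Agent.S19.Cech.BaseQuotLevel Fermat.Agent.S19.Cech.SepWireTensor
  Fermat.Agent.S19.Cech.LevelBasis Fermat.Agent.S19.Cech.LevelBasisBig
  Fermat.Agent.S19.Geo.LevelSit Fermat.Agent.S19.Geo.LevelSitTwist
  Fermat.Agent.S19.Geo.LevelSitMaps Fermat.Agent.S19.Geo.LevelSitDefs
  Fermat.Agent.S19.Geo.LevelSitIdeal Fermat.Agent.S19.Geo.BaseLevel
  Fermat.Agent.N4.Setting Fermat.Agent.N4.Chart Fermat.Agent.N4.BaseDescent
  Fermat.Agent.N4F.C.Levels Fermat.Agent.P3G.Gamma Fermat.Agent.P3G.GammaAut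

local notation "Γ" => (AlgebraicClosure ℚ ≃ₐ[ℚ] AlgebraicClosure ℚ)

variable {A : ValuationSubring Qb} {N : ℕ} [NeZero N] {ℓ : ℕ}
  {L : IntermediateField ℚ Qb} (hL : ∀ (τ : Γ) (x : Qb), x ∈ L → τ x ∈ L)
  {σ : Γ} (hσ : σ ∈ A.decompositionSubgroup ℚ)

/-! ### the ring-level facts, in the shapes of `isTwist_of_chg` -/

/-- `hτθ` : `g_σ` is semilinear over `σ|_{O_L}` -/
theorem ffMap_galLvl_algebraMap (o : OL A L) :
    ffMap (galLvl L hL σ) N (algebraMap (OL A L) (FK N L) o)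
      = algebraMap (OL A L) (FK N L) (baseGal L hL hσ o) :=
  ffMap_algebraMap_base (galLvl L hL σ) N (baseRing A L) (baseRing A L) (galLvl_mem L hL hσ) o

/-- `hσ` of `IsTwist` : `ι ∘ σ|_{O_L} = σ ∘ ι` -/
theorem ιK_baseGal (x : OL A L) :
    ιK A L (baseGal L hL hσ x) = ((σ : GQ) : Qb →+* Qb) (ιK A L x) := rfl

/-- the twisted frame: `g_σ (ε_L i) = incl (σ ε₁ i)` -/
theorem ffMap_galLvl_εL (F : Frame A N) (h0 : K0 A ≤ L) (i : Fin F.g) :
    ffMap (galLvl L hL σ) N ((F.εL h0 i : ↥(B0K A N L)) : FK N L)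
      = ((midIncl A N h0 (LevelHyp.εt F hσ i) : ↥(B0K A N L)) : FK N L) := by
  have h := congrArg Subtype.val (LevelHyp.midGal_εL F h0 hL hσ i)
  rw [← h]
  rfl

/-! ### the twist -/

section Twist

variable [IsDiscreteValuationRing (OL A L)] (hA : A.LiesOverPrime ℓ) (h0 : K0 A ≤ L)
  {ϖ : OL A L} (hϖ : IsLocalRing.maximalIdeal (OL A L) = Ideal.span {ϖ})
  {Rg : Subring (FK N L)}
  (C : Charts (algebraMap (OL A L) (FK N L) ϖ) (BpK A N L).toSubring (BmK A N L).toSubring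
    (B0K A N L).toSubring Rg)
  {e : ℕ} (he : 0 < e) (hℓe : Associated ((ℓ : OL A L)) (ϖ ^ e))
  {Jb : Type} [AddCommGroup Jb]
  {Λ : Jb → Line (algebraMap (OL A L) (FK N L) ϖ) (BpK A N L).toSubring (BmK A N L).toSubring
    (B0K A N L).toSubring Rg → Prop}
  (hΛ : LineSys C Λ) (F : Frame A N) (m : ℕ)

/-- **Field `htwist` at a stable level**: the situation `(L, m + 1)` is `IsTwist`-related to itself
over `σ ∈ D_A`, with the twisted base frame `LevelHyp.εt F hσ = σ ε₁`. -/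
theorem isTwist_level
    (H H' : Hyp (mS (OL A L) ϖ ℓ m)
      (mapS (Quo (OL A L) ℓ (m + 1)) (Subalgebra.inclusion (BpK_le_B0K A N L)))
      (mapS (Quo (OL A L) ℓ (m + 1)) (Subalgebra.inclusion (BmK_le_B0K A N L)))
      (epsS (Quo (OL A L) ℓ (m + 1)) (F.εL h0)))
    (act : Jb → Jb)
    (hκ : ∀ z u, kappa Λ (kOf e m) z u →
      kappa Λ (kOf e m) (act z) (ffMap (galLvl L hL σ) N u)) :
    (sit (Jb := Jb) (BpK_le_B0K A N L) (BmK_le_B0K A N L) C (isLevelRing A L ℓ)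
      (mem_maximalIdeal_iff A L) hA hϖ he hℓe hΛ (F.εL h0) (jK A h0) m H).IsTwist
      (sit (Jb := Jb) (BpK_le_B0K A N L) (BmK_le_B0K A N L) C (isLevelRing A L ℓ)
        (mem_maximalIdeal_iff A L) hA hϖ he hℓe hΛ (F.εL h0) (jK A h0) m H')
      (ip₁ A N) (im₁ A N) F.ε ((σ : GQ) : Qb →+* Qb) act (LevelHyp.εt F hσ) := by
  have hch := chartHom_level (LevelBasis.lvlIncl h0) N (baseRing A (K0 A)) (baseRing A L)
    (LevelBasis.lvlIncl_mem A h0)
  refine isTwist_of_chg (BpK_le_B0K A N L) (BmK_le_B0K A N L) C (isLevelRing A L ℓ)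
    (mem_maximalIdeal_iff A L) hA hϖ he hℓe hΛ (F.εL h0) (jK A h0) m
    (BpK_le_B0K A N L) (BmK_le_B0K A N L) C (isLevelRing A L ℓ)
    (mem_maximalIdeal_iff A L) hϖ he hℓe hΛ (F.εL h0) (jK A h0) H H'
    (finIncl A N h0) hch.alg_p (infIncl A N h0) hch.alg_m (midIncl A N h0) hch.alg_0
    hch.comm_p hch.comm_m (fun _ => rfl)
    (baseGal L hL hσ) (ffMap (galLvl L hL σ) N) (ffMap_galLvl_algebraMap hL hσ)
    (fun x hx => ffMap_mem_Rfin (galLvl L hL σ) N _ _ (galLvl_mem L hL hσ) hx)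
    (fun x hx => ffMap_mem_Rinf (galLvl L hL σ) N _ _ (galLvl_mem L hL hσ) hx)
    (fun x hx => ffMap_mem_Rmid (galLvl L hL σ) N _ _ (galLvl_mem L hL hσ) hx)
    (quoMap (baseGal L hL hσ) ℓ (m + 1)) (fun o => quoMap_red (baseGal L hL hσ) (m + 1) o)
    (fun s hs => quoMap_mem_mS_of_mem_decomposition (isLevelRing A L ℓ)
      (mem_maximalIdeal_iff A L) hϖ (isLevelRing A L ℓ) (mem_maximalIdeal_iff A L) hϖ
      (baseGal L hL hσ) hσ (ιK_baseGal hL hσ) m hs)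
    (LevelHyp.εt F hσ) (ffMap_galLvl_εL hL hσ F h0)
    ((σ : GQ) : Qb →+* Qb) (ιK_baseGal hL hσ) act hκ

include hσ in
/-- the cocycle part `hκ` of `isTwist_level` from the line-level equivariance (the hypothesis of
helper21's `LevelEquivariant.kappa_levelFF_smul`), for the Gauss ring `W_L` -/
theorem hκ_of_lines [IsFractionRing (OL A L) (Lvl L)]
    (hstar : Fermat.Agent.N4.Setting.StarStatement (Lvl L) N (baseRing A L))
    (hϖi : Irreducible ϖ)
    {Λ₀ : Jb → Line (algebraMap (OL A L) (FK N L) ϖ) (BpK A N L).toSubring (BmK A N L).toSubring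
      (B0K A N L).toSubring (WK A N L) → Prop} (act : Jb → Jb)
    (hΛσ : ∀ z ℒ, Λ₀ z ℒ → ∃ ℒ', Λ₀ (act z) ℒ' ∧
      (∀ x ∈ ℒ.Lp, levelFF L hL N σ • x ∈ ℒ'.Lp) ∧
      (∀ x ∈ ℒ.Lm, levelFF L hL N σ • x ∈ ℒ'.Lm) ∧ (∀ x ∈ ℒ.L0, levelFF L hL N σ • x ∈ ℒ'.L0))
    (k : ℕ) (z : Jb) (u : FK N L) (h : kappa Λ₀ k z u) :
    kappa Λ₀ k (act z) (ffMap (galLvl L hL σ) N u) := by
  rw [ffMap_galLvl]
  exact LevelEquivariant.kappa_levelFF_smul L hL N hstar hσ hϖi act hΛσ h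

/-- **Field `htwist` at a stable level, from the line-level equivariance** (`Rg = W_L`, the charts
of `GaussN4.charts_of_star`). -/
theorem isTwist_level_of_lines [IsFractionRing (OL A L) (Lvl L)]
    (hstar : Fermat.Agent.N4.Setting.StarStatement (Lvl L) N (baseRing A L))
    (hϖi : Irreducible ϖ)
    (C₀ : Charts (algebraMap (OL A L) (FK N L) ϖ) (BpK A N L).toSubring (BmK A N L).toSubring
      (B0K A N L).toSubring (WK A N L))
    {Λ₀ : Jb → Line (algebraMap (OL A L) (FK N L) ϖ) (BpK A N L).toSubring (BmK A N L).toSubring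
      (B0K A N L).toSubring (WK A N L) → Prop} (hΛ₀ : LineSys C₀ Λ₀)
    (H H' : Hyp (mS (OL A L) ϖ ℓ m)
      (mapS (Quo (OL A L) ℓ (m + 1)) (Subalgebra.inclusion (BpK_le_B0K A N L)))
      (mapS (Quo (OL A L) ℓ (m + 1)) (Subalgebra.inclusion (BmK_le_B0K A N L)))
      (epsS (Quo (OL A L) ℓ (m + 1)) (F.εL h0)))
    (act : Jb → Jb)
    (hΛσ : ∀ z ℒ, Λ₀ z ℒ → ∃ ℒ', Λ₀ (act z) ℒ' ∧
      (∀ x ∈ ℒ.Lp, levelFF L hL N σ • x ∈ ℒ'.Lp) ∧
      (∀ x ∈ ℒ.Lm, levelFF L hL N σ • x ∈ ℒ'.Lm) ∧ (∀ x ∈ ℒ.L0, levelFF L hL N σ • x ∈ ℒ'.L0)) :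
    (sit (Jb := Jb) (BpK_le_B0K A N L) (BmK_le_B0K A N L) C₀ (isLevelRing A L ℓ)
      (mem_maximalIdeal_iff A L) hA hϖ he hℓe hΛ₀ (F.εL h0) (jK A h0) m H).IsTwist
      (sit (Jb := Jb) (BpK_le_B0K A N L) (BmK_le_B0K A N L) C₀ (isLevelRing A L ℓ)
        (mem_maximalIdeal_iff A L) hA hϖ he hℓe hΛ₀ (F.εL h0) (jK A h0) m H')
      (ip₁ A N) (im₁ A N) F.ε ((σ : GQ) : Qb →+* Qb) act (LevelHyp.εt F hσ) :=
  isTwist_level hL hσ hA h0 hϖ C₀ he hℓe hΛ₀ F m H H' act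
    (hκ_of_lines hL hσ hstar hϖi act hΛσ (kOf e m))

end Twist

end Fermat.Agent.S19.Geo.LevelSitTwistInst
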