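/-
S19 / GEO, [INST] field `htwist` at the concrete family (helper24; dispatch #2406/#2434):
**`GeoFamily.htwist` verbatim for `InstanceLevels.X`.**

For the concrete situations `X hℓ hA hℓN fr hΛ E m` of helper8's `Geo/InstanceLevels.lean` (level
`lvl A E = bigLevel A E`, `E` a Galois-stable number field; generic system of lines `Λ E`), every
`σ` in the decomposition group of `A` is a `σ`-semilinear twist `X E m → X E m` moving the frame to
the image of the BASE-LEVEL family `LevelHyp.εt fr hσ = σ ε₁` (which depends on neither `E` nor `m`),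
over `σ` on `ℚ̄` and `galActJ N σ` on the classes (`LevelSitTwistInst.isTwist_level`; the level is
Galois-stable, so `E' := E`).

The only hypothesis left is the compatibility of the lines with `σ`
(`LevelLinesHom.LinesHom` for `phi (lvl A E) (lvl_stable A E) N σ`, [LINES]
`LevelLinesInst.linesHom_gal_lvl`) — the same hypothesis as `InstanceInertia.hinertia_X`.
-/
import Mathlib
import Fermat.Agent.S19.Geo.InstanceLevels
import Fermat.Agent.S19.Geo.LevelSitTwistInst
import Fermat.Agent.S19.Geo.LevelLinesHom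
import Fermat.Agent.S19.Abs.TopWire

set_option autoImplicit false
set_option linter.unusedSectionVars false
set_option linter.style.haveILetI false

open ModularCurve AlgebraicCurve

noncomputable section

namespace Fermat.Agent.S19.Geo.InstanceTwist

open Fermat.Agent.S19.Abs Fermat.Agent.S19.Coord Fermat.Agent.S19.Cech
open Fermat.Agent.N4.Setting Fermat.Agent.N4.BaseDescent
open Fermat.Agent.N4F.C.Levels Fermat.Agent.N4F.C.LevelCharts
  Fermat.Agent.N4F.C.Galois
  Fermat.Agent.P3G.Gamma Fermat.Agent.P3G.GammaBase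
  Fermat.Agent.S19.Cech.LevelBasis Fermat.Agent.S19.Cech.LevelBasisBig
  Fermat.Agent.S19.Cech.BaseQuotLevel
  Fermat.Agent.S19.Cech.Cocycle Fermat.Agent.S19.Cech.CoordOfLines
  Fermat.Agent.S19.Geo.BaseLevel Fermat.Agent.S19.Geo.LevelSitMaps
  Fermat.Agent.S19.Geo.LevelLinesHom Fermat.Agent.S19.Geo.LevelEquivariant
  Fermat.Agent.S19.Geo.LevelSitTwistInst Fermat.Agent.S19.Geo.InstanceLevels

variable {A : ValuationSubring Qb} {N : ℕ} [NeZero N] {ℓ : ℕ}
  (hℓ : ℓ.Prime) (hA : A.LiesOverPrime ℓ) (hℓN : ¬ ℓ ∣ N) (fr : Frame A N)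
  {Λ : ∀ E : Lv, JZero N → LineE hℓ hA N E → Prop}
  (hΛ : ∀ E, LineSys (charts hℓ hA hℓN E) (Λ E))

/-- `σ` in the decomposition group is a twist of `X E m` to itself with the twisted base frame
`LevelHyp.εt fr hσ`, given `LinesHom` for this `σ` at this level. -/
theorem isTwist_X (E : Lv) (m : ℕ) {σ : GQ} (hσ : σ ∈ A.decompositionSubgroup ℚ)
    (hΛσ : LinesHom ((phi (lvl A E) (lvl_stable A E) N σ : FE A N E ≃+* FE A N E) :
      FE A N E →+* FE A N E) (Λ E) (Λ E) (galActJ N σ)) :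
    (X hℓ hA hℓN fr hΛ E m).IsTwist (X hℓ hA hℓN fr hΛ E m) (ip₁ A N) (im₁ A N) fr.ε
      ((σ : GQ) : Qb →+* Qb) (galActJ N σ) (LevelHyp.εt fr hσ) := by
  haveI := dvr_lvl hℓ hA E
  refine isTwist_level (lvl_stable A E) hσ hA (K0_le_lvl A E) (maximalIdeal_eq hℓ hA E)
    (charts hℓ hA hℓN E) (ram_pos hℓ hA E) (associated_ram hℓ hA E) (hΛ E) fr m
    (hyp_lvl hℓ hA hℓN fr E m) (hyp_lvl hℓ hA hℓN fr E m) (galActJ N σ) ?_
  intro z u hu
  obtain ⟨v, T⟩ := exists_equivariant_level (lvl A E) (lvl_stable A E) N hσ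
    (irreducible_unif hℓ hA E)
  rw [ffMap_galLvl]
  exact kappa_map_equivariant T (charts hℓ hA hℓN E) hΛσ le_rfl hu

/-- **Field `htwist` of `GeoFamily`** for `InstanceLevels.X`, from `LinesHom` for the decomposition
group (the hypothesis shared with `InstanceInertia.hinertia_X`). -/
theorem htwist_X
    (hΛσ : ∀ E, ∀ σ ∈ A.decompositionSubgroup ℚ,
      LinesHom ((phi (lvl A E) (lvl_stable A E) N σ : FE A N E ≃+* FE A N E) :
        FE A N E →+* FE A N E) (Λ E) (Λ E) (galActJ N σ)) :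
    ∀ σ ∈ A.decompositionSubgroup ℚ, ∃ εt : Fin fr.g → A0 A N, ∀ E m,
      ∃ E', (X hℓ hA hℓN fr hΛ E m).IsTwist (X hℓ hA hℓN fr hΛ E' m) (ip₁ A N) (im₁ A N) fr.ε
        ((σ : GQ) : Qb →+* Qb) (galActJ N σ) εt :=
  fun σ hσ => ⟨LevelHyp.εt fr hσ, fun E m =>
    ⟨E, isTwist_X hℓ hA hℓN fr hΛ E m hσ (hΛσ E σ hσ)⟩⟩

end Fermat.Agent.S19.Geo.InstanceTwist
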