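/-
S19, geometric layer (helper4): **converse of `LevelDiv.levelDiv_eq_ord`** (item ⚠(5) of the
[WIRE]/[INST] crib): if the push-down `levelDiv K D` of a divisor `D` of `Q̄·F_N` with `K`-rational
support is the divisor of a function `s` of the level `K`, then `D` is the divisor of `levK s`; in
particular `D` is principal.
-/
import Mathlib
import Fermat.Agent.S19.Cech.LevelDiv

set_option autoImplicit false
set_option linter.unusedSectionVars false
set_option linter.style.haveILetI false
set_option synthInstance.maxHeartbeats 400000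
set_option maxHeartbeats 800000

open ModularCurve AlgebraicCurve
open Fermat.Agent.N4.Setting Fermat.Agent.S24
open Fermat.Agent.S24.PlaceDeriv (ResidueTrivial)

noncomputable section

namespace Fermat.Agent.S19.Geo.LevelDivPrincipal

open Fermat.Agent.N4F.C Fermat.Agent.N4F.C.Levels Fermat.Agent.S19.Cech.LevelDiv

variable {N : ℕ} [NeZero N] (K : IntermediateField ℚ Qb)

/-- A function of the level which is a unit at the restriction of `P` is a unit at `P`
(no rationality hypothesis). -/
theorem ord_levK_eq_zero_of_restrictK (P : Place Qb (Fb N)) {s : FF (Lvl K) N} (hs : s ≠ 0)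
    (h : (restrictK N K P).ord s = 0) : P.ord (levK N K s) = 0 := by
  have hs' : levK N K s ≠ 0 := fun h0 => hs ((levK N K).injective (h0.trans (map_zero _).symm))
  have h1 : s ∈ (restrictK N K P).toValuationSubring :=
    (Fermat.Agent.S24.mem_iff_ord_nonneg _ hs).mpr (le_of_eq h.symm)
  have h2 : s⁻¹ ∈ (restrictK N K P).toValuationSubring :=
    (Fermat.Agent.S24.mem_iff_ord_nonneg _ (inv_ne_zero hs)).mpr (by rw [Place.ord_inv, h, neg_zero])
  have h3 := (Fermat.Agent.S24.mem_iff_ord_nonneg P hs').mp ((mem_restrictK_iff N K P s).mp h1)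
  have h4 := (Fermat.Agent.S24.mem_iff_ord_nonneg P (inv_ne_zero hs')).mp
    (by rw [← map_inv₀]; exact (mem_restrictK_iff N K P s⁻¹).mp h2)
  rw [Place.ord_inv] at h4
  omega

/-- **Converse of (L2).**  If `levelDiv K D = div_K s` and the support of `D` is `K`-rational, then
`D = div (levK s)`. -/
theorem eq_ord_levK_of_levelDiv_eq_ord (D : Divisor Qb (Fb N))
    (hrat : ∀ P ∈ D.support, ResidueTrivial (restrictK N K P))
    {s : FF (Lvl K) N} (hs : s ≠ 0)
    (h : ∀ v : Place (Lvl K) (FF (Lvl K) N), levelDiv K D v = v.ord s) (P : Place Qb (Fb N)) :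
    D P = P.ord (levK N K s) := by
  by_cases hP : ResidueTrivial (restrictK N K P)
  · rw [← levelDiv_restrictK K D hrat P hP, h, ord_levK_restrictK N K P hP]
  · have hDP : D P = 0 := by
      by_contra hne
      exact hP (hrat P (Finsupp.mem_support_iff.mpr hne))
    have hv : (restrictK N K P).ord s = 0 := by
      rw [← h]
      by_contra hne
      obtain ⟨P', hP', hPP'⟩ := exists_of_levelDiv_ne_zero K D hne
      exact hP (hPP' ▸ hrat P' hP')
    rw [hDP, ord_levK_eq_zero_of_restrictK K P hs hv]

/-- If the push-down of `D` (with `K`-rational support) is principal at the level `K`, then `D` is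
principal. -/
theorem isPrincipal_of_levelDiv (D : Divisor Qb (Fb N))
    (hrat : ∀ P ∈ D.support, ResidueTrivial (restrictK N K P))
    (h : Divisor.IsPrincipal (levelDiv K D)) : Divisor.IsPrincipal D := by
  obtain ⟨s, hs, hD⟩ := h
  refine ⟨levK N K s, fun h0 => hs ((levK N K).injective (h0.trans (map_zero _).symm)), ?_⟩
  exact eq_ord_levK_of_levelDiv_eq_ord K D hrat hs hD

/-- Class form: a degree-zero divisor with `K`-rational support whose push-down is principal has
trivial class in `J₀(N)(Q̄)`. -/
theorem mk_eq_zero_of_levelDiv (D : Divisor.degZero (K := Qb) (F := Fb N))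
    (hrat : ∀ P ∈ (D : Divisor Qb (Fb N)).support, ResidueTrivial (restrictK N K P))
    (h : Divisor.IsPrincipal (levelDiv K (D : Divisor Qb (Fb N)))) :
    (Pic0.mk D : JZero N) = 0 := by
  show (QuotientAddGroup.mk D : JZero N) = 0
  rw [QuotientAddGroup.eq_zero_iff, AddSubgroup.mem_addSubgroupOf]
  exact isPrincipal_of_levelDiv K _ hrat h

end Fermat.Agent.S19.Geo.LevelDivPrincipal
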