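/-
S19 / GEO, leaf [IDX] (helper17; field map v2.1 of helper22): **the index side of
`CoordFamily.levelCoordSystem`.**

* `Lv` : the type of levels = `Gal(ℚ̄/ℚ)`-stable number fields `E ⊆ ℚ̄`; `Lv.le`, `Lv.sup`,
  `Lv.bot`, `Lv.hdir` (directedness: the compositum of two stable number fields is one);
* `lvl A E = bigLevel A E = E(μ_m : ℓ ∤ m)` : the level attached to `E : Lv`; `lvl_mono`,
  `K0_le_lvl`, `le_lvl`, `lvl_stable` (stable under `Gal(ℚ̄/ℚ)`), `K0_stable`;
  goodness: `isDiscreteValuationRing_lvl`, `isAlgClosed_residueField_lvl`, `levelPack_lvl`,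
  `goodBase_lvl` (from helper26's `LevelBasisBig` / helper28's `Gamma`); a CHOSEN uniformiser
  `unif hℓ hA L` of `A ∩ lvl A L` with `maximalIdeal_eq_span_unif`, and the absolute ramification
  index `ramIdx hℓ hA L` with `ramIdx_pos`, `associated_natCast_unif_pow` (`ℓ ~ ϖ^e`) — the
  arguments `hϖ`, `he`, `hℓe` of `LevelSit.sit`;
* `inertia_apply_ιK` / **`hfixed_lvl`** / **`hfixed_of_sit`** : the obligation `hfixed` of
  `CoordFamily.levelCoordSystem` in its exact binder shape, for any family of situations whose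
  base rings embed into the levels `lvl A L` (e.g. `ι = BaseQuotLevel.ιK A (lvl A L)`);
* **`exists_lv_of_finite`** / `exists_lv_ge_of_finite` : finitely many constants, functions and places
  are rational over `lvl A L` for some `L : Lv` (above any given `L₀`) — input of `hex`.
-/
import Mathlib
import Fermat.Agent.S19.Geo.LevelField
import Fermat.Agent.S19.Cech.LevelBasisBig
import Fermat.Agent.S19.Cech.BaseQuotLevel
import Fermat.Agent.S19.Cech.CoordFamily
import Fermat.Agent.S19.Cech.DvrExt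

set_option autoImplicit false
set_option linter.style.haveILetI false
set_option linter.unusedSectionVars false

open AlgebraicCurve ModularCurve
open Fermat.Agent.N4.BigDVR Fermat.Agent.N4.Setting
open Fermat.Agent.N4F.C Fermat.Agent.N4F.C.Levels Fermat.Agent.N4F.C.LevelCharts
open Fermat.Agent.S24.PlaceDeriv (ResidueTrivial)
open Fermat.Agent.P3G.Gamma Fermat.Agent.P3G.GammaBase
open Fermat.Agent.N4F.C.ChartFactsProof

noncomputable section

namespace Fermat.Agent.S19.Geo.LevelIndex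

open Fermat.Agent.S19.Cech.BaseQuotLevel Fermat.Agent.S19.Cech.LevelBasis
  Fermat.Agent.S19.Cech.CoordFamily

local notation "Γ" => (AlgebraicClosure ℚ ≃ₐ[ℚ] AlgebraicClosure ℚ)

/-! ### The index type: Galois-stable number fields -/

/-- **The levels**: `Gal(ℚ̄/ℚ)`-stable number fields inside `ℚ̄`. -/
def Lv : Type :=
  {E : IntermediateField ℚ Qb // FiniteDimensional ℚ E ∧ ∀ (τ : Γ) (x : Qb), x ∈ E → τ x ∈ E}

namespace Lv

/-- the underlying number field -/
abbrev field (L : Lv) : IntermediateField ℚ Qb := L.1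

instance finiteDimensional (L : Lv) : FiniteDimensional ℚ L.field := L.2.1

theorem stable (L : Lv) : ∀ (τ : Γ) (x : Qb), x ∈ L.field → τ x ∈ L.field := L.2.2

/-- the order on the levels: inclusion of the number fields -/
def le (L L' : Lv) : Prop := L.field ≤ L'.field

theorem le_refl (L : Lv) : le L L := _root_.le_refl _

theorem le_trans {L L' L'' : Lv} (h : le L L') (h' : le L' L'') : le L L'' :=
  _root_.le_trans h h'

/-- the smallest level `ℚ` -/
def bot : Lv :=
  ⟨⊥, inferInstance, fun τ x hx => by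
    obtain ⟨q, rfl⟩ := IntermediateField.mem_bot.1 hx
    rw [AlgEquiv.commutes]
    exact IntermediateField.algebraMap_mem _ q⟩

theorem bot_le (L : Lv) : le bot L := _root_.bot_le

/-- the compositum of two stable number fields is stable -/
theorem sup_stable {E E' : IntermediateField ℚ Qb}
    (hE : ∀ (τ : Γ) (x : Qb), x ∈ E → τ x ∈ E) (hE' : ∀ (τ : Γ) (x : Qb), x ∈ E' → τ x ∈ E')
    (τ : Γ) (x : Qb) (hx : x ∈ E ⊔ E') : τ x ∈ E ⊔ E' := by
  have h : E ⊔ E' ≤ (E ⊔ E').comap (τ : Qb →ₐ[ℚ] Qb) :=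
    sup_le (fun y hy => show τ y ∈ E ⊔ E' from (le_sup_left : E ≤ E ⊔ E') (hE τ y hy))
      (fun y hy => show τ y ∈ E ⊔ E' from (le_sup_right : E' ≤ E ⊔ E') (hE' τ y hy))
  exact h hx

/-- the compositum of two levels -/
def sup (L L' : Lv) : Lv :=
  ⟨L.field ⊔ L'.field, inferInstance, sup_stable L.stable L'.stable⟩

theorem le_sup_left (L L' : Lv) : le L (sup L L') := _root_.le_sup_left

theorem le_sup_right (L L' : Lv) : le L' (sup L L') := _root_.le_sup_right

/-- **`hdir` of `CoordFamily.levelCoordSystem`.** -/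
theorem hdir : ∀ L L' : Lv, ∃ L'' : Lv, le L L'' ∧ le L' L'' :=
  fun L L' => ⟨sup L L', le_sup_left L L', le_sup_right L L'⟩

/-- a stable number field as a level -/
def mk' (E : IntermediateField ℚ Qb) (hfin : FiniteDimensional ℚ E)
    (hE : ∀ (τ : Γ) (x : Qb), x ∈ E → τ x ∈ E) : Lv := ⟨E, hfin, hE⟩

@[simp] theorem mk'_field (E : IntermediateField ℚ Qb) (hfin : FiniteDimensional ℚ E)
    (hE : ∀ (τ : Γ) (x : Qb), x ∈ E → τ x ∈ E) : (mk' E hfin hE).field = E := rfl

end Lv

/-! ### The level of an index -/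

section Level

variable (A : ValuationSubring Qb)

/-- **The level of `L : Lv`**: `lvl A L = L(μ_m : ℓ ∤ m)`. -/
def lvl (L : Lv) : IntermediateField ℚ Qb := bigLevel A L.field

theorem lvl_def (L : Lv) : lvl A L = bigLevel A L.field := rfl

theorem lvl_bot : lvl A Lv.bot = K0 A := rfl

/-- monotonicity of the level -/
theorem lvl_mono {L L' : Lv} (h : Lv.le L L') : lvl A L ≤ lvl A L' := bigLevel_mono A h

theorem le_lvl (L : Lv) : L.field ≤ lvl A L := le_bigLevel A L.field

/-- the base level lies in every level -/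
theorem K0_le_lvl (L : Lv) : K0 A ≤ lvl A L := K0_le_bigLevel A L.field

theorem goodRoots_subset_lvl (L : Lv) : ∀ ξ ∈ goodRoots A, ξ ∈ lvl A L :=
  goodRoots_subset_bigLevel A L.field

variable {A}

/-- **the levels are stable under `Gal(ℚ̄/ℚ)`** (in particular under `D_A`) -/
theorem lvl_stable (L : Lv) : ∀ (τ : Γ) (x : Qb), x ∈ lvl A L → τ x ∈ lvl A L :=
  fun τ _ hx => apply_mem_bigLevel (A := A) L.field L.stable τ hx

/-- the base level is stable under `Gal(ℚ̄/ℚ)` (in particular under `D_A`) -/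
theorem K0_stable : ∀ (τ : Γ) (x : Qb), x ∈ K0 A → τ x ∈ K0 A :=
  lvl_stable (A := A) Lv.bot

variable {ℓ : ℕ} (hℓ : ℓ.Prime) (hA : A.LiesOverPrime ℓ)

include hℓ hA

/-- the base ring `A ∩ lvl A L` is a discrete valuation ring -/
theorem isDiscreteValuationRing_lvl (L : Lv) :
    IsDiscreteValuationRing ↥(baseRing A (lvl A L)) :=
  (bigLevel_spec hℓ hA L.field).1

/-- `ℓ` is not a unit of `A ∩ lvl A L` -/
theorem not_isUnit_natCast_lvl (L : Lv) : ¬ IsUnit ((ℓ : ℕ) : ↥(baseRing A (lvl A L))) :=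
  (bigLevel_spec hℓ hA L.field).2.1

/-- the residue field of `A ∩ lvl A L` is algebraically closed -/
theorem isAlgClosed_residueField_lvl (L : Lv) :
    haveI := isDiscreteValuationRing_lvl hℓ hA L
    IsAlgClosed (IsLocalRing.ResidueField ↥(baseRing A (lvl A L))) :=
  (bigLevel_spec hℓ hA L.field).2.2.1

/-- the residue field of `A ∩ lvl A L` is that of `A` -/
theorem bijective_residueField_map_lvl (L : Lv) :
    haveI := isDiscreteValuationRing_lvl hℓ hA L
    Function.Bijective (IsLocalRing.ResidueField.map (trIncl A (lvl A L))) :=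
  (bigLevel_spec hℓ hA L.field).2.2.2

/-- a uniformiser exists at every level -/
theorem exists_irreducible_lvl (L : Lv) : ∃ ϖ : ↥(baseRing A (lvl A L)), Irreducible ϖ :=
  haveI := isDiscreteValuationRing_lvl hℓ hA L
  IsDiscreteValuationRing.exists_irreducible _

/-- **the chosen uniformiser** of `A ∩ lvl A L` -/
def unif (L : Lv) : ↥(baseRing A (lvl A L)) := Classical.choose (exists_irreducible_lvl hℓ hA L)

theorem irreducible_unif (L : Lv) : Irreducible (unif hℓ hA L) :=
  Classical.choose_spec (exists_irreducible_lvl hℓ hA L)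

/-- `hϖ` of `LevelSit.sit` -/
theorem maximalIdeal_eq_span_unif (L : Lv) :
    haveI := isDiscreteValuationRing_lvl hℓ hA L
    IsLocalRing.maximalIdeal ↥(baseRing A (lvl A L)) = Ideal.span {unif hℓ hA L} := by
  haveI := isDiscreteValuationRing_lvl hℓ hA L
  exact (irreducible_unif hℓ hA L).maximalIdeal_eq

theorem exists_ramIdx (L : Lv) :
    ∃ e : ℕ, 0 < e ∧ Associated (((ℓ : ℕ) : ↥(baseRing A (lvl A L)))) (unif hℓ hA L ^ e) := by
  haveI := isDiscreteValuationRing_lvl hℓ hA L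
  obtain ⟨v, e, he, hv⟩ := Fermat.Agent.S19.Cech.DvrExt.exists_unit_mul_pow_natCast A ℓ
    hℓ.ne_zero hA (lvl A L) (irreducible_unif hℓ hA L)
  refine ⟨e, he, v⁻¹, ?_⟩
  rw [hv, mul_comm (v : ↥(baseRing A (lvl A L))), mul_assoc, Units.mul_inv, mul_one]

/-- **the absolute ramification index** of the level: `ℓ ~ ϖ^e` -/
def ramIdx (L : Lv) : ℕ := Classical.choose (exists_ramIdx hℓ hA L)

/-- `he` of `LevelSit.sit` -/
theorem ramIdx_pos (L : Lv) : 0 < ramIdx hℓ hA L :=
  (Classical.choose_spec (exists_ramIdx hℓ hA L)).1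

/-- `hℓe` of `LevelSit.sit` -/
theorem associated_natCast_unif_pow (L : Lv) :
    Associated (((ℓ : ℕ) : ↥(baseRing A (lvl A L)))) (unif hℓ hA L ^ ramIdx hℓ hA L) :=
  (Classical.choose_spec (exists_ramIdx hℓ hA L)).2

variable {N : ℕ} [NeZero N] (hℓN : ¬ ℓ ∣ N)

include hℓN

/-- the levels are good bases -/
theorem goodBase_lvl (L : Lv) :
    haveI := isDiscreteValuationRing_lvl hℓ hA L
    GoodBase (Lvl (lvl A L)) N (baseRing A (lvl A L)) ℓ := by
  haveI := isDiscreteValuationRing_lvl hℓ hA L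
  exact goodBase_of_level hℓ (lvl A L) hℓN (not_isUnit_natCast_lvl hℓ hA L)

/-- **`LevelPack` at every level** (helper26's `levelPack_bigLevel`) -/
theorem levelPack_lvl (L : Lv) :
    haveI := isDiscreteValuationRing_lvl hℓ hA L
    LevelPack A N (lvl A L) := by
  haveI : IsDiscreteValuationRing ↥(baseRing A (bigLevel A L.field)) :=
    isDiscreteValuationRing_lvl hℓ hA L
  exact Fermat.Agent.S19.Cech.LevelBasisBig.levelPack_bigLevel hℓ hA hℓN L.field

end Level

/-! ### `hfixed` -/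

section Fixed

variable {A : ValuationSubring Qb} {ℓ : ℕ} (hℓ : ℓ.Prime) (hA : A.LiesOverPrime ℓ)

include hℓ hA

/-- an inertia element fixing the number field `L` fixes the level `lvl A L` pointwise -/
theorem inertia_apply_eq_of_mem_lvl (L : Lv) {σ : Γ} (hσ : σ ∈ A.inertiaSubgroupIn ℚ)
    (hE : ∀ y ∈ L.field, σ y = y) {x : Qb} (hx : x ∈ lvl A L) : σ x = x :=
  LevelField.apply_eq_of_mem_bigLevel hℓ hA L.field hσ hE hx

/-- … hence the image of `A ∩ lvl A L` in `ℚ̄` -/
theorem inertia_apply_ιK (L : Lv) {σ : Γ} (hσ : σ ∈ A.inertiaSubgroupIn ℚ)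
    (hE : ∀ y ∈ L.field, σ y = y) (x : ↥(baseRing A (lvl A L))) :
    σ (ιK A (lvl A L) x) = ιK A (lvl A L) x :=
  inertia_apply_eq_of_mem_lvl hℓ hA L hσ hE (Lvl.algebraMap_mem (lvl A L) (x : Lvl (lvl A L)))

/-- **`hfixed` for the canonical base rings** `O = A ∩ lvl A L`, `ι = ιK A (lvl A L)`. -/
theorem hfixed_lvl (L : Lv) :
    ∃ E : IntermediateField ℚ Qb, FiniteDimensional ℚ E ∧
      ∀ x : ↥(baseRing A (lvl A L)), ∀ σ ∈ A.inertiaSubgroupIn ℚ, (∀ y ∈ E, σ y = y) →
        σ (ιK A (lvl A L) x) = ιK A (lvl A L) x :=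
  ⟨L.field, L.2.1, fun x _ hσ hE => inertia_apply_ιK hℓ hA L hσ hE x⟩

/-- **`hfixed` of `CoordFamily.levelCoordSystem`, exact binder shape**, for any family of
situations indexed by `Lv` whose base rings have image in the levels `lvl A L`
(for `LevelSit.sit` with `ι := ιK A (lvl A L)` the hypothesis is
`fun L m x => Lvl.algebraMap_mem _ _`). -/
theorem hfixed_of_sit {Jb : Type} [AddCommGroup Jb] {g : ℕ} {O₁ : Type} [CommRing O₁]
    (X : Lv → (m : ℕ) → Sit ℓ A Jb g (m + 1) O₁)
    (hX : ∀ L m (x : (X L m).O), (X L m).ι x ∈ lvl A L) :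
    ∀ L, ∃ E : IntermediateField ℚ Qb, FiniteDimensional ℚ E ∧
      ∀ m x, ∀ σ ∈ A.inertiaSubgroupIn ℚ, (∀ y ∈ E, σ y = y) → σ ((X L m).ι x) = (X L m).ι x :=
  fun L => ⟨L.field, L.2.1, fun m x _ hσ hE =>
    inertia_apply_eq_of_mem_lvl hℓ hA L hσ hE (hX L m x)⟩

end Fixed

/-! ### Finitely many constants, functions and places are rational over some level -/

section Finite

variable {A : ValuationSubring Qb} {ℓ : ℕ} (hℓ : ℓ.Prime) (hA : A.LiesOverPrime ℓ)
  (N : ℕ) [NeZero N] (hℓN : ¬ ℓ ∣ N)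

include hℓ hA hℓN

/-- **All-in-one level above a given one**: finitely many constants `C ⊂ ℚ̄`, functions
`T ⊂ Fb N` and places `S` are rational over `lvl A L` for some `L : Lv` above `L₀`; functions of
`T` which are integral on the finite chart / the chart at infinity come from the charts of the
level. -/
theorem exists_lv_ge_of_finite (L₀ : Lv) (C : Finset Qb) (T : Finset (Fb N))
    (S : Finset (Place Qb (Fb N))) :
    ∃ L : Lv, Lv.le L₀ L ∧ (∀ c ∈ C, c ∈ L.field) ∧ (∀ c ∈ C, c ∈ lvl A L) ∧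
      (∀ t ∈ T, t ∈ Set.range (levK N (lvl A L))) ∧
      (∀ P ∈ S, ResidueTrivial (restrictK N (lvl A L) P)) ∧
      (∀ t ∈ T, t ∈ RtFin A N →
        ∃ x ∈ Rfin (Lvl (lvl A L)) N (baseRing A (lvl A L)), levK N (lvl A L) x = t) ∧
      (∀ t ∈ T, t ∈ RtInf A N →
        ∃ x ∈ Rinf (Lvl (lvl A L)) N (baseRing A (lvl A L)), levK N (lvl A L) x = t) := by
  classical
  obtain ⟨K₁, hK₁fin, hK₁⟩ := exists_finiteDimensional_level N T S
  have hfin : ∀ t : Fb N, ∃ K₀ : IntermediateField ℚ Qb, FiniteDimensional ℚ K₀ ∧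
      ∀ K : IntermediateField ℚ Qb, K₀ ≤ K → t ∈ RtFin A N →
        ∃ x ∈ Rfin (Lvl K) N (baseRing A K), levK N K x = t := by
    intro t
    by_cases ht : t ∈ RtFin A N
    · obtain ⟨K₀, h1, h2⟩ := exists_finiteDimensional_RtFin A N ht
      exact ⟨K₀, h1, fun K hK _ => h2 K hK⟩
    · exact ⟨⊥, inferInstance, fun _ _ h => absurd h ht⟩
  have hinf : ∀ t : Fb N, ∃ K₀ : IntermediateField ℚ Qb, FiniteDimensional ℚ K₀ ∧
      ∀ K : IntermediateField ℚ Qb, K₀ ≤ K → t ∈ RtInf A N →
        ∃ x ∈ Rinf (Lvl K) N (baseRing A K), levK N K x = t := by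
    intro t
    by_cases ht : t ∈ RtInf A N
    · obtain ⟨K₀, h1, h2⟩ := exists_finiteDimensional_RtInf A N ht
      exact ⟨K₀, h1, fun K hK _ => h2 K hK⟩
    · exact ⟨⊥, inferInstance, fun _ _ h => absurd h ht⟩
  choose E₁ hE₁fin hE₁ using hfin
  choose E₂ hE₂fin hE₂ using hinf
  haveI := hK₁fin
  haveI : Algebra.IsAlgebraic ℚ Qb := AlgebraicClosure.isAlgebraic ℚ
  haveI : FiniteDimensional ℚ (IntermediateField.adjoin ℚ (C : Set Qb)) :=
    IntermediateField.finiteDimensional_adjoin fun x _ =>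
      (Algebra.IsAlgebraic.isAlgebraic x).isIntegral
  haveI : FiniteDimensional ℚ (⨆ t ∈ T, E₁ t : IntermediateField ℚ Qb) :=
    IntermediateField.finiteDimensional_iSup_of_finset
  haveI : FiniteDimensional ℚ (⨆ t ∈ T, E₂ t : IntermediateField ℚ Qb) :=
    IntermediateField.finiteDimensional_iSup_of_finset
  -- the number field containing everything, then a Galois-stable one above it
  set K₂ : IntermediateField ℚ Qb :=
    IntermediateField.adjoin ℚ (C : Set Qb) ⊔ K₁ ⊔ (⨆ t ∈ T, E₁ t) ⊔ (⨆ t ∈ T, E₂ t) with hK₂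
  haveI : FiniteDimensional ℚ K₂ := by
    rw [hK₂]
    infer_instance
  obtain ⟨G, hG⟩ : K₂.FG := IntermediateField.essFiniteType_iff.mp inferInstance
  obtain ⟨E, hEfin, hGE, hEstab⟩ := exists_stable_numberField G
  have hK₂E : K₂ ≤ E := by
    rw [← hG, IntermediateField.adjoin_le_iff]
    exact fun t ht => hGE t (Finset.mem_coe.mp ht)
  -- the level: the compositum with `L₀`
  refine ⟨Lv.sup L₀ (Lv.mk' E hEfin hEstab), Lv.le_sup_left _ _, ?_⟩
  set L : Lv := Lv.sup L₀ (Lv.mk' E hEfin hEstab) with hL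
  have hEL : E ≤ L.field := Lv.le_sup_right L₀ (Lv.mk' E hEfin hEstab)
  have hK : K₂ ≤ lvl A L := (hK₂E.trans hEL).trans (le_lvl A L)
  have h1 : IntermediateField.adjoin ℚ (C : Set Qb) ≤ K₂ :=
    le_trans (le_trans le_sup_left le_sup_left) le_sup_left
  have h2 : K₁ ≤ lvl A L :=
    le_trans (le_trans (le_trans le_sup_right le_sup_left) le_sup_left) hK
  have h3 : (⨆ t ∈ T, E₁ t) ≤ lvl A L := le_trans (le_trans le_sup_right le_sup_left) hK
  have h4 : (⨆ t ∈ T, E₂ t) ≤ lvl A L := le_trans le_sup_right hK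
  have hC : ∀ c ∈ C, c ∈ L.field := fun c hc =>
    hEL (hK₂E (h1 (IntermediateField.subset_adjoin ℚ _ (Finset.mem_coe.mpr hc))))
  refine ⟨hC, fun c hc => le_lvl A L (hC c hc), (hK₁ _ h2).1, (hK₁ _ h2).2,
    fun t ht => hE₁ t _ (le_trans ?_ h3), fun t ht => hE₂ t _ (le_trans ?_ h4)⟩
  · exact le_iSup₂ (f := fun t _ => E₁ t) t ht
  · exact le_iSup₂ (f := fun t _ => E₂ t) t ht

/-- **All-in-one level** (`exists_lv_ge_of_finite` above `ℚ`; the same content as helper22's
`LevelField.exists_stable_bigLevel_of_finite` with the level exposed as `lvl A L`, `L : Lv`). -/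
theorem exists_lv_of_finite (C : Finset Qb) (T : Finset (Fb N)) (S : Finset (Place Qb (Fb N))) :
    ∃ L : Lv, (∀ c ∈ C, c ∈ lvl A L) ∧
      (∀ t ∈ T, t ∈ Set.range (levK N (lvl A L))) ∧
      (∀ P ∈ S, ResidueTrivial (restrictK N (lvl A L) P)) ∧
      (∀ t ∈ T, t ∈ RtFin A N →
        ∃ x ∈ Rfin (Lvl (lvl A L)) N (baseRing A (lvl A L)), levK N (lvl A L) x = t) ∧
      (∀ t ∈ T, t ∈ RtInf A N →
        ∃ x ∈ Rinf (Lvl (lvl A L)) N (baseRing A (lvl A L)), levK N (lvl A L) x = t) := by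
  obtain ⟨L, -, -, h1, h2, h3, h4, h5⟩ := exists_lv_ge_of_finite hℓ hA N hℓN Lv.bot C T S
  exact ⟨L, h1, h2, h3, h4, h5⟩

end Finite

end Fermat.Agent.S19.Geo.LevelIndex

end
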