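/-
S19 / GEO, leaf [KHOM] part 2 (helper6): **the cocycle hypotheses `hκ` of the glue lemmas
`LevelSitHom.isHom_of_chg` (helper27) / `LevelSitTwist.isTwist_of_chg` (helper3) in the vocabulary of
`LevelSit.lean`** (`O`-subalgebras `Bp Bm B0` of `F`, uniformiser `ϖ : O`, `kOf e m = e (m+1) - 1`),
from the abstract `LevelLinesHom.kappa_map`.

For the three maps of the geometric layer:
* `hκ_level`  : a map of levels `θ : O → O'`, `τ : F → F'` over `θ`, `θ ϖ = c₀ ϖ'ʳ`, `e' ≤ r e`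
  (level inclusion: `act = id`; also any semilinear map of levels);
* `hκ_prec`   : lowering the precision `m + 2 → m + 1` at a fixed level (`τ = id`);
* `hκ_galois` : an `Equivariant` isomorphism (`r = 1`, `e' = e`).
Each takes the line-level input `LinesHom τ Λ Λ' act` as a hypothesis.
`exponent_eq` : `e' = r e` in a domain (`ℓ ~ ϖᵉ`, `ℓ ~ ϖ'^{e'}`, `θ ϖ = c₀ ϖ'ʳ`, `c₀` a unit).
-/
import Fermat.Agent.S19.Geo.LevelSit
import Fermat.Agent.S19.Geo.LevelLinesHom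

set_option autoImplicit false
set_option linter.unusedSectionVars false

namespace Fermat.Agent.S19.Geo.LevelLinesHomSit

open Fermat.Agent.S19.Cech Fermat.Agent.S19.Cech.Cocycle Fermat.Agent.S19.Cech.CoordOfLines
  Fermat.Agent.S19.Cech.TransportAut Fermat.Agent.S19.Geo.LevelSit
  Fermat.Agent.S19.Geo.LevelLinesHom

section Level

variable {O O' : Type*} [CommRing O] [CommRing O'] {F F' : Type*} [CommRing F] [IsDomain F]
  [CommRing F'] [IsDomain F'] [Algebra O F] [Algebra O' F']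
  {Bp Bm B0 : Subalgebra O F} {Rg : Subring F} {Bp' Bm' B0' : Subalgebra O' F'} {Rg' : Subring F'}
  {ϖ : O} {ϖ' : O'} {Jb Jb' : Type*} [AddCommGroup Jb] [AddCommGroup Jb']

/-- a map of levels `(θ, τ)` with `θ ϖ = c₀ ϖ'ʳ` is a `ChartHom` (the constant `c` is the image of
`c₀ ∈ O'`, which lies in every `O'`-subalgebra) -/
theorem chartHom_of_level {θ : O →+* O'} {τ : F →+* F'}
    (hτθ : ∀ o, τ (algebraMap O F o) = algebraMap O' F' (θ o)) {c₀ : O'} {r : ℕ} (hr : 1 ≤ r)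
    (hθϖ : θ ϖ = c₀ * ϖ' ^ r) (hτ0 : ∀ x ∈ B0, τ x ∈ B0') (hτR : ∀ x ∈ Rg, τ x ∈ Rg') :
    ChartHom τ (algebraMap O F ϖ) (algebraMap O' F' ϖ') (algebraMap O' F' c₀) r
      B0.toSubring Rg B0'.toSubring Rg' where
  pos := hr
  map_ϖ := by rw [hτθ, hθϖ, map_mul, map_pow]
  c_mem := B0'.algebraMap_mem c₀
  map_0 := hτ0
  map_R := hτR

/-- the exponent inequality `kOf e' m' + 1 ≤ r (kOf e m + 1)` from `e' (m' + 1) ≤ r e (m + 1)` -/
theorem kOf_succ_le {e e' r : ℕ} (he : 0 < e) (hr : 1 ≤ r) {m m' : ℕ}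
    (h : e' * (m' + 1) ≤ r * (e * (m + 1))) : kOf e' m' + 1 ≤ r * (kOf e m + 1) := by
  rw [kOf_succ he]
  have h1 : 0 < r * (e * (m + 1)) := Nat.mul_pos hr (Nat.mul_pos he (Nat.succ_pos m))
  unfold kOf
  omega

/-- **`hκ` for a map of levels** (general precisions). -/
theorem hκ_level_gen
    (C' : Charts (algebraMap O' F' ϖ') Bp'.toSubring Bm'.toSubring B0'.toSubring Rg')
    {θ : O →+* O'} {τ : F →+* F'}
    (hτθ : ∀ o, τ (algebraMap O F o) = algebraMap O' F' (θ o)) {c₀ : O'} {r : ℕ} (hr : 1 ≤ r)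
    (hθϖ : θ ϖ = c₀ * ϖ' ^ r) (hτ0 : ∀ x ∈ B0, τ x ∈ B0') (hτR : ∀ x ∈ Rg, τ x ∈ Rg')
    {Λ : Jb → Line (algebraMap O F ϖ) Bp.toSubring Bm.toSubring B0.toSubring Rg → Prop}
    {Λ' : Jb' → Line (algebraMap O' F' ϖ') Bp'.toSubring Bm'.toSubring B0'.toSubring Rg' → Prop}
    {act : Jb → Jb'} (hΛ : LinesHom τ Λ Λ' act) {e e' : ℕ} (he : 0 < e) {m m' : ℕ}
    (h : e' * (m' + 1) ≤ r * (e * (m + 1))) :
    ∀ z u, kappa Λ (kOf e m) z u → kappa Λ' (kOf e' m') (act z) (τ u) := fun _ _ hu =>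
  kappa_map C' (chartHom_of_level hτθ hr hθϖ hτ0 hτR) hΛ (kOf_succ_le he hr h) hu

/-- **`hκ` for a map of levels at the same precision**: `e' ≤ r e` (in fact `e' = r e`,
`exponent_eq`). -/
theorem hκ_level
    (C' : Charts (algebraMap O' F' ϖ') Bp'.toSubring Bm'.toSubring B0'.toSubring Rg')
    {θ : O →+* O'} {τ : F →+* F'}
    (hτθ : ∀ o, τ (algebraMap O F o) = algebraMap O' F' (θ o)) {c₀ : O'} {r : ℕ} (hr : 1 ≤ r)
    (hθϖ : θ ϖ = c₀ * ϖ' ^ r) (hτ0 : ∀ x ∈ B0, τ x ∈ B0') (hτR : ∀ x ∈ Rg, τ x ∈ Rg')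
    {Λ : Jb → Line (algebraMap O F ϖ) Bp.toSubring Bm.toSubring B0.toSubring Rg → Prop}
    {Λ' : Jb' → Line (algebraMap O' F' ϖ') Bp'.toSubring Bm'.toSubring B0'.toSubring Rg' → Prop}
    {act : Jb → Jb'} (hΛ : LinesHom τ Λ Λ' act) {e e' : ℕ} (he : 0 < e) (hee' : e' ≤ r * e)
    (m : ℕ) : ∀ z u, kappa Λ (kOf e m) z u → kappa Λ' (kOf e' m) (act z) (τ u) :=
  hκ_level_gen C' hτθ hr hθϖ hτ0 hτR hΛ he (by
    rw [← mul_assoc]
    exact Nat.mul_le_mul_right _ hee')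

/-- **`hκ` for lowering the precision** `m + 2 → m + 1` at a fixed level (`τ = id`, `act = id`). -/
theorem hκ_prec (C : Charts (algebraMap O F ϖ) Bp.toSubring Bm.toSubring B0.toSubring Rg)
    {Λ : Jb → Line (algebraMap O F ϖ) Bp.toSubring Bm.toSubring B0.toSubring Rg → Prop}
    (e m : ℕ) : ∀ z u, kappa Λ (kOf e (m + 1)) z u → kappa Λ (kOf e m) z (RingHom.id F u) :=
  fun _ _ hu => kappa_mono_le C (kOf_le_kOf_succ e m) hu

/-- **`hκ` for an `Equivariant` isomorphism** (Galois), same ramification index and precision. -/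
theorem hκ_galois {φ : F ≃+* F'} {c d : F'}
    (T : Equivariant φ (algebraMap O F ϖ) (algebraMap O' F' ϖ') c d Bp.toSubring Bm.toSubring
      B0.toSubring Rg Bp'.toSubring Bm'.toSubring B0'.toSubring Rg')
    (C' : Charts (algebraMap O' F' ϖ') Bp'.toSubring Bm'.toSubring B0'.toSubring Rg')
    {Λ : Jb → Line (algebraMap O F ϖ) Bp.toSubring Bm.toSubring B0.toSubring Rg → Prop}
    {Λ' : Jb' → Line (algebraMap O' F' ϖ') Bp'.toSubring Bm'.toSubring B0'.toSubring Rg' → Prop}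
    {act : Jb → Jb'} (hΛ : LinesHom (φ : F →+* F') Λ Λ' act) (e m : ℕ) :
    ∀ z u, kappa Λ (kOf e m) z u → kappa Λ' (kOf e m) (act z) ((φ : F →+* F') u) :=
  fun _ _ hu => kappa_map_equivariant T C' hΛ le_rfl hu

end Level

/-! ### the ramification indices multiply -/

section Exponent

variable {O O' : Type*} [CommRing O] [CommRing O'] [IsDomain O'] {ϖ : O} {ϖ' : O'} {ℓ : ℕ}

/-- `ℓ ~ ϖᵉ` in `O`, `ℓ ~ ϖ'^{e'}` in `O'`, `θ ϖ = c₀ ϖ'ʳ` with `c₀` a unit: then `e' = r e`. -/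
theorem exponent_eq (θ : O →+* O') {e e' r : ℕ} {c₀ : O'} (hℓe : Associated ((ℓ : O)) (ϖ ^ e))
    (hℓe' : Associated ((ℓ : O')) (ϖ' ^ e')) (hθϖ : θ ϖ = c₀ * ϖ' ^ r) (hc₀ : IsUnit c₀)
    (h0 : ϖ' ≠ 0) (hu : ¬ IsUnit ϖ') : e' = r * e := by
  have h1 : Associated ((ℓ : O')) (ϖ' ^ (r * e)) := by
    have h2 : Associated (θ (ℓ : O)) (θ (ϖ ^ e)) := hℓe.map θ
    rw [map_natCast, map_pow, hθϖ, mul_pow, ← pow_mul] at h2
    refine h2.trans ?_
    obtain ⟨v, rfl⟩ := hc₀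
    exact associated_unit_mul_left _ _ (v.isUnit.pow e)
  have h3 : Associated (ϖ' ^ e') (ϖ' ^ (r * e)) := hℓe'.symm.trans h1
  exact le_antisymm ((pow_dvd_pow_iff h0 hu).1 h3.dvd) ((pow_dvd_pow_iff h0 hu).1 h3.symm.dvd)

end Exponent

end Fermat.Agent.S19.Geo.LevelLinesHomSit
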