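/-
S19 / GEO, support of the field `hsep` of `InstanceOfSit.GeoFamily` (helper6, referee of item 7):
**the separation axiom for the bundled situation `LevelSit.sit` of ONE level.**

`GeoFamily.hsep` speaks about ANY cocycle image `v` with `(X L₀ m).K z v` and
`(X L₀ m).H.coord v = 0`; the cocycle behind `v` may come from ANY line of `z` and ANY pair of
generators.  `KImg.coord_eq` moves the vanishing of the coordinates to the cocycle of CHOSEN
generators of a CHOSEN line `L` of `z` (the one whose `H¹`-torsion is bounded by `n₀`), and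
`SepWire.exists_isOne_mem_of_coord_eq_zero` (helper5) with `LevelSit.transport_level` /
`LevelSit.lift_level` gives a global generator of `L` as soon as `n₀ ≤ m`
(`kOf e m + 1 = e (m + 1) > m ≥ n₀`).

* `exists_isOne_mem_of_sit_coord_eq_zero` : one situation, conclusion "global generator of `L`";
* `eq_zero_of_sit_coord_eq_zero` : the same with `hprinc`, conclusion `z = 0`;
* `hsep_level` : the two clauses of `GeoFamily.hsep` for a fixed level, VERBATIM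
  (`(∀ m, ∃ v, K z v) ∧ ∃ m₀, ∀ m ≥ m₀, ∀ v, K z v → coord v = 0 → z = 0`), from ONE line `L` of `z`
  with `SepWire.BoundedTorsion L n₀` (`GaussN4.exists_lineBoundedTorsion`) and `hprinc`
  (`SepWireDiv.isPrincipal_of_isOne_mem` + `LevelDivPrincipal.mk_eq_zero_of_levelDiv`).
-/
import Mathlib
import Fermat.Agent.S19.Geo.LevelSit
import Fermat.Agent.S19.Cech.SepWireLines

set_option autoImplicit false
set_option linter.unusedSectionVars false

open TensorProduct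

namespace Fermat.Agent.S19.Geo.LevelSitSep

open Fermat.Agent.S19.Abs Fermat.Agent.S19.Coord Fermat.Agent.S19.Cech
  Fermat.Agent.S19.Cech.Cocycle Fermat.Agent.S19.Cech.CoordOfLines
  Fermat.Agent.S19.Cech.CoordFamily Fermat.Agent.S19.Cech.RedTuple
  Fermat.Agent.S19.Cech.BaseQuotLevel Fermat.Agent.S19.Cech.SepWireTensor
  Fermat.Agent.S19.Geo.LevelSit

variable {ℓ : ℕ} {A : ValuationSubring Qb} {Jb : Type} [AddCommGroup Jb]
variable {O : Type} [CommRing O] [IsLocalRing O] {F : Type} [CommRing F] [IsDomain F] [Algebra O F]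
  {Bp Bm B0 : Subalgebra O F} {Rg : Subring F} (hp : Bp ≤ B0) (hm : Bm ≤ B0) {ϖ : O}
  (C : Charts (algebraMap O F ϖ) Bp.toSubring Bm.toSubring B0.toSubring Rg)
  {ι : O →+* Qb} (hι : IsLevelRing A ℓ ι)
  (hloc : ∀ x : O, x ∈ IsLocalRing.maximalIdeal O ↔ ι x ∈ A.nonunits)
  (hA : A.LiesOverPrime ℓ) (hϖ : IsLocalRing.maximalIdeal O = Ideal.span {ϖ})
  {e : ℕ} (he : 0 < e) (hℓe : Associated ((ℓ : O)) (ϖ ^ e))
  {Λ : Jb → Line (algebraMap O F ϖ) Bp.toSubring Bm.toSubring B0.toSubring Rg → Prop}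
  (hΛ : LineSys C Λ) {g : ℕ} (ε₀ : Fin g → ↥B0) {O₁ : Type} [CommRing O₁] (j : O₁ →+* O) (m : ℕ)
  (H : Hyp (mS O ϖ ℓ m) (mapS (Quo O ℓ (m + 1)) (Subalgebra.inclusion hp))
      (mapS (Quo O ℓ (m + 1)) (Subalgebra.inclusion hm)) (epsS (Quo O ℓ (m + 1)) ε₀))

/-- the precision of the situation `(level, m)` exceeds every bound `n₀ ≤ m` -/
theorem lt_kOf_succ {e : ℕ} (he : 0 < e) (m : ℕ) {n₀ : ℕ} (hk : n₀ ≤ m) : n₀ < kOf e m + 1 := by
  rw [kOf_succ he]
  calc n₀ < m + 1 := Nat.lt_succ_of_le hk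
    _ = 1 * (m + 1) := (one_mul _).symm
    _ ≤ e * (m + 1) := Nat.mul_le_mul_right _ he

/-- **One situation.**  A cocycle image `v` of `z` (from ANY line and ANY generators) with
coordinates `0`, at a precision `m ≥ n₀` beyond the torsion bound of ONE line `L` of `z`, gives a
global generator of `L`. -/
theorem exists_isOne_mem_of_sit_coord_eq_zero {z : Jb}
    {L : Line (algebraMap O F ϖ) Bp.toSubring Bm.toSubring B0.toSubring Rg} (hL : Λ z L)
    {n₀ : ℕ} (hT : SepWire.BoundedTorsion L n₀) (hk : n₀ ≤ m)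
    {v : (sit (Jb := Jb) hp hm C hι hloc hA hϖ he hℓe hΛ ε₀ j m H).C0}
    (hv : (sit (Jb := Jb) hp hm C hι hloc hA hϖ he hℓe hΛ ε₀ j m H).K z v)
    (hcoord : (sit (Jb := Jb) hp hm C hι hloc hA hϖ he hℓe hΛ ε₀ j m H).H.coord v = 0) :
    ∃ s ∈ L.Lp, s ∈ L.Lm ∧ IsOne (algebraMap O F ϖ) Rg s := by
  obtain ⟨fp, hfp, fm, hfm, h1p, h1m⟩ := hΛ.gens hL
  obtain ⟨u, hc⟩ := L.exists_cocycle C hfp hfm h1m (kOf e m + 1)
  have hK := kImg_level hp hm C he hℓe hΛ m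
  have hv' : KLevel Λ ℓ e m z (qRed (Ideal.span {((ℓ : O)) ^ (m + 1)}) B0 ⟨u, hc.1⟩) :=
    SepWireLines.kImage_of_isCocycle hL hfp hfm h1p h1m hc
  have hcoord' : H.coord (qRed (Ideal.span {((ℓ : O)) ^ (m + 1)}) B0 ⟨u, hc.1⟩) = 0 := by
    rw [hK.coord_eq H hv hv']
    exact hcoord
  exact SepWire.exists_isOne_mem_of_coord_eq_zero C (transport_level hp hm C he hℓe m)
    (lift_level C he hℓe m) H L hT (lt_kOf_succ he m hk) hfp h1p hfm h1m hc hcoord'

/-- **One situation, conclusion `z = 0`.** -/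
theorem eq_zero_of_sit_coord_eq_zero
    (hprinc : ∀ z L, Λ z L → (∃ s ∈ L.Lp, s ∈ L.Lm ∧ IsOne (algebraMap O F ϖ) Rg s) → z = 0)
    {z : Jb} {L : Line (algebraMap O F ϖ) Bp.toSubring Bm.toSubring B0.toSubring Rg} (hL : Λ z L)
    {n₀ : ℕ} (hT : SepWire.BoundedTorsion L n₀) (hk : n₀ ≤ m)
    {v : (sit (Jb := Jb) hp hm C hι hloc hA hϖ he hℓe hΛ ε₀ j m H).C0}
    (hv : (sit (Jb := Jb) hp hm C hι hloc hA hϖ he hℓe hΛ ε₀ j m H).K z v)
    (hcoord : (sit (Jb := Jb) hp hm C hι hloc hA hϖ he hℓe hΛ ε₀ j m H).H.coord v = 0) : z = 0 :=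
  hprinc z L hL (exists_isOne_mem_of_sit_coord_eq_zero hp hm C hι hloc hA hϖ he hℓe hΛ ε₀ j m H
    hL hT hk hv hcoord)

/-- **The field `hsep` of `GeoFamily` at a fixed level**, verbatim its two clauses, from ONE line
`L` of `z` with bounded `H¹`-torsion and `hprinc`.  `Hm` = the `Hyp` of every precision
(`LevelHyp.hyp_mS'`). -/
theorem hsep_level
    (Hm : ∀ m, Hyp (mS O ϖ ℓ m) (mapS (Quo O ℓ (m + 1)) (Subalgebra.inclusion hp))
      (mapS (Quo O ℓ (m + 1)) (Subalgebra.inclusion hm)) (epsS (Quo O ℓ (m + 1)) ε₀))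
    (hprinc : ∀ z L, Λ z L → (∃ s ∈ L.Lp, s ∈ L.Lm ∧ IsOne (algebraMap O F ϖ) Rg s) → z = 0)
    {z : Jb} {L : Line (algebraMap O F ϖ) Bp.toSubring Bm.toSubring B0.toSubring Rg} (hL : Λ z L)
    {n₀ : ℕ} (hT : SepWire.BoundedTorsion L n₀) :
    (∀ m, ∃ v, (sit (Jb := Jb) hp hm C hι hloc hA hϖ he hℓe hΛ ε₀ j m (Hm m)).K z v) ∧
    ∃ m₀, ∀ m, m₀ ≤ m → ∀ v,
      (sit (Jb := Jb) hp hm C hι hloc hA hϖ he hℓe hΛ ε₀ j m (Hm m)).K z v →
      (sit (Jb := Jb) hp hm C hι hloc hA hϖ he hℓe hΛ ε₀ j m (Hm m)).H.coord v = 0 → z = 0 :=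
  ⟨fun m => exists_K C hΛ m hL, n₀, fun m hm' _ hv hcoord =>
    eq_zero_of_sit_coord_eq_zero hp hm C hι hloc hA hϖ he hℓe hΛ ε₀ j m (Hm m) hprinc hL hT hm'
      hv hcoord⟩

end Fermat.Agent.S19.Geo.LevelSitSep
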