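/-
S19 / GEO, [INST] layer (helper27; dispatch #2368 item 0, shape (a) of #2383):
**THE situation `XK … m : CoordFamily.Sit ℓ A (JZero N) F.g (m + 1) (O₁ A)` of a good level `K` at the
precision `m + 1`** — ONE `def`, namely `LevelSit.sit` applied to the constants of `LevelSitDefs`:

  `XK hℓ hA hℓN K h0 P hstar F hΛ m :=
     LevelSit.sit (BpK_le_B0K A N K) (BmK_le_B0K A N K) (chartsK hstar) (isLevelRing A K ℓ)
       (mem_maximalIdeal_iff A K) hA (maximalIdeal_eq_span_ϖK A K) (eK_pos ..) (associated_eK ..) hΛ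
       (F.εL h0) (jK A h0) m (LevelHyp.hyp_mS' F h0 P hℓ hA hℓN (associated_eK ..) m _ _)`

for a VARIABLE level `K` (`[IsDiscreteValuationRing (OL A K)]`, `h0 : K0 A ≤ K`, `P : LevelPack A N K`,
`hstar : StarStatement (Lvl K) N (baseRing A K)`), a VARIABLE frame `F : BaseLevel.Frame A N` and a
VARIABLE system of lines `Λ : JZero N → LineK A N K → Prop` with `hΛ : LineSys (chartsK hstar) Λ`.
So every generic glue lemma about `LevelSit.sit` (`LevelSitPack.isHom_of_chg / isBased_of_chg /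
isHom_prec`, `LevelSitTwist.isTwist_of_chg`, …) applies to `XK` verbatim (`XK_eq_sit` is `rfl`).

All projections are `rfl`: `.S = SK A ℓ K (m+1)`, `.Cp/.Cm/.C0 = CpK/CmK/C0K A N ℓ K (m+1)`,
`.ip/.im = ipK/imK …`, `.𝔪 = mS (OL A K) (ϖK A K) ℓ m` (`= mK A ℓ K (m+1)` by `XK_𝔪_eq_mK`),
`.ε = εK A N ℓ h0 F.ε (m+1)`, `.O = OL A K`, `.ι = ιK A K`, `.π = πK A ℓ K (m+1)`, `.j = jK A h0`,
`.K = KK A N ℓ K Λ m`, the algebra structure over `O₁ A` is `algK A ℓ h0 (m+1)`; and the field `hι`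
of `GeoFamily` is `XK_ι_j`.
-/
import Mathlib
import Fermat.Agent.S19.Geo.LevelSitDefs
import Fermat.Agent.S19.Cech.LevelHyp
import Fermat.Agent.S19.Geo.InstanceOfSit

set_option autoImplicit false
set_option linter.unusedSectionVars false

open TensorProduct ModularCurve AlgebraicCurve

noncomputable section

namespace Fermat.Agent.S19.Geo.LevelSitX

open Fermat.Agent.S19.Abs Fermat.Agent.S19.Coord Fermat.Agent.S19.Cech
  Fermat.Agent.S19.Cech.Cocycle Fermat.Agent.S19.Cech.CoordOfLines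
  Fermat.Agent.S19.Cech.CoordFamily Fermat.Agent.S19.Cech.RedTuple
  Fermat.Agent.S19.Cech.BaseQuotLevel Fermat.Agent.S19.Cech.SepWireTensor
  Fermat.Agent.S19.Cech.LevelBasis Fermat.Agent.S19.Cech.GaussN4
  Fermat.Agent.S19.Geo.LevelSit Fermat.Agent.S19.Geo.LevelSitMaps
  Fermat.Agent.S19.Geo.BaseLevel Fermat.Agent.S19.Geo.LevelSitDefs
  Fermat.Agent.N4.Setting Fermat.Agent.N4.Chart Fermat.Agent.N4.FibreEmbedding
  Fermat.Agent.N4F.C.Levels Fermat.Agent.P3G.Gamma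

open Fermat.Agent.N4F.C.ChartFactsProof (LevelPack)

variable {A : ValuationSubring Qb} {N : ℕ} [NeZero N] {ℓ : ℕ}

/-- the chart data of a good level, for THE uniformiser `ϖK A K` -/
theorem chartsK {K : IntermediateField ℚ Qb} [IsDiscreteValuationRing (OL A K)]
    (hstar : StarStatement (Lvl K) N (baseRing A K)) : ChartsK A N K :=
  charts_of_star hstar (ϖK_ne_zero A K) (not_isUnit_ϖK A K)

variable (hℓ : ℓ.Prime) (hA : A.LiesOverPrime ℓ) (hℓN : ¬ ℓ ∣ N)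
  (K : IntermediateField ℚ Qb) [IsDiscreteValuationRing (OL A K)] (h0 : K0 A ≤ K)
  (P : LevelPack A N K) (hstar : StarStatement (Lvl K) N (baseRing A K)) (F : Frame A N)
  {Λ : JZero N → LineK A N K → Prop} (hΛ : LineSys (chartsK hstar) Λ) (m : ℕ)

/-- the frame of the level is the frame `F.εL h0` of `BaseFrame` -/
theorem εL_eq_ε0K : F.εL h0 = ε0K A N h0 F.ε := rfl

include hℓ hA hℓN P in
/-- the argument `H` of `LevelSit.sit` at the level `K` -/
theorem hypK :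
    Hyp (mS (OL A K) (ϖK A K) ℓ m)
      (mapS (Quo (OL A K) ℓ (m + 1)) (Subalgebra.inclusion (BpK_le_B0K A N K)))
      (mapS (Quo (OL A K) ℓ (m + 1)) (Subalgebra.inclusion (BmK_le_B0K A N K)))
      (epsS (Quo (OL A K) ℓ (m + 1)) (F.εL h0)) :=
  LevelHyp.hyp_mS' F h0 P hℓ hA hℓN (associated_eK A ℓ K hℓ.ne_zero) m
    (BpK_le_B0K A N K) (BmK_le_B0K A N K)

/-- **THE situation of the good level `K` at the precision `m + 1`.** -/
def XK : Sit ℓ A (JZero N) F.g (m + 1) (O₁ A) :=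
  sit (BpK_le_B0K A N K) (BmK_le_B0K A N K) (chartsK hstar) (isLevelRing A K ℓ)
    (mem_maximalIdeal_iff A K) hA (maximalIdeal_eq_span_ϖK A K)
    (eK_pos A ℓ K hℓ.ne_zero hA) (associated_eK A ℓ K hℓ.ne_zero) hΛ (F.εL h0) (jK A h0) m
    (hypK hℓ hA hℓN K h0 P F m)

/-- `XK` IS `LevelSit.sit` (so the generic glue about `sit` applies verbatim) -/
theorem XK_eq_sit :
    XK hℓ hA hℓN K h0 P hstar F hΛ m =
      sit (BpK_le_B0K A N K) (BmK_le_B0K A N K) (chartsK hstar) (isLevelRing A K ℓ)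
        (mem_maximalIdeal_iff A K) hA (maximalIdeal_eq_span_ϖK A K)
        (eK_pos A ℓ K hℓ.ne_zero hA) (associated_eK A ℓ K hℓ.ne_zero) hΛ (F.εL h0) (jK A h0) m
        (hypK hℓ hA hℓN K h0 P F m) := rfl

/-! ### projections (all by `rfl`) -/

theorem XK_S : (XK hℓ hA hℓN K h0 P hstar F hΛ m).S = SK A ℓ K (m + 1) := rfl

theorem XK_Cp : (XK hℓ hA hℓN K h0 P hstar F hΛ m).Cp = CpK A N ℓ K (m + 1) := rfl

theorem XK_Cm : (XK hℓ hA hℓN K h0 P hstar F hΛ m).Cm = CmK A N ℓ K (m + 1) := rfl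

theorem XK_C0 : (XK hℓ hA hℓN K h0 P hstar F hΛ m).C0 = C0K A N ℓ K (m + 1) := rfl

theorem XK_O : (XK hℓ hA hℓN K h0 P hstar F hΛ m).O = OL A K := rfl

theorem XK_ι : (XK hℓ hA hℓN K h0 P hstar F hΛ m).ι = ιK A K := rfl

theorem XK_π : (XK hℓ hA hℓN K h0 P hstar F hΛ m).π = πK A ℓ K (m + 1) := rfl

theorem XK_j : (XK hℓ hA hℓN K h0 P hstar F hΛ m).j = jK A h0 := rfl

theorem XK_ip : (XK hℓ hA hℓN K h0 P hstar F hΛ m).ip = ipK A N ℓ K (m + 1) := rfl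

theorem XK_im : (XK hℓ hA hℓN K h0 P hstar F hΛ m).im = imK A N ℓ K (m + 1) := rfl

theorem XK_𝔪 : (XK hℓ hA hℓN K h0 P hstar F hΛ m).𝔪 = mS (OL A K) (ϖK A K) ℓ m := rfl

theorem XK_𝔪_eq_mK : (XK hℓ hA hℓN K h0 P hstar F hΛ m).𝔪 = mK A ℓ K (m + 1) :=
  (mK_eq_mS A ℓ K m).symm

theorem XK_ε : (XK hℓ hA hℓN K h0 P hstar F hΛ m).ε = εK A N ℓ h0 F.ε (m + 1) := rfl

theorem XK_K : (XK hℓ hA hℓN K h0 P hstar F hΛ m).K = KK A N ℓ K Λ m := rfl

theorem XK_H : (XK hℓ hA hℓN K h0 P hstar F hΛ m).H = hypK hℓ hA hℓN K h0 P F m := rfl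

/-- the `O₁`-algebra structure of `S` is `algK` -/
theorem XK_aS : (XK hℓ hA hℓN K h0 P hstar F hΛ m).aS = algK A ℓ h0 (m + 1) := rfl

theorem XK_algebraMap (c : O₁ A) :
    algebraMap (O₁ A) (XK hℓ hA hℓN K h0 P hstar F hΛ m).S c
      = πK A ℓ K (m + 1) (jK A h0 c) := rfl

/-- **field `hι` of `GeoFamily`** -/
theorem XK_ι_j (c : O₁ A) :
    (XK hℓ hA hℓN K h0 P hstar F hΛ m).ι ((XK hℓ hA hℓN K h0 P hstar F hΛ m).j c) = ι₁ A c := rfl

/-- unfolding the cocycle predicate -/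
theorem XK_K_iff {z : JZero N} {v : C0K A N ℓ K (m + 1)} :
    (XK hℓ hA hℓN K h0 P hstar F hΛ m).K z v ↔
      ∃ u, kappa Λ (kK A ℓ K m) z u ∧ ∃ hu : u ∈ (B0K A N K).toSubring,
        v = q0K A N ℓ K (m + 1) ⟨u, hu⟩ := Iff.rfl

include hΛ in
/-- cocycles exist at every precision for a class with a line (towards `hex`) -/
theorem XK_exists_K {z : JZero N} {L : LineK A N K} (hL : Λ z L) :
    ∃ v, (XK hℓ hA hℓN K h0 P hstar F hΛ m).K z v :=
  exists_K (chartsK hstar) hΛ m hL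

include hℓ hA in
/-- the `Transport` of the level (input of `SepWireLines` / `SepWireTensor`, towards `hsep`) -/
theorem XK_transport :
    Transport (chartsK hstar) (mS (OL A K) (ϖK A K) ℓ m)
      (ipK A N ℓ K (m + 1)) (imK A N ℓ K (m + 1)) (kK A ℓ K m)
      (qpK A N ℓ K (m + 1)) (qmK A N ℓ K (m + 1)) (q0K A N ℓ K (m + 1)) :=
  transport_level (BpK_le_B0K A N K) (BmK_le_B0K A N K) (chartsK hstar)
    (eK_pos A ℓ K hℓ.ne_zero hA) (associated_eK A ℓ K hℓ.ne_zero) m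

include hℓ hA in
/-- the `Lift` of the level -/
theorem XK_lift :
    SepWire.Lift (chartsK hstar) (mS (OL A K) (ϖK A K) ℓ m) (kK A ℓ K m)
      (qpK A N ℓ K (m + 1)) (qmK A N ℓ K (m + 1)) (q0K A N ℓ K (m + 1)) :=
  lift_level (chartsK hstar) (eK_pos A ℓ K hℓ.ne_zero hA) (associated_eK A ℓ K hℓ.ne_zero) m

end Fermat.Agent.S19.Geo.LevelSitX

end
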