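/-
S19 / GEO, leaf [LINES], the field `indep` of `CoordOfLines.LineSys` at ONE good level (helper4):
two zero-reduction representatives `D, D'` of the same class, with supports rational over the level
`K`, give a function `w` of the level with `IsOne ϖ_K W_K w` and
`w · ℒ_?(levelDiv K D') ⊆ ℒ_?(levelDiv K D)` for the three chart modules `Lp`, `Lm`, `L0` of
`DivModule` — exactly the data `LineSys.indep` asks for the lines `GaussN4.lineOf … (levelDiv K D)`.

Inputs: [H90] `ClassDictLevel.exists_gauss_unit_of_rep_level` (the function), helper18's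
`GaussLevel.isOne_of_levK` (`IsOne`) and `DivModuleMul.mul_mem_LD_of_ord_eq` (the inclusions).
-/
import Mathlib
import Fermat.Agent.S19.Cech.ClassDictLevel
import Fermat.Agent.S19.Cech.GaussLevel
import Fermat.Agent.S19.Cech.DivModuleMul

set_option autoImplicit false
set_option linter.unusedSectionVars false
set_option linter.style.haveILetI false
set_option synthInstance.maxHeartbeats 400000
set_option maxHeartbeats 800000

open ModularCurve AlgebraicCurve
open Fermat.Agent.N4.Setting Fermat.Agent.S24 Fermat.Agent.N4.FibreEmbedding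
open Fermat.Agent.S24.PlaceDeriv (ResidueTrivial)

noncomputable section

namespace Fermat.Agent.S19.Geo.LinesIndep

open Fermat.Agent.N4F.C Fermat.Agent.N4F.C.Main Fermat.Agent.N4F.C.Centre
  Fermat.Agent.N4F.C.Levels Fermat.Agent.N4F.C.LevelCharts Fermat.Agent.N4F.C.Formula
  Fermat.Agent.S19.Cech.ClassDict Fermat.Agent.S19.Cech.LevelDiv
  Fermat.Agent.S19.Cech.DivModule Fermat.Agent.S19.Cech

variable {A : ValuationSubring Qb} {N : ℕ} [NeZero N] {ℓ : ℕ}
  (hℓ : ℓ.Prime) (hA : A.LiesOverPrime ℓ) (hℓN : ¬ ℓ ∣ N)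

/-- **`LineSys.indep` at a level**, for ALL predicates `c` on the places of the level at once. -/
theorem exists_isOne_mul_mem (K : IntermediateField ℚ Qb)
    [IsDiscreteValuationRing ↥(baseRing A K)] [IsFractionRing ↥(baseRing A K) (Lvl K)]
    {R : Subalgebra ↥(baseRing A K) (FF (Lvl K) N)} {Rt : Subalgebra ↥A (Fb N)} {gen : Fb N}
    (hcl : ChartLevel A N K R Rt gen)
    (hres : ∀ c : ↥A, ∃ u : ↥(baseRing A K),
      IsLocalRing.residue ↥A (baseIncl A K u) = IsLocalRing.residue ↥A c)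
    {ϖ : ↥(baseRing A K)} (hϖ : Irreducible ϖ)
    {D D' : Divisor.degZero (K := Qb) (F := Fb N)}
    (h : (Pic0.mk D : JZero N) = Pic0.mk D')
    (hD : Finsupp.mapDomain (rC hℓ hA hℓN) (D : Divisor Qb (Fb N)) = 0)
    (hD' : Finsupp.mapDomain (rC hℓ hA hℓN) (D' : Divisor Qb (Fb N)) = 0)
    (hrat : ∀ P ∈ (D : Divisor Qb (Fb N)).support, ResidueTrivial (restrictK N K P))
    (hrat' : ∀ P ∈ (D' : Divisor Qb (Fb N)).support, ResidueTrivial (restrictK N K P)) :
    ∃ w : FF (Lvl K) N,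
      Cocycle.IsOne (algebraMap ↥(baseRing A K) (FF (Lvl K) N) ϖ)
        (gaussSubalgebra (Lvl K) N (baseRing A K)).toSubring w ∧
      ∀ (c : Place (Lvl K) (FF (Lvl K) N) → Prop) (x : FF (Lvl K) N),
        x ∈ LD (gaussSubalgebra (Lvl K) N (baseRing A K)) c (levelDiv K (D' : Divisor Qb (Fb N))) →
        w * x ∈ LD (gaussSubalgebra (Lvl K) N (baseRing A K)) c
          (levelDiv K (D : Divisor Qb (Fb N))) := by
  obtain ⟨w, hw, hθ, hdiv⟩ := ClassDictLevel.exists_gauss_unit_of_rep_level hℓ hA hℓN K hcl hres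
    h.symm hD' hD hrat' hrat
  have h1 : thetaBar A N (levK N K w) = 1 := by
    rw [← hw.coe_thetaFt, hθ]
    rfl
  have hwW : w ∈ gaussSubalgebra (Lvl K) N (baseRing A K) :=
    GaussLevel.mem_gaussSubalgebra_of_levK_mem A N K hw.1
  have hw0 : w ≠ 0 := by
    rintro rfl
    exact hw.ne_zero (map_zero _)
  refine ⟨w, GaussLevel.isOne_of_levK A N K hϖ hw.1 h1, fun c x hx => ?_⟩
  exact DivModuleMul.mul_mem_LD_of_ord_eq hwW hw0 (fun P _ => hdiv P) hx

/-- The same in the vocabulary of `LineSys.indep`: the three chart modules. -/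
theorem exists_isOne_mul_mem_Lp_Lm_L0 (K : IntermediateField ℚ Qb)
    [IsDiscreteValuationRing ↥(baseRing A K)] [IsFractionRing ↥(baseRing A K) (Lvl K)]
    {R : Subalgebra ↥(baseRing A K) (FF (Lvl K) N)} {Rt : Subalgebra ↥A (Fb N)} {gen : Fb N}
    (hcl : ChartLevel A N K R Rt gen)
    (hres : ∀ c : ↥A, ∃ u : ↥(baseRing A K),
      IsLocalRing.residue ↥A (baseIncl A K u) = IsLocalRing.residue ↥A c)
    {ϖ : ↥(baseRing A K)} (hϖ : Irreducible ϖ)
    {D D' : Divisor.degZero (K := Qb) (F := Fb N)}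
    (h : (Pic0.mk D : JZero N) = Pic0.mk D')
    (hD : Finsupp.mapDomain (rC hℓ hA hℓN) (D : Divisor Qb (Fb N)) = 0)
    (hD' : Finsupp.mapDomain (rC hℓ hA hℓN) (D' : Divisor Qb (Fb N)) = 0)
    (hrat : ∀ P ∈ (D : Divisor Qb (Fb N)).support, ResidueTrivial (restrictK N K P))
    (hrat' : ∀ P ∈ (D' : Divisor Qb (Fb N)).support, ResidueTrivial (restrictK N K P)) :
    ∃ w : FF (Lvl K) N,
      Cocycle.IsOne (algebraMap ↥(baseRing A K) (FF (Lvl K) N) ϖ)
        (gaussSubalgebra (Lvl K) N (baseRing A K)).toSubring w ∧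
      (∀ x ∈ Lp (gaussSubalgebra (Lvl K) N (baseRing A K)) (jF (Lvl K) N)
          (levelDiv K (D' : Divisor Qb (Fb N))),
        w * x ∈ Lp (gaussSubalgebra (Lvl K) N (baseRing A K)) (jF (Lvl K) N)
          (levelDiv K (D : Divisor Qb (Fb N)))) ∧
      (∀ x ∈ Lm (gaussSubalgebra (Lvl K) N (baseRing A K)) (jF (Lvl K) N)
          (levelDiv K (D' : Divisor Qb (Fb N))),
        w * x ∈ Lm (gaussSubalgebra (Lvl K) N (baseRing A K)) (jF (Lvl K) N)
          (levelDiv K (D : Divisor Qb (Fb N)))) ∧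
      (∀ x ∈ L0 (gaussSubalgebra (Lvl K) N (baseRing A K)) (jF (Lvl K) N)
          (levelDiv K (D' : Divisor Qb (Fb N))),
        w * x ∈ L0 (gaussSubalgebra (Lvl K) N (baseRing A K)) (jF (Lvl K) N)
          (levelDiv K (D : Divisor Qb (Fb N)))) := by
  obtain ⟨w, hw1, hw⟩ := exists_isOne_mul_mem hℓ hA hℓN K hcl hres hϖ h hD hD' hrat hrat'
  exact ⟨w, hw1, fun x hx => hw _ x hx, fun x hx => hw _ x hx, fun x hx => hw _ x hx⟩

end Fermat.Agent.S19.Geo.LinesIndep
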