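/-
S19 / Čech-units route, geometric layer, leaf **[SepInst]** of the field map v2.1 (helper5): the
hypothesis `hsep` of `Cech/CoordFamily.levelCoordSystem` (separation at ONE level per class).

* `eq_zero_of_coord_eq_zero` : ONE situation.  `v` an image of a cocycle of the class `z`
  (`kImage q0 (kappa Λ k) z v`) whose Čech coordinates vanish, `L` a line of `z` whose `H¹` has
  `ϖ`-power torsion killed by `ϖ ^ n₀`, `n₀ < k + 1`: then `z = 0`, as soon as a global generator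
  `≡ 1` of `L` forces `z = 0` (`hprinc`).  Unlike `SepWireLines.eq_zero_of_repQb` the cocycle `v`
  may come from ANY line of `z` (`KImg.coord_eq`).
* `sep_at_level` : the family form — EXACTLY the body of `hsep` at a fixed level `L₀`, for a family
  `X m : Sit ℓ A Jb g (m + 1) O₁` whose cocycle predicates are `kImage (q0 m) (kappa Λ (kk m))`
  with precisions `kk m ≥ m`.
* `sep_sit` : the same for the family `X m := LevelSit.sit … m (H m)` of helper27's builder (ALL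
  arguments of `sit` generic; `Transport`/`Lift` are `LevelSit.transport_level/lift_level`).
* `eq_zero_of_coord_eq_zero_tensor` : the tensor model `C_? = (O ⧸ I) ⊗[O] B_?` of
  `SepWireTensor.lean` plugged in (`Transport` and `Lift` are theorems there).
* `degree_levelDiv`, `mk_eq_zero_of_common_level` : the input `hprinc` for the lines
  `GaussN4.lineOf hstar hϖ0 (levelDiv K D) rp rm` of a good level `K` (`D` a degree-zero divisor
  of `ℚ̄·F_N` with `K`-rational support); `hT` is `GaussN4.exists_lineBoundedTorsion`.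
* **`sep_sit_of_div`** : THE form for `Geo/Instance.lean` — the body of `hsep` for the situations
  `LevelSit.sit` (charts `GaussN4.charts_of_star`) of a good level `K` and the class `Pic0.mk D`;
  `sep_at_level_of_div`, `sep_tensor_of_div`, `sep_quo_of_div` : the same for a generic family of
  situations / for the raw tensor model (no `Sit`).

How `hsep` is obtained: for `z ∈ J1` the line system gives a level `L₀ = K` and a divisor `D` with
`z = Pic0.mk D` and `Λ_K z (lineOf … (levelDiv K D) rp rm)` ([LINES]); then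
`⟨L₀, sep_sit_of_div …⟩` is the required witness.
-/
import Fermat.Agent.S19.Cech.CoordFamily
import Fermat.Agent.S19.Geo.LevelSit
import Fermat.Agent.S19.Cech.SepWireLines
import Fermat.Agent.S19.Cech.SepWireTensor
import Fermat.Agent.S19.Cech.GaussN4
import Fermat.Agent.S19.Geo.LevelDivPrincipal
import Fermat.Agent.P3G.LevelDescent
import Fermat.Agent.N4F.E.GenericFibre
import Fermat.Agent.N4F.Tors.BaseChange
import Fermat.Agent.N4F.C.LevelTheta

set_option autoImplicit false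
set_option linter.unusedSectionVars false

namespace Fermat.Agent.S19.Geo.SepInst

open Fermat.Agent.S19.Coord Fermat.Agent.S19.Cech
open Fermat.Agent.S19.Cech.Cocycle Fermat.Agent.S19.Cech.CoordOfLines
open Fermat.Agent.S19.Cech.CoordFamily

/-! ### one situation -/

section One

variable {F : Type*} [CommRing F] [IsDomain F] {ϖ : F} {Bp Bm B0 Rg : Subring F}
variable {Jb : Type*} [AddCommGroup Jb]
variable {S : Type*} [CommRing S]
variable {Cp Cm C0 : Type*} [CommRing Cp] [CommRing Cm] [CommRing C0]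
  [Algebra S Cp] [Algebra S Cm] [Algebra S C0]
variable {C : Charts ϖ Bp Bm B0 Rg} {𝔪 : Ideal S} {ip : Cp →ₐ[S] C0} {im : Cm →ₐ[S] C0} {k : ℕ}
  {qp : Bp →+* Cp} {qm : Bm →+* Cm} {q0 : B0 →+* C0} {g : ℕ} {ε : Fin g → C0}
variable {Λ : Jb → Line ϖ Bp Bm B0 Rg → Prop}

/-- **(C6) in one situation, cocycle form.**  A cocycle image `v` of the class `z` (from ANY line of
`z`) with vanishing Čech coordinates, in a situation of precision `k + 1 > n₀`, forces the line `L`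
of `z` (with `H¹`-torsion bounded by `n₀`) to have a global generator `≡ 1`. -/
theorem exists_isOne_mem_of_coord_eq_zero (hΛ : LineSys C Λ)
    (T : Transport C 𝔪 ip im k qp qm q0) (Lf : SepWire.Lift C 𝔪 k qp qm q0) (H : Hyp 𝔪 ip im ε)
    {z : Jb} {L : Line ϖ Bp Bm B0 Rg} (hL : Λ z L) {n₀ : ℕ} (hT : SepWire.BoundedTorsion L n₀)
    (hk : n₀ < k + 1) {v : C0} (hv : kImage q0 (kappa Λ k) z v) (hc : H.coord v = 0) :
    ∃ s ∈ L.Lp, s ∈ L.Lm ∧ IsOne ϖ Rg s := by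
  obtain ⟨fp, hfp, fm, hfm, h1p, h1m⟩ := hΛ.gens hL
  obtain ⟨u, hu⟩ := L.exists_cocycle C hfp hfm h1m (k + 1)
  have hK : KImg 𝔪 ip im (kImage q0 (kappa Λ k)) := (hΛ.kSys k).kImg T
  have hcoord : H.coord (q0 ⟨u, hu.1⟩) = 0 := by
    rw [hK.coord_eq H hv (SepWireLines.kImage_of_isCocycle hL hfp hfm h1p h1m hu)]
    exact hc
  exact SepWire.exists_isOne_mem_of_coord_eq_zero C T Lf H L hT hk hfp h1p hfm h1m hu hcoord

/-- **(C6) in one situation, conclusion `z = 0`.** -/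
theorem eq_zero_of_coord_eq_zero (hΛ : LineSys C Λ)
    (T : Transport C 𝔪 ip im k qp qm q0) (Lf : SepWire.Lift C 𝔪 k qp qm q0) (H : Hyp 𝔪 ip im ε)
    {z : Jb} {L : Line ϖ Bp Bm B0 Rg} (hL : Λ z L) {n₀ : ℕ} (hT : SepWire.BoundedTorsion L n₀)
    (hprinc : (∃ s ∈ L.Lp, s ∈ L.Lm ∧ IsOne ϖ Rg s) → z = 0)
    (hk : n₀ < k + 1) {v : C0} (hv : kImage q0 (kappa Λ k) z v) (hc : H.coord v = 0) : z = 0 :=
  hprinc (exists_isOne_mem_of_coord_eq_zero hΛ T Lf H hL hT hk hv hc)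

end One

/-! ### the family at one level: the body of `hsep` -/

section Family

open Fermat.Agent.S19.Abs

variable {F : Type*} [CommRing F] [IsDomain F] {ϖ : F} {Bp Bm B0 Rg : Subring F}
variable {ℓ : ℕ} {A : ValuationSubring Qb} {Jb : Type} [AddCommGroup Jb] {g : ℕ}
variable {O₁ : Type} [CommRing O₁]

/-- **The body of `hsep` at one level.**  `X m` the situations of a fixed level (precision
`m + 1`), whose cocycle predicates are the images `kImage (q0 m) (kappa Λ (kk m))` of the cocycles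
of ONE line system `Λ` of that level, of `ϖ`-adic precisions `kk m + 1 ≥ m + 1` (at a level of
ramification index `e` : `kk m + 1 = e (m + 1)`).  For a class `z` with a line `L` at this level
whose `H¹`-torsion is bounded (`GaussN4.exists_lineBoundedTorsion`) and whose global generators
force `z = 0`: `z` has cocycles of every precision, and the vanishing of the coordinates of one
of them at a precision `m ≥ n₀` forces `z = 0`. -/
theorem sep_at_level (C : Charts ϖ Bp Bm B0 Rg) {Λ : Jb → Line ϖ Bp Bm B0 Rg → Prop}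
    (hΛ : LineSys C Λ) (X : (m : ℕ) → Sit ℓ A Jb g (m + 1) O₁) (kk : ℕ → ℕ)
    (hkk : ∀ m, m ≤ kk m)
    (qp : ∀ m, Bp →+* (X m).Cp) (qm : ∀ m, Bm →+* (X m).Cm) (q0 : ∀ m, B0 →+* (X m).C0)
    (T : ∀ m, Transport C (X m).𝔪 (X m).ip (X m).im (kk m) (qp m) (qm m) (q0 m))
    (Lf : ∀ m, SepWire.Lift C (X m).𝔪 (kk m) (qp m) (qm m) (q0 m))
    (hXK : ∀ m z v, (X m).K z v ↔ kImage (q0 m) (kappa Λ (kk m)) z v)
    {z : Jb} {L : Line ϖ Bp Bm B0 Rg} (hL : Λ z L) {n₀ : ℕ} (hT : SepWire.BoundedTorsion L n₀)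
    (hprinc : (∃ s ∈ L.Lp, s ∈ L.Lm ∧ IsOne ϖ Rg s) → z = 0) :
    (∀ m, ∃ v, (X m).K z v) ∧
      ∃ m₀, ∀ m, m₀ ≤ m → ∀ v, (X m).K z v → (X m).H.coord v = 0 → z = 0 := by
  refine ⟨fun m => ?_, n₀, fun m hm v hv hc => ?_⟩
  · obtain ⟨u, hu⟩ := hΛ.exists_kappa hL (kk m)
    have huB : u ∈ B0 := ((hΛ.kSys (kk m)).mem hu)
    exact ⟨q0 m ⟨u, huB⟩, (hXK m z _).2 ⟨u, hu, huB, rfl⟩⟩
  · have hk : n₀ < kk m + 1 := lt_of_le_of_lt (hm.trans (hkk m)) (Nat.lt_succ_self _)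
    exact eq_zero_of_coord_eq_zero hΛ (T m) (Lf m) (X m).H hL hT hprinc hk ((hXK m z v).1 hv) hc

end Family

/-! ### the family `LevelSit.sit` of one level -/

section SitFamily

open Fermat.Agent.S19.Abs TensorProduct Fermat.Agent.S19.Cech.RedTuple
  Fermat.Agent.S19.Cech.SepWireTensor Fermat.Agent.S19.Geo.LevelSit

variable {ℓ : ℕ} {A : ValuationSubring Qb} {Jb : Type} [AddCommGroup Jb]
variable {O : Type} [CommRing O] [IsLocalRing O] {F : Type} [CommRing F] [IsDomain F] [Algebra O F]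
  {Bp Bm B0 : Subalgebra O F} {Rg : Subring F} (hp : Bp ≤ B0) (hm : Bm ≤ B0) {ϖ : O}
  (C : Charts (algebraMap O F ϖ) Bp.toSubring Bm.toSubring B0.toSubring Rg)
  {ι : O →+* Qb} (hι : IsLevelRing A ℓ ι)
  (hloc : ∀ x : O, x ∈ IsLocalRing.maximalIdeal O ↔ ι x ∈ A.nonunits)
  (hA : A.LiesOverPrime ℓ) (hϖ : IsLocalRing.maximalIdeal O = Ideal.span {ϖ})
  {e : ℕ} (he : 0 < e) (hℓe : Associated ((ℓ : O)) (ϖ ^ e))
  {Λ : Jb → Line (algebraMap O F ϖ) Bp.toSubring Bm.toSubring B0.toSubring Rg → Prop}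
  (hΛ : LineSys C Λ) {g : ℕ} (ε₀ : Fin g → ↥B0) {O₁ : Type} [CommRing O₁] (j : O₁ →+* O)

theorem le_kOf (he : 0 < e) (m : ℕ) : m ≤ kOf e m := by
  have h1 := kOf_succ he m
  have h2 : m + 1 ≤ e * (m + 1) := Nat.le_mul_of_pos_left _ he
  omega

/-- **The body of `hsep` for the situations `LevelSit.sit` of one level** (all arguments of `sit`
generic; `H m` the `Hyp` at precision `m + 1`).  `L` a line of the class `z` at this level with
bounded `H¹`-torsion, whose global generators `≡ 1` force `z = 0`. -/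
theorem sep_sit
    (H : ∀ m, Hyp (mS O ϖ ℓ m) (mapS (Quo O ℓ (m + 1)) (Subalgebra.inclusion hp))
      (mapS (Quo O ℓ (m + 1)) (Subalgebra.inclusion hm)) (epsS (Quo O ℓ (m + 1)) ε₀))
    {z : Jb} {L : Line (algebraMap O F ϖ) Bp.toSubring Bm.toSubring B0.toSubring Rg}
    (hL : Λ z L) {n₀ : ℕ} (hT : SepWire.BoundedTorsion L n₀)
    (hprinc : (∃ s ∈ L.Lp, s ∈ L.Lm ∧ IsOne (algebraMap O F ϖ) Rg s) → z = 0) :
    (∀ m, ∃ v, (sit hp hm C hι hloc hA hϖ he hℓe hΛ ε₀ j m (H m)).K z v) ∧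
      ∃ m₀, ∀ m, m₀ ≤ m → ∀ v, (sit hp hm C hι hloc hA hϖ he hℓe hΛ ε₀ j m (H m)).K z v →
        (sit hp hm C hι hloc hA hϖ he hℓe hΛ ε₀ j m (H m)).H.coord v = 0 → z = 0 :=
  sep_at_level C hΛ (fun m => sit hp hm C hι hloc hA hϖ he hℓe hΛ ε₀ j m (H m)) (kOf e)
    (le_kOf he)
    (fun m => qRed (Ideal.span {((ℓ : O)) ^ (m + 1)}) Bp)
    (fun m => qRed (Ideal.span {((ℓ : O)) ^ (m + 1)}) Bm)
    (fun m => qRed (Ideal.span {((ℓ : O)) ^ (m + 1)}) B0)
    (fun m => transport_level hp hm C he hℓe m) (fun m => lift_level C he hℓe m)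
    (fun _ _ _ => Iff.rfl) hL hT hprinc

end SitFamily

/-! ### the tensor model -/

section Tensor

open TensorProduct Fermat.Agent.S19.Cech.SepWireTensor

variable {O : Type*} [CommRing O] {F : Type*} [CommRing F] [IsDomain F] [Algebra O F]
  {Bp Bm B0 : Subalgebra O F} {Rg : Subring F} (hp : Bp ≤ B0) (hm : Bm ≤ B0)
  {π : O} (C : Charts (algebraMap O F π) Bp.toSubring Bm.toSubring B0.toSubring Rg)
  {I : Ideal O} {k : ℕ} (hI : I = Ideal.span {π ^ (k + 1)})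
  {𝔪 : Ideal (O ⧸ I)} (h𝔪 : 𝔪 = Ideal.span {Ideal.Quotient.mk I π})
  {g : ℕ} {ε : Fin g → (O ⧸ I) ⊗[O] ↥B0}
  {Jb : Type*} [AddCommGroup Jb]
  {Λ : Jb → Line (algebraMap O F π) Bp.toSubring Bm.toSubring B0.toSubring Rg → Prop}

include hI h𝔪 in
/-- **(C6) in one situation, tensor model** `C_? = (O ⧸ I) ⊗[O] B_?`, `I = (π^(k+1))`,
`q_? = SepWireTensor.qRed I B_?`. -/
theorem eq_zero_of_coord_eq_zero_tensor (hΛ : LineSys C Λ)
    (H : Hyp 𝔪 (mapS (O ⧸ I) (Subalgebra.inclusion hp)) (mapS (O ⧸ I) (Subalgebra.inclusion hm)) ε)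
    {z : Jb} {L : Line (algebraMap O F π) Bp.toSubring Bm.toSubring B0.toSubring Rg}
    (hL : Λ z L) {n₀ : ℕ} (hT : SepWire.BoundedTorsion L n₀)
    (hprinc : (∃ s ∈ L.Lp, s ∈ L.Lm ∧ IsOne (algebraMap O F π) Rg s) → z = 0)
    (hk : n₀ < k + 1) {v : (O ⧸ I) ⊗[O] ↥B0} (hv : kImage (qRed I B0) (kappa Λ k) z v)
    (hc : H.coord v = 0) : z = 0 :=
  eq_zero_of_coord_eq_zero hΛ (transport hp hm C hI h𝔪) (lift C hI h𝔪) H hL hT hprinc hk hv hc

end Tensor

/-! ### the inputs `hT`, `hprinc` at a good level -/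

section Level

open ModularCurve AlgebraicCurve
open Fermat.Agent.N4.Setting Fermat.Agent.N4.Chart Fermat.Agent.N4.FibreEmbedding
open Fermat.Agent.S24.PlaceDeriv (ResidueTrivial)
open Fermat.Agent.N4F.C Fermat.Agent.N4F.C.Levels Fermat.Agent.S19.Cech.LevelDiv
open Fermat.Agent.S19.Cech.DivModule

variable {N : ℕ} [NeZero N] (K : IntermediateField ℚ Qb)

/-- a `K`-rational place of the level has degree one -/
theorem deg_eq_one_of_residueTrivial {v : Place (Lvl K) (FF (Lvl K) N)} (h : ResidueTrivial v) :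
    v.deg = 1 :=
  Fermat.Agent.N4F.E.GenericFibre.deg_eq_one_of_bijective v
    ((Fermat.Agent.P3G.LevelDescent.residueTrivial_iff_bijective v).mp h)

/-- **The push-down to a level preserves the degree** of a divisor with `K`-rational support. -/
theorem degree_levelDiv (D : Divisor Qb (Fb N))
    (hrat : ∀ P ∈ D.support, ResidueTrivial (restrictK N K P)) :
    Divisor.degree (levelDiv K D) = Divisor.degree D := by
  classical
  have h1 : Divisor.degree (levelDiv K D)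
      = D.sum fun P n => n * ((restrictK N K P).deg : ℤ) := by
    unfold levelDiv Finsupp.mapDomain
    rw [map_finsuppSum]
    refine Finsupp.sum_congr fun P _ => ?_
    rw [Divisor.degree_single]
  have h2 : Divisor.degree D = D.sum fun P n => n * ((P.deg : ℕ) : ℤ) := by
    conv_lhs => rw [← Finsupp.sum_single D]
    rw [map_finsuppSum]
    refine Finsupp.sum_congr fun P _ => ?_
    rw [Divisor.degree_single]
  rw [h1, h2]
  refine Finsupp.sum_congr fun P hP => ?_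
  rw [deg_eq_one_of_residueTrivial K (hrat P hP), Fermat.Agent.N4F.Tors.BaseChange.deg_bar]

variable {K} {A : ValuationSubring Qb} [IsDiscreteValuationRing ↥(baseRing A K)]
  (hstar : StarStatement (Lvl K) N (baseRing A K)) {ϖ : ↥(baseRing A K)} (hϖ0 : ϖ ≠ 0)

/-- **`hprinc` at a good level.**  `D` a degree-zero divisor of `ℚ̄·F_N` with `K`-rational support:
a global generator `≡ 1` of the line of `levelDiv K D` at the level `K` makes the class of `D` in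
`J₀(N)(ℚ̄)` trivial (`GaussN4.isPrincipal_of_common` + `LevelDivPrincipal.mk_eq_zero_of_levelDiv` +
`degree_levelDiv`). -/
theorem mk_eq_zero_of_common_level (hϖ : ¬ IsUnit ϖ) (D : Divisor.degZero (K := Qb) (F := Fb N))
    (hrat : ∀ P ∈ (D : Divisor Qb (Fb N)).support, ResidueTrivial (restrictK N K P))
    (rp : ∀ x ∈ Lp (gaussSubalgebra (Lvl K) N (baseRing A K)) (jF (Lvl K) N)
      (levelDiv K (D : Divisor Qb (Fb N))), ∃ b ∈ Rfin (Lvl K) N (baseRing A K),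
      ∃ r ∈ gaussSubalgebra (Lvl K) N (baseRing A K),
        x = b + algebraMap ↥(baseRing A K) (FF (Lvl K) N) ϖ * r)
    (rm : ∀ x ∈ Lm (gaussSubalgebra (Lvl K) N (baseRing A K)) (jF (Lvl K) N)
      (levelDiv K (D : Divisor Qb (Fb N))), ∃ b ∈ Rinf (Lvl K) N (baseRing A K),
      ∃ r ∈ gaussSubalgebra (Lvl K) N (baseRing A K),
        x = b + algebraMap ↥(baseRing A K) (FF (Lvl K) N) ϖ * r)
    (h : ∃ s ∈ (GaussN4.lineOf hstar hϖ0 (levelDiv K (D : Divisor Qb (Fb N))) rp rm).Lp,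
      s ∈ (GaussN4.lineOf hstar hϖ0 (levelDiv K (D : Divisor Qb (Fb N))) rp rm).Lm ∧
      IsOne (algebraMap ↥(baseRing A K) (FF (Lvl K) N) ϖ)
        (gaussSubalgebra (Lvl K) N (baseRing A K)).toSubring s) :
    (Pic0.mk D : JZero N) = 0 := by
  obtain ⟨s, hsp, hsm, hs1⟩ := h
  have hs : s ≠ 0 := SepWire.isOne_ne_zero (GaussN4.charts_of_star hstar hϖ0 hϖ) hs1
  have hdeg : Divisor.degree (levelDiv K (D : Divisor Qb (Fb N))) = 0 := by
    rw [degree_levelDiv K _ hrat]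
    exact D.2
  exact Fermat.Agent.S19.Geo.LevelDivPrincipal.mk_eq_zero_of_levelDiv K D hrat
    (Divisor.mem_principal.mp (GaussN4.isPrincipal_of_common hs hsp hsm hdeg))

/-- **The body of `hsep` at a good level `K`, for the class of a divisor.**  `Λ` the line system of
the level, `X m` its situations (as in `sep_at_level`), `D` a degree-zero divisor of `ℚ̄·F_N` with
`K`-rational support whose line `GaussN4.lineOf … (levelDiv K D) rp rm` belongs to `Λ`. -/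
theorem sep_at_level_of_div (hϖ : ¬ IsUnit ϖ)
    {Λ : JZero N → Line (algebraMap ↥(baseRing A K) (FF (Lvl K) N) ϖ)
      (Rfin (Lvl K) N (baseRing A K)).toSubring (Rinf (Lvl K) N (baseRing A K)).toSubring
      (Rmid (Lvl K) N (baseRing A K)).toSubring
      (gaussSubalgebra (Lvl K) N (baseRing A K)).toSubring → Prop}
    (hΛ : LineSys (GaussN4.charts_of_star hstar hϖ0 hϖ) Λ)
    {ℓ g : ℕ} {O₁ : Type} [CommRing O₁] (X : (m : ℕ) → Sit ℓ A (JZero N) g (m + 1) O₁)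
    (kk : ℕ → ℕ) (hkk : ∀ m, m ≤ kk m)
    (qp : ∀ m, (Rfin (Lvl K) N (baseRing A K)).toSubring →+* (X m).Cp)
    (qm : ∀ m, (Rinf (Lvl K) N (baseRing A K)).toSubring →+* (X m).Cm)
    (q0 : ∀ m, (Rmid (Lvl K) N (baseRing A K)).toSubring →+* (X m).C0)
    (T : ∀ m, Transport (GaussN4.charts_of_star hstar hϖ0 hϖ) (X m).𝔪 (X m).ip (X m).im (kk m)
      (qp m) (qm m) (q0 m))
    (Lf : ∀ m, SepWire.Lift (GaussN4.charts_of_star hstar hϖ0 hϖ) (X m).𝔪 (kk m) (qp m) (qm m)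
      (q0 m))
    (hXK : ∀ m z v, (X m).K z v ↔ kImage (q0 m) (kappa Λ (kk m)) z v)
    (D : Divisor.degZero (K := Qb) (F := Fb N))
    (hrat : ∀ P ∈ (D : Divisor Qb (Fb N)).support, ResidueTrivial (restrictK N K P))
    (rp : ∀ x ∈ Lp (gaussSubalgebra (Lvl K) N (baseRing A K)) (jF (Lvl K) N)
      (levelDiv K (D : Divisor Qb (Fb N))), ∃ b ∈ Rfin (Lvl K) N (baseRing A K),
      ∃ r ∈ gaussSubalgebra (Lvl K) N (baseRing A K),
        x = b + algebraMap ↥(baseRing A K) (FF (Lvl K) N) ϖ * r)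
    (rm : ∀ x ∈ Lm (gaussSubalgebra (Lvl K) N (baseRing A K)) (jF (Lvl K) N)
      (levelDiv K (D : Divisor Qb (Fb N))), ∃ b ∈ Rinf (Lvl K) N (baseRing A K),
      ∃ r ∈ gaussSubalgebra (Lvl K) N (baseRing A K),
        x = b + algebraMap ↥(baseRing A K) (FF (Lvl K) N) ϖ * r)
    (hL : Λ (Pic0.mk D) (GaussN4.lineOf hstar hϖ0 (levelDiv K (D : Divisor Qb (Fb N))) rp rm)) :
    (∀ m, ∃ v, (X m).K (Pic0.mk D) v) ∧
      ∃ m₀, ∀ m, m₀ ≤ m → ∀ v, (X m).K (Pic0.mk D) v → (X m).H.coord v = 0 →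
        (Pic0.mk D : JZero N) = 0 := by
  obtain ⟨n₀, hT⟩ := GaussN4.exists_lineBoundedTorsion hstar hϖ0
    (levelDiv K (D : Divisor Qb (Fb N))) rp rm
  exact sep_at_level (GaussN4.charts_of_star hstar hϖ0 hϖ) hΛ X kk hkk qp qm q0 T Lf hXK hL hT
    (mk_eq_zero_of_common_level hstar hϖ0 hϖ D hrat rp rm)

open TensorProduct Fermat.Agent.S19.Cech.SepWireTensor in
set_option maxHeartbeats 2000000 in
/-- **The body of `hsep` at a good level `K`, tensor model.**  The situations of the level are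
`S_m = O_K ⧸ I m`, `I m = (ϖ ^ (kk m + 1))` (`= (ℓ ^ (m + 1))` when `kk m + 1 = e (m + 1)`),
`C_? = S_m ⊗[O_K] B_?(K)`, `𝔪_m = (ϖ)`, `ip, im = mapS S_m (inclFin/inclInf)`, any frames `ε m` with
`H m : Hyp`, and the cocycle images `kImage (qRed (I m) Rmid) (kappa Λ (kk m))`.  (`Transport` and
`Lift` are `SepWireTensor.transport/lift`.) -/
theorem sep_tensor_of_div (hϖ : ¬ IsUnit ϖ)
    {Λ : JZero N → Line (algebraMap ↥(baseRing A K) (FF (Lvl K) N) ϖ)
      (Rfin (Lvl K) N (baseRing A K)).toSubring (Rinf (Lvl K) N (baseRing A K)).toSubring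
      (Rmid (Lvl K) N (baseRing A K)).toSubring
      (gaussSubalgebra (Lvl K) N (baseRing A K)).toSubring → Prop}
    (hΛ : LineSys (GaussN4.charts_of_star hstar hϖ0 hϖ) Λ)
    (I : ℕ → Ideal ↥(baseRing A K)) (kk : ℕ → ℕ) (hkk : ∀ m, m ≤ kk m)
    (hI : ∀ m, I m = Ideal.span {ϖ ^ (kk m + 1)})
    (𝔪 : ∀ m, Ideal (↥(baseRing A K) ⧸ I m))
    (h𝔪 : ∀ m, 𝔪 m = Ideal.span {Ideal.Quotient.mk (I m) ϖ}) {g : ℕ}
    (ε : ∀ m, Fin g → (↥(baseRing A K) ⧸ I m) ⊗[↥(baseRing A K)]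
      ↥(Rmid (Lvl K) N (baseRing A K)))
    (H : ∀ m, Hyp (𝔪 m) (mapS (↥(baseRing A K) ⧸ I m) (inclFin (Lvl K) N (baseRing A K)))
      (mapS (↥(baseRing A K) ⧸ I m) (inclInf (Lvl K) N (baseRing A K))) (ε m))
    (D : Divisor.degZero (K := Qb) (F := Fb N))
    (hrat : ∀ P ∈ (D : Divisor Qb (Fb N)).support, ResidueTrivial (restrictK N K P))
    (rp : ∀ x ∈ Lp (gaussSubalgebra (Lvl K) N (baseRing A K)) (jF (Lvl K) N)
      (levelDiv K (D : Divisor Qb (Fb N))), ∃ b ∈ Rfin (Lvl K) N (baseRing A K),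
      ∃ r ∈ gaussSubalgebra (Lvl K) N (baseRing A K),
        x = b + algebraMap ↥(baseRing A K) (FF (Lvl K) N) ϖ * r)
    (rm : ∀ x ∈ Lm (gaussSubalgebra (Lvl K) N (baseRing A K)) (jF (Lvl K) N)
      (levelDiv K (D : Divisor Qb (Fb N))), ∃ b ∈ Rinf (Lvl K) N (baseRing A K),
      ∃ r ∈ gaussSubalgebra (Lvl K) N (baseRing A K),
        x = b + algebraMap ↥(baseRing A K) (FF (Lvl K) N) ϖ * r)
    (hL : Λ (Pic0.mk D) (GaussN4.lineOf hstar hϖ0 (levelDiv K (D : Divisor Qb (Fb N))) rp rm)) :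
    (∀ m, ∃ v : (↥(baseRing A K) ⧸ I m) ⊗[↥(baseRing A K)] ↥(Rmid (Lvl K) N (baseRing A K)),
        kImage (qRed (I m) (Rmid (Lvl K) N (baseRing A K))) (kappa Λ (kk m)) (Pic0.mk D) v) ∧
      ∃ m₀, ∀ m, m₀ ≤ m →
        ∀ v : (↥(baseRing A K) ⧸ I m) ⊗[↥(baseRing A K)] ↥(Rmid (Lvl K) N (baseRing A K)),
          kImage (qRed (I m) (Rmid (Lvl K) N (baseRing A K))) (kappa Λ (kk m)) (Pic0.mk D) v →
            (H m).coord v = 0 → (Pic0.mk D : JZero N) = 0 := by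
  obtain ⟨n₀, hT⟩ := GaussN4.exists_lineBoundedTorsion hstar hϖ0
    (levelDiv K (D : Divisor Qb (Fb N))) rp rm
  refine ⟨fun m => ?_, n₀, fun m hm v hv hc => ?_⟩
  · obtain ⟨u, hu⟩ := hΛ.exists_kappa hL (kk m)
    have huB : u ∈ (Rmid (Lvl K) N (baseRing A K)).toSubring := (hΛ.kSys (kk m)).mem hu
    exact ⟨qRed (I m) (Rmid (Lvl K) N (baseRing A K)) ⟨u, huB⟩, u, hu, huB, rfl⟩
  · have hk : n₀ < kk m + 1 := lt_of_le_of_lt (hm.trans (hkk m)) (Nat.lt_succ_self _)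
    exact eq_zero_of_coord_eq_zero_tensor
      (chartAlg_mono (sFin_subset (Lvl K) N)) (chartAlg_mono (sInf_subset (Lvl K) N))
      (GaussN4.charts_of_star hstar hϖ0 hϖ) (hI m) (h𝔪 m) hΛ (H m) hL hT
      (mk_eq_zero_of_common_level hstar hϖ0 hϖ D hrat rp rm) hk hv hc

/-- `(ℓ ^ n) = (ϖ ^ (e n))` when `ℓ = u ϖ ^ e` -/
theorem span_natCast_pow_eq {R : Type*} [CommRing R] {ℓ : ℕ} {u : Rˣ} {ϖ : R} {e : ℕ}
    (hℓϖ : ((ℓ : ℕ) : R) = u * ϖ ^ e) (n k : ℕ) (hk : k + 1 = e * n) :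
    Ideal.span {((ℓ : ℕ) : R) ^ n} = Ideal.span {ϖ ^ (k + 1)} := by
  have h1 : ((ℓ : ℕ) : R) ^ n = ((u ^ n : Rˣ) : R) * ϖ ^ (k + 1) := by
    rw [hk, hℓϖ, mul_pow, ← pow_mul, Units.val_pow_eq_pow_val]
  rw [h1]
  exact Ideal.span_singleton_mul_left_unit (u ^ n).isUnit _

open TensorProduct Fermat.Agent.S19.Cech.SepWireTensor Fermat.Agent.S19.Cech.RedTuple in
set_option maxHeartbeats 2000000 in
/-- **The body of `hsep` at a good level `K`, in the dictionary of the field map:**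
`S_m = Quo O_K ℓ (m + 1) = O_K ⧸ (ℓ ^ (m + 1))`, `𝔪_m = (red ϖ)`, `C_? = S_m ⊗[O_K] B_?(K)`,
`ℓ = u ϖ ^ e`, cocycles of `ϖ`-adic precision `kk m + 1 = e (m + 1)`. -/
theorem sep_quo_of_div (hϖ : ¬ IsUnit ϖ) {ℓ : ℕ} {u : (↥(baseRing A K))ˣ} {e : ℕ} (he : 1 ≤ e)
    (hℓϖ : ((ℓ : ℕ) : ↥(baseRing A K)) = u * ϖ ^ e) (kk : ℕ → ℕ)
    (hkk : ∀ m, kk m + 1 = e * (m + 1))
    {Λ : JZero N → Line (algebraMap ↥(baseRing A K) (FF (Lvl K) N) ϖ)
      (Rfin (Lvl K) N (baseRing A K)).toSubring (Rinf (Lvl K) N (baseRing A K)).toSubring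
      (Rmid (Lvl K) N (baseRing A K)).toSubring
      (gaussSubalgebra (Lvl K) N (baseRing A K)).toSubring → Prop}
    (hΛ : LineSys (GaussN4.charts_of_star hstar hϖ0 hϖ) Λ) {g : ℕ}
    (ε : ∀ m, Fin g → (Quo ↥(baseRing A K) ℓ (m + 1)) ⊗[↥(baseRing A K)]
      ↥(Rmid (Lvl K) N (baseRing A K)))
    (H : ∀ m, Hyp (Ideal.span {red ↥(baseRing A K) ℓ (m + 1) ϖ})
      (mapS (Quo ↥(baseRing A K) ℓ (m + 1)) (inclFin (Lvl K) N (baseRing A K)))
      (mapS (Quo ↥(baseRing A K) ℓ (m + 1)) (inclInf (Lvl K) N (baseRing A K))) (ε m))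
    (D : Divisor.degZero (K := Qb) (F := Fb N))
    (hrat : ∀ P ∈ (D : Divisor Qb (Fb N)).support, ResidueTrivial (restrictK N K P))
    (rp : ∀ x ∈ Lp (gaussSubalgebra (Lvl K) N (baseRing A K)) (jF (Lvl K) N)
      (levelDiv K (D : Divisor Qb (Fb N))), ∃ b ∈ Rfin (Lvl K) N (baseRing A K),
      ∃ r ∈ gaussSubalgebra (Lvl K) N (baseRing A K),
        x = b + algebraMap ↥(baseRing A K) (FF (Lvl K) N) ϖ * r)
    (rm : ∀ x ∈ Lm (gaussSubalgebra (Lvl K) N (baseRing A K)) (jF (Lvl K) N)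
      (levelDiv K (D : Divisor Qb (Fb N))), ∃ b ∈ Rinf (Lvl K) N (baseRing A K),
      ∃ r ∈ gaussSubalgebra (Lvl K) N (baseRing A K),
        x = b + algebraMap ↥(baseRing A K) (FF (Lvl K) N) ϖ * r)
    (hL : Λ (Pic0.mk D) (GaussN4.lineOf hstar hϖ0 (levelDiv K (D : Divisor Qb (Fb N))) rp rm)) :
    (∀ m, ∃ v : (Quo ↥(baseRing A K) ℓ (m + 1)) ⊗[↥(baseRing A K)]
        ↥(Rmid (Lvl K) N (baseRing A K)),
        kImage (qRed (Ideal.span {((ℓ : ℕ) : ↥(baseRing A K)) ^ (m + 1)})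
          (Rmid (Lvl K) N (baseRing A K))) (kappa Λ (kk m)) (Pic0.mk D) v) ∧
      ∃ m₀, ∀ m, m₀ ≤ m →
        ∀ v : (Quo ↥(baseRing A K) ℓ (m + 1)) ⊗[↥(baseRing A K)]
          ↥(Rmid (Lvl K) N (baseRing A K)),
          kImage (qRed (Ideal.span {((ℓ : ℕ) : ↥(baseRing A K)) ^ (m + 1)})
            (Rmid (Lvl K) N (baseRing A K))) (kappa Λ (kk m)) (Pic0.mk D) v →
            (H m).coord v = 0 → (Pic0.mk D : JZero N) = 0 :=
  sep_tensor_of_div hstar hϖ0 hϖ hΛ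
    (fun m => Ideal.span {((ℓ : ℕ) : ↥(baseRing A K)) ^ (m + 1)}) kk
    (fun m => by
      have h1 := hkk m
      have h2 : m + 1 ≤ e * (m + 1) := Nat.le_mul_of_pos_left _ he
      omega)
    (fun m => span_natCast_pow_eq hℓϖ (m + 1) (kk m) (hkk m))
    (fun m => Ideal.span {red ↥(baseRing A K) ℓ (m + 1) ϖ}) (fun m => rfl) ε H D hrat rp rm hL

open TensorProduct Fermat.Agent.S19.Cech.RedTuple Fermat.Agent.S19.Geo.LevelSit in
set_option maxHeartbeats 2000000 in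
/-- **The body of `hsep` for the situations `LevelSit.sit` of a good level `K`, for the class of a
divisor** — the form `Geo/Instance.lean` consumes: charts `GaussN4.charts_of_star`, all other
arguments of `sit` generic, `D` a degree-zero divisor of `ℚ̄·F_N` with `K`-rational support whose
line `GaussN4.lineOf hstar hϖ0 (levelDiv K D) rp rm` belongs to the line system `Λ` of the level
(`hT` = `GaussN4.exists_lineBoundedTorsion`, `hprinc` = `mk_eq_zero_of_common_level`). -/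
theorem sep_sit_of_div (hϖ : ¬ IsUnit ϖ)
    {Λ : JZero N → Line (algebraMap ↥(baseRing A K) (FF (Lvl K) N) ϖ)
      (Rfin (Lvl K) N (baseRing A K)).toSubring (Rinf (Lvl K) N (baseRing A K)).toSubring
      (Rmid (Lvl K) N (baseRing A K)).toSubring
      (gaussSubalgebra (Lvl K) N (baseRing A K)).toSubring → Prop}
    (hΛ : LineSys (GaussN4.charts_of_star hstar hϖ0 hϖ) Λ)
    (hp : Rfin (Lvl K) N (baseRing A K) ≤ Rmid (Lvl K) N (baseRing A K))
    (hm : Rinf (Lvl K) N (baseRing A K) ≤ Rmid (Lvl K) N (baseRing A K))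
    {ℓ : ℕ} {ι : ↥(baseRing A K) →+* Qb} (hι : IsLevelRing A ℓ ι)
    (hloc : ∀ x : ↥(baseRing A K),
      x ∈ IsLocalRing.maximalIdeal ↥(baseRing A K) ↔ ι x ∈ A.nonunits)
    (hA : A.LiesOverPrime ℓ)
    (hϖmax : IsLocalRing.maximalIdeal ↥(baseRing A K) = Ideal.span {ϖ})
    {e : ℕ} (he : 0 < e) (hℓe : Associated (((ℓ : ℕ) : ↥(baseRing A K))) (ϖ ^ e))
    {g : ℕ} (ε₀ : Fin g → ↥(Rmid (Lvl K) N (baseRing A K))) {O₁ : Type} [CommRing O₁]
    (j : O₁ →+* ↥(baseRing A K))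
    (H : ∀ m, Hyp (mS ↥(baseRing A K) ϖ ℓ m)
      (mapS (Quo ↥(baseRing A K) ℓ (m + 1)) (Subalgebra.inclusion hp))
      (mapS (Quo ↥(baseRing A K) ℓ (m + 1)) (Subalgebra.inclusion hm))
      (epsS (Quo ↥(baseRing A K) ℓ (m + 1)) ε₀))
    (D : Divisor.degZero (K := Qb) (F := Fb N))
    (hrat : ∀ P ∈ (D : Divisor Qb (Fb N)).support, ResidueTrivial (restrictK N K P))
    (rp : ∀ x ∈ Lp (gaussSubalgebra (Lvl K) N (baseRing A K)) (jF (Lvl K) N)
      (levelDiv K (D : Divisor Qb (Fb N))), ∃ b ∈ Rfin (Lvl K) N (baseRing A K),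
      ∃ r ∈ gaussSubalgebra (Lvl K) N (baseRing A K),
        x = b + algebraMap ↥(baseRing A K) (FF (Lvl K) N) ϖ * r)
    (rm : ∀ x ∈ Lm (gaussSubalgebra (Lvl K) N (baseRing A K)) (jF (Lvl K) N)
      (levelDiv K (D : Divisor Qb (Fb N))), ∃ b ∈ Rinf (Lvl K) N (baseRing A K),
      ∃ r ∈ gaussSubalgebra (Lvl K) N (baseRing A K),
        x = b + algebraMap ↥(baseRing A K) (FF (Lvl K) N) ϖ * r)
    (hL : Λ (Pic0.mk D) (GaussN4.lineOf hstar hϖ0 (levelDiv K (D : Divisor Qb (Fb N))) rp rm)) :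
    (∀ m, ∃ v, (sit hp hm (GaussN4.charts_of_star hstar hϖ0 hϖ) hι hloc hA hϖmax he hℓe hΛ ε₀ j m
        (H m)).K (Pic0.mk D) v) ∧
      ∃ m₀, ∀ m, m₀ ≤ m → ∀ v,
        (sit hp hm (GaussN4.charts_of_star hstar hϖ0 hϖ) hι hloc hA hϖmax he hℓe hΛ ε₀ j m
          (H m)).K (Pic0.mk D) v →
        (sit hp hm (GaussN4.charts_of_star hstar hϖ0 hϖ) hι hloc hA hϖmax he hℓe hΛ ε₀ j m
          (H m)).H.coord v = 0 → (Pic0.mk D : JZero N) = 0 := by
  obtain ⟨n₀, hT⟩ := GaussN4.exists_lineBoundedTorsion hstar hϖ0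
    (levelDiv K (D : Divisor Qb (Fb N))) rp rm
  exact sep_sit hp hm (GaussN4.charts_of_star hstar hϖ0 hϖ) hι hloc hA hϖmax he hℓe hΛ ε₀ j H hL
    hT (mk_eq_zero_of_common_level hstar hϖ0 hϖ D hrat rp rm)

end Level

end Fermat.Agent.S19.Geo.SepInst
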