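/-
S19 / GEO, leaf [SepInst] (helper5), part 2: **the field `hsep` of `InstanceOfSit.GeoFamily` for THE
family `InstanceLevels.X hℓ hA hℓN fr hΛ`** (helper8), in one call.

* `sep_X_of_div` : at one level `E`, for the class of a degree-zero divisor `D` with
  `lvl A E`-rational support whose line `GaussN4.lineOf (star_lvl ..) _ (levelDiv (lvl A E) D) rp rm`
  belongs to `Λ E` — the two clauses of `hsep` (= `SepInst.sep_sit_of_div` at the constants of
  `InstanceLevels`).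
* `hsep_X` : the field `hsep` VERBATIM, for ANY system of lines `Λ`, from
  `hline : ∀ z ∈ kerRed, ∃ E D rp rm, Pic0.mk D = z ∧ (support of D rational over lvl A E) ∧
     Λ E z (lineOf … (levelDiv (lvl A E) D) rp rm)`.
* `hline_ΛE` : `hline` for `Λ := InstanceLines.ΛE hℓ hA hℓN` (helper4), and
  **`hsep_XE hℓ hA hℓN fr hΛ`** : the field `hsep` for `X hℓ hA hℓN fr hΛ` with NO hypothesis left
  (`hΛ := InstanceLines.hΛE hℓ hA hℓN`).
-/
import Fermat.Agent.S19.Geo.SepInst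
import Fermat.Agent.S19.Geo.InstanceLevels
import Fermat.Agent.S19.Geo.LevelLines
import Fermat.Agent.S19.Geo.InstanceLines

set_option autoImplicit false
set_option linter.unusedSectionVars false
set_option linter.style.haveILetI false

open ModularCurve AlgebraicCurve

namespace Fermat.Agent.S19.Geo.SepInstLam

open Fermat.Agent.S19.Coord Fermat.Agent.S19.Cech
open Fermat.Agent.S19.Cech.Cocycle Fermat.Agent.S19.Cech.CoordOfLines
open Fermat.Agent.S19.Cech.CoordFamily Fermat.Agent.S19.Cech.LevelDiv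
open Fermat.Agent.S19.Cech.DivModule
open Fermat.Agent.N4.Setting Fermat.Agent.N4.FibreEmbedding
open Fermat.Agent.N4F.C Fermat.Agent.N4F.C.Levels
open Fermat.Agent.S24.PlaceDeriv (ResidueTrivial)
open Fermat.Agent.S19.Geo.BaseLevel Fermat.Agent.S19.Geo.InstanceLevels
open Fermat.Agent.S19.Geo.FixedLift (kerRed)

variable {A : ValuationSubring Qb} {N : ℕ} [NeZero N] {ℓ : ℕ}
  (hℓ : ℓ.Prime) (hA : A.LiesOverPrime ℓ) (hℓN : ¬ ℓ ∣ N) (fr : Frame A N)
  {Λ : ∀ E : Lv, JZero N → LineE hℓ hA N E → Prop}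
  (hΛ : ∀ E, LineSys (charts hℓ hA hℓN E) (Λ E))

/-- **The two clauses of `hsep` at the level `E`**, for the class of a divisor with a line in
`Λ E`. -/
theorem sep_X_of_div (E : Lv) (D : Divisor.degZero (K := Qb) (F := Fb N))
    (hrat : ∀ P ∈ (D : Divisor Qb (Fb N)).support, ResidueTrivial (restrictK N (lvl A E) P))
    (rp : haveI := dvr_lvl hℓ hA E
      ∀ x ∈ Lp (gaussSubalgebra (Lvl (lvl A E)) N (baseRing A (lvl A E))) (jF (Lvl (lvl A E)) N)
        (levelDiv (lvl A E) (D : Divisor Qb (Fb N))),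
        ∃ b ∈ Rfin (Lvl (lvl A E)) N (baseRing A (lvl A E)),
        ∃ r ∈ gaussSubalgebra (Lvl (lvl A E)) N (baseRing A (lvl A E)),
          x = b + unifF hℓ hA N E * r)
    (rm : haveI := dvr_lvl hℓ hA E
      ∀ x ∈ Lm (gaussSubalgebra (Lvl (lvl A E)) N (baseRing A (lvl A E))) (jF (Lvl (lvl A E)) N)
        (levelDiv (lvl A E) (D : Divisor Qb (Fb N))),
        ∃ b ∈ Rinf (Lvl (lvl A E)) N (baseRing A (lvl A E)),
        ∃ r ∈ gaussSubalgebra (Lvl (lvl A E)) N (baseRing A (lvl A E)),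
          x = b + unifF hℓ hA N E * r)
    (hL : haveI := dvr_lvl hℓ hA E
      Λ E (Pic0.mk D) (GaussN4.lineOf (star_lvl hℓ hA hℓN E) (irreducible_unif hℓ hA E).ne_zero
        (levelDiv (lvl A E) (D : Divisor Qb (Fb N))) rp rm)) :
    (∀ m, ∃ v, (X hℓ hA hℓN fr hΛ E m).K (Pic0.mk D) v) ∧
      ∃ m₀, ∀ m, m₀ ≤ m → ∀ v, (X hℓ hA hℓN fr hΛ E m).K (Pic0.mk D) v →
        (X hℓ hA hℓN fr hΛ E m).H.coord v = 0 → (Pic0.mk D : JZero N) = 0 :=
  haveI := dvr_lvl hℓ hA E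
  SepInst.sep_sit_of_div (star_lvl hℓ hA hℓN E) (irreducible_unif hℓ hA E).ne_zero
    (irreducible_unif hℓ hA E).not_isUnit (hΛ E) (Bp_le E) (Bm_le E)
    (Fermat.Agent.S19.Cech.BaseQuotLevel.isLevelRing A (lvl A E) ℓ)
    (Fermat.Agent.S19.Cech.BaseQuotLevel.mem_maximalIdeal_iff A (lvl A E)) hA
    (maximalIdeal_eq hℓ hA E) (ram_pos hℓ hA E) (associated_ram hℓ hA E) (frameE fr E)
    (Fermat.Agent.S19.Geo.LevelSitMaps.jL A (K0_le_lvl A E)) (hyp_lvl hℓ hA hℓN fr E) D hrat rp rm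
    hL

/-- **The field `hsep` of `GeoFamily` for `InstanceLevels.X`**, for any system of lines `Λ` such
that every class of the kernel of reduction has, at some level `E`, a line of the canonical form
`GaussN4.lineOf … (levelDiv (lvl A E) D) rp rm`. -/
theorem hsep_X
    (hline : ∀ z ∈ kerRed hℓ hA hℓN, ∃ (E : Lv) (D : Divisor.degZero (K := Qb) (F := Fb N)),
      Pic0.mk D = z ∧
      (∀ P ∈ (D : Divisor Qb (Fb N)).support, ResidueTrivial (restrictK N (lvl A E) P)) ∧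
      haveI := dvr_lvl hℓ hA E
      ∃ rp rm, Λ E z (GaussN4.lineOf (star_lvl hℓ hA hℓN E) (irreducible_unif hℓ hA E).ne_zero
        (levelDiv (lvl A E) (D : Divisor Qb (Fb N))) rp rm)) :
    ∀ z ∈ kerRed hℓ hA hℓN, ∃ L₀, (∀ m, ∃ v, (X hℓ hA hℓN fr hΛ L₀ m).K z v) ∧
      ∃ m₀, ∀ m, m₀ ≤ m → ∀ v, (X hℓ hA hℓN fr hΛ L₀ m).K z v →
        (X hℓ hA hℓN fr hΛ L₀ m).H.coord v = 0 → z = 0 := by
  intro z hz
  obtain ⟨E, D, rfl, hrat, rp, rm, hL⟩ := hline z hz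
  exact ⟨E, sep_X_of_div hℓ hA hℓN fr hΛ E D hrat rp rm hL⟩

/-! ### the lines `InstanceLines.ΛE` -/

section LamE

open Fermat.Agent.S19.Geo.LevelLines Fermat.Agent.S19.Geo.InstanceLines

/-- **`hline` for the lines `InstanceLines.ΛE`** (helper4): every class of the kernel of reduction
has, at some level, a line of the canonical form. -/
theorem hline_ΛE :
    ∀ z ∈ kerRed hℓ hA hℓN, ∃ (E : Lv) (D : Divisor.degZero (K := Qb) (F := Fb N)),
      Pic0.mk D = z ∧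
      (∀ P ∈ (D : Divisor Qb (Fb N)).support, ResidueTrivial (restrictK N (lvl A E) P)) ∧
      haveI := dvr_lvl hℓ hA E
      ∃ rp rm, ΛE hℓ hA hℓN E z (GaussN4.lineOf (star_lvl hℓ hA hℓN E)
        (irreducible_unif hℓ hA E).ne_zero (levelDiv (lvl A E) (D : Divisor Qb (Fb N))) rp rm) := by
  intro z hz
  obtain ⟨E, -, -, -, L, hL⟩ := exists_lam_of_mem_kerRed hℓ hA hℓN hz
  haveI := dvr_lvl hℓ hA E
  haveI := frac_lvl hℓ hA hℓN E
  obtain ⟨D, rfl, hD, rp, rm, rfl⟩ := hL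
  exact ⟨E, D, rfl, hD.2, rp, rm, ⟨D, rfl, hD, rp, rm, rfl⟩⟩

/-- **The field `hsep` of `GeoFamily` for THE family `X hℓ hA hℓN fr hΛ`, `Λ = InstanceLines.ΛE`** —
no hypothesis left (`hΛ` any proof of the line-system property, e.g. `hΛE hℓ hA hℓN`). -/
theorem hsep_XE (hΛ : ∀ E, LineSys (charts hℓ hA hℓN E) (ΛE hℓ hA hℓN E)) :
    ∀ z ∈ kerRed hℓ hA hℓN, ∃ L₀, (∀ m, ∃ v, (X hℓ hA hℓN fr hΛ L₀ m).K z v) ∧
      ∃ m₀, ∀ m, m₀ ≤ m → ∀ v, (X hℓ hA hℓN fr hΛ L₀ m).K z v →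
        (X hℓ hA hℓN fr hΛ L₀ m).H.coord v = 0 → z = 0 :=
  hsep_X hℓ hA hℓN fr hΛ (hline_ΛE hℓ hA hℓN)

end LamE

end Fermat.Agent.S19.Geo.SepInstLam
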